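/-
S53, abstract "tower of least good ideals" (helper53).  Pure lattice/commutative algebra.

Setting: a commutative ring `Λ`, an ideal `M`, a predicate `Good` on ideals which is closed under
binary intersections, upward closed below `M`, with `Good M`, every good ideal `≤ M` with finite
quotient, and for each `n` a uniform bound on `Nat.card (Λ ⧸ K)` for good `K ⊇ M^(n+1)`.
Conclusion: for each `n` there is a least good ideal `level n ⊇ M^(n+1)`; `level 0 = M`;
`level` is antitone; `level n = level (n+1) ⊔ M^(n+1)`; every good ideal containing a power of `M`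
contains some `level n`.
-/
import Mathlib

set_option autoImplicit false

namespace Fermat.Agent.S53.LeastGood

variable {Λ : Type*} [CommRing Λ]

/-- Hypotheses on the family of good ideals. -/
structure GoodFamily (M : Ideal Λ) (Good : Ideal Λ → Prop) : Prop where
  inf : ∀ K K', Good K → Good K' → Good (K ⊓ K')
  up : ∀ K K', Good K → K ≤ K' → K' ≤ M → Good K'
  le : ∀ K, Good K → K ≤ M
  base : Good M
  finite : ∀ K, Good K → Finite (Λ ⧸ K)
  bound : ∀ n : ℕ, ∃ C : ℕ, ∀ K, Good K → M ^ (n + 1) ≤ K → Nat.card (Λ ⧸ K) ≤ C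

variable {M : Ideal Λ} {Good : Ideal Λ → Prop}

/-- If `K ≤ K'` have finite quotients of the same cardinality then `K = K'`. -/
theorem eq_of_le_of_card_le {K K' : Ideal Λ} (hle : K ≤ K') [Finite (Λ ⧸ K)]
    (hcard : Nat.card (Λ ⧸ K) ≤ Nat.card (Λ ⧸ K')) : K = K' := by
  have hsurj : Function.Surjective (Ideal.Quotient.factor hle) := Ideal.Quotient.factor_surjective hle
  have hbij : Function.Bijective (Ideal.Quotient.factor hle) := by
    have hfin' : Finite (Λ ⧸ K') := Finite.of_surjective _ hsurj
    have hle' : Nat.card (Λ ⧸ K') ≤ Nat.card (Λ ⧸ K) := Nat.card_le_card_of_surjective _ hsurj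
    have heq : Nat.card (Λ ⧸ K) = Nat.card (Λ ⧸ K') := le_antisymm hcard hle'
    exact (Nat.bijective_iff_surjective_and_card _).mpr ⟨hsurj, heq⟩
  refine le_antisymm hle fun x hx => ?_
  have h0 : Ideal.Quotient.factor hle (Ideal.Quotient.mk K x) = 0 := by
    rw [Ideal.Quotient.factor_mk]
    exact Ideal.Quotient.eq_zero_iff_mem.mpr hx
  have : Ideal.Quotient.mk K x = 0 := hbij.1 (by rw [h0, map_zero])
  exact Ideal.Quotient.eq_zero_iff_mem.mp this

/-- Existence of the least good ideal containing `M^(n+1)`. -/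
theorem exists_least (h : GoodFamily M Good) (n : ℕ) :
    ∃ K, Good K ∧ M ^ (n + 1) ≤ K ∧ ∀ K', Good K' → M ^ (n + 1) ≤ K' → K ≤ K' := by
  obtain ⟨C, hC⟩ := h.bound n
  -- the set of cardinalities of good quotients at level n
  let S : Set ℕ := {c | ∃ K, Good K ∧ M ^ (n + 1) ≤ K ∧ Nat.card (Λ ⧸ K) = c}
  have hSne : S.Nonempty :=
    ⟨_, M, h.base, Ideal.pow_le_self (Nat.succ_ne_zero n), rfl⟩
  have hSbdd : BddAbove S := ⟨C, fun c ⟨K, hK, hKn, hc⟩ => hc ▸ hC K hK hKn⟩
  obtain ⟨K, hK, hKn, hcard⟩ := Nat.sSup_mem hSne hSbdd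
  refine ⟨K, hK, hKn, fun K' hK' hKn' => ?_⟩
  have hgood : Good (K ⊓ K') := h.inf K K' hK hK'
  have hpow : M ^ (n + 1) ≤ K ⊓ K' := le_inf hKn hKn'
  have : Finite (Λ ⧸ (K ⊓ K')) := h.finite _ hgood
  have hle : Nat.card (Λ ⧸ (K ⊓ K')) ≤ Nat.card (Λ ⧸ K) := by
    rw [hcard]
    exact le_csSup hSbdd ⟨K ⊓ K', hgood, hpow, rfl⟩
  have := eq_of_le_of_card_le (inf_le_left : K ⊓ K' ≤ K) hle
  exact (inf_eq_left.mp this)

/-- The least good ideal containing `M^(n+1)`. -/
noncomputable def level (h : GoodFamily M Good) (n : ℕ) : Ideal Λ :=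
  Classical.choose (exists_least h n)

theorem level_good (h : GoodFamily M Good) (n : ℕ) : Good (level h n) :=
  (Classical.choose_spec (exists_least h n)).1

theorem pow_le_level (h : GoodFamily M Good) (n : ℕ) : M ^ (n + 1) ≤ level h n :=
  (Classical.choose_spec (exists_least h n)).2.1

theorem level_le (h : GoodFamily M Good) (n : ℕ) {K : Ideal Λ} (hK : Good K)
    (hKn : M ^ (n + 1) ≤ K) : level h n ≤ K :=
  (Classical.choose_spec (exists_least h n)).2.2 K hK hKn

theorem level_le_M (h : GoodFamily M Good) (n : ℕ) : level h n ≤ M :=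
  h.le _ (level_good h n)

theorem level_zero (h : GoodFamily M Good) : level h 0 = M :=
  le_antisymm (level_le_M h 0) (by simpa using pow_le_level h 0)

theorem level_succ_le (h : GoodFamily M Good) (n : ℕ) : level h (n + 1) ≤ level h n :=
  level_le h (n + 1) (level_good h n)
    ((Ideal.pow_le_pow_right (Nat.le_succ (n + 1))).trans (pow_le_level h n))

theorem level_antitone (h : GoodFamily M Good) : Antitone (level h) :=
  antitone_nat_of_succ_le (level_succ_le h)

theorem level_step (h : GoodFamily M Good) (n : ℕ) :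
    level h n = level h (n + 1) ⊔ M ^ (n + 1) := by
  apply le_antisymm
  · have hle : level h (n + 1) ⊔ M ^ (n + 1) ≤ M :=
      sup_le (level_le_M h (n + 1)) (Ideal.pow_le_self (Nat.succ_ne_zero n))
    exact level_le h n (h.up _ _ (level_good h (n + 1)) le_sup_left hle) le_sup_right
  · exact sup_le (level_succ_le h n) (pow_le_level h n)

/-- Every good ideal containing a power of `M` contains a level. -/
theorem exists_level_le (h : GoodFamily M Good) {K : Ideal Λ} (hK : Good K) {n : ℕ}
    (hKn : M ^ (n + 1) ≤ K) : level h n ≤ K :=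
  level_le h n hK hKn

theorem level_finite (h : GoodFamily M Good) (n : ℕ) : Finite (Λ ⧸ level h n) :=
  h.finite _ (level_good h n)

end Fermat.Agent.S53.LeastGood
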