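import Mathlib

set_option autoImplicit false

open IsLocalRing

namespace Fermat.Agent.S53

/-! # Inverse limit of a tower of finite local rings

`limRing A f` is the inverse limit of a tower `⋯ → A 2 → A 1 → A 0` of `𝒪`-algebras, realised as
the subalgebra of compatible families inside the product.  Under the hypotheses
`(H)`: each `A n` is a finite local ring, every `f n` is surjective with kernel `𝔪 ^ (n+1)`, and
`𝔪_{A n} ^ (n+1) = 0`, the limit is a complete noetherian local ring `R` with `R / 𝔪 ^ (n+1) = A n`.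
-/

section Sets

/-- In a tower of sets with surjective transition maps every element lifts to a compatible family. -/
theorem exists_compatible_family :
    ∀ (n : ℕ) (B : ℕ → Type) (g : ∀ n, B (n + 1) → B n) (_ : ∀ n, Function.Surjective (g n))
      (a : B n), ∃ x : ∀ k, B k, (∀ k, g k (x (k + 1)) = x k) ∧ x n = a := by
  intro n
  induction n with
  | zero =>
    intro B g hg a
    refine ⟨fun k => Nat.rec (motive := fun k => B k) a (fun k xk => Classical.choose (hg k xk)) k,
      fun k => ?_, rfl⟩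
    exact Classical.choose_spec (hg k _)
  | succ n ih =>
    intro B g hg a
    obtain ⟨x', hx', hxa⟩ := ih (fun k => B (k + 1)) (fun k => g (k + 1)) (fun k => hg (k + 1)) a
    refine ⟨fun k => Nat.casesOn (motive := fun k => B k) k (g 0 (x' 0)) (fun k => x' k),
      fun k => ?_, hxa⟩
    cases k with
    | zero => rfl
    | succ k => exact hx' k

/-- König's lemma for towers of nonempty finite sets. -/
theorem exists_compatible_of_finite (Y : ℕ → Type) [∀ n, Finite (Y n)] [∀ n, Nonempty (Y n)]
    (g : ∀ n, Y (n + 1) → Y n) : ∃ y : ∀ n, Y n, ∀ n, g n (y (n + 1)) = y n := by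
  classical
  let F : CategoryTheory.Functor ℕᵒᵖ Type :=
    CategoryTheory.Functor.ofOpSequence (X := Y) (fun n => TypeCat.ofHom (g n))
  have : ∀ j : ℕᵒᵖ, Finite (F.obj j) := fun j => inferInstanceAs (Finite (Y j.unop))
  have : ∀ j : ℕᵒᵖ, Nonempty (F.obj j) := fun j => inferInstanceAs (Nonempty (Y j.unop))
  obtain ⟨u, hu⟩ := nonempty_sections_of_finite_inverse_system F
  refine ⟨fun n => u (Opposite.op n), fun n => ?_⟩
  have h := hu (CategoryTheory.homOfLE (Nat.le_succ n)).op
  rw [CategoryTheory.Functor.ofOpSequence_map_homOfLE_succ] at h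
  exact h

end Sets


section Defs

variable {𝒪 : Type} [CommRing 𝒪] (A : ℕ → Type) [∀ n, CommRing (A n)] [∀ n, Algebra 𝒪 (A n)]
  (f : ∀ n, A (n + 1) →ₐ[𝒪] A n)

/-- The inverse limit of the tower `(A, f)`: compatible families inside the product algebra. -/
def limRing : Subalgebra 𝒪 (∀ n, A n) where
  carrier := {x | ∀ n, f n (x (n + 1)) = x n}
  mul_mem' {x y} hx hy n := by
    simp only [Pi.mul_apply, map_mul, hx n, hy n]
  add_mem' {x y} hx hy n := by
    simp only [Pi.add_apply, map_add, hx n, hy n]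
  algebraMap_mem' r n := by
    simp only [Pi.algebraMap_apply, AlgHom.commutes]

theorem mem_limRing {x : ∀ n, A n} : x ∈ limRing A f ↔ ∀ n, f n (x (n + 1)) = x n := Iff.rfl

/-- The projection of the limit to the `n`-th level. -/
def proj (n : ℕ) : limRing A f →ₐ[𝒪] A n :=
  (Pi.evalAlgHom 𝒪 A n).comp (limRing A f).val

@[simp] theorem proj_apply (n : ℕ) (x : limRing A f) : proj A f n x = x.1 n := rfl

theorem f_proj (n : ℕ) (x : limRing A f) : f n (proj A f (n + 1) x) = proj A f n x := x.2 n

theorem limRing_ext {x y : limRing A f} (h : ∀ n, proj A f n x = proj A f n y) : x = y :=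
  Subtype.ext (funext h)

/-- Constructor of elements of the limit. -/
def limRing.mk (x : ∀ n, A n) (hx : ∀ n, f n (x (n + 1)) = x n) : limRing A f := ⟨x, hx⟩

@[simp] theorem proj_mk (x : ∀ n, A n) (hx : ∀ n, f n (x (n + 1)) = x n) (n : ℕ) :
    proj A f n (limRing.mk A f x hx) = x n := rfl

theorem proj_surjective (hf : ∀ n, Function.Surjective (f n)) (n : ℕ) :
    Function.Surjective (proj A f n) := by
  intro a
  obtain ⟨x, hx, hxa⟩ := exists_compatible_family n A (fun k => f k) hf a
  exact ⟨⟨x, hx⟩, hxa⟩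

/-- If a level of a compatible family vanishes, so do all lower levels. -/
theorem proj_eq_zero_of_le {x : limRing A f} {m n : ℕ} (hmn : m ≤ n) (h : proj A f n x = 0) :
    proj A f m x = 0 := by
  induction n, hmn using Nat.le_induction with
  | base => exact h
  | succ n _ ih =>
    apply ih
    rw [← f_proj, h, map_zero]

/-- If a level of a compatible family is a unit, so are all lower levels. -/
theorem isUnit_proj_of_le {x : limRing A f} {m n : ℕ} (hmn : m ≤ n) (h : IsUnit (proj A f n x)) :
    IsUnit (proj A f m x) := by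
  induction n, hmn using Nat.le_induction with
  | base => exact h
  | succ n _ ih =>
    apply ih
    rw [← f_proj]
    exact h.map (f n)

end Defs


section Local

variable {𝒪 : Type} [CommRing 𝒪] (A : ℕ → Type) [∀ n, CommRing (A n)] [∀ n, Algebra 𝒪 (A n)]
  (f : ∀ n, A (n + 1) →ₐ[𝒪] A n) [∀ n, IsLocalRing (A n)]

theorem maximalIdeal_zero_eq_bot (hpow : ∀ n, maximalIdeal (A n) ^ (n + 1) = ⊥) :
    maximalIdeal (A 0) = ⊥ := by
  simpa using hpow 0

theorem isUnit_of_ne_zero_level_zero (hpow : ∀ n, maximalIdeal (A n) ^ (n + 1) = ⊥) {a : A 0}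
    (ha : a ≠ 0) : IsUnit a := by
  by_contra h
  have : a ∈ maximalIdeal (A 0) := (IsLocalRing.mem_maximalIdeal a).mpr h
  rw [maximalIdeal_zero_eq_bot A hpow] at this
  exact ha (by simpa using this)

theorem isLocalHom_f (hf : ∀ n, Function.Surjective (f n)) (n : ℕ) :
    IsLocalHom ((f n : A (n + 1) →ₐ[𝒪] A n) : A (n + 1) →+* A n) :=
  IsLocalHom.of_surjective _ (hf n)

theorem isUnit_proj_succ (hf : ∀ n, Function.Surjective (f n)) {x : limRing A f} {n : ℕ}
    (h : IsUnit (proj A f n x)) : IsUnit (proj A f (n + 1) x) := by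
  have := isLocalHom_f A f hf n
  rw [← f_proj] at h
  exact (isUnit_map_iff ((f n : A (n + 1) →ₐ[𝒪] A n) : A (n + 1) →+* A n) _).mp h

theorem isUnit_proj_of_isUnit_zero (hf : ∀ n, Function.Surjective (f n)) {x : limRing A f}
    (h : IsUnit (proj A f 0 x)) (n : ℕ) : IsUnit (proj A f n x) := by
  induction n with
  | zero => exact h
  | succ n ih => exact isUnit_proj_succ A f hf ih

omit [∀ n, IsLocalRing (A n)] in
theorem isUnit_of_forall_isUnit_proj {x : limRing A f} (h : ∀ n, IsUnit (proj A f n x)) :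
    IsUnit x := by
  choose y hy using fun n => (h n).exists_left_inv
  have hcomp : ∀ n, f n (y (n + 1)) = y n := by
    intro n
    have h1 : f n (y (n + 1)) * proj A f n x = 1 := by
      rw [← f_proj A f n x, ← map_mul, hy (n + 1), map_one]
    have h2 : proj A f n x * y n = 1 := by rw [mul_comm]; exact hy n
    exact left_inv_eq_right_inv h1 h2
  refine IsUnit.of_mul_eq_one (⟨y, hcomp⟩ : limRing A f) ?_
  apply limRing_ext
  intro n
  rw [map_mul, map_one, mul_comm]
  exact hy n

theorem isUnit_iff_proj_zero_ne_zero [Nontrivial (A 0)] (hf : ∀ n, Function.Surjective (f n))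
    (hpow : ∀ n, maximalIdeal (A n) ^ (n + 1) = ⊥) (x : limRing A f) :
    IsUnit x ↔ proj A f 0 x ≠ 0 := by
  constructor
  · intro h
    exact (h.map (proj A f 0)).ne_zero
  · intro h
    exact isUnit_of_forall_isUnit_proj A f
      (isUnit_proj_of_isUnit_zero A f hf (isUnit_of_ne_zero_level_zero A hpow h))

theorem isLocalRing_limRing (hf : ∀ n, Function.Surjective (f n))
    (hpow : ∀ n, maximalIdeal (A n) ^ (n + 1) = ⊥) : IsLocalRing (limRing A f) := by
  have : Nontrivial (limRing A f) := by
    refine ⟨⟨0, 1, fun h => ?_⟩⟩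
    have := congrArg (proj A f 0) h
    rw [map_zero, map_one] at this
    exact zero_ne_one this
  refine IsLocalRing.of_isUnit_or_isUnit_one_sub_self fun a => ?_
  by_cases h : proj A f 0 a = 0
  · right
    rw [isUnit_iff_proj_zero_ne_zero A f hf hpow, map_sub, map_one, h, sub_zero]
    exact one_ne_zero
  · left
    exact (isUnit_iff_proj_zero_ne_zero A f hf hpow a).mpr h


theorem mem_maximalIdeal_limRing_iff [Nontrivial (A 0)] [IsLocalRing (limRing A f)]
    (hf : ∀ n, Function.Surjective (f n)) (hpow : ∀ n, maximalIdeal (A n) ^ (n + 1) = ⊥)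
    (x : limRing A f) : x ∈ maximalIdeal (limRing A f) ↔ proj A f 0 x = 0 := by
  rw [IsLocalRing.mem_maximalIdeal, mem_nonunits_iff, isUnit_iff_proj_zero_ne_zero A f hf hpow,
    not_not]

/-- Elements of the limit vanishing at level `0` have non-unit components at every level. -/
theorem proj_mem_maximalIdeal [Nontrivial (A 0)] {x : limRing A f} (hx : proj A f 0 x = 0)
    (n : ℕ) : proj A f n x ∈ maximalIdeal (A n) := by
  rw [IsLocalRing.mem_maximalIdeal, mem_nonunits_iff]
  intro h
  have h0 := isUnit_proj_of_le A f (Nat.zero_le n) h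
  rw [hx] at h0
  exact not_isUnit_zero h0

theorem map_pow_maximalIdeal (hf : ∀ n, Function.Surjective (f n)) (n d : ℕ) :
    (maximalIdeal (A (n + 1)) ^ d).map (f n) = maximalIdeal (A n) ^ d := by
  have h := IsLocalRing.map_maximalIdeal_of_surjective (f n).toRingHom (hf n)
  rw [Ideal.map_pow]
  exact congrArg (· ^ d) h

/-- If `z` vanishes at level `n` then its level-`N` component lies in `𝔪 ^ (n+1)`, `N ≥ n`. -/
theorem proj_mem_pow_of_proj_eq_zero (hf : ∀ n, Function.Surjective (f n))
    (hker : ∀ n, RingHom.ker (f n) = maximalIdeal (A (n + 1)) ^ (n + 1))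
    {n N : ℕ} (hnN : n ≤ N) {z : limRing A f} (hz : proj A f n z = 0) :
    proj A f N z ∈ maximalIdeal (A N) ^ (n + 1) := by
  induction N, hnN using Nat.le_induction with
  | base => rw [hz]; exact Ideal.zero_mem _
  | succ N hN ih =>
    rw [← map_pow_maximalIdeal A f hf N (n + 1)] at ih
    obtain ⟨w, hw, hwz⟩ := (Ideal.mem_map_iff_of_surjective _ (hf N)).mp ih
    have hk : proj A f (N + 1) z - w ∈ RingHom.ker (f N) := by
      rw [RingHom.mem_ker, map_sub, sub_eq_zero, hwz]
      exact f_proj A f N z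
    rw [hker N] at hk
    have hk' : proj A f (N + 1) z - w ∈ maximalIdeal (A (N + 1)) ^ (n + 1) :=
      Ideal.pow_le_pow_right (Nat.succ_le_succ hN) hk
    have := Ideal.add_mem _ hk' hw
    rwa [sub_add_cancel] at this

/-- If `z` vanishes at level `n` then it vanishes at level `N ≤ n`, hence its level-`N`
component lies in every ideal; combined with the previous lemma: all components lie in
`𝔪 ^ (n+1)`. -/
theorem proj_mem_pow_of_proj_eq_zero' (hf : ∀ n, Function.Surjective (f n))
    (hker : ∀ n, RingHom.ker (f n) = maximalIdeal (A (n + 1)) ^ (n + 1))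
    {n : ℕ} (N : ℕ) {z : limRing A f} (hz : proj A f n z = 0) :
    proj A f N z ∈ maximalIdeal (A N) ^ (n + 1) := by
  rcases le_total n N with h | h
  · exact proj_mem_pow_of_proj_eq_zero A f hf hker h hz
  · rw [proj_eq_zero_of_le A f h hz]
    exact Ideal.zero_mem _


/-- Elements whose level-`N` component is a non-unit vanish at level `0`. -/
theorem proj_zero_eq_zero_of_mem [Nontrivial (A 0)] (hf : ∀ n, Function.Surjective (f n))
    (hpow : ∀ n, maximalIdeal (A n) ^ (n + 1) = ⊥) {z : limRing A f} {N : ℕ}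
    (hz : proj A f N z ∈ maximalIdeal (A N)) : proj A f 0 z = 0 := by
  by_contra h
  have hu := isUnit_proj_of_isUnit_zero A f hf (isUnit_of_ne_zero_level_zero A hpow h) N
  exact (IsLocalRing.mem_maximalIdeal _).mp hz hu

section Generators

variable {ι : Type} (t : ι → limRing A f)

/-- The images of a family `t` that hits every element of `𝔪_{A 1}` generate every `𝔪_{A N}`. -/
theorem maximalIdeal_le_span_proj [Nontrivial (A 0)] [∀ n, Finite (A n)]
    (hf : ∀ n, Function.Surjective (f n))
    (hker : ∀ n, RingHom.ker (f n) = maximalIdeal (A (n + 1)) ^ (n + 1))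
    (hpow : ∀ n, maximalIdeal (A n) ^ (n + 1) = ⊥)
    (ht1 : ∀ a ∈ maximalIdeal (A 1), ∃ i, proj A f 1 (t i) = a) (N : ℕ) :
    maximalIdeal (A N) ≤ Ideal.span (Set.range fun i => proj A f N (t i)) := by
  have hfg : (maximalIdeal (A N)).FG := (inferInstance : IsNoetherianRing (A N)).noetherian _
  refine Submodule.le_of_le_smul_of_le_jacobson_bot (I := maximalIdeal (A N)) hfg
    (IsLocalRing.maximalIdeal_le_jacobson _) ?_
  intro y hy
  obtain ⟨z, rfl⟩ := proj_surjective A f hf N y
  have hz0 : proj A f 0 z = 0 := proj_zero_eq_zero_of_mem A f hf hpow hy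
  obtain ⟨i, hi⟩ := ht1 _ (proj_mem_maximalIdeal A f hz0 1)
  have hw : proj A f 1 (z - t i) = 0 := by rw [map_sub, hi, sub_self]
  have hw2 := proj_mem_pow_of_proj_eq_zero' A f hf hker N hw
  have hsplit : proj A f N z = proj A f N (t i) + proj A f N (z - t i) := by
    rw [map_sub]; ring
  rw [hsplit]
  refine Submodule.add_mem_sup (Ideal.subset_span ⟨i, rfl⟩) ?_
  rw [smul_eq_mul, ← pow_two]
  exact hw2

theorem span_proj_eq_maximalIdeal [Nontrivial (A 0)] [∀ n, Finite (A n)]
    (hf : ∀ n, Function.Surjective (f n))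
    (hker : ∀ n, RingHom.ker (f n) = maximalIdeal (A (n + 1)) ^ (n + 1))
    (hpow : ∀ n, maximalIdeal (A n) ^ (n + 1) = ⊥)
    (ht0 : ∀ i, proj A f 0 (t i) = 0)
    (ht1 : ∀ a ∈ maximalIdeal (A 1), ∃ i, proj A f 1 (t i) = a) (N : ℕ) :
    Ideal.span (Set.range fun i => proj A f N (t i)) = maximalIdeal (A N) := by
  refine le_antisymm ?_ (maximalIdeal_le_span_proj A f t hf hker hpow ht1 N)
  rw [Ideal.span_le]
  rintro _ ⟨i, rfl⟩
  exact proj_mem_maximalIdeal A f (ht0 i) N


/-- Closedness of the powers of the maximal ideal of the limit: an element all of whose components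
lie in `𝔪 ^ d` lies in `𝔪 ^ d`. -/
theorem mem_pow_maximalIdeal_of_forall_proj_mem [Nontrivial (A 0)] [∀ n, Finite (A n)]
    [Fintype ι] [IsLocalRing (limRing A f)]
    (hf : ∀ n, Function.Surjective (f n))
    (hker : ∀ n, RingHom.ker (f n) = maximalIdeal (A (n + 1)) ^ (n + 1))
    (hpow : ∀ n, maximalIdeal (A n) ^ (n + 1) = ⊥)
    (ht0 : ∀ i, proj A f 0 (t i) = 0)
    (ht1 : ∀ a ∈ maximalIdeal (A 1), ∃ i, proj A f 1 (t i) = a) :
    ∀ (d : ℕ) (x : limRing A f), (∀ N, proj A f N x ∈ maximalIdeal (A N) ^ d) →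
      x ∈ maximalIdeal (limRing A f) ^ d := by
  intro d
  induction d with
  | zero => intro x _; simp
  | succ d ih =>
    intro x hx
    -- the finite sets of level-`N` decompositions
    let Y : ℕ → Type := fun N => {y : ι → A N // (∀ i, y i ∈ maximalIdeal (A N) ^ d) ∧
      ∑ i, y i * proj A f N (t i) = proj A f N x}
    have hYne : ∀ N, Nonempty (Y N) := by
      intro N
      have hxN := hx N
      have hspan := span_proj_eq_maximalIdeal A f t hf hker hpow ht0 ht1 N
      have hdec : maximalIdeal (A N) ^ (d + 1) = (maximalIdeal (A N) ^ d) •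
          (Submodule.span (A N) (Set.range fun i => proj A f N (t i))) := by
        rw [pow_succ, smul_eq_mul]
        exact congrArg (maximalIdeal (A N) ^ d * ·) hspan.symm
      rw [hdec, Submodule.mem_ideal_smul_span_iff_exists_sum] at hxN
      obtain ⟨a, ha, hsum⟩ := hxN
      refine ⟨⟨fun i => a i, fun i => ha i, ?_⟩⟩
      rw [← hsum, Finsupp.sum_fintype _ _ (fun i => by simp)]
      simp [smul_eq_mul]
    have hYfin : ∀ N, Finite (Y N) := fun N => Subtype.finite
    let g : ∀ N, Y (N + 1) → Y N := fun N y => ⟨fun i => f N (y.1 i), by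
      refine ⟨fun i => ?_, ?_⟩
      · rw [← map_pow_maximalIdeal A f hf N d]
        exact Ideal.mem_map_of_mem _ (y.2.1 i)
      · have h := congrArg (f N) y.2.2
        rw [map_sum, f_proj] at h
        rw [← h]
        refine Finset.sum_congr rfl fun i _ => ?_
        rw [map_mul, f_proj]⟩
    obtain ⟨y, hy⟩ := exists_compatible_of_finite Y g
    -- assemble the coefficients in the limit
    let c : ι → limRing A f := fun i => ⟨fun N => (y N).1 i, fun N => by
      have := congrArg (fun w : Y N => w.1 i) (hy N)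
      exact this⟩
    have hc : ∀ i, c i ∈ maximalIdeal (limRing A f) ^ d :=
      fun i => ih (c i) fun N => (y N).2.1 i
    have hxsum : x = ∑ i, c i * t i := by
      apply limRing_ext
      intro N
      rw [map_sum]
      rw [← (y N).2.2]
      refine Finset.sum_congr rfl fun i _ => ?_
      rw [map_mul]
      rfl
    rw [hxsum, pow_succ]
    refine Ideal.sum_mem _ fun i _ => Ideal.mul_mem_mul (hc i) ?_
    exact (mem_maximalIdeal_limRing_iff A f hf hpow (t i)).mpr (ht0 i)

end Generators


/-- A finite family of elements of the limit which vanish at level `0` and hit every element of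
`𝔪_{A 1}`. -/
theorem exists_generators [∀ n, Finite (A n)] (hf : ∀ n, Function.Surjective (f n))
    (hker : ∀ n, RingHom.ker (f n) = maximalIdeal (A (n + 1)) ^ (n + 1)) :
    ∃ (e : ℕ) (t : Fin e → limRing A f), (∀ i, proj A f 0 (t i) = 0) ∧
      ∀ a ∈ maximalIdeal (A 1), ∃ i, proj A f 1 (t i) = a := by
  classical
  have hfin : Finite {a : A 1 // a ∈ maximalIdeal (A 1)} := Subtype.finite
  obtain ⟨e, ⟨eq⟩⟩ := Finite.exists_equiv_fin {a : A 1 // a ∈ maximalIdeal (A 1)}
  choose s hs using fun a : A 1 => proj_surjective A f hf 1 a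
  refine ⟨e, fun i => s (eq.symm i).1, fun i => ?_, fun a ha => ⟨eq ⟨a, ha⟩, ?_⟩⟩
  · rw [← f_proj, hs]
    have : ((eq.symm i).1 : A 1) ∈ RingHom.ker (f 0) := by
      rw [hker 0, pow_one]; exact (eq.symm i).2
    exact this
  · show proj A f 1 (s (eq.symm (eq ⟨a, ha⟩)).1) = a
    rw [Equiv.symm_apply_apply, hs]

theorem ker_proj [Nontrivial (A 0)] [∀ n, Finite (A n)] [IsLocalRing (limRing A f)]
    (hf : ∀ n, Function.Surjective (f n))
    (hker : ∀ n, RingHom.ker (f n) = maximalIdeal (A (n + 1)) ^ (n + 1))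
    (hpow : ∀ n, maximalIdeal (A n) ^ (n + 1) = ⊥) (n : ℕ) :
    RingHom.ker (proj A f n) = maximalIdeal (limRing A f) ^ (n + 1) := by
  obtain ⟨e, t, ht0, ht1⟩ := exists_generators A f hf hker
  apply le_antisymm
  · intro x hx
    rw [RingHom.mem_ker] at hx
    exact mem_pow_maximalIdeal_of_forall_proj_mem A f t hf hker hpow ht0 ht1 (n + 1) x
      fun N => proj_mem_pow_of_proj_eq_zero' A f hf hker N hx
  · have hle : (maximalIdeal (limRing A f)).map (proj A f n) ≤ maximalIdeal (A n) := by
      rw [Ideal.map_le_iff_le_comap]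
      intro x hx
      exact proj_mem_maximalIdeal A f ((mem_maximalIdeal_limRing_iff A f hf hpow x).mp hx) n
    intro x hx
    rw [RingHom.mem_ker]
    have h1 : proj A f n x ∈ (maximalIdeal (limRing A f) ^ (n + 1)).map (proj A f n) :=
      Ideal.mem_map_of_mem _ hx
    rw [Ideal.map_pow] at h1
    have h2 := Ideal.pow_right_mono hle (n + 1) h1
    rw [hpow n] at h2
    exact h2


theorem isAdicComplete_limRing [Nontrivial (A 0)] [∀ n, Finite (A n)] [IsLocalRing (limRing A f)]
    (hf : ∀ n, Function.Surjective (f n))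
    (hker : ∀ n, RingHom.ker (f n) = maximalIdeal (A (n + 1)) ^ (n + 1))
    (hpow : ∀ n, maximalIdeal (A n) ^ (n + 1) = ⊥) :
    IsAdicComplete (maximalIdeal (limRing A f)) (limRing A f) := by
  have hk := ker_proj A f hf hker hpow
  have hmem : ∀ (n : ℕ) (x : limRing A f),
      x ∈ (maximalIdeal (limRing A f) ^ (n + 1) • ⊤ : Submodule (limRing A f) (limRing A f)) ↔
        proj A f n x = 0 := by
    intro n x
    rw [smul_eq_mul, Ideal.mul_top, ← hk n, RingHom.mem_ker]
  have hH : IsHausdorff (maximalIdeal (limRing A f)) (limRing A f) := by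
    refine ⟨fun x hx => ?_⟩
    apply limRing_ext
    intro n
    rw [map_zero, ← hmem n x, ← SModEq.zero]
    exact hx (n + 1)
  have hP : IsPrecomplete (maximalIdeal (limRing A f)) (limRing A f) := by
    refine ⟨fun g hg => ?_⟩
    have hcompat : ∀ N, f N (proj A f (N + 1) (g (N + 2))) = proj A f N (g (N + 1)) := by
      intro N
      rw [f_proj]
      have h := hg (Nat.le_succ (N + 1))
      rw [SModEq.sub_mem, hmem N, map_sub, sub_eq_zero] at h
      exact h.symm
    refine ⟨⟨fun N => proj A f N (g (N + 1)), hcompat⟩, fun n => ?_⟩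
    cases n with
    | zero =>
      rw [SModEq.sub_mem, pow_zero, Ideal.one_eq_top, Submodule.top_smul]
      exact Submodule.mem_top
    | succ k =>
      rw [SModEq.sub_mem, hmem k, map_sub, sub_eq_zero]
      rfl
  exact { toIsHausdorff := hH, toIsPrecomplete := hP }


omit [∀ n, IsLocalRing (A n)] in
theorem isLocalHom_algebraMap_limRing [IsLocalRing (limRing A f)]
    (h : IsLocalHom (algebraMap 𝒪 (A 0))) : IsLocalHom (algebraMap 𝒪 (limRing A f)) := by
  refine ⟨fun a ha => ?_⟩
  have h0 : IsUnit (proj A f 0 (algebraMap 𝒪 (limRing A f) a)) := ha.map (proj A f 0)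
  rw [AlgHom.commutes] at h0
  exact h.map_nonunit a h0

theorem residue_comp_algebraMap_surjective [Nontrivial (A 0)] [IsLocalRing (limRing A f)]
    (hf : ∀ n, Function.Surjective (f n)) (hpow : ∀ n, maximalIdeal (A n) ^ (n + 1) = ⊥)
    (h𝒪 : Function.Surjective (algebraMap 𝒪 (A 0))) :
    Function.Surjective (IsLocalRing.residue (limRing A f) ∘ algebraMap 𝒪 (limRing A f)) := by
  intro y
  obtain ⟨x, rfl⟩ := IsLocalRing.residue_surjective y
  obtain ⟨a, ha⟩ := h𝒪 (proj A f 0 x)
  refine ⟨a, ?_⟩
  rw [Function.comp_apply, ← sub_eq_zero, ← map_sub, IsLocalRing.residue_eq_zero_iff,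
    mem_maximalIdeal_limRing_iff A f hf hpow, map_sub, AlgHom.commutes, ha, sub_self]

end Local


section Algebraic

/-! ### Leading forms: general algebra -/

variable {𝒪 R : Type} [CommRing 𝒪] [CommRing R] [Algebra 𝒪 R] {e : ℕ} (t : Fin e → R)

theorem aeval_mem_span_pow {d : ℕ} {H : MvPolynomial (Fin e) 𝒪} (hH : H.IsHomogeneous d) :
    MvPolynomial.aeval t H ∈ Ideal.span (Set.range t) ^ d := by
  rw [Ideal.mem_span_pow_iff_exists_isHomogeneous]
  refine ⟨MvPolynomial.map (algebraMap 𝒪 R) H, hH.map _, ?_⟩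
  rw [MvPolynomial.eval_map, MvPolynomial.aeval_def]

theorem exists_homogeneous_approx
    (hres : ∀ x : R, ∃ a : 𝒪, x - algebraMap 𝒪 R a ∈ Ideal.span (Set.range t)) :
    ∀ (d : ℕ) (x : R), x ∈ Ideal.span (Set.range t) ^ d →
      ∃ H : MvPolynomial (Fin e) 𝒪, H.IsHomogeneous d ∧
        x - MvPolynomial.aeval t H ∈ Ideal.span (Set.range t) ^ (d + 1) := by
  intro d
  induction d with
  | zero =>
    intro x _
    obtain ⟨a, ha⟩ := hres x
    refine ⟨MvPolynomial.C a, MvPolynomial.isHomogeneous_C _ a, ?_⟩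
    rw [MvPolynomial.aeval_C, zero_add, pow_one]
    exact ha
  | succ d ih =>
    intro x hx
    have hdec : Ideal.span (Set.range t) ^ (d + 1) = (Ideal.span (Set.range t) ^ d) •
        (Submodule.span R (Set.range t)) := by
      rw [pow_succ, smul_eq_mul]
    rw [hdec, Submodule.mem_ideal_smul_span_iff_exists_sum] at hx
    obtain ⟨a, ha, hsum⟩ := hx
    choose H hH hHa using fun i => ih (a i) (ha i)
    refine ⟨∑ i, H i * MvPolynomial.X i, ?_, ?_⟩
    · exact MvPolynomial.IsHomogeneous.sum _ _ _ fun i _ =>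
        (hH i).mul (MvPolynomial.isHomogeneous_X _ i)
    · rw [← hsum, Finsupp.sum_fintype _ _ (fun i => by simp), map_sum, ← Finset.sum_sub_distrib]
      refine Ideal.sum_mem _ fun i _ => ?_
      rw [map_mul, MvPolynomial.aeval_X, smul_eq_mul, ← sub_mul, pow_succ]
      exact Ideal.mul_mem_mul (hHa i) (Ideal.subset_span ⟨i, rfl⟩)

theorem homogeneousComponent_mul_of_isHomogeneous {σ S : Type} [CommRing S]
    (C H : MvPolynomial σ S) {d' : ℕ} (d : ℕ) (hH : H.IsHomogeneous d') :
    MvPolynomial.homogeneousComponent d (C * H) =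
      if d' ≤ d then MvPolynomial.homogeneousComponent (d - d') C * H else 0 := by
  induction C using MvPolynomial.induction_on' with
  | monomial α c =>
    have h1 : (MvPolynomial.monomial α c * H).IsHomogeneous (α.degree + d') :=
      (MvPolynomial.isHomogeneous_monomial c rfl).mul hH
    rw [MvPolynomial.homogeneousComponent_of_mem h1,
      MvPolynomial.homogeneousComponent_of_mem (MvPolynomial.isHomogeneous_monomial c rfl)]
    by_cases hd : d' ≤ d
    · rw [if_pos hd]
      by_cases h2 : d = α.degree + d'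
      · rw [if_pos h2, if_pos (by omega)]
      · rw [if_neg h2, if_neg (by omega), zero_mul]
    · rw [if_neg hd, if_neg (by omega)]
  | add p q hp hq =>
    rw [add_mul, map_add, hp, hq]
    split_ifs
    · rw [map_add, add_mul]
    · rw [add_zero]


theorem exists_sub_sum_mem_pow_succ {κ : Type} [Fintype κ]
    (J : Ideal R) (Hs : κ → MvPolynomial (Fin e) 𝒪) (ds : κ → ℕ) (gs : κ → R)
    (hHs : ∀ j, (Hs j).IsHomogeneous (ds j))
    (hgs : ∀ j, gs j - MvPolynomial.aeval t (Hs j) ∈ Ideal.span (Set.range t) ^ (ds j + 1))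
    (hres : ∀ x : R, ∃ a : 𝒪, x - algebraMap 𝒪 R a ∈ Ideal.span (Set.range t))
    (hgen : ∀ (d : ℕ) (H : MvPolynomial (Fin e) 𝒪), H.IsHomogeneous d →
      (∃ g ∈ J, g - MvPolynomial.aeval t H ∈ Ideal.span (Set.range t) ^ (d + 1)) →
      H ∈ Ideal.span (Set.range Hs))
    (d : ℕ) (x : R) (hxJ : x ∈ J) (hx : x ∈ Ideal.span (Set.range t) ^ d) :
    ∃ a : κ → R, x - ∑ j, a j * gs j ∈ Ideal.span (Set.range t) ^ (d + 1) := by
  obtain ⟨H, hH, hxH⟩ := exists_homogeneous_approx t hres d x hx
  have hHmem := hgen d H hH ⟨x, hxJ, hxH⟩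
  obtain ⟨C, hC⟩ := Ideal.mem_span_range_iff_exists_fun.mp hHmem
  have hcomp : H = ∑ j, (if ds j ≤ d then
      MvPolynomial.homogeneousComponent (d - ds j) (C j) * Hs j else 0) := by
    have h := congrArg (MvPolynomial.homogeneousComponent d) hC
    rw [map_sum, MvPolynomial.homogeneousComponent_eq_self hH] at h
    rw [← h]
    exact Finset.sum_congr rfl fun j _ =>
      homogeneousComponent_mul_of_isHomogeneous _ _ d (hHs j)
  refine ⟨fun j => if ds j ≤ d then
      MvPolynomial.aeval t (MvPolynomial.homogeneousComponent (d - ds j) (C j)) else 0, ?_⟩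
  have hsplit : x - ∑ j, (if ds j ≤ d then
      MvPolynomial.aeval t (MvPolynomial.homogeneousComponent (d - ds j) (C j)) else 0) * gs j =
      (x - MvPolynomial.aeval t H) + ∑ j, (if ds j ≤ d then
        MvPolynomial.aeval t (MvPolynomial.homogeneousComponent (d - ds j) (C j)) else 0) *
          (MvPolynomial.aeval t (Hs j) - gs j) := by
    conv_rhs => rw [hcomp]
    rw [map_sum]
    simp only [mul_sub, Finset.sum_sub_distrib]
    have : ∀ j, MvPolynomial.aeval t (if ds j ≤ d then
        MvPolynomial.homogeneousComponent (d - ds j) (C j) * Hs j else 0) =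
        (if ds j ≤ d then
          MvPolynomial.aeval t (MvPolynomial.homogeneousComponent (d - ds j) (C j)) else 0) *
          MvPolynomial.aeval t (Hs j) := by
      intro j
      split_ifs
      · rw [map_mul]
      · rw [map_zero, zero_mul]
    simp only [this]
    ring
  rw [hsplit]
  refine Ideal.add_mem _ hxH (Ideal.sum_mem _ fun j _ => ?_)
  by_cases hj : ds j ≤ d
  · rw [if_pos hj]
    have h1 := aeval_mem_span_pow (𝒪 := 𝒪) t
      (MvPolynomial.homogeneousComponent_isHomogeneous (d - ds j) (C j))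
    have h2 : MvPolynomial.aeval t (Hs j) - gs j ∈ Ideal.span (Set.range t) ^ (ds j + 1) := by
      rw [← neg_sub]; exact Ideal.neg_mem_iff _ |>.mpr (hgs j)
    have h3 := Ideal.mul_mem_mul h1 h2
    rw [← pow_add] at h3
    have : d - ds j + (ds j + 1) = d + 1 := by omega
    rwa [this] at h3
  · rw [if_neg hj, zero_mul]
    exact Ideal.zero_mem _

end Algebraic


section Noetherian

variable {𝒪 : Type} [CommRing 𝒪] (A : ℕ → Type) [∀ n, CommRing (A n)] [∀ n, Algebra 𝒪 (A n)]
  (f : ∀ n, A (n + 1) →ₐ[𝒪] A n)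

/-- Finitely generated ideals of the limit are closed. -/
theorem mem_span_range_of_forall_proj_mem [∀ n, Finite (A n)] {κ : Type} [Fintype κ]
    (g : κ → limRing A f) (x : limRing A f)
    (hx : ∀ N, proj A f N x ∈ Ideal.span (Set.range fun j => proj A f N (g j))) :
    x ∈ Ideal.span (Set.range g) := by
  let Y : ℕ → Type := fun N => {a : κ → A N // ∑ j, a j * proj A f N (g j) = proj A f N x}
  have hYne : ∀ N, Nonempty (Y N) := fun N => by
    obtain ⟨c, hc⟩ := Ideal.mem_span_range_iff_exists_fun.mp (hx N)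
    exact ⟨⟨c, hc⟩⟩
  have hYfin : ∀ N, Finite (Y N) := fun N => Subtype.finite
  let tr : ∀ N, Y (N + 1) → Y N := fun N y => ⟨fun j => f N (y.1 j), by
    have h := congrArg (f N) y.2
    rw [map_sum, f_proj] at h
    rw [← h]
    refine Finset.sum_congr rfl fun j _ => ?_
    rw [map_mul, f_proj]⟩
  obtain ⟨y, hy⟩ := exists_compatible_of_finite Y tr
  let c : κ → limRing A f := fun j => ⟨fun N => (y N).1 j, fun N => by
    have := congrArg (fun w : Y N => w.1 j) (hy N)
    exact this⟩
  rw [Ideal.mem_span_range_iff_exists_fun]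
  refine ⟨c, ?_⟩
  apply limRing_ext
  intro N
  rw [map_sum, ← (y N).2]
  refine Finset.sum_congr rfl fun j _ => ?_
  rw [map_mul]
  rfl

variable [∀ n, IsLocalRing (A n)]

theorem maximalIdeal_limRing_eq_span [Nontrivial (A 0)] [∀ n, Finite (A n)]
    [IsLocalRing (limRing A f)]
    (hf : ∀ n, Function.Surjective (f n))
    (hker : ∀ n, RingHom.ker (f n) = maximalIdeal (A (n + 1)) ^ (n + 1))
    (hpow : ∀ n, maximalIdeal (A n) ^ (n + 1) = ⊥)
    {e : ℕ} (t : Fin e → limRing A f) (ht0 : ∀ i, proj A f 0 (t i) = 0)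
    (ht1 : ∀ a ∈ maximalIdeal (A 1), ∃ i, proj A f 1 (t i) = a) :
    maximalIdeal (limRing A f) = Ideal.span (Set.range t) := by
  apply le_antisymm
  · intro x hx
    refine mem_span_range_of_forall_proj_mem A f t x fun N => ?_
    rw [span_proj_eq_maximalIdeal A f t hf hker hpow ht0 ht1 N]
    exact proj_mem_maximalIdeal A f ((mem_maximalIdeal_limRing_iff A f hf hpow x).mp hx) N
  · rw [Ideal.span_le]
    rintro _ ⟨i, rfl⟩
    exact (mem_maximalIdeal_limRing_iff A f hf hpow (t i)).mpr (ht0 i)

theorem isNoetherianRing_limRing [IsNoetherianRing 𝒪] [Nontrivial (A 0)] [∀ n, Finite (A n)]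
    [IsLocalRing (limRing A f)]
    (hf : ∀ n, Function.Surjective (f n))
    (hker : ∀ n, RingHom.ker (f n) = maximalIdeal (A (n + 1)) ^ (n + 1))
    (hpow : ∀ n, maximalIdeal (A n) ^ (n + 1) = ⊥)
    (h𝒪 : Function.Surjective (algebraMap 𝒪 (A 0))) : IsNoetherianRing (limRing A f) := by
  classical
  obtain ⟨e, t, ht0, ht1⟩ := exists_generators A f hf hker
  have hm := maximalIdeal_limRing_eq_span A f hf hker hpow t ht0 ht1
  have hres : ∀ x : limRing A f, ∃ a : 𝒪,
      x - algebraMap 𝒪 (limRing A f) a ∈ Ideal.span (Set.range t) := by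
    intro x
    obtain ⟨a, ha⟩ := h𝒪 (proj A f 0 x)
    refine ⟨a, ?_⟩
    rw [← hm, mem_maximalIdeal_limRing_iff A f hf hpow, map_sub, AlgHom.commutes, ha, sub_self]
  rw [isNoetherianRing_iff_ideal_fg]
  intro J
  let S : Set (MvPolynomial (Fin e) 𝒪) := {H | ∃ d, H.IsHomogeneous d ∧
    ∃ g ∈ J, g - MvPolynomial.aeval t H ∈ Ideal.span (Set.range t) ^ (d + 1)}
  have hfg : (Ideal.span S).FG := IsNoetherian.noetherian _
  obtain ⟨S', hS'S, hS'eq⟩ := (Submodule.fg_span_iff_fg_span_finset_subset S).mp hfg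
  choose ds hds gs hgsJ hgs using fun j : S' => hS'S j.2
  have hgen : ∀ (d : ℕ) (H : MvPolynomial (Fin e) 𝒪), H.IsHomogeneous d →
      (∃ g ∈ J, g - MvPolynomial.aeval t H ∈ Ideal.span (Set.range t) ^ (d + 1)) →
      H ∈ Ideal.span (Set.range (fun j : S' => (j : MvPolynomial (Fin e) 𝒪))) := by
    intro d H hH hw
    have : H ∈ Ideal.span S := Ideal.subset_span ⟨d, hH, hw⟩
    have h2 : Set.range (fun j : S' => (j : MvPolynomial (Fin e) 𝒪)) = (S' : Set _) := by
      ext y
      simp
    rw [h2]
    have h3 : H ∈ Submodule.span (MvPolynomial (Fin e) 𝒪) (S' : Set (MvPolynomial (Fin e) 𝒪)) := by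
      rw [← hS'eq]; exact this
    exact h3
  -- successive approximation modulo the span of the `gs`
  have happrox : ∀ (n : ℕ) (x : limRing A f), x ∈ J → ∃ x' ∈ J,
      x' ∈ Ideal.span (Set.range t) ^ n ∧ x - x' ∈ Ideal.span (Set.range gs) := by
    intro n
    induction n with
    | zero =>
      intro x hx
      exact ⟨x, hx, by simp, by simp⟩
    | succ n ih =>
      intro x hx
      obtain ⟨x', hx'J, hx'n, hxx'⟩ := ih x hx
      obtain ⟨a, ha⟩ := exists_sub_sum_mem_pow_succ t J (fun j : S' => (j : MvPolynomial (Fin e) 𝒪))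
        ds gs hds hgs hres hgen n x' hx'J hx'n
      have hsumJ : ∑ j, a j * gs j ∈ J :=
        Ideal.sum_mem _ fun j _ => Ideal.mul_mem_left _ _ (hgsJ j)
      have hsumS : ∑ j, a j * gs j ∈ Ideal.span (Set.range gs) :=
        Ideal.sum_mem _ fun j _ => Ideal.mul_mem_left _ _ (Ideal.subset_span ⟨j, rfl⟩)
      refine ⟨x' - ∑ j, a j * gs j, Ideal.sub_mem _ hx'J hsumJ, ha, ?_⟩
      have : x - (x' - ∑ j, a j * gs j) = (x - x') + ∑ j, a j * gs j := by ring
      rw [this]
      exact Ideal.add_mem _ hxx' hsumS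
  have hJ : J = Ideal.span (Set.range gs) := by
    apply le_antisymm
    · intro x hx
      refine mem_span_range_of_forall_proj_mem A f gs x fun N => ?_
      obtain ⟨x', -, hx'n, hxx'⟩ := happrox (N + 1) x hx
      have h0 : proj A f N x' = 0 := by
        rw [← RingHom.mem_ker, ker_proj A f hf hker hpow N, hm]
        exact hx'n
      have h1 : proj A f N x = proj A f N (x - x') := by rw [map_sub, h0, sub_zero]
      rw [h1]
      have h2 := Ideal.mem_map_of_mem (proj A f N) hxx'
      rw [Ideal.map_span, ← Set.range_comp] at h2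
      exact h2
    · rw [Ideal.span_le]
      rintro _ ⟨j, rfl⟩
      exact hgsJ j
  rw [hJ]
  exact Submodule.fg_span (Set.finite_range gs)

end Noetherian

end Fermat.Agent.S53
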