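import Fermat.Prelude.Def_GaloisRep_DeformationCondition

/-!
# Toolkit for Artinian test algebras (package G of the S53 plan)

Interface-independent commutative algebra about `GaloisRep.IsArtinianTestAlgebra`.
-/

set_option autoImplicit false

namespace Fermat.Agent.S53

open IsLocalRing GaloisRep

section Finite

/-- A module of finite length over a local ring with finite residue field is finite. -/
theorem finite_of_isFiniteLength {A : Type} [CommRing A] [IsLocalRing A] [Finite (ResidueField A)]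
    {M : Type*} [AddCommGroup M] [Module A M] (h : IsFiniteLength A M) : Finite M := by
  induction h with
  | of_subsingleton => exact Finite.of_subsingleton
  | @of_simple_quotient M _ _ N hs _ ih =>
    obtain ⟨m, hm, ⟨e⟩⟩ := isSimpleModule_iff_quot_maximal.mp hs
    have hm' : m = maximalIdeal A := IsLocalRing.eq_maximalIdeal hm
    subst hm'
    have h1 : Finite (M ⧸ N) := Finite.of_equiv (ResidueField A) e.symm.toEquiv
    have h2 : Finite (N.toAddSubgroup) := ih
    have h3 : Finite (M ⧸ N.toAddSubgroup) := h1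
    exact Finite.of_addSubgroup_quotient N.toAddSubgroup

variable {𝒪 : Type} [CommRing 𝒪] [IsLocalRing 𝒪]

/-- The residue field of a test algebra is a quotient of the residue field of `𝒪`. -/
theorem residueField_map_surjective {A : Type} [CommRing A] [IsLocalRing A] [Algebra 𝒪 A]
    (h : IsArtinianTestAlgebra 𝒪 A) :
    Function.Surjective
      (@ResidueField.map 𝒪 A _ _ _ _ (algebraMap 𝒪 A) h.isLocalHom) := by
  have := h.isLocalHom
  intro y
  obtain ⟨o, ho⟩ := h.residue_surjective y
  exact ⟨residue 𝒪 o, by rw [ResidueField.map_residue]; exact ho⟩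

theorem finite_residueField_of_isArtinianTestAlgebra [Finite (ResidueField 𝒪)]
    {A : Type} [CommRing A] [IsLocalRing A] [Algebra 𝒪 A]
    (h : IsArtinianTestAlgebra 𝒪 A) : Finite (ResidueField A) := by
  have := h.isLocalHom
  exact Finite.of_surjective _ (residueField_map_surjective h)

/-- (G1) An Artinian test algebra over `𝒪` with finite residue field is a finite ring. -/
theorem finite_of_isArtinianTestAlgebra [Finite (ResidueField 𝒪)]
    {A : Type} [CommRing A] [IsLocalRing A] [Algebra 𝒪 A]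
    (h : IsArtinianTestAlgebra 𝒪 A) : Finite A := by
  have := finite_residueField_of_isArtinianTestAlgebra h
  have := h.isArtinian
  exact finite_of_isFiniteLength (A := A) ((isArtinianRing_iff_isFiniteLength A).mp h.isArtinian)

end Finite

section LocalHom

variable {𝒪 : Type} [CommRing 𝒪]

/-- In a test algebra every element is `algebraMap o + m` with `m` in the maximal ideal. -/
theorem exists_algebraMap_add_mem_maximalIdeal {A : Type} [CommRing A] [IsLocalRing A]
    [Algebra 𝒪 A] (h : IsArtinianTestAlgebra 𝒪 A) (a : A) :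
    ∃ o : 𝒪, a - algebraMap 𝒪 A o ∈ maximalIdeal A := by
  obtain ⟨o, ho⟩ := h.residue_surjective (residue A a)
  refine ⟨o, ?_⟩
  rw [← Ideal.Quotient.eq]
  exact ho.symm

/-- The maximal ideal of an Artinian local ring is nilpotent. -/
theorem exists_maximalIdeal_pow_eq_bot {A : Type} [CommRing A] [IsLocalRing A]
    [IsArtinianRing A] : ∃ n : ℕ, maximalIdeal A ^ n = ⊥ := by
  have h := IsArtinianRing.isNilpotent_jacobson_bot (R := A)
  rw [IsLocalRing.jacobson_eq_maximalIdeal ⊥ bot_ne_top] at h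
  obtain ⟨n, hn⟩ := h
  exact ⟨n, hn⟩

theorem isNilpotent_of_mem_maximalIdeal {A : Type} [CommRing A] [IsLocalRing A]
    [IsArtinianRing A] {a : A} (ha : a ∈ maximalIdeal A) : IsNilpotent a := by
  obtain ⟨n, hn⟩ := exists_maximalIdeal_pow_eq_bot (A := A)
  refine ⟨n, ?_⟩
  have : a ^ n ∈ maximalIdeal A ^ n := Ideal.pow_mem_pow ha n
  rwa [hn, Ideal.mem_bot] at this

/-- (G4') Any `𝒪`-algebra homomorphism between Artinian test algebras is a local homomorphism. -/
theorem isLocalHom_of_isArtinianTestAlgebra {A B : Type} [CommRing A] [IsLocalRing A]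
    [Algebra 𝒪 A] [CommRing B] [IsLocalRing B] [Algebra 𝒪 B]
    (hA : IsArtinianTestAlgebra 𝒪 A) (hB : IsArtinianTestAlgebra 𝒪 B) (φ : A →ₐ[𝒪] B) :
    IsLocalHom (φ : A →+* B) := by
  have := hA.isArtinian
  have := hB.isLocalHom
  refine ⟨fun a ha => ?_⟩
  obtain ⟨o, ho⟩ := exists_algebraMap_add_mem_maximalIdeal hA a
  have hnil : IsNilpotent (a - algebraMap 𝒪 A o) := isNilpotent_of_mem_maximalIdeal ho
  have hnilB : IsNilpotent (φ (a - algebraMap 𝒪 A o)) := hnil.map φ
  have hmB : φ (a - algebraMap 𝒪 A o) ∈ maximalIdeal B := by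
    rw [mem_maximalIdeal, mem_nonunits_iff]
    intro hu
    exact not_isUnit_zero (M₀ := B) (by
      obtain ⟨n, hn⟩ := hnilB
      have := hu.pow n
      rwa [hn] at this)
  -- `algebraMap o` is a unit of `B`
  have h1 : IsUnit (algebraMap 𝒪 B o) := by
    by_contra hcon
    have hmem : algebraMap 𝒪 B o ∈ maximalIdeal B := by
      rwa [mem_maximalIdeal, mem_nonunits_iff]
    have : φ a ∈ maximalIdeal B := by
      have e : φ a = φ (a - algebraMap 𝒪 A o) + algebraMap 𝒪 B o := by
        rw [map_sub, AlgHom.commutes]; ring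
      rw [e]
      exact Ideal.add_mem _ hmB hmem
    rw [mem_maximalIdeal, mem_nonunits_iff] at this
    exact this ha
  have h2 : IsUnit o := IsLocalHom.map_nonunit (f := algebraMap 𝒪 B) o h1
  have h3 : IsUnit (algebraMap 𝒪 A o) := h2.map (algebraMap 𝒪 A)
  by_contra hcon
  have hmem : a ∈ maximalIdeal A := by rwa [mem_maximalIdeal, mem_nonunits_iff]
  have : algebraMap 𝒪 A o ∈ maximalIdeal A := by
    have e : algebraMap 𝒪 A o = a - (a - algebraMap 𝒪 A o) := by ring
    rw [e]
    exact Ideal.sub_mem _ hmem ho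
  rw [mem_maximalIdeal, mem_nonunits_iff] at this
  exact this h3

end LocalHom

section Subalgebra

/-- In a finite ring, a subalgebra is closed under inverses of units. -/
theorem isUnit_subalgebra_iff {𝒪 A : Type} [CommRing 𝒪] [CommRing A] [Algebra 𝒪 A] [Finite A]
    (A' : Subalgebra 𝒪 A) (a : A') :
    IsUnit a ↔ IsUnit (a : A) := by
  constructor
  · intro h
    exact h.map A'.val
  · intro h
    obtain ⟨n, hn, hpow⟩ := (isOfFinOrder_of_finite h.unit).exists_pow_eq_one
    have h1 : (a : A) ^ n = 1 := by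
      have := congrArg Units.val hpow
      simpa using this
    refine IsUnit.of_mul_eq_one (a ^ (n - 1)) ?_
    apply Subtype.ext
    simp only [Subalgebra.coe_mul, Subalgebra.coe_pow, Subalgebra.coe_one]
    rw [← pow_succ', Nat.sub_add_cancel hn, h1]

variable {𝒪 : Type} [CommRing 𝒪] [IsLocalRing 𝒪] [Finite (ResidueField 𝒪)]
variable {A : Type} [CommRing A] [IsLocalRing A] [Algebra 𝒪 A]

/-- (G2) A subalgebra of a (finite) test algebra is a local ring. -/
theorem isLocalRing_subalgebra (h : IsArtinianTestAlgebra 𝒪 A) (A' : Subalgebra 𝒪 A) :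
    IsLocalRing A' := by
  have := finite_of_isArtinianTestAlgebra h
  refine IsLocalRing.of_nonunits_add ?_
  intro a b ha hb
  rw [mem_nonunits_iff, isUnit_subalgebra_iff] at ha hb ⊢
  have ha' : (a : A) ∈ maximalIdeal A := by rwa [mem_maximalIdeal, mem_nonunits_iff]
  have hb' : (b : A) ∈ maximalIdeal A := by rwa [mem_maximalIdeal, mem_nonunits_iff]
  have := Ideal.add_mem _ ha' hb'
  rwa [mem_maximalIdeal, mem_nonunits_iff] at this

/-- (G2) The inclusion of a subalgebra of a test algebra is a local homomorphism. -/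
theorem isLocalHom_subalgebra_val (h : IsArtinianTestAlgebra 𝒪 A) (A' : Subalgebra 𝒪 A) :
    IsLocalHom (A'.val : A' →+* A) := by
  have := finite_of_isArtinianTestAlgebra h
  exact ⟨fun a ha => (isUnit_subalgebra_iff A' a).mpr ha⟩

/-- (G2) A subalgebra of a test algebra is a test algebra. -/
theorem isArtinianTestAlgebra_subalgebra (h : IsArtinianTestAlgebra 𝒪 A) (A' : Subalgebra 𝒪 A)
    [IsLocalRing A'] : IsArtinianTestAlgebra 𝒪 A' := by
  have hfin := finite_of_isArtinianTestAlgebra h
  have := h.isLocalHom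
  refine ⟨⟨fun o ho => ?_⟩, ?_, ?_⟩
  · -- local hom
    have : IsUnit (algebraMap 𝒪 A o) := by
      have := ho.map A'.val
      simpa using this
    exact IsLocalHom.map_nonunit (f := algebraMap 𝒪 A) o this
  · -- residue surjective
    intro y
    obtain ⟨a, rfl⟩ := residue_surjective y
    obtain ⟨o, ho⟩ := exists_algebraMap_add_mem_maximalIdeal h (a : A)
    refine ⟨o, ?_⟩
    rw [Function.comp_apply]
    symm
    rw [← sub_eq_zero, ← map_sub, residue_eq_zero_iff, mem_maximalIdeal, mem_nonunits_iff,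
      isUnit_subalgebra_iff]
    have : ((a - algebraMap 𝒪 A' o : A') : A) = (a : A) - algebraMap 𝒪 A o := by
      simp
    rw [this]
    rwa [mem_maximalIdeal, mem_nonunits_iff] at ho
  · have : Finite A' := Finite.of_injective _ Subtype.val_injective
    infer_instance

end Subalgebra

section Quotient

variable {𝒪 : Type} [CommRing 𝒪]
variable {A : Type} [CommRing A] [IsLocalRing A] [Algebra 𝒪 A]

/-- (G3) A nontrivial quotient of a local ring is local. -/
theorem isLocalRing_quotient (J : Ideal A) (hJ : J ≠ ⊤) : IsLocalRing (A ⧸ J) := by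
  have : Nontrivial (A ⧸ J) := Ideal.Quotient.nontrivial_iff.mpr hJ
  exact IsLocalRing.of_surjective' (Ideal.Quotient.mk J) Ideal.Quotient.mk_surjective

/-- (G3) A local `𝒪`-algebra which is a surjective image of a test algebra is a test algebra. -/
theorem isArtinianTestAlgebra_of_surjective {B : Type} [CommRing B] [IsLocalRing B] [Algebra 𝒪 B]
    (h : IsArtinianTestAlgebra 𝒪 A) (φ : A →ₐ[𝒪] B) (hφ : Function.Surjective φ) :
    IsArtinianTestAlgebra 𝒪 B := by
  have := h.isArtinian
  have := h.isLocalHom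
  have hnilB : ∀ a ∈ maximalIdeal A, φ a ∈ maximalIdeal B := by
    intro a ha
    have hn : IsNilpotent (φ a) := (isNilpotent_of_mem_maximalIdeal ha).map φ
    rw [mem_maximalIdeal, mem_nonunits_iff]
    intro hu
    obtain ⟨n, hn⟩ := hn
    have := hu.pow n
    rw [hn] at this
    exact not_isUnit_zero this
  refine ⟨⟨fun o ho => ?_⟩, ?_, ?_⟩
  · by_contra hcon
    have h1 : algebraMap 𝒪 A o ∈ maximalIdeal A := by
      rw [mem_maximalIdeal, mem_nonunits_iff]
      exact fun hu => hcon (IsLocalHom.map_nonunit (f := algebraMap 𝒪 A) o hu)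
    have h2 := hnilB _ h1
    rw [AlgHom.commutes, mem_maximalIdeal, mem_nonunits_iff] at h2
    exact h2 ho
  · intro y
    obtain ⟨b, rfl⟩ := residue_surjective y
    obtain ⟨a, rfl⟩ := hφ b
    obtain ⟨o, ho⟩ := exists_algebraMap_add_mem_maximalIdeal h a
    refine ⟨o, ?_⟩
    rw [Function.comp_apply]
    symm
    rw [← sub_eq_zero, ← map_sub, residue_eq_zero_iff]
    have := hnilB _ ho
    rwa [map_sub, AlgHom.commutes] at this
  · exact (show Function.Surjective (φ : A →+* B) from hφ).isArtinianRing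

/-- (G3) A nontrivial quotient of a test algebra is a test algebra. -/
theorem isArtinianTestAlgebra_quotient (h : IsArtinianTestAlgebra 𝒪 A) (J : Ideal A)
    [IsLocalRing (A ⧸ J)] : IsArtinianTestAlgebra 𝒪 (A ⧸ J) :=
  isArtinianTestAlgebra_of_surjective h (Ideal.Quotient.mkₐ 𝒪 J) Ideal.Quotient.mk_surjective

end Quotient

section FibreProduct

variable {𝒪 : Type} [CommRing 𝒪] [IsLocalRing 𝒪] [Finite (ResidueField 𝒪)]
variable {A B C : Type} [CommRing A] [IsLocalRing A] [Algebra 𝒪 A]
  [CommRing B] [IsLocalRing B] [Algebra 𝒪 B] [CommRing C] [IsLocalRing C] [Algebra 𝒪 C]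

/-- (G4) The fibre product `A ×_C B` as a subalgebra of `A × B`. -/
def fibreProd (f : A →ₐ[𝒪] C) (g : B →ₐ[𝒪] C) : Subalgebra 𝒪 (A × B) :=
  AlgHom.equalizer (f.comp (AlgHom.fst 𝒪 A B)) (g.comp (AlgHom.snd 𝒪 A B))

omit [IsLocalRing 𝒪] [Finite (ResidueField 𝒪)] [IsLocalRing A] [IsLocalRing B] [IsLocalRing C] in
theorem mem_fibreProd {f : A →ₐ[𝒪] C} {g : B →ₐ[𝒪] C} {x : A × B} :
    x ∈ fibreProd f g ↔ f x.1 = g x.2 := Iff.rfl

/-- First projection of the fibre product. -/
def fibreProd.fst (f : A →ₐ[𝒪] C) (g : B →ₐ[𝒪] C) : fibreProd f g →ₐ[𝒪] A :=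
  (AlgHom.fst 𝒪 A B).comp (fibreProd f g).val

/-- Second projection of the fibre product. -/
def fibreProd.snd (f : A →ₐ[𝒪] C) (g : B →ₐ[𝒪] C) : fibreProd f g →ₐ[𝒪] B :=
  (AlgHom.snd 𝒪 A B).comp (fibreProd f g).val

omit [IsLocalRing 𝒪] [Finite (ResidueField 𝒪)] [IsLocalRing A] [IsLocalRing B] [IsLocalRing C] in
@[simp] theorem fibreProd.fst_apply (f : A →ₐ[𝒪] C) (g : B →ₐ[𝒪] C) (x : fibreProd f g) :
    fibreProd.fst f g x = (x : A × B).1 := rfl

omit [IsLocalRing 𝒪] [Finite (ResidueField 𝒪)] [IsLocalRing A] [IsLocalRing B] [IsLocalRing C] in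
@[simp] theorem fibreProd.snd_apply (f : A →ₐ[𝒪] C) (g : B →ₐ[𝒪] C) (x : fibreProd f g) :
    fibreProd.snd f g x = (x : A × B).2 := rfl

omit [IsLocalRing 𝒪] [Finite (ResidueField 𝒪)] [IsLocalRing A] [IsLocalRing B] [IsLocalRing C] in
/-- Hypothesis 1 of `of_fibreProduct`. -/
theorem fibreProd.comp_fst_eq_comp_snd (f : A →ₐ[𝒪] C) (g : B →ₐ[𝒪] C) :
    f.comp (fibreProd.fst f g) = g.comp (fibreProd.snd f g) := by
  ext x
  exact x.2

omit [IsLocalRing 𝒪] [Finite (ResidueField 𝒪)] [IsLocalRing A] [IsLocalRing B] [IsLocalRing C] in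
/-- Hypothesis 2 of `of_fibreProduct`. -/
theorem fibreProd.injective_pair (f : A →ₐ[𝒪] C) (g : B →ₐ[𝒪] C) :
    Function.Injective (fun x : fibreProd f g => (fibreProd.fst f g x, fibreProd.snd f g x)) := by
  intro x y hxy
  apply Subtype.ext
  exact hxy

omit [IsLocalRing 𝒪] [Finite (ResidueField 𝒪)] [IsLocalRing A] [IsLocalRing B] [IsLocalRing C] in
/-- Hypothesis 3 of `of_fibreProduct`. -/
theorem fibreProd.exists_of_eq (f : A →ₐ[𝒪] C) (g : B →ₐ[𝒪] C) (a : A) (b : B) (hab : f a = g b) :
    ∃ x : fibreProd f g, fibreProd.fst f g x = a ∧ fibreProd.snd f g x = b :=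
  ⟨⟨(a, b), hab⟩, rfl, rfl⟩

omit [IsLocalRing 𝒪] [Finite (ResidueField 𝒪)] [IsLocalRing A] [IsLocalRing B] [IsLocalRing C] in
/-- Units of the fibre product are detected on the first component
(when `g` is a local homomorphism). -/
theorem fibreProd.isUnit_iff_fst (f : A →ₐ[𝒪] C) (g : B →ₐ[𝒪] C)
    (hg : IsLocalHom (g : B →+* C)) (x : fibreProd f g) :
    IsUnit x ↔ IsUnit (x : A × B).1 := by
  constructor
  · intro h
    exact h.map (fibreProd.fst f g)
  · intro h
    have hfx : IsUnit (f (x : A × B).1) := h.map f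
    have hx : f (x : A × B).1 = g (x : A × B).2 := x.2
    have hb : IsUnit (x : A × B).2 := by
      rw [hx] at hfx
      exact hg.map_nonunit _ hfx
    obtain ⟨u, hu⟩ := h
    obtain ⟨v, hv⟩ := hb
    have hmem : ((↑u⁻¹ : A), (↑v⁻¹ : B)) ∈ fibreProd f g := by
      rw [mem_fibreProd]
      have h1 : f (↑u⁻¹ : A) * f (x : A × B).1 = 1 := by
        rw [← map_mul, ← hu, Units.inv_mul, map_one]
      have h2 : g (↑v⁻¹ : B) * g (x : A × B).2 = 1 := by
        rw [← map_mul, ← hv, Units.inv_mul, map_one]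
      rw [← hx] at h2
      exact hfx.mul_left_injective (by simp only [h1, h2])
    refine IsUnit.of_mul_eq_one ⟨_, hmem⟩ ?_
    apply Subtype.ext
    apply Prod.ext
    · simp [← hu]
    · simp [← hv]

omit [IsLocalRing 𝒪] [Finite (ResidueField 𝒪)] [IsLocalRing B] [IsLocalRing C] in
/-- (G4) The fibre product of local rings along a local homomorphism `g` is local. -/
theorem isLocalRing_fibreProd_of_isLocalHom (f : A →ₐ[𝒪] C) (g : B →ₐ[𝒪] C)
    (hg : IsLocalHom (g : B →+* C)) : IsLocalRing (fibreProd f g) := by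
  have : Nontrivial (fibreProd f g) := by
    refine ⟨⟨0, 1, fun h => ?_⟩⟩
    have := congrArg (fun x : fibreProd f g => (x : A × B).1) h
    simp at this
  refine IsLocalRing.of_nonunits_add ?_
  intro a b ha hb
  rw [mem_nonunits_iff, fibreProd.isUnit_iff_fst f g hg] at ha hb ⊢
  have ha' : (a : A × B).1 ∈ maximalIdeal A := by rwa [mem_maximalIdeal, mem_nonunits_iff]
  have hb' : (b : A × B).1 ∈ maximalIdeal A := by rwa [mem_maximalIdeal, mem_nonunits_iff]
  have := Ideal.add_mem _ ha' hb'
  rwa [mem_maximalIdeal, mem_nonunits_iff] at this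

omit [IsLocalRing 𝒪] [Finite (ResidueField 𝒪)] in
/-- (G4) The fibre product of test algebras is a local ring. -/
theorem isLocalRing_fibreProd (hB : IsArtinianTestAlgebra 𝒪 B) (hC : IsArtinianTestAlgebra 𝒪 C)
    (f : A →ₐ[𝒪] C) (g : B →ₐ[𝒪] C) : IsLocalRing (fibreProd f g) :=
  isLocalRing_fibreProd_of_isLocalHom f g (isLocalHom_of_isArtinianTestAlgebra hB hC g)

omit [IsLocalRing 𝒪] [Finite (ResidueField 𝒪)] [IsLocalRing A] in
theorem fibreProd.isLocalHom_fst (hB : IsArtinianTestAlgebra 𝒪 B)
    (hC : IsArtinianTestAlgebra 𝒪 C) (f : A →ₐ[𝒪] C) (g : B →ₐ[𝒪] C) :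
    IsLocalHom (fibreProd.fst f g : fibreProd f g →+* A) :=
  ⟨fun x hx => (fibreProd.isUnit_iff_fst f g
    (isLocalHom_of_isArtinianTestAlgebra hB hC g) x).mpr hx⟩

/-- (G4) The fibre product of test algebras is a test algebra. -/
theorem isArtinianTestAlgebra_fibreProd (hA : IsArtinianTestAlgebra 𝒪 A)
    (hB : IsArtinianTestAlgebra 𝒪 B) (hC : IsArtinianTestAlgebra 𝒪 C)
    (f : A →ₐ[𝒪] C) (g : B →ₐ[𝒪] C) [IsLocalRing (fibreProd f g)] :
    IsArtinianTestAlgebra 𝒪 (fibreProd f g) := by
  have hgl := isLocalHom_of_isArtinianTestAlgebra hB hC g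
  have := hA.isLocalHom
  have hfinA := finite_of_isArtinianTestAlgebra hA
  have hfinB := finite_of_isArtinianTestAlgebra hB
  refine ⟨⟨fun o ho => ?_⟩, ?_, ?_⟩
  · have : IsUnit (algebraMap 𝒪 A o) := by
      have := ho.map (fibreProd.fst f g)
      simpa using this
    exact IsLocalHom.map_nonunit (f := algebraMap 𝒪 A) o this
  · intro y
    obtain ⟨x, rfl⟩ := residue_surjective y
    obtain ⟨o, ho⟩ := exists_algebraMap_add_mem_maximalIdeal hA (x : A × B).1
    refine ⟨o, ?_⟩
    rw [Function.comp_apply]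
    symm
    rw [← sub_eq_zero, ← map_sub, residue_eq_zero_iff, mem_maximalIdeal, mem_nonunits_iff,
      fibreProd.isUnit_iff_fst f g hgl]
    have : ((x - algebraMap 𝒪 (fibreProd f g) o : fibreProd f g) : A × B).1
        = (x : A × B).1 - algebraMap 𝒪 A o := by
      simp
    rw [this]
    rwa [mem_maximalIdeal, mem_nonunits_iff] at ho
  · have : Finite (fibreProd f g) := Finite.of_injective _ Subtype.val_injective
    infer_instance

end FibreProduct

section ResidueField

variable (𝒪 : Type) [CommRing 𝒪] [IsLocalRing 𝒪]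

/-- (G5) The residue field of `𝒪` is a test algebra. -/
theorem isArtinianTestAlgebra_residueField : IsArtinianTestAlgebra 𝒪 (ResidueField 𝒪) := by
  refine ⟨?_, ?_, inferInstance⟩
  · change IsLocalHom (residue 𝒪)
    infer_instance
  · intro y
    obtain ⟨b, rfl⟩ := residue_surjective y
    obtain ⟨o, rfl⟩ := residue_surjective b
    exact ⟨o, rfl⟩

/-- The `𝒪`-algebra structure on the dual numbers over the residue field used in
`GaloisRep.TangentFinite`. -/
@[reducible] noncomputable def dualNumberAlgebra : Algebra 𝒪 (DualNumber (ResidueField 𝒪)) :=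
  ((algebraMap (ResidueField 𝒪) (DualNumber (ResidueField 𝒪))).comp
    (algebraMap 𝒪 (ResidueField 𝒪))).toAlgebra

/-- (G5) The dual numbers over the residue field are a test algebra
(for the algebra structure used in `TangentFinite`). -/
theorem isArtinianTestAlgebra_dualNumber [Finite (ResidueField 𝒪)] :
    letI := dualNumberAlgebra 𝒪
    IsArtinianTestAlgebra 𝒪 (DualNumber (ResidueField 𝒪)) := by
  letI := dualNumberAlgebra 𝒪
  refine ⟨⟨fun o ho => ?_⟩, ?_, ?_⟩
  · have h1 : algebraMap 𝒪 (DualNumber (ResidueField 𝒪)) o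
        = TrivSqZeroExt.inl (residue 𝒪 o) := rfl
    rw [h1, TrivSqZeroExt.isUnit_inl_iff] at ho
    exact (isUnit_map_iff (residue 𝒪) o).mp ho
  · intro y
    obtain ⟨b, rfl⟩ := residue_surjective y
    obtain ⟨o, ho⟩ := residue_surjective (TrivSqZeroExt.fst b)
    refine ⟨o, ?_⟩
    rw [Function.comp_apply]
    symm
    rw [← sub_eq_zero, ← map_sub, residue_eq_zero_iff, mem_maximalIdeal, mem_nonunits_iff,
      TrivSqZeroExt.isUnit_iff_isUnit_fst]
    have h1 : algebraMap 𝒪 (DualNumber (ResidueField 𝒪)) o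
        = TrivSqZeroExt.inl (residue 𝒪 o) := rfl
    rw [h1, TrivSqZeroExt.fst_sub, TrivSqZeroExt.fst_inl, ho, sub_self]
    exact not_isUnit_zero
  · have : Finite (DualNumber (ResidueField 𝒪)) :=
      Finite.of_equiv (ResidueField 𝒪 × ResidueField 𝒪) (Equiv.refl _)
    infer_instance

variable {𝒪}
variable {A : Type} [CommRing A] [IsLocalRing A] [Algebra 𝒪 A]

/-- For a test algebra `A` (more generally: local hom + residue surjective), the induced map on
residue fields is bijective. -/
theorem residueField_map_bijective (hl : IsLocalHom (algebraMap 𝒪 A))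
    (hs : Function.Surjective (residue A ∘ algebraMap 𝒪 A)) :
    Function.Bijective (ResidueField.map (algebraMap 𝒪 A)) := by
  refine ⟨(ResidueField.map (algebraMap 𝒪 A)).injective, fun y => ?_⟩
  obtain ⟨o, ho⟩ := hs y
  exact ⟨residue 𝒪 o, by rw [ResidueField.map_residue]; exact ho⟩

/-- The identification `ResidueField 𝒪 ≃+* ResidueField A`. -/
noncomputable def residueFieldEquiv (hl : IsLocalHom (algebraMap 𝒪 A))
    (hs : Function.Surjective (residue A ∘ algebraMap 𝒪 A)) :
    ResidueField 𝒪 ≃+* ResidueField A :=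
  RingEquiv.ofBijective (ResidueField.map (algebraMap 𝒪 A)) (residueField_map_bijective hl hs)

/-- (G5) The residue map of a test algebra, as an `𝒪`-algebra homomorphism to the residue
field of `𝒪`. -/
noncomputable def residueAlgHom (hl : IsLocalHom (algebraMap 𝒪 A))
    (hs : Function.Surjective (residue A ∘ algebraMap 𝒪 A)) : A →ₐ[𝒪] ResidueField 𝒪 :=
  { ((residueFieldEquiv hl hs).symm : ResidueField A →+* ResidueField 𝒪).comp (residue A) with
    commutes' := fun o => by
      change (residueFieldEquiv hl hs).symm (residue A (algebraMap 𝒪 A o)) = residue 𝒪 o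
      rw [RingEquiv.symm_apply_eq]
      change _ = ResidueField.map (algebraMap 𝒪 A) (residue 𝒪 o)
      rw [ResidueField.map_residue] }

theorem residueFieldEquiv_residueAlgHom (hl : IsLocalHom (algebraMap 𝒪 A))
    (hs : Function.Surjective (residue A ∘ algebraMap 𝒪 A)) (a : A) :
    residueFieldEquiv hl hs (residueAlgHom hl hs a) = residue A a := by
  change residueFieldEquiv hl hs ((residueFieldEquiv hl hs).symm (residue A a)) = _
  rw [RingEquiv.apply_symm_apply]

theorem residueAlgHom_surjective (hl : IsLocalHom (algebraMap 𝒪 A))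
    (hs : Function.Surjective (residue A ∘ algebraMap 𝒪 A)) :
    Function.Surjective (residueAlgHom hl hs) := by
  intro y
  obtain ⟨o, rfl⟩ := residue_surjective y
  exact ⟨algebraMap 𝒪 A o, (residueAlgHom hl hs).commutes o⟩

theorem residueAlgHom_eq_zero_iff (hl : IsLocalHom (algebraMap 𝒪 A))
    (hs : Function.Surjective (residue A ∘ algebraMap 𝒪 A)) (a : A) :
    residueAlgHom hl hs a = 0 ↔ a ∈ maximalIdeal A := by
  rw [← residue_eq_zero_iff, ← residueFieldEquiv_residueAlgHom hl hs a,
    map_eq_zero_iff _ (residueFieldEquiv hl hs).injective]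

theorem ker_residueAlgHom (hl : IsLocalHom (algebraMap 𝒪 A))
    (hs : Function.Surjective (residue A ∘ algebraMap 𝒪 A)) :
    RingHom.ker (residueAlgHom hl hs : A →+* ResidueField 𝒪) = maximalIdeal A := by
  ext a
  rw [RingHom.mem_ker]
  exact residueAlgHom_eq_zero_iff hl hs a

/-- The residue map of a test algebra. -/
noncomputable abbrev testResidue (h : IsArtinianTestAlgebra 𝒪 A) :
    A →ₐ[𝒪] ResidueField 𝒪 :=
  residueAlgHom h.isLocalHom h.residue_surjective

end ResidueField

section Socle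

variable {A : Type} [CommRing A] [IsLocalRing A] [IsArtinianRing A]

/-- (G6) In an Artinian local ring which is not a field there is a nonzero element killed by the
maximal ideal (a socle element). -/
theorem exists_socle_element (hm : maximalIdeal A ≠ ⊥) :
    ∃ x : A, x ≠ 0 ∧ x ∈ maximalIdeal A ∧ ∀ m ∈ maximalIdeal A, m * x = 0 := by
  classical
  have hex := exists_maximalIdeal_pow_eq_bot (A := A)
  have hspec : maximalIdeal A ^ (Nat.find hex) = ⊥ := Nat.find_spec hex
  have hn0 : Nat.find hex ≠ 0 := by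
    intro h0
    rw [h0, pow_zero] at hspec
    exact absurd hspec (by simp)
  have hn1 : Nat.find hex ≠ 1 := by
    intro h1
    rw [h1, pow_one] at hspec
    exact hm hspec
  obtain ⟨k, hk⟩ : ∃ k, Nat.find hex = k + 2 := ⟨Nat.find hex - 2, by omega⟩
  have hmin : maximalIdeal A ^ (k + 1) ≠ ⊥ := by
    intro h
    have := Nat.find_min' hex h
    omega
  obtain ⟨x, hx, hx0⟩ := Submodule.exists_mem_ne_zero_of_ne_bot hmin
  refine ⟨x, hx0, ?_, fun m hmm => ?_⟩
  · exact Ideal.pow_le_self (Nat.succ_ne_zero k) hx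
  · have : m * x ∈ maximalIdeal A ^ (k + 2) := by
      rw [show k + 2 = 1 + (k + 1) by ring, pow_add, pow_one]
      exact Ideal.mul_mem_mul hmm hx
    rw [← hk] at this
    rwa [hspec, Ideal.mem_bot] at this

end Socle

section QuotientPow

variable {𝒪 : Type} [CommRing 𝒪]
variable {A : Type} [CommRing A] [IsLocalRing A] [Algebra 𝒪 A]

/-- (G7) `A ⧸ 𝔪 ^ n` is a local ring for `n ≠ 0`. -/
theorem isLocalRing_quotient_maximalIdeal_pow {n : ℕ} (hn : n ≠ 0) :
    IsLocalRing (A ⧸ maximalIdeal A ^ n) :=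
  isLocalRing_quotient _ (fun h => by
    have : maximalIdeal A ^ n ≤ maximalIdeal A := Ideal.pow_le_self hn
    rw [h] at this
    exact (maximalIdeal.isMaximal A).ne_top (top_le_iff.mp this))

/-- (G7) For a Noetherian local `𝒪`-algebra `A` with local structure map and residue field
generated by `𝒪`, the quotient `A ⧸ 𝔪 ^ n` (`n ≠ 0`) is an Artinian test algebra. -/
theorem isArtinianTestAlgebra_quotient_maximalIdeal_pow [IsNoetherianRing A]
    (hl : IsLocalHom (algebraMap 𝒪 A))
    (hs : Function.Surjective (residue A ∘ algebraMap 𝒪 A)) {n : ℕ} (hn : n ≠ 0)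
    [IsLocalRing (A ⧸ maximalIdeal A ^ n)] :
    IsArtinianTestAlgebra 𝒪 (A ⧸ maximalIdeal A ^ n) := by
  set J := maximalIdeal A ^ n with hJ
  have hmk : IsLocalHom (Ideal.Quotient.mk J) :=
    IsLocalHom.of_surjective (Ideal.Quotient.mk J) Ideal.Quotient.mk_surjective
  have hmax : (maximalIdeal A).map (Ideal.Quotient.mk J) = maximalIdeal (A ⧸ J) := by
    ext x
    obtain ⟨x, rfl⟩ := Ideal.Quotient.mk_surjective x
    have hle : J ≤ maximalIdeal A := Ideal.pow_le_self hn
    simp [sup_eq_left.mpr hle]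
  refine ⟨⟨fun o ho => ?_⟩, ?_, ?_⟩
  · have h1 : IsUnit (algebraMap 𝒪 A o) := by
      apply hmk.map_nonunit
      exact ho
    exact hl.map_nonunit o h1
  · intro y
    obtain ⟨b, rfl⟩ := residue_surjective y
    obtain ⟨a, rfl⟩ := Ideal.Quotient.mk_surjective b
    obtain ⟨o, ho⟩ := hs (residue A a)
    refine ⟨o, ?_⟩
    rw [Function.comp_apply] at ho ⊢
    have h1 : a - algebraMap 𝒪 A o ∈ maximalIdeal A := by
      rw [← residue_eq_zero_iff, map_sub, ho, sub_self]
    symm
    rw [← sub_eq_zero, ← map_sub, residue_eq_zero_iff, ← hmax]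
    have : Ideal.Quotient.mk J a - algebraMap 𝒪 (A ⧸ J) o
        = Ideal.Quotient.mk J (a - algebraMap 𝒪 A o) := by
      rw [map_sub]; rfl
    rw [this]
    exact Ideal.mem_map_of_mem _ h1
  · rw [isArtinianRing_iff_isNilpotent_maximalIdeal]
    refine ⟨n, ?_⟩
    rw [← hmax, ← Ideal.map_pow, Ideal.zero_eq_bot, Ideal.map_eq_bot_iff_le_ker, Ideal.mk_ker]

end QuotientPow

end Fermat.Agent.S53
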