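import Fermat.Agent.S53.TangentBound
import Fermat.Agent.S53.TestAlgebra

/-!
# S53, abstract representability: the uniform cardinality bound (AT-2)

For `Λ = MvPolynomial I 𝒪` and a functorial predicate `F` on families `I → A`, every quotient
`Λ ⧸ K` which is a test algebra whose tautological family lies in `F` has at most
`T := #F(k[ε])` algebra maps to `k[ε]`; hence, if moreover `𝔪 ^ n = 0`, its cardinality is bounded
by that of the fixed finite type `BoundType 𝒪 n T`.
-/

set_option autoImplicit false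
set_option linter.unusedSectionVars false
set_option linter.style.haveILetI false

namespace Fermat.Agent.S53.ATCardBound

open IsLocalRing GaloisRep Fermat.Agent.S53 Fermat.Agent.S53.TangentBound

variable {𝒪 : Type} [CommRing 𝒪] [IsLocalRing 𝒪]
variable {I : Type}
variable (F : ∀ ⦃A : Type⦄ [CommRing A] [IsLocalRing A] [Algebra 𝒪 A], (I → A) → Prop)

/-- The number of `k[ε]`-points of `F` (with the `TangentFinite` algebra structure on `k[ε]`). -/
noncomputable def tangentCard : ℕ :=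
  letI := Fermat.Agent.S53.dualNumberAlgebra 𝒪
  Nat.card {x : I → DualNumber (ResidueField 𝒪) // F x}

variable {F}

/-- Algebra maps out of a quotient of a polynomial ring are determined by the images of the
variables. -/
theorem algHom_quotient_ext {B : Type} [CommRing B] [Algebra 𝒪 B]
    (K : Ideal (MvPolynomial I 𝒪)) {u v : (MvPolynomial I 𝒪 ⧸ K) →ₐ[𝒪] B}
    (h : ∀ i, u (Ideal.Quotient.mk K (MvPolynomial.X i)) = v (Ideal.Quotient.mk K (MvPolynomial.X i))) :
    u = v := by
  have h1 : u.comp (Ideal.Quotient.mkₐ 𝒪 K) = v.comp (Ideal.Quotient.mkₐ 𝒪 K) := by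
    apply MvPolynomial.algHom_ext
    intro i
    exact h i
  apply AlgHom.ext
  intro y
  obtain ⟨p, rfl⟩ := Ideal.Quotient.mk_surjective y
  exact DFunLike.congr_fun h1 p

theorem natCard_algHom_dualNumber_le [Finite (ResidueField 𝒪)]
    (hmap : ∀ ⦃A B : Type⦄ [CommRing A] [IsLocalRing A] [Algebra 𝒪 A]
      [CommRing B] [IsLocalRing B] [Algebra 𝒪 B],
      IsArtinianTestAlgebra 𝒪 A → IsArtinianTestAlgebra 𝒪 B →
      ∀ (φ : A →ₐ[𝒪] B) (x : I → A), F x → F (φ ∘ x))
    (hfin : letI := Fermat.Agent.S53.dualNumberAlgebra 𝒪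
      Finite {x : I → DualNumber (ResidueField 𝒪) // F x})
    (K : Ideal (MvPolynomial I 𝒪)) [IsLocalRing (MvPolynomial I 𝒪 ⧸ K)]
    (htest : IsArtinianTestAlgebra 𝒪 (MvPolynomial I 𝒪 ⧸ K))
    (hF : F (fun i => Ideal.Quotient.mk K (MvPolynomial.X i))) :
    letI := Fermat.Agent.S53.dualNumberAlgebra 𝒪
    Nat.card ((MvPolynomial I 𝒪 ⧸ K) →ₐ[𝒪] DualNumber (ResidueField 𝒪)) ≤ tangentCard F := by
  letI := Fermat.Agent.S53.dualNumberAlgebra 𝒪
  haveI := hfin
  have hD : IsArtinianTestAlgebra 𝒪 (DualNumber (ResidueField 𝒪)) :=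
    isArtinianTestAlgebra_dualNumber 𝒪
  let Φ : ((MvPolynomial I 𝒪 ⧸ K) →ₐ[𝒪] DualNumber (ResidueField 𝒪)) →
      {x : I → DualNumber (ResidueField 𝒪) // F x} :=
    fun u => ⟨u ∘ (fun i => Ideal.Quotient.mk K (MvPolynomial.X i)), hmap htest hD u _ hF⟩
  have hΦ : Function.Injective Φ := by
    intro u v h
    apply algHom_quotient_ext
    intro i
    have := congrArg Subtype.val h
    exact congrFun this i
  exact Nat.card_le_card_of_injective Φ hΦ

/-- **AT-2.** Uniform cardinality bound for good quotients of `MvPolynomial I 𝒪`. -/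
theorem natCard_quotient_le [IsNoetherianRing 𝒪] [Finite (ResidueField 𝒪)]
    (hmap : ∀ ⦃A B : Type⦄ [CommRing A] [IsLocalRing A] [Algebra 𝒪 A]
      [CommRing B] [IsLocalRing B] [Algebra 𝒪 B],
      IsArtinianTestAlgebra 𝒪 A → IsArtinianTestAlgebra 𝒪 B →
      ∀ (φ : A →ₐ[𝒪] B) (x : I → A), F x → F (φ ∘ x))
    (hfin : letI := Fermat.Agent.S53.dualNumberAlgebra 𝒪
      Finite {x : I → DualNumber (ResidueField 𝒪) // F x})
    (K : Ideal (MvPolynomial I 𝒪)) [IsLocalRing (MvPolynomial I 𝒪 ⧸ K)]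
    (htest : IsArtinianTestAlgebra 𝒪 (MvPolynomial I 𝒪 ⧸ K))
    (hF : F (fun i => Ideal.Quotient.mk K (MvPolynomial.X i)))
    {n : ℕ} (hn : maximalIdeal (MvPolynomial I 𝒪 ⧸ K) ^ n = ⊥) :
    Nat.card (MvPolynomial I 𝒪 ⧸ K) ≤ Nat.card (BoundType 𝒪 n (tangentCard F)) := by
  haveI := htest.isLocalHom
  haveI : Finite (MvPolynomial I 𝒪 ⧸ K) := finite_of_isArtinianTestAlgebra htest
  exact natCard_le_of_natCard_algHom_le htest.residue_surjective (tangentCard F)
    (natCard_algHom_dualNumber_le hmap hfin K htest hF) hn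

/-- The bounding type is finite. -/
theorem finite_boundType [IsNoetherianRing 𝒪] [Finite (ResidueField 𝒪)] (n d : ℕ) :
    Finite (BoundType 𝒪 n d) := by
  haveI : Finite (𝒪 ⧸ maximalIdeal 𝒪) := ‹Finite (ResidueField 𝒪)›
  haveI : Finite (𝒪 ⧸ (maximalIdeal 𝒪) ^ n) :=
    Ideal.finite_quotient_pow (IsNoetherian.noetherian (maximalIdeal 𝒪)) n
  infer_instance

end Fermat.Agent.S53.ATCardBound
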