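/-
S53 helper library (helper55): the ambient complete Noetherian local `𝒪`-algebra with `d` free
variables.  For a Noetherian local ring `𝒪` with chosen generators `g_1, …, g_r` of its maximal
ideal,
  `Amb 𝒪 d := 𝒪⟦Y_1, …, Y_r, X_1, …, X_d⟧ ⧸ (Y_j - g_j)`
(for a discrete valuation ring: `𝒪⟦Y, X_1, …, X_d⟧ ⧸ (Y - ϖ)`).  When `𝒪` is complete this is a
model of `𝒪⟦X_1, …, X_d⟧` for which completeness with respect to the maximal ideal comes for free
from Mathlib (`MvPowerSeries` is complete for the ideal of the variables) and the Prelude lemma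
`IsAdicComplete.of_module_finite`.  Pure commutative algebra; no proof obligations left.

Main results (namespace `Fermat.Agent.S53.Ambient`; `𝒪` Noetherian local, e.g. a DVR):
* instances `IsLocalRing`, `IsNoetherianRing` and (for `𝒪` complete) `IsAdicComplete (maximalIdeal _)`
  for `Amb 𝒪 d`;
* `Amb.x`, `Amb.x_mem`, `Amb.maximalIdeal_eq`, `Amb.isLocalHom_algebraMap`,
  `Amb.residue_surjective`, `Amb.finite_quotient_pow`;
* mapping property into local `𝒪`-algebras with nilpotent maximal ideal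
  (`Amb.exists_lift`, `Amb.lift_unique`) and into complete / separated ones
  (`Amb.exists_lift_of_isAdicComplete`, `Amb.lift_unique_of_isHausdorff`);
* `Amb.isLocalHom_of_map`, `Amb.surjective_of_generate` (Nakayama criterion);
* `Amb.exists_surjective_of_isAdicComplete` (a complete local `𝒪`-algebra with residue field `k`
  and `d` generators of the relative cotangent space is a quotient of `Amb 𝒪 d`) and its corollary
  `isNoetherianRing_of_isAdicComplete`;
* two Nakayama lemmas without Noetherian hypotheses: `le_of_le_sup_sq_of_pow_eq_bot`,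
  `le_of_le_sup_sq_of_complete`.
-/
import Mathlib
import Fermat.Prelude.Thm_IsAdicComplete_of_module_finite

set_option autoImplicit false

namespace Fermat.Agent.S53.Ambient

open IsLocalRing

section Part1

section PS

variable {σ : Type} [Finite σ] {R : Type} [CommRing R]

/-- The ideal generated by the variables in the power series ring. -/
noncomputable def varIdeal (σ : Type) (R : Type) [CommRing R] : Ideal (MvPowerSeries σ R) :=
  Ideal.span (Set.range MvPowerSeries.X)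

omit [Finite σ] in
theorem algebraMap_coe (p : MvPolynomial σ R) :
    algebraMap (MvPolynomial σ R) (MvPowerSeries σ R) p = (p : MvPowerSeries σ R) := by
  rw [MvPowerSeries.algebraMap_apply']
  simp

omit [Finite σ] in
theorem map_idealOfVars :
    (MvPolynomial.idealOfVars σ R).map (algebraMap (MvPolynomial σ R) (MvPowerSeries σ R)) =
      varIdeal σ R := by
  unfold varIdeal MvPolynomial.idealOfVars
  rw [Ideal.map_span, ← Set.range_comp]
  congr 2
  ext1 s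
  simp [algebraMap_coe]

/-- (K) A power series differs from its total-degree truncation by an element of `(X)^n`. -/
theorem sub_truncTotal_mem (f : MvPowerSeries σ R) (n : ℕ) :
    f - ((MvPowerSeries.truncTotal n f : MvPolynomial σ R) : MvPowerSeries σ R) ∈
      varIdeal σ R ^ n := by
  set I₀ := MvPolynomial.idealOfVars σ R with hI₀
  set E := MvPowerSeries.toAdicCompletionAlgEquiv σ R with hE
  set g := f - ((MvPowerSeries.truncTotal n f : MvPolynomial σ R) : MvPowerSeries σ R) with hg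
  have h1 : E g ∈ (I₀ ^ n • ⊤ : Submodule (MvPolynomial σ R) (AdicCompletion I₀ (MvPolynomial σ R))) := by
    rw [AdicCompletion.pow_smul_top_eq_ker_eval (MvPolynomial.idealOfVars_fg σ R)]
    rw [LinearMap.mem_ker, hg, map_sub, map_sub, sub_eq_zero]
    rw [hE, MvPowerSeries.toAdicCompletionAlgEquiv_apply, MvPowerSeries.toAdicCompletionAlgEquiv_apply,
      MvPowerSeries.toAdicCompletion_coe, AdicCompletion.eval_of, AdicCompletion.eval_apply,
      MvPowerSeries.toAdicCompletion_apply_eq_mk_truncTotal]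
    rfl
  have h2 : g ∈ (I₀ ^ n • ⊤ : Submodule (MvPolynomial σ R) (MvPowerSeries σ R)) := by
    have : g = E.symm (E g) := (E.symm_apply_apply g).symm
    rw [this]
    refine Submodule.smul_induction_on h1 ?_ ?_
    · intro r hr m _
      rw [map_smul]
      exact Submodule.smul_mem_smul hr Submodule.mem_top
    · intro x y hx hy
      rw [map_add]
      exact Submodule.add_mem _ hx hy
  rw [Ideal.smul_top_eq_map, Submodule.restrictScalars_mem, Ideal.map_pow, map_idealOfVars] at h2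
  exact h2

end PS

end Part1

section Part2

section PS

variable {σ : Type} [Finite σ] {R : Type} [CommRing R]

/-- a power series with zero constant coefficient lies in the ideal of the variables -/
theorem mem_varIdeal_of_constantCoeff_eq_zero {g : MvPowerSeries σ R}
    (hg : MvPowerSeries.constantCoeff g = 0) : g ∈ varIdeal σ R := by
  have h := sub_truncTotal_mem g 1
  have h0 : MvPowerSeries.truncTotal 1 g = 0 := by
    ext x
    rw [MvPowerSeries.coeff_truncTotal_eq_ite]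
    split_ifs with hx
    · have : x = 0 := by
        have : Finsupp.degree x = 0 := by omega
        exact (Finsupp.degree_eq_zero_iff x).mp this
      subst this
      simpa using hg
    · simp
  rw [h0] at h
  simpa using h

theorem sub_C_constantCoeff_mem (f : MvPowerSeries σ R) :
    f - MvPowerSeries.C (MvPowerSeries.constantCoeff f) ∈ varIdeal σ R := by
  apply mem_varIdeal_of_constantCoeff_eq_zero
  simp

omit [Finite σ] in
theorem constantCoeff_eq_zero_of_mem_varIdeal {g : MvPowerSeries σ R} (hg : g ∈ varIdeal σ R) :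
    MvPowerSeries.constantCoeff g = 0 := by
  have : varIdeal σ R ≤ RingHom.ker (MvPowerSeries.constantCoeff (σ := σ) (R := R)) := by
    unfold varIdeal
    rw [Ideal.span_le]
    rintro _ ⟨s, rfl⟩
    simp
  exact this hg

end PS

section PSLocal

variable {σ : Type} [Finite σ] {R : Type} [CommRing R] [IsLocalRing R]

omit [Finite σ] in
theorem mem_maximalIdeal_iff (f : MvPowerSeries σ R) :
    f ∈ maximalIdeal (MvPowerSeries σ R) ↔ MvPowerSeries.constantCoeff f ∈ maximalIdeal R := by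
  rw [mem_maximalIdeal, mem_maximalIdeal, mem_nonunits_iff, mem_nonunits_iff,
    MvPowerSeries.isUnit_iff_constantCoeff]

theorem maximalIdeal_eq_sup :
    maximalIdeal (MvPowerSeries σ R) =
      Ideal.map (MvPowerSeries.C (σ := σ) (R := R)) (maximalIdeal R) ⊔ varIdeal σ R := by
  apply le_antisymm
  · intro f hf
    rw [mem_maximalIdeal_iff] at hf
    have : f = MvPowerSeries.C (MvPowerSeries.constantCoeff f) +
        (f - MvPowerSeries.C (MvPowerSeries.constantCoeff f)) := by ring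
    rw [this]
    exact Ideal.add_mem _ (Ideal.mem_sup_left (Ideal.mem_map_of_mem _ hf))
      (Ideal.mem_sup_right (sub_C_constantCoeff_mem f))
  · refine sup_le ?_ ?_
    · rw [Ideal.map_le_iff_le_comap]
      intro a ha
      rw [Ideal.mem_comap, mem_maximalIdeal_iff]
      simpa using ha
    · intro g hg
      rw [mem_maximalIdeal_iff, constantCoeff_eq_zero_of_mem_varIdeal hg]
      exact Ideal.zero_mem _

end PSLocal

end Part2

section Part3

variable (𝒪 : Type) [CommRing 𝒪] [IsLocalRing 𝒪] [IsNoetherianRing 𝒪]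

theorem exists_gens : ∃ (r : ℕ) (g : Fin r → 𝒪), Ideal.span (Set.range g) = maximalIdeal 𝒪 :=
  Submodule.fg_iff_exists_fin_generating_family.mp (IsNoetherian.noetherian (maximalIdeal 𝒪))

/-- The number of chosen generators of the maximal ideal of `𝒪`. -/
noncomputable def gensCard : ℕ := Classical.choose (exists_gens 𝒪)

/-- A chosen finite generating family of the maximal ideal of `𝒪` (for a discrete valuation
ring one can think of a single uniformiser). -/
noncomputable def gens : Fin (gensCard 𝒪) → 𝒪 :=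
  Classical.choose (Classical.choose_spec (exists_gens 𝒪))

theorem span_gens : Ideal.span (Set.range (gens 𝒪)) = maximalIdeal 𝒪 :=
  Classical.choose_spec (Classical.choose_spec (exists_gens 𝒪))

theorem gens_mem (j : Fin (gensCard 𝒪)) : gens 𝒪 j ∈ maximalIdeal 𝒪 := by
  rw [← span_gens]; exact Ideal.subset_span ⟨j, rfl⟩

/-- The index type of the variables of the power series ring. -/
abbrev Idx (d : ℕ) : Type := Fin (gensCard 𝒪) ⊕ Fin d

/-- The ideal `(Y_j - g_j)` of the power series ring. -/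
noncomputable def ambIdeal (d : ℕ) : Ideal (MvPowerSeries (Idx 𝒪 d) 𝒪) :=
  Ideal.span (Set.range fun j : Fin (gensCard 𝒪) =>
    (MvPowerSeries.X (Sum.inl j) - MvPowerSeries.C (gens 𝒪 j) : MvPowerSeries (Idx 𝒪 d) 𝒪))

/-- The ambient ring: a complete Noetherian local `𝒪`-algebra "with `d` free variables". -/
def Amb (d : ℕ) : Type := MvPowerSeries (Idx 𝒪 d) 𝒪 ⧸ ambIdeal 𝒪 d

noncomputable instance Amb.instCommRing (d : ℕ) : CommRing (Amb 𝒪 d) :=
  inferInstanceAs (CommRing (MvPowerSeries (Idx 𝒪 d) 𝒪 ⧸ ambIdeal 𝒪 d))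
noncomputable instance Amb.instAlgebra (d : ℕ) : Algebra 𝒪 (Amb 𝒪 d) :=
  inferInstanceAs (Algebra 𝒪 (MvPowerSeries (Idx 𝒪 d) 𝒪 ⧸ ambIdeal 𝒪 d))
noncomputable instance Amb.instAlgebraPS (d : ℕ) :
    Algebra (MvPowerSeries (Idx 𝒪 d) 𝒪) (Amb 𝒪 d) :=
  inferInstanceAs (Algebra (MvPowerSeries (Idx 𝒪 d) 𝒪)
    (MvPowerSeries (Idx 𝒪 d) 𝒪 ⧸ ambIdeal 𝒪 d))
instance Amb.instIsScalarTower (d : ℕ) :
    IsScalarTower 𝒪 (MvPowerSeries (Idx 𝒪 d) 𝒪) (Amb 𝒪 d) :=
  inferInstanceAs (IsScalarTower 𝒪 (MvPowerSeries (Idx 𝒪 d) 𝒪)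
    (MvPowerSeries (Idx 𝒪 d) 𝒪 ⧸ ambIdeal 𝒪 d))
instance Amb.instIsNoetherianRing (d : ℕ) : IsNoetherianRing (Amb 𝒪 d) :=
  inferInstanceAs (IsNoetherianRing (MvPowerSeries (Idx 𝒪 d) 𝒪 ⧸ ambIdeal 𝒪 d))
instance Amb.instModuleFinitePS (d : ℕ) :
    Module.Finite (MvPowerSeries (Idx 𝒪 d) 𝒪) (Amb 𝒪 d) :=
  inferInstanceAs (Module.Finite (MvPowerSeries (Idx 𝒪 d) 𝒪)
    (MvPowerSeries (Idx 𝒪 d) 𝒪 ⧸ ambIdeal 𝒪 d))

/-- The quotient map from the power series ring, as an `𝒪`-algebra map. -/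
noncomputable def Amb.mk (d : ℕ) : MvPowerSeries (Idx 𝒪 d) 𝒪 →ₐ[𝒪] Amb 𝒪 d :=
  Ideal.Quotient.mkₐ 𝒪 (ambIdeal 𝒪 d)

theorem Amb.mk_surjective (d : ℕ) : Function.Surjective (Amb.mk 𝒪 d) :=
  Ideal.Quotient.mkₐ_surjective 𝒪 (ambIdeal 𝒪 d)

theorem Amb.algebraMapPS_eq (d : ℕ) :
    (algebraMap (MvPowerSeries (Idx 𝒪 d) 𝒪) (Amb 𝒪 d)) = (Amb.mk 𝒪 d : _ →+* _) := rfl

theorem ambIdeal_le (d : ℕ) : ambIdeal 𝒪 d ≤ maximalIdeal (MvPowerSeries (Idx 𝒪 d) 𝒪) := by
  unfold ambIdeal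
  rw [Ideal.span_le]
  rintro _ ⟨j, rfl⟩
  rw [SetLike.mem_coe, mem_maximalIdeal_iff]
  simpa using gens_mem 𝒪 j

instance Amb.instNontrivial (d : ℕ) : Nontrivial (Amb 𝒪 d) :=
  Ideal.Quotient.nontrivial_iff.mpr
    (fun h => Ideal.IsPrime.ne_top (inferInstance : (maximalIdeal (MvPowerSeries (Idx 𝒪 d) 𝒪)).IsPrime)
      (top_le_iff.mp (h ▸ ambIdeal_le 𝒪 d)))

instance Amb.instIsLocalRing (d : ℕ) : IsLocalRing (Amb 𝒪 d) :=
  IsLocalRing.of_surjective' ((Amb.mk 𝒪 d : _ →ₐ[𝒪] _) : MvPowerSeries (Idx 𝒪 d) 𝒪 →+* Amb 𝒪 d)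
    (Amb.mk_surjective 𝒪 d)

/-- The variables. -/
noncomputable def Amb.x (d : ℕ) : Fin d → Amb 𝒪 d :=
  fun i => Ideal.Quotient.mk (ambIdeal 𝒪 d) (MvPowerSeries.X (Sum.inr i))

theorem Amb.mk_X_inl (d : ℕ) (j : Fin (gensCard 𝒪)) :
    Amb.mk 𝒪 d (MvPowerSeries.X (Sum.inl j)) = algebraMap 𝒪 (Amb 𝒪 d) (gens 𝒪 j) := by
  have h : Amb.mk 𝒪 d (MvPowerSeries.X (Sum.inl j) - MvPowerSeries.C (gens 𝒪 j)) = 0 :=
    Ideal.Quotient.eq_zero_iff_mem.mpr (Ideal.subset_span ⟨j, rfl⟩)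
  rw [map_sub, sub_eq_zero] at h
  rw [h]
  rfl

theorem Amb.mk_X_inr (d : ℕ) (i : Fin d) :
    Amb.mk 𝒪 d (MvPowerSeries.X (Sum.inr i)) = Amb.x 𝒪 d i := rfl

theorem Amb.mk_C (d : ℕ) (a : 𝒪) :
    Amb.mk 𝒪 d (MvPowerSeries.C a) = algebraMap 𝒪 (Amb 𝒪 d) a := rfl

end Part3

section Part4

variable (𝒪 : Type) [CommRing 𝒪] [IsLocalRing 𝒪] [IsNoetherianRing 𝒪]

instance Amb.isLocalHom_mk (d : ℕ) :
    IsLocalHom ((Amb.mk 𝒪 d : _ →ₐ[𝒪] _) : MvPowerSeries (Idx 𝒪 d) 𝒪 →+* Amb 𝒪 d) :=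
  IsLocalHom.of_surjective _ (Amb.mk_surjective 𝒪 d)

theorem Amb.mk_mem_maximalIdeal_iff (d : ℕ) (f : MvPowerSeries (Idx 𝒪 d) 𝒪) :
    Amb.mk 𝒪 d f ∈ maximalIdeal (Amb 𝒪 d) ↔ f ∈ maximalIdeal (MvPowerSeries (Idx 𝒪 d) 𝒪) := by
  rw [mem_maximalIdeal, mem_maximalIdeal, mem_nonunits_iff, mem_nonunits_iff, not_iff_not]
  constructor
  · intro h
    exact (Amb.isLocalHom_mk 𝒪 d).map_nonunit f h
  · intro h
    exact h.map (Amb.mk 𝒪 d)

theorem Amb.map_mk_maximalIdeal (d : ℕ) :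
    Ideal.map (Amb.mk 𝒪 d) (maximalIdeal (MvPowerSeries (Idx 𝒪 d) 𝒪)) =
      maximalIdeal (Amb 𝒪 d) := by
  apply le_antisymm
  · rw [Ideal.map_le_iff_le_comap]
    intro f hf
    exact (Amb.mk_mem_maximalIdeal_iff 𝒪 d f).mpr hf
  · intro z hz
    obtain ⟨f, rfl⟩ := Amb.mk_surjective 𝒪 d z
    exact Ideal.mem_map_of_mem _ ((Amb.mk_mem_maximalIdeal_iff 𝒪 d f).mp hz)

variable {𝒪}

theorem Amb.x_mem (d : ℕ) (i : Fin d) : Amb.x 𝒪 d i ∈ maximalIdeal (Amb 𝒪 d) := by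
  rw [← Amb.mk_X_inr, Amb.mk_mem_maximalIdeal_iff, mem_maximalIdeal_iff]
  simp

theorem Amb.algebraMap_mem (d : ℕ) {a : 𝒪} (ha : a ∈ maximalIdeal 𝒪) :
    algebraMap 𝒪 (Amb 𝒪 d) a ∈ maximalIdeal (Amb 𝒪 d) := by
  rw [← Amb.mk_C, Amb.mk_mem_maximalIdeal_iff, mem_maximalIdeal_iff]
  simpa using ha

theorem Amb.isLocalHom_algebraMap (d : ℕ) : IsLocalHom (algebraMap 𝒪 (Amb 𝒪 d)) := by
  refine ⟨fun a ha => ?_⟩
  by_contra h
  have : algebraMap 𝒪 (Amb 𝒪 d) a ∈ maximalIdeal (Amb 𝒪 d) := Amb.algebraMap_mem d h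
  exact this ha

theorem Amb.map_varIdeal (d : ℕ) :
    Ideal.map (Amb.mk 𝒪 d) (varIdeal (Idx 𝒪 d) 𝒪) = maximalIdeal (Amb 𝒪 d) := by
  apply le_antisymm
  · rw [← Amb.map_mk_maximalIdeal, maximalIdeal_eq_sup]
    exact Ideal.map_mono le_sup_right
  · rw [← Amb.map_mk_maximalIdeal, maximalIdeal_eq_sup, Ideal.map_sup]
    refine sup_le ?_ le_rfl
    rw [Ideal.map_le_iff_le_comap, Ideal.map_le_iff_le_comap, ← span_gens, Ideal.span_le]
    rintro _ ⟨j, rfl⟩
    rw [SetLike.mem_coe, Ideal.mem_comap, Ideal.mem_comap]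
    have : Amb.mk 𝒪 d (MvPowerSeries.C (gens 𝒪 j)) = Amb.mk 𝒪 d (MvPowerSeries.X (Sum.inl j)) := by
      rw [Amb.mk_X_inl]; rfl
    rw [this]
    exact Ideal.mem_map_of_mem _ (Ideal.subset_span ⟨Sum.inl j, rfl⟩)

theorem Amb.maximalIdeal_eq (d : ℕ) :
    maximalIdeal (Amb 𝒪 d) =
      Ideal.map (algebraMap 𝒪 (Amb 𝒪 d)) (maximalIdeal 𝒪) ⊔ Ideal.span (Set.range (Amb.x 𝒪 d)) := by
  apply le_antisymm
  · rw [← Amb.map_varIdeal]
    unfold varIdeal
    rw [Ideal.map_span, Ideal.span_le]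
    rintro _ ⟨_, ⟨s, rfl⟩, rfl⟩
    cases s with
    | inl j =>
      rw [Amb.mk_X_inl]
      exact Ideal.mem_sup_left (Ideal.mem_map_of_mem _ (gens_mem 𝒪 j))
    | inr i =>
      exact Ideal.mem_sup_right (Ideal.subset_span ⟨i, rfl⟩)
  · refine sup_le ?_ ?_
    · rw [Ideal.map_le_iff_le_comap]
      intro a ha
      exact Amb.algebraMap_mem d ha
    · rw [Ideal.span_le]
      rintro _ ⟨i, rfl⟩
      exact Amb.x_mem d i

theorem Amb.residue_surjective (d : ℕ) :
    Function.Surjective (residue (Amb 𝒪 d) ∘ algebraMap 𝒪 (Amb 𝒪 d)) := by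
  intro z
  obtain ⟨y, rfl⟩ := IsLocalRing.residue_surjective z
  obtain ⟨f, rfl⟩ := Amb.mk_surjective 𝒪 d y
  refine ⟨MvPowerSeries.constantCoeff f, ?_⟩
  simp only [Function.comp_apply]
  rw [← sub_eq_zero, ← map_sub, residue_eq_zero_iff, ← Amb.mk_C, ← map_sub, ← neg_sub,
    map_neg, neg_mem_iff, ← Amb.map_varIdeal]
  exact Ideal.mem_map_of_mem _ (sub_C_constantCoeff_mem f)

variable (𝒪)

instance Amb.instIsAdicComplete [IsAdicComplete (maximalIdeal 𝒪) 𝒪] (d : ℕ) :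
    IsAdicComplete (maximalIdeal (Amb 𝒪 d)) (Amb 𝒪 d) := by
  have h1 : IsAdicComplete (varIdeal (Idx 𝒪 d) 𝒪) (MvPowerSeries (Idx 𝒪 d) 𝒪) := by
    unfold varIdeal; infer_instance
  have h2 : IsAdicComplete (varIdeal (Idx 𝒪 d) 𝒪) (Amb 𝒪 d) :=
    IsAdicComplete.of_module_finite (varIdeal (Idx 𝒪 d) 𝒪) (Amb 𝒪 d)
  have h3 := (IsAdicComplete.map_algebraMap_iff (R := MvPowerSeries (Idx 𝒪 d) 𝒪)
    (S := Amb 𝒪 d) (M := Amb 𝒪 d) (I := varIdeal (Idx 𝒪 d) 𝒪)).mpr h2
  rw [Amb.algebraMapPS_eq] at h3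
  have h4 := Amb.map_varIdeal (𝒪 := 𝒪) d
  rw [← h4]
  exact h3

end Part4

section Part5

variable {𝒪 : Type} [CommRing 𝒪] [IsLocalRing 𝒪] [IsNoetherianRing 𝒪]

theorem Amb.finite_residueField [Finite (ResidueField 𝒪)] (d : ℕ) :
    Finite (ResidueField (Amb 𝒪 d)) := by
  have hloc := Amb.isLocalHom_algebraMap (𝒪 := 𝒪) d
  have hs : Function.Surjective (ResidueField.map (algebraMap 𝒪 (Amb 𝒪 d))) := by
    intro z
    obtain ⟨a, ha⟩ := Amb.residue_surjective (𝒪 := 𝒪) d z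
    exact ⟨residue 𝒪 a, by rw [ResidueField.map_residue]; exact ha⟩
  exact Finite.of_surjective _ hs

/-- `Amb 𝒪 d ⧸ 𝔪^n` is finite when the residue field is. -/
theorem Amb.finite_quotient_pow [Finite (ResidueField 𝒪)] (d n : ℕ) :
    Finite (Amb 𝒪 d ⧸ maximalIdeal (Amb 𝒪 d) ^ n) := by
  have := Amb.finite_residueField (𝒪 := 𝒪) d
  exact IsLocalRing.finite_quotient_iff.mpr ⟨n, le_rfl⟩

section Lift

variable {A : Type} [CommRing A] [IsLocalRing A] [Algebra 𝒪 A]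

/-- the images of the variables of the power series ring -/
noncomputable def liftVal (d : ℕ) (a : Fin d → A) : Idx 𝒪 d → A
  | Sum.inl j => algebraMap 𝒪 A (gens 𝒪 j)
  | Sum.inr i => a i

theorem liftVal_mem (d : ℕ) (hloc : IsLocalHom (algebraMap 𝒪 A)) (a : Fin d → A)
    (ha : ∀ i, a i ∈ maximalIdeal A) (s : Idx 𝒪 d) :
    liftVal (𝒪 := 𝒪) d a s ∈ maximalIdeal A := by
  cases s with
  | inl j =>
    change algebraMap 𝒪 A (gens 𝒪 j) ∈ maximalIdeal A
    rw [mem_maximalIdeal, mem_nonunits_iff]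
    intro h
    exact (gens_mem 𝒪 j) (hloc.map_nonunit _ h)
  | inr i => exact ha i

end Lift

end Part5

section Part6

section PSLift

variable {σ : Type} [Finite σ] {R : Type} [CommRing R] {A : Type} [CommRing A] [Algebra R A]

omit [Finite σ] in
theorem idealOfVars_pow_le_ker (b : σ → A) (𝔞 : Ideal A) (hb : ∀ s, b s ∈ 𝔞) (n : ℕ)
    (hn : 𝔞 ^ n = ⊥) :
    MvPolynomial.idealOfVars σ R ^ n ≤ RingHom.ker (MvPolynomial.aeval b : MvPolynomial σ R →ₐ[R] A) := by
  have h1 : MvPolynomial.idealOfVars σ R ≤ Ideal.comap (MvPolynomial.aeval b : MvPolynomial σ R →ₐ[R] A) 𝔞 := by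
    unfold MvPolynomial.idealOfVars
    rw [Ideal.span_le]
    rintro _ ⟨s, rfl⟩
    simpa using hb s
  calc MvPolynomial.idealOfVars σ R ^ n
      ≤ (Ideal.comap (MvPolynomial.aeval b : MvPolynomial σ R →ₐ[R] A) 𝔞) ^ n := Ideal.pow_right_mono h1 n
    _ ≤ Ideal.comap (MvPolynomial.aeval b : MvPolynomial σ R →ₐ[R] A) (𝔞 ^ n) := Ideal.le_comap_pow _ n
    _ = RingHom.ker (MvPolynomial.aeval b : MvPolynomial σ R →ₐ[R] A) := by rw [hn]; rfl

/-- Evaluation of power series at a family of elements of a nilpotent ideal. -/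
noncomputable def psLift (b : σ → A) (𝔞 : Ideal A) (hb : ∀ s, b s ∈ 𝔞) (n : ℕ)
    (hn : 𝔞 ^ n = ⊥) : MvPowerSeries σ R →ₐ[R] A :=
  (Ideal.Quotient.liftₐ (MvPolynomial.idealOfVars σ R ^ n) (MvPolynomial.aeval b)
    (fun _ hp => idealOfVars_pow_le_ker b 𝔞 hb n hn hp)).comp
    ((MvPowerSeries.truncTotalAlgHom σ R n).restrictScalars R)

theorem psLift_coe (b : σ → A) (𝔞 : Ideal A) (hb : ∀ s, b s ∈ 𝔞) (n : ℕ)
    (hn : 𝔞 ^ n = ⊥) (p : MvPolynomial σ R) :
    psLift b 𝔞 hb n hn (p : MvPowerSeries σ R) = MvPolynomial.aeval b p := by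
  unfold psLift
  rw [AlgHom.comp_apply, AlgHom.restrictScalars_apply, ← algebraMap_coe, AlgHom.commutes]
  rfl

theorem psLift_X (b : σ → A) (𝔞 : Ideal A) (hb : ∀ s, b s ∈ 𝔞) (n : ℕ)
    (hn : 𝔞 ^ n = ⊥) (s : σ) :
    psLift b 𝔞 hb n hn (MvPowerSeries.X s : MvPowerSeries σ R) = b s := by
  rw [← MvPolynomial.coe_X, psLift_coe, MvPolynomial.aeval_X]

/-- Uniqueness: algebra maps out of the power series ring into a ring where the images of the
variables lie in a nilpotent ideal are determined by the images of the variables. -/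
theorem psLift_unique (𝔞 : Ideal A) (n : ℕ) (hn : 𝔞 ^ n = ⊥)
    (Φ Ψ : MvPowerSeries σ R →ₐ[R] A) (hΦ : ∀ s, Φ (MvPowerSeries.X s) ∈ 𝔞)
    (h : ∀ s, Φ (MvPowerSeries.X s) = Ψ (MvPowerSeries.X s)) : Φ = Ψ := by
  have key : ∀ (Θ : MvPowerSeries σ R →ₐ[R] A), (∀ s, Θ (MvPowerSeries.X s) ∈ 𝔞) →
      ∀ f : MvPowerSeries σ R, Θ f = MvPolynomial.aeval (fun s => Θ (MvPowerSeries.X s))
        (MvPowerSeries.truncTotal n f) := by
    intro Θ hΘ f
    have h1 : varIdeal σ R ^ n ≤ RingHom.ker (Θ : MvPowerSeries σ R →+* A) := by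
      have h0 : varIdeal σ R ≤ Ideal.comap (Θ : MvPowerSeries σ R →+* A) 𝔞 := by
        unfold varIdeal
        rw [Ideal.span_le]
        rintro _ ⟨s, rfl⟩
        exact hΘ s
      calc varIdeal σ R ^ n ≤ (Ideal.comap (Θ : MvPowerSeries σ R →+* A) 𝔞) ^ n :=
            Ideal.pow_right_mono h0 n
        _ ≤ Ideal.comap (Θ : MvPowerSeries σ R →+* A) (𝔞 ^ n) := Ideal.le_comap_pow _ n
        _ = RingHom.ker (Θ : MvPowerSeries σ R →+* A) := by rw [hn]; rfl
    have h2 := h1 (sub_truncTotal_mem f n)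
    rw [RingHom.mem_ker, map_sub, sub_eq_zero] at h2
    have h3 : ∀ p : MvPolynomial σ R, Θ (p : MvPowerSeries σ R) =
        MvPolynomial.aeval (fun s => Θ (MvPowerSeries.X s)) p := by
      intro p
      have : (Θ.comp (MvPolynomial.coeToMvPowerSeries.algHom (R := R) (σ := σ) R)) =
          MvPolynomial.aeval (fun s => Θ (MvPowerSeries.X s)) := by
        apply MvPolynomial.algHom_ext
        intro s
        simp [MvPolynomial.coeToMvPowerSeries.algHom_apply]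
      have := congrArg (fun F => F p) this
      simpa [MvPolynomial.coeToMvPowerSeries.algHom_apply] using this
    exact h2.trans (h3 _)
  ext f
  rw [key Φ hΦ f, key Ψ (fun s => h s ▸ hΦ s) f]
  congr 2
  funext s
  exact h s

end PSLift

end Part6

section Part7

variable {𝒪 : Type} [CommRing 𝒪] [IsLocalRing 𝒪] [IsNoetherianRing 𝒪]

section Lift

variable {A : Type} [CommRing A] [IsLocalRing A] [Algebra 𝒪 A]

/-- Mapping property: existence. -/
theorem Amb.exists_lift (d : ℕ) (hloc : IsLocalHom (algebraMap 𝒪 A))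
    (hnil : ∃ n : ℕ, maximalIdeal A ^ n = ⊥) (a : Fin d → A) (ha : ∀ i, a i ∈ maximalIdeal A) :
    ∃ φ : Amb 𝒪 d →ₐ[𝒪] A, ∀ i, φ (Amb.x 𝒪 d i) = a i := by
  obtain ⟨n, hn⟩ := hnil
  have hb := liftVal_mem (𝒪 := 𝒪) d hloc a ha
  set Ψ : MvPowerSeries (Idx 𝒪 d) 𝒪 →ₐ[𝒪] A :=
    psLift (liftVal (𝒪 := 𝒪) d a) (maximalIdeal A) hb n hn with hΨ
  have hker : ∀ f ∈ ambIdeal 𝒪 d, Ψ f = 0 := by
    intro f hf
    have : ambIdeal 𝒪 d ≤ RingHom.ker (Ψ : MvPowerSeries (Idx 𝒪 d) 𝒪 →+* A) := by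
      unfold ambIdeal
      rw [Ideal.span_le]
      rintro _ ⟨j, rfl⟩
      rw [SetLike.mem_coe, RingHom.mem_ker]
      change Ψ (MvPowerSeries.X (Sum.inl j) - MvPowerSeries.C (gens 𝒪 j)) = 0
      rw [map_sub, hΨ, psLift_X]
      have : (MvPowerSeries.C (gens 𝒪 j) : MvPowerSeries (Idx 𝒪 d) 𝒪) =
          algebraMap 𝒪 _ (gens 𝒪 j) := rfl
      rw [this, AlgHom.commutes]
      exact sub_self _
    exact this hf
  refine ⟨Ideal.Quotient.liftₐ (ambIdeal 𝒪 d) Ψ hker, fun i => ?_⟩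
  change Ideal.Quotient.liftₐ (ambIdeal 𝒪 d) Ψ hker
    (Ideal.Quotient.mk (ambIdeal 𝒪 d) (MvPowerSeries.X (Sum.inr i))) = a i
  rw [Ideal.Quotient.liftₐ_apply]
  refine (Ideal.Quotient.lift_mk (ambIdeal 𝒪 d) (Ψ : MvPowerSeries (Idx 𝒪 d) 𝒪 →+* A) hker).trans ?_
  change Ψ (MvPowerSeries.X (Sum.inr i)) = a i
  rw [hΨ, psLift_X]
  rfl

omit [IsLocalRing A] in
/-- An `𝒪`-algebra map from `Amb` sends `mk (X s)` to `liftVal`. -/
theorem Amb.map_mk_X (d : ℕ) (φ : Amb 𝒪 d →ₐ[𝒪] A) (s : Idx 𝒪 d) :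
    φ (Amb.mk 𝒪 d (MvPowerSeries.X s)) = liftVal (𝒪 := 𝒪) d (fun i => φ (Amb.x 𝒪 d i)) s := by
  cases s with
  | inl j => rw [Amb.mk_X_inl, AlgHom.commutes]; rfl
  | inr i => rfl

/-- Mapping property: uniqueness. -/
theorem Amb.lift_unique (d : ℕ) (hloc : IsLocalHom (algebraMap 𝒪 A))
    (hnil : ∃ n : ℕ, maximalIdeal A ^ n = ⊥)
    (φ ψ : Amb 𝒪 d →ₐ[𝒪] A) (hφ : ∀ i, φ (Amb.x 𝒪 d i) ∈ maximalIdeal A)
    (h : ∀ i, φ (Amb.x 𝒪 d i) = ψ (Amb.x 𝒪 d i)) : φ = ψ := by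
  obtain ⟨n, hn⟩ := hnil
  have hcomp : φ.comp (Amb.mk 𝒪 d) = ψ.comp (Amb.mk 𝒪 d) := by
    apply psLift_unique (maximalIdeal A) n hn
    · intro s
      rw [AlgHom.comp_apply, Amb.map_mk_X]
      exact liftVal_mem d hloc _ hφ s
    · intro s
      rw [AlgHom.comp_apply, AlgHom.comp_apply, Amb.map_mk_X, Amb.map_mk_X]
      congr 1
      funext i
      exact h i
  ext z
  obtain ⟨f, rfl⟩ := Amb.mk_surjective 𝒪 d z
  exact congrArg (fun F => F f) hcomp

/-- Any `𝒪`-algebra map to a local `𝒪`-algebra with local structure map sending the variables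
into the maximal ideal is local. -/
theorem Amb.map_maximalIdeal_le (d : ℕ) (hloc : IsLocalHom (algebraMap 𝒪 A))
    (φ : Amb 𝒪 d →ₐ[𝒪] A) (h : ∀ i, φ (Amb.x 𝒪 d i) ∈ maximalIdeal A) :
    Ideal.map φ (maximalIdeal (Amb 𝒪 d)) ≤ maximalIdeal A := by
  rw [Amb.maximalIdeal_eq, Ideal.map_sup]
  refine sup_le ?_ ?_
  · rw [Ideal.map_le_iff_le_comap, Ideal.map_le_iff_le_comap]
    intro a ha
    rw [Ideal.mem_comap, Ideal.mem_comap, AlgHom.commutes, mem_maximalIdeal, mem_nonunits_iff]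
    intro hu
    exact ha (hloc.map_nonunit _ hu)
  · rw [Ideal.map_span, Ideal.span_le]
    rintro _ ⟨_, ⟨i, rfl⟩, rfl⟩
    exact h i

omit [IsLocalRing A] in
theorem Amb.map_maximalIdeal_eq (d : ℕ) (φ : Amb 𝒪 d →ₐ[𝒪] A) :
    Ideal.map φ (maximalIdeal (Amb 𝒪 d)) =
      Ideal.map (algebraMap 𝒪 A) (maximalIdeal 𝒪) ⊔
        Ideal.span (Set.range fun i => φ (Amb.x 𝒪 d i)) := by
  rw [Amb.maximalIdeal_eq, Ideal.map_sup, Ideal.map_span, ← Set.range_comp]
  congr 1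
  apply le_antisymm
  · rw [Ideal.map_le_iff_le_comap, Ideal.map_le_iff_le_comap]
    intro a ha
    rw [Ideal.mem_comap, Ideal.mem_comap, AlgHom.commutes]
    exact Ideal.mem_map_of_mem _ ha
  · rw [Ideal.map_le_iff_le_comap]
    intro a ha
    rw [Ideal.mem_comap, ← AlgHom.commutes φ]
    exact Ideal.mem_map_of_mem _ (Ideal.mem_map_of_mem _ ha)

theorem Amb.isLocalHom_of_map (d : ℕ) (hloc : IsLocalHom (algebraMap 𝒪 A))
    (φ : Amb 𝒪 d →ₐ[𝒪] A) (h : ∀ i, φ (Amb.x 𝒪 d i) ∈ maximalIdeal A) :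
    IsLocalHom (φ : Amb 𝒪 d →+* A) := by
  refine ⟨fun z hz => ?_⟩
  by_contra hzu
  have hz' : z ∈ maximalIdeal (Amb 𝒪 d) := hzu
  have : φ z ∈ maximalIdeal A :=
    Amb.map_maximalIdeal_le d hloc φ h (Ideal.mem_map_of_mem _ hz')
  exact this hz

end Lift

end Part7

section Part8

section Nakayama

variable {A : Type} [CommRing A]

/-- Nakayama for a nilpotent ideal (no finiteness needed). -/
theorem le_of_le_sup_sq_of_pow_eq_bot (I N : Ideal A) (n : ℕ) (hn : I ^ n = ⊥)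
    (h : I ≤ N ⊔ I ^ 2) : I ≤ N := by
  have key : ∀ k : ℕ, I ≤ N ⊔ I ^ (k + 1) := by
    intro k
    induction k with
    | zero => simp
    | succ k ih =>
      have h2 : I ^ 2 ≤ N ⊔ I ^ (k + 1 + 1) := by
        rw [pow_two]
        calc I * I ≤ (N ⊔ I ^ (k + 1)) * I := Ideal.mul_mono_left ih
          _ = N * I ⊔ I ^ (k + 1) * I := Ideal.sup_mul _ _ _
          _ ≤ N ⊔ I ^ (k + 1 + 1) := by
            refine sup_le_sup Ideal.mul_le_left ?_
            rw [pow_succ (I) (k + 1)]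
      exact h.trans (sup_le le_sup_left h2)
  have := key n
  rw [pow_succ, hn, Ideal.bot_mul, sup_bot_eq] at this
  exact this

theorem mem_smul_top_pi_iff' {m : ℕ} (J : Ideal A) (w : Fin m → A) :
    w ∈ J • (⊤ : Submodule A (Fin m → A)) ↔ ∀ i, w i ∈ J := by
  constructor
  · intro h
    refine Submodule.smul_induction_on h ?_ ?_
    · intro r hr v _ i
      simpa using J.mul_mem_right (v i) hr
    · intro x y hx hy i
      simpa using J.add_mem (hx i) (hy i)
  · intro h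
    have : w = ∑ i, w i • (Pi.single i 1 : Fin m → A) := by
      ext j
      simp [Finset.sum_apply, Pi.single_apply]
    rw [this]
    exact Submodule.sum_mem _ fun i _ => Submodule.smul_mem_smul (h i) Submodule.mem_top

theorem isPrecomplete_pi (I : Ideal A) [IsPrecomplete I A] (m : ℕ) :
    IsPrecomplete I (Fin m → A) := by
  constructor
  intro f hf
  have h1 : ∀ j, ∃ L : A, ∀ n, f n j ≡ L [SMOD (I ^ n • ⊤ : Submodule A A)] := by
    intro j
    apply IsPrecomplete.prec' (I := I) (fun n => f n j)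
    intro k l hkl
    have := hf hkl
    rw [SModEq.sub_mem] at this ⊢
    rw [mem_smul_top_pi_iff'] at this
    simpa using this j
  choose L hL using h1
  refine ⟨L, fun n => ?_⟩
  rw [SModEq.sub_mem, mem_smul_top_pi_iff']
  intro j
  have := hL j n
  rw [SModEq.sub_mem] at this
  simpa using this

/-- Nakayama for a complete ring: if `A` is `I`-adically complete, `N ≤ I` is finitely generated
and `I ≤ N ⊔ I ^ 2`, then `I = N`. -/
theorem le_of_le_sup_sq_of_complete (I N : Ideal A) [IsPrecomplete I A] [IsHausdorff I A]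
    (hN : N.FG) (hNI : N ≤ I) (h : I ≤ N ⊔ I ^ 2) : I ≤ N := by
  obtain ⟨m, b, hb⟩ := Submodule.fg_iff_exists_fin_generating_family.mp hN
  set f₀ : (Fin m → A) →ₗ[A] A := Fintype.linearCombination A b with hf₀
  have hrange : LinearMap.range f₀ = N := by
    rw [hf₀, Fintype.range_linearCombination]; exact hb
  have hmem : ∀ c, f₀ c ∈ I := fun c => hNI (hrange ▸ LinearMap.mem_range_self f₀ c)
  set f : (Fin m → A) →ₗ[A] ↥I := f₀.codRestrict I hmem with hf
  have : IsPrecomplete I (Fin m → A) := isPrecomplete_pi I m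
  have : IsHausdorff I ↥I := by
    constructor
    intro x hx
    have hx0 : (x : A) = 0 := by
      apply IsHausdorff.haus' (I := I)
      intro n
      have := hx n
      rw [SModEq.zero] at this ⊢
      rw [Submodule.mem_smul_top_iff] at this
      have h2 : I ^ n • I ≤ I ^ n • (⊤ : Submodule A A) := Submodule.smul_mono le_rfl le_top
      exact h2 this
    exact Subtype.ext hx0
  have hsurj : Function.Surjective ((Submodule.mkQ (I • ⊤ : Submodule A ↥I)) ∘ₗ f) := by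
    intro z
    obtain ⟨y, rfl⟩ := Submodule.mkQ_surjective _ z
    have hy := h y.2
    obtain ⟨n, hn, q, hq, hnq⟩ := Submodule.mem_sup.mp hy
    rw [← hrange] at hn
    obtain ⟨c, rfl⟩ := hn
    refine ⟨c, ?_⟩
    rw [LinearMap.comp_apply, Submodule.mkQ_apply, Submodule.mkQ_apply, eq_comm,
      Submodule.Quotient.eq, Submodule.mem_smul_top_iff]
    have : ((y - f c : ↥I) : A) = q := by
      rw [Submodule.coe_sub, hf, LinearMap.codRestrict_apply, ← hnq]
      ring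
    rw [this]
    rw [pow_two] at hq
    exact hq
  have hf_surj := surjective_of_mkQ_comp_surjective (I := I) (f := f) hsurj
  intro y hy
  obtain ⟨c, hc⟩ := hf_surj ⟨y, hy⟩
  have : f₀ c = y := by
    have := congrArg Subtype.val hc
    simpa [hf] using this
  rw [← hrange, ← this]
  exact LinearMap.mem_range_self f₀ c

end Nakayama

end Part8

section Part9

variable {𝒪 : Type} [CommRing 𝒪] [IsLocalRing 𝒪] [IsNoetherianRing 𝒪]
  [IsAdicComplete (maximalIdeal 𝒪) 𝒪]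

section Surj

variable {A : Type} [CommRing A] [IsLocalRing A] [Algebra 𝒪 A]

/-- Surjectivity criterion, general form: if the residue field of `A` is that of `𝒪`, `A` is
`𝔪_A`-adically separated and `𝔪_A` is generated by `𝔪_𝒪` and the images of the variables, then
`φ` is onto. -/
theorem Amb.surjective_of_maximalIdeal_le (d : ℕ)
    (hres : Function.Surjective (residue A ∘ algebraMap 𝒪 A)) [IsHausdorff (maximalIdeal A) A]
    (φ : Amb 𝒪 d →ₐ[𝒪] A)
    (hle : maximalIdeal A ≤ Ideal.map (algebraMap 𝒪 A) (maximalIdeal 𝒪) ⊔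
      Ideal.span (Set.range fun i => φ (Amb.x 𝒪 d i)))
    (hge : Ideal.map (algebraMap 𝒪 A) (maximalIdeal 𝒪) ⊔
      Ideal.span (Set.range fun i => φ (Amb.x 𝒪 d i)) ≤ maximalIdeal A) :
    Function.Surjective φ := by
  have hmap : Ideal.map (φ : Amb 𝒪 d →+* A) (maximalIdeal (Amb 𝒪 d)) = maximalIdeal A := by
    have := Amb.map_maximalIdeal_eq d φ
    exact le_antisymm (this ▸ hge) (this ▸ hle)
  have : IsHausdorff (Ideal.map (φ : Amb 𝒪 d →+* A) (maximalIdeal (Amb 𝒪 d))) A := by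
    rw [hmap]; infer_instance
  apply surjective_of_mk_map_comp_surjective (I := maximalIdeal (Amb 𝒪 d)) (φ : Amb 𝒪 d →+* A)
  intro z
  obtain ⟨y, rfl⟩ := Ideal.Quotient.mk_surjective z
  obtain ⟨a, ha⟩ := hres (residue A y)
  refine ⟨algebraMap 𝒪 (Amb 𝒪 d) a, ?_⟩
  simp only [RingHom.coe_comp, Function.comp_apply, RingHom.coe_coe, AlgHom.commutes]
  rw [Ideal.Quotient.eq, hmap, ← residue_eq_zero_iff, map_sub, sub_eq_zero]
  exact ha

end Surj

end Part9

section Part10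

section PSLiftComplete

variable {σ : Type} [Finite σ] {R : Type} [CommRing R] {A : Type} [CommRing A] [Algebra R A]

omit [Finite σ] in
theorem map_mk_pow_eq_bot (I : Ideal A) (n : ℕ) :
    (Ideal.map (Ideal.Quotient.mk (I ^ n)) I) ^ n = ⊥ := by
  rw [← Ideal.map_pow, Ideal.map_quotient_self]

/-- the `n`-th level of the evaluation map into a complete ring -/
noncomputable def psLiftLevel (b : σ → A) (I : Ideal A) (hb : ∀ s, b s ∈ I) (n : ℕ) :
    MvPowerSeries σ R →ₐ[R] A ⧸ I ^ n :=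
  psLift (fun s => Ideal.Quotient.mk (I ^ n) (b s)) (Ideal.map (Ideal.Quotient.mk (I ^ n)) I)
    (fun s => Ideal.mem_map_of_mem _ (hb s)) n (map_mk_pow_eq_bot I n)

theorem psLiftLevel_X (b : σ → A) (I : Ideal A) (hb : ∀ s, b s ∈ I) (n : ℕ) (s : σ) :
    psLiftLevel (R := R) b I hb n (MvPowerSeries.X s) = Ideal.Quotient.mk (I ^ n) (b s) :=
  psLift_X _ _ _ _ _ s

theorem psLiftLevel_compat (b : σ → A) (I : Ideal A) (hb : ∀ s, b s ∈ I) {m n : ℕ} (hle : m ≤ n) :
    (Ideal.Quotient.factorₐ R (Ideal.pow_le_pow_right hle)).comp (psLiftLevel (R := R) b I hb n) =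
      psLiftLevel b I hb m := by
  apply psLift_unique (Ideal.map (Ideal.Quotient.mk (I ^ m)) I) m (map_mk_pow_eq_bot I m)
  · intro s
    rw [AlgHom.comp_apply, psLiftLevel_X]
    exact Ideal.mem_map_of_mem _ (hb s)
  · intro s
    rw [AlgHom.comp_apply, psLiftLevel_X, psLiftLevel_X]
    rfl

/-- Evaluation of power series at a family of elements of `I`, for an `I`-adically complete
ring. -/
noncomputable def psLiftComplete (b : σ → A) (I : Ideal A) [IsAdicComplete I A]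
    (hb : ∀ s, b s ∈ I) : MvPowerSeries σ R →ₐ[R] A :=
  IsAdicComplete.liftAlgHom I (psLiftLevel (R := R) b I hb)
    (fun hle => psLiftLevel_compat b I hb hle)

theorem mk_psLiftComplete (b : σ → A) (I : Ideal A) [IsAdicComplete I A]
    (hb : ∀ s, b s ∈ I) (n : ℕ) (f : MvPowerSeries σ R) :
    Ideal.Quotient.mk (I ^ n) (psLiftComplete b I hb f) = psLiftLevel b I hb n f := by
  unfold psLiftComplete
  exact IsAdicComplete.mk_liftAlgHom I _ _ n f

omit [Algebra R A] in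
theorem eq_of_forall_mk_eq (I : Ideal A) [IsHausdorff I A] {x y : A}
    (h : ∀ n, Ideal.Quotient.mk (I ^ n) x = Ideal.Quotient.mk (I ^ n) y) : x = y := by
  rw [← sub_eq_zero]
  apply IsHausdorff.haus' (I := I)
  intro n
  rw [SModEq.zero]
  have := h n
  rw [Ideal.Quotient.eq] at this
  simpa using this

theorem psLiftComplete_X (b : σ → A) (I : Ideal A) [IsAdicComplete I A]
    (hb : ∀ s, b s ∈ I) (s : σ) :
    psLiftComplete (R := R) b I hb (MvPowerSeries.X s) = b s := by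
  apply eq_of_forall_mk_eq I
  intro n
  rw [mk_psLiftComplete, psLiftLevel_X]

/-- Uniqueness for separated targets. -/
theorem psLift_unique_of_isHausdorff (I : Ideal A) [IsHausdorff I A]
    (Φ Ψ : MvPowerSeries σ R →ₐ[R] A) (hΦ : ∀ s, Φ (MvPowerSeries.X s) ∈ I)
    (h : ∀ s, Φ (MvPowerSeries.X s) = Ψ (MvPowerSeries.X s)) : Φ = Ψ := by
  ext f
  apply eq_of_forall_mk_eq I
  intro n
  have := psLift_unique (Ideal.map (Ideal.Quotient.mk (I ^ n)) I) n (map_mk_pow_eq_bot I n)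
    ((Ideal.Quotient.mkₐ R (I ^ n)).comp Φ) ((Ideal.Quotient.mkₐ R (I ^ n)).comp Ψ)
    (fun s => Ideal.mem_map_of_mem _ (hΦ s))
    (fun s => by rw [AlgHom.comp_apply, AlgHom.comp_apply, h s])
  exact congrArg (fun F => F f) this

end PSLiftComplete

end Part10

section Part11

variable {𝒪 : Type} [CommRing 𝒪] [IsLocalRing 𝒪] [IsNoetherianRing 𝒪]

section LiftComplete

variable {A : Type} [CommRing A] [IsLocalRing A] [Algebra 𝒪 A]

/-- Mapping property into complete local rings: existence. -/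
theorem Amb.exists_lift_of_isAdicComplete (d : ℕ) (hloc : IsLocalHom (algebraMap 𝒪 A))
    [IsAdicComplete (maximalIdeal A) A] (a : Fin d → A) (ha : ∀ i, a i ∈ maximalIdeal A) :
    ∃ φ : Amb 𝒪 d →ₐ[𝒪] A, ∀ i, φ (Amb.x 𝒪 d i) = a i := by
  have hb := liftVal_mem (𝒪 := 𝒪) d hloc a ha
  set Ψ : MvPowerSeries (Idx 𝒪 d) 𝒪 →ₐ[𝒪] A :=
    psLiftComplete (liftVal (𝒪 := 𝒪) d a) (maximalIdeal A) hb with hΨ
  have hker : ∀ f ∈ ambIdeal 𝒪 d, Ψ f = 0 := by
    intro f hf
    have : ambIdeal 𝒪 d ≤ RingHom.ker (Ψ : MvPowerSeries (Idx 𝒪 d) 𝒪 →+* A) := by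
      unfold ambIdeal
      rw [Ideal.span_le]
      rintro _ ⟨j, rfl⟩
      rw [SetLike.mem_coe, RingHom.mem_ker]
      change Ψ (MvPowerSeries.X (Sum.inl j) - MvPowerSeries.C (gens 𝒪 j)) = 0
      rw [map_sub, hΨ, psLiftComplete_X]
      have : (MvPowerSeries.C (gens 𝒪 j) : MvPowerSeries (Idx 𝒪 d) 𝒪) =
          algebraMap 𝒪 _ (gens 𝒪 j) := rfl
      rw [this, AlgHom.commutes]
      exact sub_self _
    exact this hf
  refine ⟨Ideal.Quotient.liftₐ (ambIdeal 𝒪 d) Ψ hker, fun i => ?_⟩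
  change Ideal.Quotient.liftₐ (ambIdeal 𝒪 d) Ψ hker
    (Ideal.Quotient.mk (ambIdeal 𝒪 d) (MvPowerSeries.X (Sum.inr i))) = a i
  rw [Ideal.Quotient.liftₐ_apply]
  refine (Ideal.Quotient.lift_mk (ambIdeal 𝒪 d) (Ψ : MvPowerSeries (Idx 𝒪 d) 𝒪 →+* A) hker).trans ?_
  change Ψ (MvPowerSeries.X (Sum.inr i)) = a i
  rw [hΨ, psLiftComplete_X]
  rfl

/-- Mapping property into separated local rings: uniqueness. -/
theorem Amb.lift_unique_of_isHausdorff (d : ℕ) (hloc : IsLocalHom (algebraMap 𝒪 A))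
    [IsHausdorff (maximalIdeal A) A]
    (φ ψ : Amb 𝒪 d →ₐ[𝒪] A) (hφ : ∀ i, φ (Amb.x 𝒪 d i) ∈ maximalIdeal A)
    (h : ∀ i, φ (Amb.x 𝒪 d i) = ψ (Amb.x 𝒪 d i)) : φ = ψ := by
  have hcomp : φ.comp (Amb.mk 𝒪 d) = ψ.comp (Amb.mk 𝒪 d) := by
    apply psLift_unique_of_isHausdorff (maximalIdeal A)
    · intro s
      rw [AlgHom.comp_apply, Amb.map_mk_X]
      exact liftVal_mem d hloc _ hφ s
    · intro s
      rw [AlgHom.comp_apply, AlgHom.comp_apply, Amb.map_mk_X, Amb.map_mk_X]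
      congr 1
      funext i
      exact h i
  ext z
  obtain ⟨f, rfl⟩ := Amb.mk_surjective 𝒪 d z
  exact congrArg (fun F => F f) hcomp

end LiftComplete

section Final

variable [IsAdicComplete (maximalIdeal 𝒪) 𝒪]
variable {A : Type} [CommRing A] [IsLocalRing A] [Algebra 𝒪 A]

omit [IsLocalRing 𝒪] [IsNoetherianRing 𝒪] [IsAdicComplete (maximalIdeal 𝒪) 𝒪] [Algebra 𝒪 A] in
theorem isHausdorff_of_pow_eq_bot (hnil : ∃ n : ℕ, maximalIdeal A ^ n = ⊥) :
    IsHausdorff (maximalIdeal A) A := by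
  obtain ⟨n, hn⟩ := hnil
  constructor
  intro x hx
  have := hx n
  rw [SModEq.zero, hn] at this
  simpa using this

/-- Surjectivity criterion (Nakayama): if `A` has residue field `k`, nilpotent maximal ideal,
and the `a i` generate `𝔪_A` modulo `𝔪_𝒪 A + 𝔪_A²`, then the map is onto. -/
theorem Amb.surjective_of_generate (d : ℕ) (hloc : IsLocalHom (algebraMap 𝒪 A))
    (hres : Function.Surjective (residue A ∘ algebraMap 𝒪 A))
    (hnil : ∃ n : ℕ, maximalIdeal A ^ n = ⊥) (φ : Amb 𝒪 d →ₐ[𝒪] A)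
    (hφ : ∀ i, φ (Amb.x 𝒪 d i) ∈ maximalIdeal A)
    (hgen : maximalIdeal A ≤ Ideal.map (algebraMap 𝒪 A) (maximalIdeal 𝒪) ⊔
      Ideal.span (Set.range fun i => φ (Amb.x 𝒪 d i)) ⊔ maximalIdeal A ^ 2) :
    Function.Surjective φ := by
  have := isHausdorff_of_pow_eq_bot hnil
  have hge : Ideal.map (algebraMap 𝒪 A) (maximalIdeal 𝒪) ⊔
      Ideal.span (Set.range fun i => φ (Amb.x 𝒪 d i)) ≤ maximalIdeal A := by
    rw [← Amb.map_maximalIdeal_eq]
    exact Amb.map_maximalIdeal_le d hloc φ hφ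
  obtain ⟨n, hn⟩ := hnil
  exact Amb.surjective_of_maximalIdeal_le d hres φ
    (le_of_le_sup_sq_of_pow_eq_bot _ _ n hn hgen) hge

/-- COVER: a complete local `𝒪`-algebra with residue field `k` whose maximal ideal is generated
modulo `𝔪_𝒪 A + 𝔪_A²` by `d` elements is a quotient of `Amb 𝒪 d`. -/
theorem Amb.exists_surjective_of_isAdicComplete (d : ℕ) (hloc : IsLocalHom (algebraMap 𝒪 A))
    (hres : Function.Surjective (residue A ∘ algebraMap 𝒪 A))
    [IsAdicComplete (maximalIdeal A) A] (a : Fin d → A) (ha : ∀ i, a i ∈ maximalIdeal A)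
    (hgen : maximalIdeal A ≤ Ideal.map (algebraMap 𝒪 A) (maximalIdeal 𝒪) ⊔
      Ideal.span (Set.range a) ⊔ maximalIdeal A ^ 2) :
    ∃ φ : Amb 𝒪 d →ₐ[𝒪] A, (∀ i, φ (Amb.x 𝒪 d i) = a i) ∧ Function.Surjective φ := by
  obtain ⟨φ, hφ⟩ := Amb.exists_lift_of_isAdicComplete d hloc a ha
  refine ⟨φ, hφ, ?_⟩
  have hrange : (fun i => φ (Amb.x 𝒪 d i)) = a := funext hφ
  have hφ' : ∀ i, φ (Amb.x 𝒪 d i) ∈ maximalIdeal A := fun i => (hφ i).symm ▸ ha i
  have hge : Ideal.map (algebraMap 𝒪 A) (maximalIdeal 𝒪) ⊔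
      Ideal.span (Set.range fun i => φ (Amb.x 𝒪 d i)) ≤ maximalIdeal A := by
    rw [← Amb.map_maximalIdeal_eq]
    exact Amb.map_maximalIdeal_le d hloc φ hφ'
  have hfg : (Ideal.map (algebraMap 𝒪 A) (maximalIdeal 𝒪) ⊔
      Ideal.span (Set.range fun i => φ (Amb.x 𝒪 d i))).FG := by
    refine Submodule.FG.sup ?_ ?_
    · exact Ideal.FG.map (IsNoetherian.noetherian (maximalIdeal 𝒪)) _
    · exact ⟨(Set.finite_range fun i => φ (Amb.x 𝒪 d i)).toFinset, by simp⟩
  refine Amb.surjective_of_maximalIdeal_le d hres φ ?_ hge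
  apply le_of_le_sup_sq_of_complete _ _ hfg hge
  rw [hrange]
  exact hgen

/-- Corollary: such a ring is Noetherian. -/
theorem isNoetherianRing_of_isAdicComplete (d : ℕ) (hloc : IsLocalHom (algebraMap 𝒪 A))
    (hres : Function.Surjective (residue A ∘ algebraMap 𝒪 A))
    [IsAdicComplete (maximalIdeal A) A] (a : Fin d → A) (ha : ∀ i, a i ∈ maximalIdeal A)
    (hgen : maximalIdeal A ≤ Ideal.map (algebraMap 𝒪 A) (maximalIdeal 𝒪) ⊔
      Ideal.span (Set.range a) ⊔ maximalIdeal A ^ 2) :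
    IsNoetherianRing A := by
  obtain ⟨φ, -, hφ⟩ := Amb.exists_surjective_of_isAdicComplete d hloc hres a ha hgen
  exact isNoetherianRing_of_surjective (Amb 𝒪 d) A (φ : Amb 𝒪 d →+* A) hφ

end Final

end Part11

end Fermat.Agent.S53.Ambient
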