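import Mathlib
import Fermat.Prelude.Def_GaloisRep_Adic

/-!
# S53, PKG-A: translation layer between `GaloisRepAdic` / `ResidualGaloisRep` and matrix form

Matrix representations are monoid homs `r : GQ →* Matrix (Fin 2) (Fin 2) A`.
-/

set_option autoImplicit false

open scoped TensorProduct

namespace Fermat.Agent.S53

/-- The absolute Galois group of `ℚ`. -/
abbrev GQ : Type := AlgebraicClosure ℚ ≃ₐ[ℚ] AlgebraicClosure ℚ

/-- `2 × 2` matrices. -/
abbrev M2 (A : Type) : Type := Matrix (Fin 2) (Fin 2) A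

section Basic

variable {A : Type} [CommRing A]

/-- The monoid hom `M2 A →* End (Fin 2 → A)`. -/
noncomputable def toEnd : M2 A →* Module.End A (Fin 2 → A) :=
  ((Matrix.toLinAlgEquiv' : M2 A ≃ₐ[A] Module.End A (Fin 2 → A)) : M2 A →* Module.End A (Fin 2 → A))

@[simp] theorem toEnd_apply (M : M2 A) (v : Fin 2 → A) : toEnd M v = M.mulVec v := rfl

theorem toEnd_injective : Function.Injective (toEnd (A := A)) :=
  (Matrix.toLinAlgEquiv' : M2 A ≃ₐ[A] Module.End A (Fin 2 → A)).injective

/-- A vector all of whose coordinates lie in `I` lies in `I • ⊤`. -/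
theorem mem_smul_top_of_forall_mem (I : Ideal A) (w : Fin 2 → A) (hw : ∀ i, w i ∈ I) :
    w ∈ I • (⊤ : Submodule A (Fin 2 → A)) := by
  have : w = ∑ i, w i • (Pi.single i (1 : A) : Fin 2 → A) := by
    ext j
    simp [Finset.sum_apply, Pi.single_apply]
  rw [this]
  exact Submodule.sum_mem _ fun i _ => Submodule.smul_mem_smul (hw i) Submodule.mem_top

/-- Coordinates (w.r.t. any basis) of an element of `I • ⊤` lie in `I`. -/
theorem repr_mem_of_mem_smul_top {V : Type} [AddCommGroup V] [Module A V] (b : Module.Basis (Fin 2) A V)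
    (I : Ideal A) {x : V} (hx : x ∈ I • (⊤ : Submodule A V)) (i : Fin 2) : b.repr x i ∈ I := by
  refine Submodule.smul_induction_on (p := fun x => b.repr x i ∈ I) hx ?_ ?_
  · intro a ha w _
    simp only [map_smul, Finsupp.coe_smul, Pi.smul_apply, smul_eq_mul]
    exact I.mul_mem_right _ ha
  · intro x y hx hy
    simp only [map_add, Finsupp.coe_add, Pi.add_apply]
    exact I.add_mem hx hy

end Basic


section Adic

variable {A : Type} [CommRing A] [IsLocalRing A]

/-- Adic continuity of a matrix representation: congruent to `1` modulo `𝔪 ^ n` on an open subgroup. -/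
def MatCont (r : GQ →* M2 A) : Prop :=
  ∀ n : ℕ, ∃ L : IntermediateField ℚ (AlgebraicClosure ℚ), FiniteDimensional ℚ L ∧
    ∀ σ : GQ, (∀ x ∈ L, σ x = x) → ∀ i j, (r σ - 1) i j ∈ IsLocalRing.maximalIdeal A ^ n

theorem matCont_toEnd {r : GQ →* M2 A} (h : MatCont r) :
    GaloisActionIsAdicContinuous A (toEnd.comp r) := by
  intro n
  obtain ⟨L, hL, h1⟩ := h n
  refine ⟨L, hL, fun σ hσ v => ?_⟩
  apply mem_smul_top_of_forall_mem
  intro i
  have : (toEnd.comp r) σ v - v = (r σ - 1).mulVec v := by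
    simp [Matrix.sub_mulVec]
  rw [this]
  simp only [Matrix.mulVec, dotProduct]
  exact Ideal.sum_mem _ fun j _ => Ideal.mul_mem_right _ _ (h1 σ hσ i j)

/-- The `GaloisRepAdic` attached to a continuous matrix representation. -/
noncomputable def ofMat (r : GQ →* M2 A) (h : MatCont r) : GaloisRepAdic A where
  V := Fin 2 → A
  finrank_eq := by simp
  ρ := toEnd.comp r
  isAdicContinuous := matCont_toEnd h

@[simp] theorem ofMat_ρ_apply (r : GQ →* M2 A) (h : MatCont r) (σ : GQ) (v : Fin 2 → A) :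
    (ofMat r h).ρ σ v = (r σ).mulVec v := rfl

theorem isEquiv_refl (ρ : GaloisRepAdic A) : ρ.IsEquiv ρ := ⟨GaloisRepAdic.Equiv.refl ρ⟩

theorem isEquiv_symm {ρ₁ ρ₂ : GaloisRepAdic A} (h : ρ₁.IsEquiv ρ₂) : ρ₂.IsEquiv ρ₁ :=
  h.elim fun e => ⟨e.symm⟩

theorem isEquiv_trans {ρ₁ ρ₂ ρ₃ : GaloisRepAdic A} (h : ρ₁.IsEquiv ρ₂) (h' : ρ₂.IsEquiv ρ₃) :
    ρ₁.IsEquiv ρ₃ :=
  h.elim fun e => h'.elim fun e' => ⟨e.trans e'⟩

/-- Every `GaloisRepAdic` is equivalent to one in matrix form. -/
theorem exists_ofMat_isEquiv (ρ : GaloisRepAdic A) :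
    ∃ (r : GQ →* M2 A) (h : MatCont r), ρ.IsEquiv (ofMat r h) := by
  classical
  let b : Module.Basis (Fin 2) A ρ.V := Module.finBasisOfFinrankEq A ρ.V ρ.finrank_eq
  let r : GQ →* M2 A :=
    { toFun := fun σ => LinearMap.toMatrix b b (ρ.ρ σ)
      map_one' := by rw [map_one]; exact LinearMap.toMatrix_one b
      map_mul' := fun σ τ => by rw [map_mul]; exact LinearMap.toMatrix_mul b (ρ.ρ σ) (ρ.ρ τ) }
  have hr : MatCont r := by
    intro n
    obtain ⟨L, hL, h1⟩ := ρ.isAdicContinuous n
    refine ⟨L, hL, fun σ hσ i j => ?_⟩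
    have h2 := repr_mem_of_mem_smul_top b _ (h1 σ hσ (b j)) i
    have : (r σ - 1) i j = b.repr (ρ.ρ σ (b j) - b j) i := by
      show (LinearMap.toMatrix b b (ρ.ρ σ) - 1) i j = _
      rw [Matrix.sub_apply, LinearMap.toMatrix_apply, map_sub, Finsupp.sub_apply,
        Matrix.one_apply, b.repr_self, Finsupp.single_apply]
      congr 1
      by_cases hij : i = j
      · simp [hij]
      · simp [hij, Ne.symm hij]
    rw [this]
    exact h2
  refine ⟨r, hr, ⟨{ toLinearEquiv := b.equivFun, map_apply := fun σ x => ?_ }⟩⟩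
  show b.equivFun (ρ.ρ σ x) = (LinearMap.toMatrix b b (ρ.ρ σ)).mulVec (b.equivFun x)
  exact (LinearMap.toMatrix_mulVec_repr b b (ρ.ρ σ) x).symm

end Adic


section BaseChange

variable {A : Type} [CommRing A] {B : Type} [CommRing B]

/-- Entrywise image of a matrix representation under a ring hom. -/
noncomputable def mapMat (φ : A →+* B) (r : GQ →* M2 A) : GQ →* M2 B :=
  ((φ.mapMatrix : M2 A →+* M2 B) : M2 A →* M2 B).comp r

@[simp] theorem mapMat_apply (φ : A →+* B) (r : GQ →* M2 A) (σ : GQ) (i j : Fin 2) :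
    mapMat φ r σ i j = φ (r σ i j) := rfl

theorem mapMat_apply' (φ : A →+* B) (r : GQ →* M2 A) (σ : GQ) :
    mapMat φ r σ = (r σ).map φ := rfl

theorem mapMat_id (r : GQ →* M2 A) : mapMat (RingHom.id A) r = r := by
  ext σ i j; rfl

theorem mapMat_comp {C : Type} [CommRing C] (ψ : B →+* C) (φ : A →+* B) (r : GQ →* M2 A) :
    mapMat (ψ.comp φ) r = mapMat ψ (mapMat φ r) := by
  ext σ i j; rfl

/-- Generic computation: for any algebra `B` over `A`, `B ⊗ (Fin 2 → A) ≃ (Fin 2 → B)` intertwines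
the base change of `toEnd M` with `toEnd (M.map (algebraMap A B))`. -/
theorem piScalarRight_baseChange [Algebra A B] (M : M2 A) (x : B ⊗[A] (Fin 2 → A)) :
    TensorProduct.piScalarRight A B B (Fin 2) ((toEnd M).baseChange B x) =
      (M.map (algebraMap A B)).mulVec (TensorProduct.piScalarRight A B B (Fin 2) x) := by
  induction x using TensorProduct.induction_on with
  | zero => simp
  | tmul b v =>
    rw [LinearMap.baseChange_tmul, TensorProduct.piScalarRight_apply,
      TensorProduct.piScalarRightHom_tmul, TensorProduct.piScalarRight_apply,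
      TensorProduct.piScalarRightHom_tmul]
    ext i
    simp only [toEnd_apply, Matrix.mulVec, dotProduct, Matrix.map_apply, Algebra.smul_def,
      map_sum, map_mul, Finset.sum_mul]
    refine Finset.sum_congr rfl fun j _ => ?_
    ring
  | add x y hx hy => simp only [map_add, hx, hy, Matrix.mulVec_add]

end BaseChange


section BaseChangeAdic

variable {A : Type} [CommRing A] [IsLocalRing A] {B : Type} [CommRing B] [IsLocalRing B]

theorem map_maximalIdeal_pow_le (φ : A →+* B) (hφ : IsLocalHom φ) (n : ℕ) {a : A}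
    (ha : a ∈ IsLocalRing.maximalIdeal A ^ n) : φ a ∈ IsLocalRing.maximalIdeal B ^ n := by
  have hmap : (IsLocalRing.maximalIdeal A ^ n).map φ ≤ IsLocalRing.maximalIdeal B ^ n := by
    rw [Ideal.map_pow]
    exact Ideal.pow_right_mono (Ideal.map_le_iff_le_comap.mpr fun a ha =>
      Ideal.mem_comap.mpr (haveI := hφ; map_nonunit φ a ha)) n
  exact hmap (Ideal.mem_map_of_mem φ ha)

theorem MatCont.map {r : GQ →* M2 A} (h : MatCont r) (φ : A →+* B) (hφ : IsLocalHom φ) :
    MatCont (mapMat φ r) := by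
  intro n
  obtain ⟨L, hL, h1⟩ := h n
  refine ⟨L, hL, fun σ hσ i j => ?_⟩
  have : (mapMat φ r σ - 1) i j = φ ((r σ - 1) i j) := by
    simp only [Matrix.sub_apply, mapMat_apply, map_sub, Matrix.one_apply]
    split_ifs <;> simp
  rw [this]
  exact map_maximalIdeal_pow_le φ hφ n (h1 σ hσ i j)

/-- Base change of a matrix-form representation is the entrywise image. -/
theorem ofMat_baseChangeAlong (r : GQ →* M2 A) (h : MatCont r) (φ : A →+* B) (hφ : IsLocalHom φ) :
    ((ofMat r h).baseChangeAlong φ hφ).IsEquiv (ofMat (mapMat φ r) (h.map φ hφ)) := by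
  let _ : Algebra A B := φ.toAlgebra
  refine ⟨{ toLinearEquiv := TensorProduct.piScalarRight A B B (Fin 2), map_apply := fun σ x => ?_ }⟩
  exact piScalarRight_baseChange (r σ) x

end BaseChangeAdic


section Conj

variable {A : Type} [CommRing A]

/-- A linear automorphism of `Fin 2 → A` as an invertible matrix. -/
noncomputable def unitOfLinearEquiv (e : (Fin 2 → A) ≃ₗ[A] (Fin 2 → A)) : (M2 A)ˣ where
  val := LinearMap.toMatrix' (e : (Fin 2 → A) →ₗ[A] (Fin 2 → A))
  inv := LinearMap.toMatrix' (e.symm : (Fin 2 → A) →ₗ[A] (Fin 2 → A))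
  val_inv := by
    rw [← LinearMap.toMatrix'_comp, LinearEquiv.comp_coe, LinearEquiv.symm_trans_self,
      LinearEquiv.refl_toLinearMap, LinearMap.toMatrix'_id]
  inv_val := by
    rw [← LinearMap.toMatrix'_comp, LinearEquiv.comp_coe, LinearEquiv.self_trans_symm,
      LinearEquiv.refl_toLinearMap, LinearMap.toMatrix'_id]

theorem unitOfLinearEquiv_mulVec (e : (Fin 2 → A) ≃ₗ[A] (Fin 2 → A)) (v : Fin 2 → A) :
    (unitOfLinearEquiv e : M2 A).mulVec v = e v := by
  show (LinearMap.toMatrix' (e : (Fin 2 → A) →ₗ[A] (Fin 2 → A))).mulVec v = e v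
  rw [← Matrix.toLin'_apply, Matrix.toLin'_toMatrix']
  rfl

/-- An invertible matrix as a linear automorphism of `Fin 2 → A`. -/
noncomputable def linearEquivOfUnit (M : (M2 A)ˣ) : (Fin 2 → A) ≃ₗ[A] (Fin 2 → A) where
  toFun v := (M : M2 A).mulVec v
  invFun v := ((M⁻¹ : (M2 A)ˣ) : M2 A).mulVec v
  map_add' v w := Matrix.mulVec_add _ v w
  map_smul' c v := Matrix.mulVec_smul _ c v
  left_inv v := by
    show ((M⁻¹ : (M2 A)ˣ) : M2 A).mulVec ((M : M2 A).mulVec v) = v
    rw [Matrix.mulVec_mulVec, Units.inv_mul, Matrix.one_mulVec]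
  right_inv v := by
    show (M : M2 A).mulVec (((M⁻¹ : (M2 A)ˣ) : M2 A).mulVec v) = v
    rw [Matrix.mulVec_mulVec, Units.mul_inv, Matrix.one_mulVec]

@[simp] theorem linearEquivOfUnit_apply (M : (M2 A)ˣ) (v : Fin 2 → A) :
    linearEquivOfUnit M v = (M : M2 A).mulVec v := rfl

/-- Two matrices with the same action on all vectors are equal. -/
theorem eq_of_mulVec_eq {M N : M2 A} (h : ∀ v : Fin 2 → A, M.mulVec v = N.mulVec v) : M = N := by
  apply toEnd_injective
  apply LinearMap.ext
  intro v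
  exact h v

end Conj

section ConjAdic

variable {A : Type} [CommRing A] [IsLocalRing A]

/-- Build an equivalence of matrix-form representations from a linear automorphism. -/
noncomputable def equivOfLinearEquiv {r r' : GQ →* M2 A} (h : MatCont r) (h' : MatCont r')
    (e : (Fin 2 → A) ≃ₗ[A] (Fin 2 → A))
    (he : ∀ (g : GQ) (v : Fin 2 → A), e ((r g).mulVec v) = (r' g).mulVec (e v)) :
    GaloisRepAdic.Equiv (ofMat r h) (ofMat r' h') where
  toLinearEquiv := e
  map_apply := he

/-- Extract the linear automorphism from an equivalence of matrix-form representations. -/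
theorem exists_linearEquiv_of_equiv {r r' : GQ →* M2 A} {h : MatCont r} {h' : MatCont r'}
    (E : GaloisRepAdic.Equiv (ofMat r h) (ofMat r' h')) :
    ∃ e : (Fin 2 → A) ≃ₗ[A] (Fin 2 → A),
      ∀ (g : GQ) (v : Fin 2 → A), e ((r g).mulVec v) = (r' g).mulVec (e v) :=
  ⟨E.toLinearEquiv, E.map_apply⟩

/-- Equivalence of matrix-form representations is conjugacy. -/
theorem ofMat_isEquiv_iff {r r' : GQ →* M2 A} {h : MatCont r} {h' : MatCont r'} :
    (ofMat r h).IsEquiv (ofMat r' h') ↔
      ∃ M : (M2 A)ˣ, ∀ g : GQ, (M : M2 A) * r g = r' g * (M : M2 A) := by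
  constructor
  · rintro ⟨E⟩
    obtain ⟨e, he⟩ := exists_linearEquiv_of_equiv E
    refine ⟨unitOfLinearEquiv e, fun g => eq_of_mulVec_eq fun v => ?_⟩
    rw [← Matrix.mulVec_mulVec, ← Matrix.mulVec_mulVec, unitOfLinearEquiv_mulVec,
      unitOfLinearEquiv_mulVec]
    exact he g v
  · rintro ⟨M, hM⟩
    refine ⟨equivOfLinearEquiv h h' (linearEquivOfUnit M) fun g v => ?_⟩
    rw [linearEquivOfUnit_apply, linearEquivOfUnit_apply, Matrix.mulVec_mulVec,
      Matrix.mulVec_mulVec, hM g]

end ConjAdic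


section Residual

variable {k : Type} [Field k]

/-- The `ResidualGaloisRep` attached to a matrix representation over a field. -/
noncomputable def ofMatRes (rb : GQ →* M2 k) (h : GaloisFactorsThroughFiniteLevel rb) :
    ResidualGaloisRep k where
  V := Fin 2 → k
  finrank_eq := by simp
  ρ := toEnd.comp rb
  factorsThroughFiniteLevel := by
    obtain ⟨L, hL, h1⟩ := h
    exact ⟨L, hL, fun σ hσ => by rw [MonoidHom.comp_apply, h1 σ hσ, map_one]⟩

@[simp] theorem ofMatRes_ρ_apply (rb : GQ →* M2 k) (h : GaloisFactorsThroughFiniteLevel rb)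
    (σ : GQ) (v : Fin 2 → k) : (ofMatRes rb h).ρ σ v = (rb σ).mulVec v := rfl

theorem resIsEquiv_refl (ρ : ResidualGaloisRep k) : ρ.IsEquiv ρ := ⟨ResidualGaloisRep.Equiv.refl ρ⟩

theorem resIsEquiv_symm {ρ₁ ρ₂ : ResidualGaloisRep k} (h : ρ₁.IsEquiv ρ₂) : ρ₂.IsEquiv ρ₁ :=
  h.elim fun e => ⟨e.symm⟩

theorem resIsEquiv_trans {ρ₁ ρ₂ ρ₃ : ResidualGaloisRep k} (h : ρ₁.IsEquiv ρ₂)
    (h' : ρ₂.IsEquiv ρ₃) : ρ₁.IsEquiv ρ₃ :=
  h.elim fun e => h'.elim fun e' => ⟨e.trans e'⟩

/-- A matrix representation over a field factoring through a finite level is adically continuous. -/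
theorem matCont_of_factors {rb : GQ →* M2 k} (h : GaloisFactorsThroughFiniteLevel rb) :
    MatCont rb := by
  intro n
  obtain ⟨L, hL, h1⟩ := h
  refine ⟨L, hL, fun σ hσ i j => ?_⟩
  rw [h1 σ hσ, sub_self]
  exact Ideal.zero_mem _

/-- Over a field, adic continuity is the same as factoring through a finite level. -/
theorem factors_of_matCont {rb : GQ →* M2 k} (h : MatCont rb) :
    GaloisFactorsThroughFiniteLevel rb := by
  obtain ⟨L, hL, h1⟩ := h 1
  refine ⟨L, hL, fun σ hσ => ?_⟩
  have hbot : IsLocalRing.maximalIdeal k = ⊥ :=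
    (Ideal.eq_bot_or_top _).resolve_right (Ideal.IsMaximal.ne_top inferInstance)
  ext i j
  have := h1 σ hσ i j
  rw [hbot, pow_one, Ideal.mem_bot, Matrix.sub_apply, sub_eq_zero] at this
  exact this

theorem ofResidualGaloisRep_ofMatRes (rb : GQ →* M2 k) (h : GaloisFactorsThroughFiniteLevel rb) :
    GaloisRepAdic.ofResidualGaloisRep (ofMatRes rb h) = ofMat rb (matCont_of_factors h) := rfl

/-- Every `ResidualGaloisRep` is equivalent to one in matrix form. -/
theorem exists_ofMatRes_isEquiv (ρ : ResidualGaloisRep k) :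
    ∃ (rb : GQ →* M2 k) (h : GaloisFactorsThroughFiniteLevel rb), ρ.IsEquiv (ofMatRes rb h) := by
  classical
  let b : Module.Basis (Fin 2) k ρ.V := Module.finBasisOfFinrankEq k ρ.V ρ.finrank_eq
  let rb : GQ →* M2 k :=
    { toFun := fun σ => LinearMap.toMatrix b b (ρ.ρ σ)
      map_one' := by rw [map_one]; exact LinearMap.toMatrix_one b
      map_mul' := fun σ τ => by rw [map_mul]; exact LinearMap.toMatrix_mul b (ρ.ρ σ) (ρ.ρ τ) }
  have hrb : GaloisFactorsThroughFiniteLevel rb := by
    obtain ⟨L, hL, h1⟩ := ρ.factorsThroughFiniteLevel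
    refine ⟨L, hL, fun σ hσ => ?_⟩
    show LinearMap.toMatrix b b (ρ.ρ σ) = 1
    rw [h1 σ hσ]
    exact LinearMap.toMatrix_one b
  refine ⟨rb, hrb, ⟨{ toLinearEquiv := b.equivFun, map_apply := fun σ x => ?_ }⟩⟩
  show b.equivFun (ρ.ρ σ x) = (LinearMap.toMatrix b b (ρ.ρ σ)).mulVec (b.equivFun x)
  exact (LinearMap.toMatrix_mulVec_repr b b (ρ.ρ σ) x).symm

/-- Build an equivalence of matrix-form residual representations from a linear automorphism. -/
noncomputable def resEquivOfLinearEquiv {rb rb' : GQ →* M2 k}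
    (h : GaloisFactorsThroughFiniteLevel rb) (h' : GaloisFactorsThroughFiniteLevel rb')
    (e : (Fin 2 → k) ≃ₗ[k] (Fin 2 → k))
    (he : ∀ (g : GQ) (v : Fin 2 → k), e ((rb g).mulVec v) = (rb' g).mulVec (e v)) :
    ResidualGaloisRep.Equiv (ofMatRes rb h) (ofMatRes rb' h') where
  toLinearEquiv := e
  map_apply := he

theorem exists_linearEquiv_of_resEquiv {rb rb' : GQ →* M2 k}
    {h : GaloisFactorsThroughFiniteLevel rb} {h' : GaloisFactorsThroughFiniteLevel rb'}
    (E : ResidualGaloisRep.Equiv (ofMatRes rb h) (ofMatRes rb' h')) :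
    ∃ e : (Fin 2 → k) ≃ₗ[k] (Fin 2 → k),
      ∀ (g : GQ) (v : Fin 2 → k), e ((rb g).mulVec v) = (rb' g).mulVec (e v) :=
  ⟨E.toLinearEquiv, E.map_apply⟩

/-- Equivalence of matrix-form residual representations is conjugacy. -/
theorem ofMatRes_isEquiv_iff {rb rb' : GQ →* M2 k}
    {h : GaloisFactorsThroughFiniteLevel rb} {h' : GaloisFactorsThroughFiniteLevel rb'} :
    (ofMatRes rb h).IsEquiv (ofMatRes rb' h') ↔
      ∃ M : (M2 k)ˣ, ∀ g : GQ, (M : M2 k) * rb g = rb' g * (M : M2 k) := by
  constructor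
  · rintro ⟨E⟩
    obtain ⟨e, he⟩ := exists_linearEquiv_of_resEquiv E
    refine ⟨unitOfLinearEquiv e, fun g => eq_of_mulVec_eq fun v => ?_⟩
    rw [← Matrix.mulVec_mulVec, ← Matrix.mulVec_mulVec, unitOfLinearEquiv_mulVec,
      unitOfLinearEquiv_mulVec]
    exact he g v
  · rintro ⟨M, hM⟩
    refine ⟨resEquivOfLinearEquiv h h' (linearEquivOfUnit M) fun g v => ?_⟩
    rw [linearEquivOfUnit_apply, linearEquivOfUnit_apply, Matrix.mulVec_mulVec,
      Matrix.mulVec_mulVec, hM g]

theorem factors_mapMat {k' : Type} [Field k'] (ψ : k →+* k') {rb : GQ →* M2 k}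
    (h : GaloisFactorsThroughFiniteLevel rb) : GaloisFactorsThroughFiniteLevel (mapMat ψ rb) := by
  obtain ⟨L, hL, h1⟩ := h
  refine ⟨L, hL, fun σ hσ => ?_⟩
  rw [mapMat_apply', h1 σ hσ]
  simp

/-- Base change of a matrix-form residual representation is the entrywise image. -/
theorem ofMatRes_baseChangeAlong {k' : Type} [Field k'] (ψ : k →+* k') (rb : GQ →* M2 k)
    (h : GaloisFactorsThroughFiniteLevel rb) :
    ((ofMatRes rb h).baseChangeAlong ψ).IsEquiv (ofMatRes (mapMat ψ rb) (factors_mapMat ψ h)) := by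
  let _ : Algebra k k' := ψ.toAlgebra
  refine ⟨{ toLinearEquiv := TensorProduct.piScalarRight k k' k' (Fin 2),
            map_apply := fun σ x => ?_ }⟩
  exact piScalarRight_baseChange (rb σ) x

end Residual


section ResidualOfAdic

variable {A : Type} [CommRing A] [IsLocalRing A]

theorem factors_mapMat_residue {r : GQ →* M2 A} (h : MatCont r) :
    GaloisFactorsThroughFiniteLevel (mapMat (IsLocalRing.residue A) r) := by
  obtain ⟨L, hL, h1⟩ := h 1
  refine ⟨L, hL, fun σ hσ => ?_⟩
  ext i j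
  have h2 := h1 σ hσ i j
  rw [pow_one, ← IsLocalRing.residue_eq_zero_iff, Matrix.sub_apply, map_sub, sub_eq_zero] at h2
  rw [mapMat_apply, h2, Matrix.one_apply, Matrix.one_apply]
  split_ifs <;> simp

/-- The residual representation of a matrix-form representation is the entrywise reduction. -/
theorem residual_ofMat (r : GQ →* M2 A) (h : MatCont r) :
    (ofMat r h).residual.IsEquiv
      (ofMatRes (mapMat (IsLocalRing.residue A) r) (factors_mapMat_residue h)) := by
  refine ⟨{ toLinearEquiv :=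
              TensorProduct.piScalarRight A (IsLocalRing.ResidueField A)
                (IsLocalRing.ResidueField A) (Fin 2),
            map_apply := fun σ x => ?_ }⟩
  exact piScalarRight_baseChange (r σ) x

end ResidualOfAdic


section Lifting

variable {A : Type} [CommRing A] {B : Type} [CommRing B]

/-- Invertible matrices lift along surjective local homomorphisms. -/
theorem exists_unit_map_eq (φ : A →+* B) (hφ : Function.Surjective φ) [IsLocalHom φ]
    (N : (M2 B)ˣ) : ∃ M : (M2 A)ˣ, (M : M2 A).map φ = (N : M2 B) := by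
  choose f hf using hφ
  let M0 : M2 A := Matrix.of fun i j => f ((N : M2 B) i j)
  have hM0 : M0.map φ = (N : M2 B) := by
    ext i j
    simp [M0, hf]
  have hdet : IsUnit M0.det := by
    have h1 : φ M0.det = (N : M2 B).det := by
      rw [RingHom.map_det, RingHom.mapMatrix_apply, hM0]
    have h2 : IsUnit (N : M2 B).det := (Matrix.isUnit_iff_isUnit_det _).mp N.isUnit
    rw [← h1] at h2
    exact isUnit_of_map_unit φ _ h2
  have hM0u : IsUnit M0 := (Matrix.isUnit_iff_isUnit_det _).mpr hdet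
  exact ⟨hM0u.unit, by rw [IsUnit.unit_spec]; exact hM0⟩

/-- Conjugate of a matrix representation by an invertible matrix. -/
noncomputable def conjMat (M : (M2 A)ˣ) (r : GQ →* M2 A) : GQ →* M2 A where
  toFun g := (M : M2 A) * r g * ((M⁻¹ : (M2 A)ˣ) : M2 A)
  map_one' := by rw [map_one, mul_one, Units.mul_inv]
  map_mul' g g' := by
    rw [map_mul]
    calc (M : M2 A) * (r g * r g') * ((M⁻¹ : (M2 A)ˣ) : M2 A)
        = (M : M2 A) * r g * (((M⁻¹ : (M2 A)ˣ) : M2 A) * (M : M2 A)) * r g' *
            ((M⁻¹ : (M2 A)ˣ) : M2 A) := by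
          rw [Units.inv_mul, mul_one]; simp only [mul_assoc]
      _ = _ := by simp only [mul_assoc]

theorem conjMat_apply (M : (M2 A)ˣ) (r : GQ →* M2 A) (g : GQ) :
    conjMat M r g = (M : M2 A) * r g * ((M⁻¹ : (M2 A)ˣ) : M2 A) := rfl

theorem conjMat_mul_eq (M : (M2 A)ˣ) (r : GQ →* M2 A) (g : GQ) :
    (M : M2 A) * r g = conjMat M r g * (M : M2 A) := by
  rw [conjMat_apply, mul_assoc, Units.inv_mul, mul_one]

theorem mapMat_conjMat (φ : A →+* B) (M : (M2 A)ˣ) (r : GQ →* M2 A) :
    mapMat φ (conjMat M r) = conjMat (Units.map ((φ.mapMatrix : M2 A →+* M2 B) : M2 A →* M2 B) M) (mapMat φ r) := by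
  ext g : 1
  show φ.mapMatrix ((M : M2 A) * r g * ((M⁻¹ : (M2 A)ˣ) : M2 A)) = _
  rw [map_mul, map_mul, conjMat_apply]
  rfl

/-- If `M * r g = r' g * M` for all `g` then `r' = conjMat M r`. -/
theorem eq_conjMat_of_mul_eq {M : (M2 A)ˣ} {r r' : GQ →* M2 A}
    (h : ∀ g, (M : M2 A) * r g = r' g * (M : M2 A)) : r' = conjMat M r := by
  ext g : 1
  rw [conjMat_apply, h g, mul_assoc, Units.mul_inv, mul_one]

/-- Entries of a product `P * X * Q` lie in an ideal if the entries of `X` do. -/
theorem mul_mul_apply_mem (I : Ideal A) (P X Q : M2 A) (hX : ∀ i j, X i j ∈ I) (i j : Fin 2) :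
    (P * X * Q) i j ∈ I := by
  rw [Matrix.mul_apply]
  refine Ideal.sum_mem _ fun l _ => Ideal.mul_mem_right _ _ ?_
  rw [Matrix.mul_apply]
  exact Ideal.sum_mem _ fun l' _ => Ideal.mul_mem_left _ _ (hX l' l)

end Lifting

section LiftingAdic

variable {A : Type} [CommRing A] [IsLocalRing A]

theorem MatCont.conj {r : GQ →* M2 A} (h : MatCont r) (M : (M2 A)ˣ) : MatCont (conjMat M r) := by
  intro n
  obtain ⟨L, hL, h1⟩ := h n
  refine ⟨L, hL, fun σ hσ i j => ?_⟩
  have : conjMat M r σ - 1 = (M : M2 A) * (r σ - 1) * ((M⁻¹ : (M2 A)ˣ) : M2 A) := by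
    rw [conjMat_apply, mul_sub, sub_mul, mul_one, Units.mul_inv]
  rw [this]
  exact mul_mul_apply_mem _ _ _ _ (h1 σ hσ) i j

theorem ofMat_isEquiv_conjMat (r : GQ →* M2 A) (h : MatCont r) (M : (M2 A)ˣ) :
    (ofMat r h).IsEquiv (ofMat (conjMat M r) (h.conj M)) :=
  ofMat_isEquiv_iff.mpr ⟨M, conjMat_mul_eq M r⟩

/-- A representation whose residual representation is (a base change of) a given matrix-form
residual representation is equivalent to a matrix-form representation reducing **exactly**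
to the given one. -/
theorem exists_ofMat_isEquiv_of_residual {k : Type} [Field k] (ρ : GaloisRepAdic A)
    (rb : GQ →* M2 k) (hrb : GaloisFactorsThroughFiniteLevel rb)
    (ψ : k →+* IsLocalRing.ResidueField A)
    (hres : ρ.residual.IsEquiv ((ofMatRes rb hrb).baseChangeAlong ψ)) :
    ∃ (r : GQ →* M2 A) (hr : MatCont r), ρ.IsEquiv (ofMat r hr) ∧
      ∀ g i j, IsLocalRing.residue A (r g i j) = ψ (rb g i j) := by
  obtain ⟨r0, h0, ⟨E0⟩⟩ := exists_ofMat_isEquiv ρ
  have e1 : (ofMat r0 h0).residual.IsEquiv ρ.residual := ⟨E0.symm.residual⟩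
  have e2 := resIsEquiv_trans e1 (resIsEquiv_trans hres (ofMatRes_baseChangeAlong ψ rb hrb))
  have e3 := resIsEquiv_trans (resIsEquiv_symm (residual_ofMat r0 h0)) e2
  obtain ⟨Nbar, hN⟩ := ofMatRes_isEquiv_iff.mp e3
  obtain ⟨M, hM⟩ := exists_unit_map_eq (IsLocalRing.residue A) IsLocalRing.residue_surjective Nbar
  refine ⟨conjMat M r0, h0.conj M, isEquiv_trans ⟨E0⟩ (ofMat_isEquiv_conjMat r0 h0 M), ?_⟩
  have hM' : Units.map (((IsLocalRing.residue A).mapMatrix : M2 A →+* M2 _) : M2 A →* M2 _) M = Nbar := by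
    ext1
    exact hM
  have key : mapMat (IsLocalRing.residue A) (conjMat M r0) = mapMat ψ rb := by
    rw [mapMat_conjMat, hM']
    exact (eq_conjMat_of_mul_eq hN).symm
  intro g i j
  have := congrArg (fun (s : GQ →* M2 (IsLocalRing.ResidueField A)) => s g i j) key
  simpa using this

end LiftingAdic


section SchurField

variable {k : Type} [Field k]

/-- Base change (w.r.t. an `Algebra` instance) of a matrix-form residual representation. -/
theorem ofMatRes_baseChange {k' : Type} [Field k'] [Algebra k k'] (rb : GQ →* M2 k)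
    (h : GaloisFactorsThroughFiniteLevel rb) :
    ((ofMatRes rb h).baseChange k').IsEquiv
      (ofMatRes (mapMat (algebraMap k k') rb) (factors_mapMat (algebraMap k k') h)) := by
  refine ⟨{ toLinearEquiv := TensorProduct.piScalarRight k k' k' (Fin 2),
            map_apply := fun σ x => ?_ }⟩
  exact piScalarRight_baseChange (rb σ) x

theorem ofResidualGaloisRep_isEquiv {ρ₁ ρ₂ : ResidualGaloisRep k} (h : ρ₁.IsEquiv ρ₂) :
    (GaloisRepAdic.ofResidualGaloisRep ρ₁).IsEquiv (GaloisRepAdic.ofResidualGaloisRep ρ₂) :=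
  h.elim fun e => ⟨{ toLinearEquiv := e.toLinearEquiv, map_apply := e.map_apply }⟩

/-- Irreducibility is invariant under equivalence. -/
theorem isIrreducible_of_isEquiv {ρ₁ ρ₂ : ResidualGaloisRep k} (h : ρ₁.IsEquiv ρ₂)
    (h1 : ρ₁.IsIrreducible) : ρ₂.IsIrreducible := by
  obtain ⟨e⟩ := h
  intro W hW
  have hW' : ∀ σ : GQ, ∀ x ∈ W.comap (e.toLinearEquiv : ρ₁.V →ₗ[k] ρ₂.V),
      ρ₁.ρ σ x ∈ W.comap (e.toLinearEquiv : ρ₁.V →ₗ[k] ρ₂.V) := by
    intro σ x hx
    rw [Submodule.mem_comap] at hx ⊢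
    rw [LinearEquiv.coe_coe, e.map_apply]
    exact hW σ _ hx
  rcases h1 _ hW' with h0 | h0
  · left
    rw [eq_bot_iff]
    intro y hy
    have : e.toLinearEquiv.symm y ∈ W.comap (e.toLinearEquiv : ρ₁.V →ₗ[k] ρ₂.V) := by
      rw [Submodule.mem_comap, LinearEquiv.coe_coe, LinearEquiv.apply_symm_apply]; exact hy
    rw [h0, Submodule.mem_bot] at this
    rw [Submodule.mem_bot, ← e.toLinearEquiv.apply_symm_apply y, this, map_zero]
  · right
    rw [eq_top_iff]
    intro y _
    have : e.toLinearEquiv.symm y ∈ W.comap (e.toLinearEquiv : ρ₁.V →ₗ[k] ρ₂.V) := by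
      rw [h0]; exact Submodule.mem_top
    rw [Submodule.mem_comap, LinearEquiv.coe_coe, LinearEquiv.apply_symm_apply] at this
    exact this

/-- Absolute irreducibility is invariant under equivalence. -/
theorem isAbsolutelyIrreducible_of_isEquiv {ρ₁ ρ₂ : ResidualGaloisRep k} (h : ρ₁.IsEquiv ρ₂)
    (h1 : ρ₁.IsAbsolutelyIrreducible) : ρ₂.IsAbsolutelyIrreducible := by
  obtain ⟨e⟩ := h
  refine isIrreducible_of_isEquiv ?_ h1
  exact ⟨{ toLinearEquiv := e.toLinearEquiv.baseChange k (AlgebraicClosure k) ρ₁.V ρ₂.V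
           map_apply := fun σ x => by
            show e.toLinearEquiv.baseChange k (AlgebraicClosure k) ρ₁.V ρ₂.V
                ((ρ₁.ρ σ).baseChange (AlgebraicClosure k) x) =
              (ρ₂.ρ σ).baseChange (AlgebraicClosure k)
                (e.toLinearEquiv.baseChange k (AlgebraicClosure k) ρ₁.V ρ₂.V x)
            induction x using TensorProduct.induction_on with
            | zero => simp only [map_zero]
            | tmul b v =>
              rw [LinearMap.baseChange_tmul, LinearEquiv.baseChange_tmul,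
                LinearEquiv.baseChange_tmul, LinearMap.baseChange_tmul, e.map_apply]
            | add x y hx hy => simp only [map_add, hx, hy] }⟩

/-- Irreducibility of a matrix-form residual representation, in matrix terms. -/
theorem ofMatRes_isIrreducible_iff {rb : GQ →* M2 k} {h : GaloisFactorsThroughFiniteLevel rb} :
    (ofMatRes rb h).IsIrreducible ↔
      ∀ W : Submodule k (Fin 2 → k), (∀ σ : GQ, ∀ x ∈ W, (rb σ).mulVec x ∈ W) → W = ⊥ ∨ W = ⊤ :=
  Iff.rfl

/-- Schur's lemma over an algebraically closed field, matrix form: if the matrix-form residual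
representation over `K` is irreducible, anything commuting with it is scalar. -/
theorem scalar_of_commute_of_isIrreducible {K : Type} [Field K] [IsAlgClosed K] {rb : GQ →* M2 K}
    {h : GaloisFactorsThroughFiniteLevel rb} (hirr : (ofMatRes rb h).IsIrreducible)
    (X : M2 K) (hX : ∀ g, X * rb g = rb g * X) : ∃ c : K, X = Matrix.scalar (Fin 2) c := by
  rw [ofMatRes_isIrreducible_iff] at hirr
  obtain ⟨c, hc⟩ := Module.End.exists_eigenvalue (toEnd X)
  refine ⟨c, ?_⟩
  have hstab : ∀ σ : GQ, ∀ x ∈ Module.End.eigenspace (toEnd X) c,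
      (rb σ).mulVec x ∈ Module.End.eigenspace (toEnd X) c := by
    intro σ x hx
    rw [Module.End.mem_eigenspace_iff] at hx ⊢
    rw [toEnd_apply, Matrix.mulVec_mulVec, hX σ, ← Matrix.mulVec_mulVec, ← toEnd_apply X, hx,
      Matrix.mulVec_smul]
  rcases hirr _ hstab with h0 | h0
  · exact absurd h0 hc
  · apply eq_of_mulVec_eq
    intro v
    have hv : v ∈ Module.End.eigenspace (toEnd X) c := by rw [h0]; exact Submodule.mem_top
    rw [Module.End.mem_eigenspace_iff, toEnd_apply] at hv
    rw [hv]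
    ext i
    simp [Matrix.mulVec, dotProduct, Matrix.scalar, Matrix.diagonal_apply]

/-- **Schur's lemma** for an absolutely irreducible matrix-form residual representation:
anything in `M2 k` commuting with the image is a scalar matrix. -/
theorem scalar_of_commute_of_absIrr {rb : GQ →* M2 k} {h : GaloisFactorsThroughFiniteLevel rb}
    (habs : (ofMatRes rb h).IsAbsolutelyIrreducible)
    (X : M2 k) (hX : ∀ g, X * rb g = rb g * X) : ∃ c : k, X = Matrix.scalar (Fin 2) c := by
  have hirr := isIrreducible_of_isEquiv (ofMatRes_baseChange (k' := AlgebraicClosure k) rb h) habs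
  have hXK : ∀ g, X.map (algebraMap k (AlgebraicClosure k)) *
      mapMat (algebraMap k (AlgebraicClosure k)) rb g =
      mapMat (algebraMap k (AlgebraicClosure k)) rb g *
        X.map (algebraMap k (AlgebraicClosure k)) := by
    intro g
    rw [mapMat_apply', ← Matrix.map_mul, ← Matrix.map_mul, hX g]
  obtain ⟨c, hc⟩ := scalar_of_commute_of_isIrreducible hirr _ hXK
  have hinj := (algebraMap k (AlgebraicClosure k)).injective
  have h01 : X 0 1 = 0 := by
    apply hinj
    have := congrFun (congrFun hc 0) 1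
    simpa using this
  have h10 : X 1 0 = 0 := by
    apply hinj
    have := congrFun (congrFun hc 1) 0
    simpa using this
  have h00 : X 1 1 = X 0 0 := by
    apply hinj
    have h0 := congrFun (congrFun hc 0) 0
    have h1 := congrFun (congrFun hc 1) 1
    simp at h0 h1
    rw [h0, h1]
  refine ⟨X 0 0, ?_⟩
  ext i j
  fin_cases i <;> fin_cases j <;> simp [h01, h10, h00]

end SchurField

end Fermat.Agent.S53
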