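import Mathlib
import Fermat.Agent.S53.MatrixForm

/-!
# S53: extras on top of the translation layer `Fermat.Agent.S53.MatrixForm`

* `exists_unit_map_eq'`: unit version of `GL₂`-lifting along surjective local homomorphisms.
* `resIsEquiv_baseChange`: base change (for an `Algebra` instance) respects equivalence.
* continuity versus finite level when the maximal ideal is nilpotent; descent of finite level
  along (jointly) injective ring homomorphisms.
-/

set_option autoImplicit false

open scoped TensorProduct

namespace Fermat.Agent.S53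

section Lifting

variable {A : Type} [CommRing A] {B : Type} [CommRing B]

/-- Unit version of `exists_unit_map_eq`: `Units.map` of the lift is the given unit. -/
theorem exists_unit_map_eq' (φ : A →+* B) (hφ : Function.Surjective φ) [IsLocalHom φ]
    (N : (M2 B)ˣ) :
    ∃ M : (M2 A)ˣ, Units.map ((RingHom.mapMatrix φ : M2 A →+* M2 B) : M2 A →* M2 B) M = N := by
  obtain ⟨M, hM⟩ := exists_unit_map_eq φ hφ N
  exact ⟨M, Units.ext hM⟩

end Lifting

section Residual

variable {k : Type} [Field k]

/-- Base change (for an `Algebra` instance) respects equivalence of residual representations. -/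
theorem resIsEquiv_baseChange {k' : Type} [Field k'] [Algebra k k'] {ρ₁ ρ₂ : ResidualGaloisRep k}
    (h : ρ₁.IsEquiv ρ₂) : (ρ₁.baseChange k').IsEquiv (ρ₂.baseChange k') := by
  obtain ⟨e⟩ := h
  exact ⟨{ toLinearEquiv := e.toLinearEquiv.baseChange k k' ρ₁.V ρ₂.V
           map_apply := fun σ x => by
            show e.toLinearEquiv.baseChange k k' ρ₁.V ρ₂.V ((ρ₁.ρ σ).baseChange k' x) =
              (ρ₂.ρ σ).baseChange k' (e.toLinearEquiv.baseChange k k' ρ₁.V ρ₂.V x)
            induction x using TensorProduct.induction_on with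
            | zero => simp only [map_zero]
            | tmul b v =>
              rw [LinearMap.baseChange_tmul, LinearEquiv.baseChange_tmul,
                LinearEquiv.baseChange_tmul, LinearMap.baseChange_tmul, e.map_apply]
            | add x y hx hy => simp only [map_add, hx, hy] }⟩

/-- `baseChangeAlong` respects equivalence of residual representations (Prop level). -/
theorem resIsEquiv_baseChangeAlong {k' : Type} [Field k'] (ψ : k →+* k')
    {ρ₁ ρ₂ : ResidualGaloisRep k} (h : ρ₁.IsEquiv ρ₂) :
    (ρ₁.baseChangeAlong ψ).IsEquiv (ρ₂.baseChangeAlong ψ) :=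
  h.elim fun e => ⟨e.baseChangeAlong ψ⟩

/-- Schur for a residual representation merely equivalent to a matrix form. -/
theorem scalar_of_commute_of_absIrr' (ρbar : ResidualGaloisRep k) {rb : GQ →* M2 k}
    {h : GaloisFactorsThroughFiniteLevel rb} (hs : ρbar.IsEquiv (ofMatRes rb h))
    (habs : ρbar.IsAbsolutelyIrreducible) (X : M2 k) (hX : ∀ g, X * rb g = rb g * X) :
    ∃ c : k, X = Matrix.scalar (Fin 2) c :=
  scalar_of_commute_of_absIrr (isAbsolutelyIrreducible_of_isEquiv hs habs) X hX

end Residual

section Adic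

variable {A : Type} [CommRing A] [IsLocalRing A]

/-- `baseChangeAlong` respects equivalence (Prop level). -/
theorem isEquiv_baseChangeAlong {B : Type} [CommRing B] [IsLocalRing B] (φ : A →+* B)
    (hφ : IsLocalHom φ) {ρ₁ ρ₂ : GaloisRepAdic A} (h : ρ₁.IsEquiv ρ₂) :
    (ρ₁.baseChangeAlong φ hφ).IsEquiv (ρ₂.baseChangeAlong φ hφ) :=
  h.elim fun e => ⟨e.baseChangeAlong φ hφ⟩

/-- `residual` respects equivalence (Prop level). -/
theorem isEquiv_residual {ρ₁ ρ₂ : GaloisRepAdic A} (h : ρ₁.IsEquiv ρ₂) :
    ρ₁.residual.IsEquiv ρ₂.residual :=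
  h.elim fun e => ⟨e.residual⟩

/-- If `𝔪 ^ N = ⊥`, a continuous matrix representation is trivial on an open subgroup. -/
theorem MatCont.factors_of_pow_eq_bot {r : GQ →* M2 A} (h : MatCont r) {N : ℕ}
    (hN : IsLocalRing.maximalIdeal A ^ N = ⊥) : GaloisFactorsThroughFiniteLevel r := by
  obtain ⟨L, hL, h1⟩ := h N
  refine ⟨L, hL, fun σ hσ => ?_⟩
  ext i j
  have := h1 σ hσ i j
  rw [hN, Ideal.mem_bot, Matrix.sub_apply, sub_eq_zero] at this
  exact this

/-- A matrix representation (over any local ring) trivial on an open subgroup is continuous. -/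
theorem matCont_of_factors' {r : GQ →* M2 A} (h : GaloisFactorsThroughFiniteLevel r) :
    MatCont r := by
  intro n
  obtain ⟨L, hL, h1⟩ := h
  refine ⟨L, hL, fun σ hσ i j => ?_⟩
  rw [h1 σ hσ, sub_self]
  exact Ideal.zero_mem _

omit [IsLocalRing A] in
/-- Finite level descends along injective ring homomorphisms (entrywise). -/
theorem factors_of_mapMat_injective {B : Type} [CommRing B] (φ : A →+* B)
    (hφ : Function.Injective φ) (r : GQ →* M2 A)
    (h : GaloisFactorsThroughFiniteLevel (mapMat φ r)) : GaloisFactorsThroughFiniteLevel r := by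
  obtain ⟨L, hL, h1⟩ := h
  refine ⟨L, hL, fun σ hσ => ?_⟩
  have h2 := h1 σ hσ
  ext i j
  have h3 := congrFun (congrFun h2 i) j
  apply hφ
  rw [mapMat_apply] at h3
  rw [h3, Matrix.one_apply, Matrix.one_apply]
  split_ifs <;> simp

omit [IsLocalRing A] in
/-- Finite level for a pair of jointly injective ring homomorphisms (fibre products). -/
theorem factors_of_mapMat_jointly_injective {B C : Type} [CommRing B] [CommRing C]
    (φ : A →+* B) (ψ : A →+* C) (hinj : Function.Injective fun x => (φ x, ψ x))
    (r : GQ →* M2 A) (hB : GaloisFactorsThroughFiniteLevel (mapMat φ r))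
    (hC : GaloisFactorsThroughFiniteLevel (mapMat ψ r)) :
    GaloisFactorsThroughFiniteLevel r := by
  obtain ⟨L₁, hL₁, h1⟩ := hB
  obtain ⟨L₂, hL₂, h2⟩ := hC
  have := hL₁
  have := hL₂
  refine ⟨L₁ ⊔ L₂, IntermediateField.finiteDimensional_sup L₁ L₂, fun σ hσ => ?_⟩
  have h1' := h1 σ fun x hx => hσ x ((le_sup_left : L₁ ≤ L₁ ⊔ L₂) hx)
  have h2' := h2 σ fun x hx => hσ x ((le_sup_right : L₂ ≤ L₁ ⊔ L₂) hx)
  ext i j
  have h3 := congrFun (congrFun h1' i) j
  have h4 := congrFun (congrFun h2' i) j
  rw [mapMat_apply] at h3 h4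
  apply hinj
  simp only [Prod.mk.injEq]
  rw [h3, h4, Matrix.one_apply, Matrix.one_apply, Matrix.one_apply]
  split_ifs <;> simp

/-- Continuity descends along an injective local homomorphism into a ring with nilpotent
maximal ideal. -/
theorem matCont_of_mapMat_injective {B : Type} [CommRing B] [IsLocalRing B] (φ : A →+* B)
    (hφ : Function.Injective φ) (r : GQ →* M2 A) (h : MatCont (mapMat φ r)) {N : ℕ}
    (hN : IsLocalRing.maximalIdeal B ^ N = ⊥) : MatCont r :=
  matCont_of_factors' (factors_of_mapMat_injective φ hφ r (h.factors_of_pow_eq_bot hN))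

/-- Continuity for fibre products of rings with nilpotent maximal ideals. -/
theorem matCont_of_mapMat_jointly_injective {B C : Type} [CommRing B] [IsLocalRing B]
    [CommRing C] [IsLocalRing C] (φ : A →+* B) (ψ : A →+* C)
    (hinj : Function.Injective fun x => (φ x, ψ x)) (r : GQ →* M2 A)
    (hB : MatCont (mapMat φ r)) (hC : MatCont (mapMat ψ r)) {N N' : ℕ}
    (hN : IsLocalRing.maximalIdeal B ^ N = ⊥) (hN' : IsLocalRing.maximalIdeal C ^ N' = ⊥) :
    MatCont r :=
  matCont_of_factors' (factors_of_mapMat_jointly_injective φ ψ hinj r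
    (hB.factors_of_pow_eq_bot hN) (hC.factors_of_pow_eq_bot hN'))

end Adic

end Fermat.Agent.S53
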