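import Mathlib
import Fermat.Agent.S53.MatrixFormExtra

/-!
# S53: [Base] glue (T4a / T4b of helper90's Skeleton90), on top of `MatrixForm`

For a matrix form `rb0` of `ρbar` (i.e. `ρbar.IsEquiv (ofMatRes rb0 hrb0)`):

* `liftsExactly_iff`: the existential "exact lift" condition of `Core.LiftsExactly`
  is equivalent to `residue A (r g i j) = ResidueField.map (algebraMap 𝒪 A) (rb0 g i j)`.
* `residual_isEquiv_of_liftsExactly` (T4a)
* `exists_liftsExactly_of_residual_isEquiv` (T4b)
* `exists_base_T4`: packaged existence statement.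
-/

set_option autoImplicit false

namespace Fermat.Agent.S53

open IsLocalRing

section

variable {𝒪 : Type} [CommRing 𝒪] [IsLocalRing 𝒪]
variable {A : Type} [CommRing A] [IsLocalRing A] [Algebra 𝒪 A] [IsLocalHom (algebraMap 𝒪 A)]

/-- The two formulations of "`r` reduces exactly to `rb0`". -/
theorem liftsExactly_iff (rb0 : GQ →* M2 (ResidueField 𝒪)) (r : GQ →* M2 A) :
    (∀ g i j, ∃ a : 𝒪, residue 𝒪 a = rb0 g i j ∧
        r g i j - algebraMap 𝒪 A a ∈ maximalIdeal A) ↔
      ∀ g i j, residue A (r g i j) = ResidueField.map (algebraMap 𝒪 A) (rb0 g i j) := by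
  constructor
  · intro h g i j
    obtain ⟨a, ha, hmem⟩ := h g i j
    rw [← residue_eq_zero_iff, map_sub, sub_eq_zero] at hmem
    rw [hmem, ← ha, ResidueField.map_residue]
  · intro h g i j
    obtain ⟨a, ha⟩ := residue_surjective (rb0 g i j)
    refine ⟨a, ha, ?_⟩
    rw [← residue_eq_zero_iff, map_sub, sub_eq_zero, h g i j, ← ha, ResidueField.map_residue]

/-- Entrywise formulation of exact reduction as an equality of matrix representations. -/
theorem mapMat_residue_eq_of_liftsExactly (rb0 : GQ →* M2 (ResidueField 𝒪)) (r : GQ →* M2 A)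
    (hr : ∀ g i j, residue A (r g i j) = ResidueField.map (algebraMap 𝒪 A) (rb0 g i j)) :
    mapMat (residue A) r = mapMat (ResidueField.map (algebraMap 𝒪 A)) rb0 := by
  ext g i j
  simp only [mapMat_apply]
  exact hr g i j

/-- **(T4a)** an exact lift of `rb0` has residual representation `ρbar ⊗ k_A`. -/
theorem residual_isEquiv_of_liftsExactly (ρbar : ResidualGaloisRep (ResidueField 𝒪))
    (rb0 : GQ →* M2 (ResidueField 𝒪)) (hrb0 : GaloisFactorsThroughFiniteLevel rb0)
    (hρ : ρbar.IsEquiv (ofMatRes rb0 hrb0)) (r : GQ →* M2 A) (h : MatCont r)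
    (hr : ∀ g i j, residue A (r g i j) = ResidueField.map (algebraMap 𝒪 A) (rb0 g i j)) :
    (ofMat r h).residual.IsEquiv
      (ρbar.baseChangeAlong (ResidueField.map (algebraMap 𝒪 A))) := by
  have e1 := residual_ofMat r h
  have e2 := ofMatRes_baseChangeAlong (ResidueField.map (algebraMap 𝒪 A)) rb0 hrb0
  have e3 := resIsEquiv_baseChangeAlong (ResidueField.map (algebraMap 𝒪 A)) hρ
  have key : ofMatRes (mapMat (residue A) r) (factors_mapMat_residue h) =
      ofMatRes (mapMat (ResidueField.map (algebraMap 𝒪 A)) rb0)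
        (factors_mapMat (ResidueField.map (algebraMap 𝒪 A)) hrb0) := by
    congr 1
    exact mapMat_residue_eq_of_liftsExactly rb0 r hr
  rw [key] at e1
  exact resIsEquiv_trans e1 (resIsEquiv_symm (resIsEquiv_trans e3 e2))

/-- **(T4b)** a representation with residual representation `ρbar ⊗ k_A` has a matrix form
which is an exact lift of `rb0`. -/
theorem exists_liftsExactly_of_residual_isEquiv (ρbar : ResidualGaloisRep (ResidueField 𝒪))
    (rb0 : GQ →* M2 (ResidueField 𝒪)) (hrb0 : GaloisFactorsThroughFiniteLevel rb0)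
    (hρ : ρbar.IsEquiv (ofMatRes rb0 hrb0)) (ρ : GaloisRepAdic A)
    (hres : ρ.residual.IsEquiv (ρbar.baseChangeAlong (ResidueField.map (algebraMap 𝒪 A)))) :
    ∃ (r : GQ →* M2 A) (h : MatCont r), ρ.IsEquiv (ofMat r h) ∧
      ∀ g i j, residue A (r g i j) = ResidueField.map (algebraMap 𝒪 A) (rb0 g i j) := by
  have e3 := resIsEquiv_baseChangeAlong (ResidueField.map (algebraMap 𝒪 A)) hρ
  exact exists_ofMat_isEquiv_of_residual ρ rb0 hrb0 (ResidueField.map (algebraMap 𝒪 A))
    (resIsEquiv_trans hres e3)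

end

/-- Packaged form of helper90's `[Base]` (without the Burnside/`RigidData` component):
there is a matrix form `rb0` of `ρbar` with (T4a) and (T4b), in the existential
`LiftsExactly` shape. -/
theorem exists_base_T4 {𝒪 : Type} [CommRing 𝒪] [IsLocalRing 𝒪]
    (ρbar : ResidualGaloisRep (ResidueField 𝒪)) :
    ∃ (rb0 : GQ →* M2 (ResidueField 𝒪)) (hrb0 : GaloisFactorsThroughFiniteLevel rb0),
      ρbar.IsEquiv (ofMatRes rb0 hrb0) ∧
      (∀ (A : Type) [CommRing A] [IsLocalRing A] [Algebra 𝒪 A] [IsLocalHom (algebraMap 𝒪 A)]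
        (r : GQ →* M2 A) (h : MatCont r),
        (∀ g i j, ∃ a : 𝒪, residue 𝒪 a = rb0 g i j ∧
          r g i j - algebraMap 𝒪 A a ∈ maximalIdeal A) →
        (ofMat r h).residual.IsEquiv
          (ρbar.baseChangeAlong (ResidueField.map (algebraMap 𝒪 A)))) ∧
      (∀ (A : Type) [CommRing A] [IsLocalRing A] [Algebra 𝒪 A] [IsLocalHom (algebraMap 𝒪 A)]
        (ρ : GaloisRepAdic A),
        ρ.residual.IsEquiv (ρbar.baseChangeAlong (ResidueField.map (algebraMap 𝒪 A))) →
        ∃ (r : GQ →* M2 A) (h : MatCont r), ρ.IsEquiv (ofMat r h) ∧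
          ∀ g i j, ∃ a : 𝒪, residue 𝒪 a = rb0 g i j ∧
            r g i j - algebraMap 𝒪 A a ∈ maximalIdeal A) := by
  obtain ⟨rb0, hrb0, hρ⟩ := exists_ofMatRes_isEquiv ρbar
  refine ⟨rb0, hrb0, hρ, ?_, ?_⟩
  · intro A _ _ _ _ r h hr
    exact residual_isEquiv_of_liftsExactly ρbar rb0 hrb0 hρ r h ((liftsExactly_iff rb0 r).mp hr)
  · intro A _ _ _ _ ρ hres
    obtain ⟨r, h, he, hr⟩ := exists_liftsExactly_of_residual_isEquiv ρbar rb0 hrb0 hρ ρ hres
    exact ⟨r, h, he, (liftsExactly_iff rb0 r).mpr hr⟩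

/-- The residual representation itself, in matrix form over `k`, satisfies the deformation
condition if `ρbar` does (transport of `hbar`). -/
theorem type_ofMat_of_hbar {𝒪 : Type} [CommRing 𝒪] [IsLocalRing 𝒪]
    (𝒟 : ∀ ⦃A : Type⦄ [CommRing A] [IsLocalRing A] [Algebra 𝒪 A], GaloisRepAdic A → Prop)
    (hof : ∀ ⦃ρ ρ' : GaloisRepAdic (ResidueField 𝒪)⦄, ρ.IsEquiv ρ' → 𝒟 ρ → 𝒟 ρ')
    (ρbar : ResidualGaloisRep (ResidueField 𝒪))
    (hbar : 𝒟 (GaloisRepAdic.ofResidualGaloisRep ρbar))
    (rb0 : GQ →* M2 (ResidueField 𝒪)) (hrb0 : GaloisFactorsThroughFiniteLevel rb0)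
    (hρ : ρbar.IsEquiv (ofMatRes rb0 hrb0)) :
    𝒟 (ofMat rb0 (matCont_of_factors hrb0)) := by
  have h1 := ofResidualGaloisRep_isEquiv hρ
  rw [ofResidualGaloisRep_ofMatRes] at h1
  exact hof h1 hbar

end Fermat.Agent.S53
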