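import Mathlib

/-!
# Burnside's theorem for 2-dimensional representations (package for S53)

* `span_range_eq_top_of_irreducible`: over an algebraically closed field `K`, a monoid
  homomorphism `r : G →* M₂(K)` with no proper nonzero invariant subspace of `K²` spans `M₂(K)`.
* `span_range_eq_top_of_map`: descent of "spans `M₂`" from an extension field.
* `exists_finsupp_frame`: consequently the matrix units are finite linear combinations of the `r g`.
* `commute_forall_imp_scalar`: a matrix over a commutative ring commuting with a spanning family is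
  scalar; `span_eq_top_of_residue_span_eq_top`: Nakayama lifting of "spans `M₂`" to local rings.
-/

namespace Fermat.Agent.S53.Burnside

open Matrix

section algclosed

variable {K : Type*} [Field K] {G : Type*} [Monoid G]

/-- Every vector of `K²` is a combination of two vectors with nonzero determinant. -/
theorem eq_top_of_det_ne_zero (W : Submodule K (Fin 2 → K)) (a b : Fin 2 → K) (ha : a ∈ W)
    (hb : b ∈ W) (hD : a 0 * b 1 - a 1 * b 0 ≠ 0) : W = ⊤ := by
  rw [eq_top_iff]
  intro z _
  have : z = ((z 0 * b 1 - z 1 * b 0) / (a 0 * b 1 - a 1 * b 0)) • a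
      + ((a 0 * z 1 - a 1 * z 0) / (a 0 * b 1 - a 1 * b 0)) • b := by
    ext i
    fin_cases i
    · simp only [Fin.zero_eta, Pi.add_apply, Pi.smul_apply, smul_eq_mul]
      rw [div_mul_eq_mul_div, div_mul_eq_mul_div, ← add_div, eq_div_iff hD]
      ring
    · simp only [Fin.mk_one, Pi.add_apply, Pi.smul_apply, smul_eq_mul]
      rw [div_mul_eq_mul_div, div_mul_eq_mul_div, ← add_div, eq_div_iff hD]
      ring
  rw [this]
  exact W.add_mem (W.smul_mem _ ha) (W.smul_mem _ hb)

/-- `b ↦ b w` as a linear map. -/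
def evalAt (w : Fin 2 → K) : Matrix (Fin 2) (Fin 2) K →ₗ[K] (Fin 2 → K) where
  toFun b := b *ᵥ w
  map_add' b b' := Matrix.add_mulVec b b' w
  map_smul' c b := Matrix.smul_mulVec c b w

/-- `b ↦ φ b` as a linear map. -/
def rowAt (φ : Fin 2 → K) : Matrix (Fin 2) (Fin 2) K →ₗ[K] (Fin 2 → K) where
  toFun b := φ ᵥ* b
  map_add' b b' := Matrix.vecMul_add b b' φ
  map_smul' c b := Matrix.vecMul_smul φ c b

@[simp] theorem evalAt_apply (w : Fin 2 → K) (b : Matrix (Fin 2) (Fin 2) K) :
    evalAt w b = b *ᵥ w := rfl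

@[simp] theorem rowAt_apply (φ : Fin 2 → K) (b : Matrix (Fin 2) (Fin 2) K) :
    rowAt φ b = φ ᵥ* b := rfl

variable (r : G →* Matrix (Fin 2) (Fin 2) K)

/-- The span of the image of a monoid homomorphism is closed under multiplication. -/
theorem mul_mem_span_range {x y : Matrix (Fin 2) (Fin 2) K}
    (hx : x ∈ Submodule.span K (Set.range r)) (hy : y ∈ Submodule.span K (Set.range r)) :
    x * y ∈ Submodule.span K (Set.range r) := by
  have h := Submodule.mul_mem_mul hx hy
  rw [Submodule.span_mul_span] at h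
  refine Submodule.span_mono ?_ h
  rintro _ ⟨_, ⟨g, rfl⟩, _, ⟨g', rfl⟩, rfl⟩
  exact ⟨g * g', map_mul r g g'⟩

theorem one_mem_span_range : (1 : Matrix (Fin 2) (Fin 2) K) ∈ Submodule.span K (Set.range r) :=
  Submodule.subset_span ⟨1, map_one r⟩

/-- A subspace stable under all `r g` is stable under the span. -/
theorem mulVec_mem_of_mem_span {W : Submodule K (Fin 2 → K)}
    (hW : ∀ g, ∀ v ∈ W, r g *ᵥ v ∈ W) {b : Matrix (Fin 2) (Fin 2) K}
    (hb : b ∈ Submodule.span K (Set.range r)) {v : Fin 2 → K} (hv : v ∈ W) : b *ᵥ v ∈ W := by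
  induction hb using Submodule.span_induction with
  | mem x hx => obtain ⟨g, rfl⟩ := hx; exact hW g v hv
  | zero => simp
  | add x y _ _ hx hy => rw [Matrix.add_mulVec]; exact W.add_mem hx hy
  | smul c x _ hx => rw [Matrix.smul_mulVec]; exact W.smul_mem c hx

theorem mul_vecMulVec_mul (M N : Matrix (Fin 2) (Fin 2) K) (w φ : Fin 2 → K) :
    M * vecMulVec w φ * N = vecMulVec (M *ᵥ w) (φ ᵥ* N) := by
  ext i j
  simp only [Matrix.mul_apply, vecMulVec_apply, Fin.sum_univ_two, Matrix.mulVec, Matrix.vecMul,
    dotProduct]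
  ring

/-- A nonzero `2 × 2` matrix killing a nonzero vector is of the form `w φᵀ`. -/
theorem exists_vecMulVec_of_mulVec_eq_zero {y : Matrix (Fin 2) (Fin 2) K} (hy : y ≠ 0)
    {v : Fin 2 → K} (hv : v ≠ 0) (hyv : y *ᵥ v = 0) :
    ∃ w φ : Fin 2 → K, w ≠ 0 ∧ φ ≠ 0 ∧ y = vecMulVec w φ := by
  have h0 : y 0 0 * v 0 + y 0 1 * v 1 = 0 := by
    have := congrFun hyv 0
    simpa [Matrix.mulVec, dotProduct, Fin.sum_univ_two] using this
  have h1 : y 1 0 * v 0 + y 1 1 * v 1 = 0 := by
    have := congrFun hyv 1
    simpa [Matrix.mulVec, dotProduct, Fin.sum_univ_two] using this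
  have hφ : (![v 1, -v 0] : Fin 2 → K) ≠ 0 := by
    intro h
    apply hv
    have e0 := congrFun h 0
    have e1 := congrFun h 1
    simp at e0 e1
    ext i; fin_cases i <;> simp [e0, e1]
  by_cases hv0 : v 0 = 0
  · have hv1 : v 1 ≠ 0 := by
      intro h; apply hv; ext i; fin_cases i <;> simp [hv0, h]
    have y01 : y 0 1 = 0 := by
      rw [hv0, mul_zero, zero_add] at h0
      exact (mul_eq_zero.mp h0).resolve_right hv1
    have y11 : y 1 1 = 0 := by
      rw [hv0, mul_zero, zero_add] at h1
      exact (mul_eq_zero.mp h1).resolve_right hv1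
    refine ⟨![y 0 0 / v 1, y 1 0 / v 1], ![v 1, -v 0], ?_, hφ, ?_⟩
    · intro h
      apply hy
      have e0 := congrFun h 0
      have e1 := congrFun h 1
      simp [hv1] at e0 e1
      ext i j; fin_cases i <;> fin_cases j <;> simp [e0, e1, y01, y11]
    · ext i j
      fin_cases i <;> fin_cases j <;> simp [vecMulVec_apply, hv0, y01, y11] <;> field_simp
  · refine ⟨![-y 0 1 / v 0, -y 1 1 / v 0], ![v 1, -v 0], ?_, hφ, ?_⟩
    · intro h
      apply hy
      have e0 := congrFun h 0
      have e1 := congrFun h 1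
      simp [hv0] at e0 e1
      have y00 : y 0 0 = 0 := by
        rw [e0, zero_mul, add_zero] at h0
        exact (mul_eq_zero.mp h0).resolve_right hv0
      have y10 : y 1 0 = 0 := by
        rw [e1, zero_mul, add_zero] at h1
        exact (mul_eq_zero.mp h1).resolve_right hv0
      ext i j; fin_cases i <;> fin_cases j <;> simp [e0, e1, y00, y10]
    · ext i j
      fin_cases i <;> fin_cases j <;> simp [vecMulVec_apply] <;> field_simp
      · linear_combination h0
      · linear_combination h1

/-- If not all `r g` are scalar... more precisely: irreducibility forces a non-scalar `r g`. -/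
theorem exists_not_scalar_of_irreducible
    (hirr : ∀ W : Submodule K (Fin 2 → K), (∀ g, ∀ v ∈ W, r g *ᵥ v ∈ W) → W = ⊥ ∨ W = ⊤) :
    ∃ g, ∀ c : K, r g ≠ c • (1 : Matrix (Fin 2) (Fin 2) K) := by
  by_contra hcon
  push Not at hcon
  -- the line spanned by `e₀` is stable
  have hst : ∀ g, ∀ v ∈ Submodule.span K {(![1, 0] : Fin 2 → K)}, r g *ᵥ v ∈
      Submodule.span K {(![1, 0] : Fin 2 → K)} := by
    intro g v hv
    obtain ⟨c, hc⟩ := hcon g
    rw [hc, Matrix.smul_mulVec, Matrix.one_mulVec]
    exact Submodule.smul_mem _ c hv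
  rcases hirr _ hst with h | h
  · have : (![1, 0] : Fin 2 → K) ∈ Submodule.span K {(![1, 0] : Fin 2 → K)} :=
      Submodule.subset_span rfl
    rw [h, Submodule.mem_bot] at this
    have := congrFun this 0
    simp at this
  · have : (![0, 1] : Fin 2 → K) ∈ Submodule.span K {(![1, 0] : Fin 2 → K)} := by
      rw [h]; exact Submodule.mem_top
    rw [Submodule.mem_span_singleton] at this
    obtain ⟨a, ha⟩ := this
    have := congrFun ha 1
    simp at this

/-- **Burnside's theorem in dimension 2**: an irreducible family of `2 × 2` matrices closed under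
multiplication over an algebraically closed field spans the full matrix algebra. -/
theorem span_range_eq_top_of_irreducible [IsAlgClosed K]
    (hirr : ∀ W : Submodule K (Fin 2 → K), (∀ g, ∀ v ∈ W, r g *ᵥ v ∈ W) → W = ⊥ ∨ W = ⊤) :
    Submodule.span K (Set.range r) = ⊤ := by
  set B := Submodule.span K (Set.range r) with hB
  -- Step A: a rank one element of `B`
  obtain ⟨g, hg⟩ := exists_not_scalar_of_irreducible r hirr
  obtain ⟨μ, hμ⟩ := Module.End.exists_eigenvalue (Matrix.toLin' (r g))
  obtain ⟨v, hv⟩ := hμ.exists_hasEigenvector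
  have hv0 : v ≠ 0 := hv.2
  have hvμ : r g *ᵥ v = μ • v := by
    have := hv.apply_eq_smul
    simpa [Matrix.toLin'_apply] using this
  set y := r g - μ • (1 : Matrix (Fin 2) (Fin 2) K) with hy
  have hyB : y ∈ B := B.sub_mem (Submodule.subset_span ⟨g, rfl⟩) (B.smul_mem μ (one_mem_span_range r))
  have hy0 : y ≠ 0 := fun h => hg μ (sub_eq_zero.mp h)
  have hyv : y *ᵥ v = 0 := by
    rw [hy, Matrix.sub_mulVec, hvμ, Matrix.smul_mulVec, Matrix.one_mulVec, sub_self]
  obtain ⟨w, φ, hw, hφ, hyw⟩ := exists_vecMulVec_of_mulVec_eq_zero hy0 hv0 hyv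
  -- Step B: `B w = K²`
  have hW1 : Submodule.map (evalAt w) B = ⊤ := by
    have hst : ∀ g, ∀ u ∈ Submodule.map (evalAt (K := K) w) B, r g *ᵥ u ∈
        Submodule.map (evalAt (K := K) w) B := by
      rintro g _ ⟨b, hb, rfl⟩
      refine ⟨r g * b, mul_mem_span_range r (Submodule.subset_span ⟨g, rfl⟩) hb, ?_⟩
      rw [evalAt_apply, evalAt_apply, Matrix.mulVec_mulVec]
    rcases hirr _ hst with h | h
    · exfalso
      have : w ∈ Submodule.map (evalAt (K := K) w) B :=
        ⟨1, one_mem_span_range r, by rw [evalAt_apply, Matrix.one_mulVec]⟩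
      rw [h, Submodule.mem_bot] at this
      exact hw this
    · exact h
  -- Step C: `φ B = K²`
  have hW2 : Submodule.map (rowAt φ) B = ⊤ := by
    set W2 := Submodule.map (rowAt (K := K) φ) B with hW2def
    have hφ2 : φ ∈ W2 := ⟨1, one_mem_span_range r, by rw [rowAt_apply, Matrix.vecMul_one]⟩
    have hW2st : ∀ g, ∀ ψ ∈ W2, ψ ᵥ* r g ∈ W2 := by
      rintro g _ ⟨b, hb, rfl⟩
      refine ⟨b * r g, mul_mem_span_range r hb (Submodule.subset_span ⟨g, rfl⟩), ?_⟩
      rw [rowAt_apply, rowAt_apply, Matrix.vecMul_vecMul]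
    let Wp : Submodule K (Fin 2 → K) :=
      { carrier := {u | ∀ ψ ∈ W2, ψ ⬝ᵥ u = 0}
        add_mem' := fun {a b} ha hb ψ hψ => by rw [dotProduct_add, ha ψ hψ, hb ψ hψ, add_zero]
        zero_mem' := fun ψ _ => dotProduct_zero ψ
        smul_mem' := fun c u hu ψ hψ => by rw [dotProduct_smul, hu ψ hψ, smul_zero] }
    have hWpst : ∀ g, ∀ u ∈ Wp, r g *ᵥ u ∈ Wp := by
      intro g u hu ψ hψ
      rw [Matrix.dotProduct_mulVec]
      exact hu _ (hW2st g ψ hψ)
    rcases hirr Wp hWpst with h | h
    · -- `Wp = ⊥`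
      have hu : (![φ 1, -φ 0] : Fin 2 → K) ∉ Wp := by
        rw [h, Submodule.mem_bot]
        intro h0
        apply hφ
        have e0 := congrFun h0 0
        have e1 := congrFun h0 1
        simp at e0 e1
        ext i; fin_cases i <;> simp [e0, e1]
      have : ∃ ψ ∈ W2, ψ ⬝ᵥ (![φ 1, -φ 0] : Fin 2 → K) ≠ 0 := by
        by_contra hcon
        push Not at hcon
        exact hu hcon
      obtain ⟨ψ, hψ, hne⟩ := this
      refine eq_top_of_det_ne_zero W2 φ ψ hφ2 hψ ?_
      intro hD
      apply hne
      simp [dotProduct, Fin.sum_univ_two]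
      linear_combination -hD
    · -- `Wp = ⊤` is impossible
      exfalso
      apply hφ
      have h1 : ∀ u : Fin 2 → K, φ ⬝ᵥ u = 0 := fun u => by
        have : u ∈ Wp := by rw [h]; exact Submodule.mem_top
        exact this φ hφ2
      ext i
      have := h1 (Pi.single i 1)
      simpa using this
  -- Step D: all matrix units are in `B`
  rw [eq_top_iff]
  intro X _
  rw [Matrix.matrix_eq_sum_single X]
  refine Submodule.sum_mem _ fun i _ => Submodule.sum_mem _ fun j _ => ?_
  have hi : (Pi.single i 1 : Fin 2 → K) ∈ Submodule.map (evalAt (K := K) w) B := by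
    rw [hW1]; exact Submodule.mem_top
  have hj : (Pi.single j 1 : Fin 2 → K) ∈ Submodule.map (rowAt (K := K) φ) B := by
    rw [hW2]; exact Submodule.mem_top
  obtain ⟨b, hb, hbi⟩ := hi
  obtain ⟨b', hb', hbj⟩ := hj
  have : Matrix.single i j (X i j) = X i j • (b * y * b') := by
    rw [hyw, mul_vecMulVec_mul]
    have e1 : b *ᵥ w = Pi.single i 1 := hbi
    have e2 : φ ᵥ* b' = Pi.single j 1 := hbj
    rw [e1, e2]
    ext i' j'
    rw [Matrix.smul_apply, vecMulVec_apply, Matrix.single_apply, Pi.single_apply, Pi.single_apply,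
      smul_eq_mul]
    rcases eq_or_ne i' i with rfl | h1 <;> rcases eq_or_ne j' j with rfl | h2
    · simp
    · simp [h2, h2.symm]
    · simp [h1, h1.symm]
    · simp [h1, h1.symm]
  rw [this]
  exact B.smul_mem _ (mul_mem_span_range r (mul_mem_span_range r hb hyB) hb')

end algclosed

section descent

variable {k K : Type*} [Field k] [Field K] [Algebra k K] {G : Type*}

theorem linearMap_apply_eq_sum (f : Matrix (Fin 2) (Fin 2) k →ₗ[k] k)
    (X : Matrix (Fin 2) (Fin 2) k) :
    f X = ∑ i, ∑ j, f (Matrix.single i j 1) * X i j := by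
  conv_lhs => rw [Matrix.matrix_eq_sum_single X]
  rw [map_sum]
  refine Finset.sum_congr rfl fun i _ => ?_
  rw [map_sum]
  refine Finset.sum_congr rfl fun j _ => ?_
  have : Matrix.single i j (X i j) = X i j • Matrix.single i j (1 : k) := by
    rw [Matrix.smul_single, smul_eq_mul, mul_one]
  rw [this, map_smul, smul_eq_mul, mul_comm]

/-- Descent of "the image spans `M₂`" from an extension field. -/
theorem span_range_eq_top_of_map (r : G → Matrix (Fin 2) (Fin 2) k)
    (h : Submodule.span K (Set.range fun g => (r g).map (algebraMap k K)) = ⊤) :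
    Submodule.span k (Set.range r) = ⊤ := by
  by_contra hne
  obtain ⟨f, hf0, hle⟩ := Submodule.exists_le_ker_of_lt_top _ (lt_top_iff_ne_top.mpr hne)
  let F : Matrix (Fin 2) (Fin 2) K →ₗ[K] K :=
    { toFun := fun Y => ∑ i, ∑ j, algebraMap k K (f (Matrix.single i j 1)) * Y i j
      map_add' := fun Y Y' => by
        simp only [Matrix.add_apply, mul_add, Finset.sum_add_distrib]
      map_smul' := fun c Y => by
        simp only [Matrix.smul_apply, smul_eq_mul, RingHom.id_apply, Finset.mul_sum]
        refine Finset.sum_congr rfl fun i _ => Finset.sum_congr rfl fun j _ => ?_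
        ring }
  have hF : ∀ X : Matrix (Fin 2) (Fin 2) k, F (X.map (algebraMap k K)) = algebraMap k K (f X) := by
    intro X
    rw [linearMap_apply_eq_sum f X]
    simp only [F, LinearMap.coe_mk, AddHom.coe_mk, Matrix.map_apply, map_sum, map_mul]
  have hFr : ∀ g, F ((r g).map (algebraMap k K)) = 0 := by
    intro g
    rw [hF]
    have : r g ∈ LinearMap.ker f := hle (Submodule.subset_span ⟨g, rfl⟩)
    rw [LinearMap.mem_ker] at this
    rw [this, map_zero]
  have hF0 : ∀ Y, F Y = 0 := by
    intro Y
    have hY : Y ∈ Submodule.span K (Set.range fun g => (r g).map (algebraMap k K)) := by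
      rw [h]; exact Submodule.mem_top
    induction hY using Submodule.span_induction with
    | mem x hx => obtain ⟨g, rfl⟩ := hx; exact hFr g
    | zero => exact map_zero F
    | add x y _ _ hx hy => rw [map_add, hx, hy, add_zero]
    | smul c x _ hx => rw [map_smul, hx, smul_zero]
  apply hf0
  apply LinearMap.ext
  intro X
  rw [linearMap_apply_eq_sum f X, LinearMap.zero_apply]
  refine Finset.sum_eq_zero fun i _ => Finset.sum_eq_zero fun j _ => ?_
  have h1 := hF0 ((Matrix.single i j (1 : k)).map (algebraMap k K))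
  rw [hF] at h1
  have h2 : f (Matrix.single i j 1) = 0 :=
    (algebraMap k K).injective (by rw [h1, map_zero])
  rw [h2, zero_mul]

end descent

section consequences

variable {A : Type*} [CommRing A] {G : Type*}

/-- If the `r g` span `M₂(A)`, every matrix is a finite combination `∑ c g • r g`. -/
theorem exists_finsupp_sum_eq (r : G → Matrix (Fin 2) (Fin 2) A)
    (h : Submodule.span A (Set.range r) = ⊤) (X : Matrix (Fin 2) (Fin 2) A) :
    ∃ c : G →₀ A, (c.sum fun g a => a • r g) = X := by
  have hX : X ∈ Submodule.span A (Set.range r) := by rw [h]; exact Submodule.mem_top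
  exact (Finsupp.mem_span_range_iff_exists_finsupp).mp hX

/-- **Schur's lemma, matrix form**: a matrix commuting with a spanning family is scalar. -/
theorem eq_smul_one_of_commute (r : G → Matrix (Fin 2) (Fin 2) A)
    (h : Submodule.span A (Set.range r) = ⊤) (X : Matrix (Fin 2) (Fin 2) A)
    (hX : ∀ g, X * r g = r g * X) : X = (X 0 0) • (1 : Matrix (Fin 2) (Fin 2) A) := by
  have hall : ∀ Y : Matrix (Fin 2) (Fin 2) A, X * Y = Y * X := by
    intro Y
    have hY : Y ∈ Submodule.span A (Set.range r) := by rw [h]; exact Submodule.mem_top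
    induction hY using Submodule.span_induction with
    | mem x hx => obtain ⟨g, rfl⟩ := hx; exact hX g
    | zero => simp
    | add x y _ _ hx hy => rw [mul_add, add_mul, hx, hy]
    | smul c x _ hx => rw [Matrix.mul_smul, Matrix.smul_mul, hx]
  obtain ⟨a, ha⟩ := Matrix.mem_range_scalar_iff_commute_single'.mpr
    (fun i j => (hall (Matrix.single i j 1)).symm)
  have h00 : X 0 0 = a := by rw [← ha]; simp
  rw [h00, ← ha]
  ext i j
  simp [Matrix.scalar_apply, Matrix.diagonal_apply, Matrix.one_apply]

variable [IsLocalRing A]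

open IsLocalRing in
/-- **Nakayama**: if the reductions of the `r g` span `M₂` of the residue field, the `r g` span
`M₂(A)`. -/
theorem span_eq_top_of_residue_span_eq_top (r : G → Matrix (Fin 2) (Fin 2) A)
    (h : Submodule.span (ResidueField A)
      (Set.range fun g => (r g).map (residue A)) = ⊤) :
    Submodule.span A (Set.range r) = ⊤ := by
  set N := Submodule.span A (Set.range r) with hN
  have hfg : (⊤ : Submodule A (Matrix (Fin 2) (Fin 2) A)).FG := Module.finite_def.mp inferInstance
  rw [eq_top_iff]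
  refine Submodule.le_of_le_smul_of_le_jacobson_bot (I := maximalIdeal A) hfg
    (IsLocalRing.maximalIdeal_le_jacobson _) ?_
  intro X _
  obtain ⟨c, hc⟩ := exists_finsupp_sum_eq _ h (X.map (residue A))
  -- lift the coefficients
  have hsurj : Function.Surjective (residue A) := Ideal.Quotient.mk_surjective
  set X' : Matrix (Fin 2) (Fin 2) A :=
    ∑ g ∈ c.support, Function.surjInv hsurj (c g) • r g with hX'
  have hX'N : X' ∈ N :=
    Submodule.sum_mem _ fun g _ => Submodule.smul_mem _ _ (Submodule.subset_span ⟨g, rfl⟩)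
  have hXX' : ∀ i j, (X - X') i j ∈ maximalIdeal A := by
    intro i j
    rw [← Ideal.Quotient.eq_zero_iff_mem]
    change residue A ((X - X') i j) = 0
    have h1 : residue A (X i j) = (X.map (residue A)) i j := rfl
    rw [Matrix.sub_apply, map_sub, h1, ← hc, hX', Finsupp.sum, Matrix.sum_apply, Matrix.sum_apply,
      map_sum, sub_eq_zero]
    refine Finset.sum_congr rfl fun g _ => ?_
    rw [Matrix.smul_apply, Matrix.smul_apply, Matrix.map_apply, smul_eq_mul, smul_eq_mul, map_mul,
      Function.surjInv_eq hsurj]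
  have hmem : X - X' ∈ maximalIdeal A • (⊤ : Submodule A (Matrix (Fin 2) (Fin 2) A)) := by
    rw [Matrix.matrix_eq_sum_single (X - X')]
    refine Submodule.sum_mem _ fun i _ => Submodule.sum_mem _ fun j _ => ?_
    have : Matrix.single i j ((X - X') i j) = (X - X') i j • Matrix.single i j (1 : A) := by
      rw [Matrix.smul_single, smul_eq_mul, mul_one]
    rw [this]
    exact Submodule.smul_mem_smul (hXX' i j) Submodule.mem_top
  have : X = X' + (X - X') := by abel
  rw [this]
  exact Submodule.add_mem _ (Submodule.mem_sup_left hX'N) (Submodule.mem_sup_right hmem)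

/-- **Schur over a local ring**: if the reductions of the `r g` span `M₂` of the residue field,
every matrix commuting with all `r g` is scalar. -/
theorem eq_smul_one_of_commute_of_residue_span (r : G → Matrix (Fin 2) (Fin 2) A)
    (h : Submodule.span (IsLocalRing.ResidueField A)
      (Set.range fun g => (r g).map (IsLocalRing.residue A)) = ⊤)
    (X : Matrix (Fin 2) (Fin 2) A) (hX : ∀ g, X * r g = r g * X) :
    X = (X 0 0) • (1 : Matrix (Fin 2) (Fin 2) A) :=
  eq_smul_one_of_commute r (span_eq_top_of_residue_span_eq_top r h) X hX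

end consequences

end Fermat.Agent.S53.Burnside
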