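import Fermat.Agent.S53.TangentBound
import Fermat.Agent.S53.TestAlgebra

/-!
# S53, package [AT-2]: the uniform cardinality bound for the abstract representability theorem

(helper31)  Setting of `abstract_rep`: `F` a predicate on families `x : I → A` for local
`𝒪`-algebras `A`, stable under `𝒪`-algebra maps between test algebras (`hmap`), with finitely
many points over `k[ε]` (`hfin`).  Then for every `n` there is a constant `C`, depending only on
`(𝒪, n, F(k[ε]))`, with `Nat.card A ≤ C` for EVERY test algebra `A` that is generated by a family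
`x` with `F x` and satisfies `𝔪_A ^ n = ⊥`.

This is exactly the field `bound` of `LeastGood.GoodFamily` for the good ideals of
`Λ = MvPolynomial I 𝒪` (there `A = Λ ⧸ K`, `x = X mod K`, which generates).
-/

set_option autoImplicit false
set_option linter.style.haveILetI false
set_option linter.unusedSectionVars false

namespace Fermat.Agent.S53.CardBound

open IsLocalRing GaloisRep

variable {𝒪 : Type} [CommRing 𝒪] [IsLocalRing 𝒪]

/-- Composition with a family `x` that generates `A` is injective on `𝒪`-algebra maps. -/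
theorem algHom_comp_injective_of_adjoin_eq_top {A B : Type} [CommRing A] [Algebra 𝒪 A]
    [CommRing B] [Algebra 𝒪 B] {I : Type} (x : I → A)
    (hx : Algebra.adjoin 𝒪 (Set.range x) = ⊤) :
    Function.Injective (fun φ : A →ₐ[𝒪] B => (φ ∘ x : I → B)) := by
  intro φ ψ h
  apply AlgHom.ext_of_adjoin_eq_top hx
  rintro _ ⟨i, rfl⟩
  exact congrFun h i

/-- The number of `k[ε]`-points of a test algebra generated by a family in `F` is at most the
number of points of `F` over `k[ε]`. -/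
theorem natCard_algHom_dualNumber_le [Finite (ResidueField 𝒪)] {I : Type}
    (F : ∀ ⦃A : Type⦄ [CommRing A] [IsLocalRing A] [Algebra 𝒪 A], (I → A) → Prop)
    (hmap : ∀ ⦃A B : Type⦄ [CommRing A] [IsLocalRing A] [Algebra 𝒪 A]
      [CommRing B] [IsLocalRing B] [Algebra 𝒪 B],
      IsArtinianTestAlgebra 𝒪 A → IsArtinianTestAlgebra 𝒪 B →
      ∀ (φ : A →ₐ[𝒪] B) (x : I → A), F x → F (φ ∘ x))
    (hfin : letI := TangentBound.dualNumberAlgebra 𝒪
      Finite {x : I → DualNumber (ResidueField 𝒪) // F x})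
    {A : Type} [CommRing A] [IsLocalRing A] [Algebra 𝒪 A] (hA : IsArtinianTestAlgebra 𝒪 A)
    (x : I → A) (hFx : F x) (hx : Algebra.adjoin 𝒪 (Set.range x) = ⊤) :
    letI := TangentBound.dualNumberAlgebra 𝒪
    Nat.card (A →ₐ[𝒪] DualNumber (ResidueField 𝒪)) ≤
      Nat.card {y : I → DualNumber (ResidueField 𝒪) // F y} := by
  letI := TangentBound.dualNumberAlgebra 𝒪
  haveI := hfin
  have hk : IsArtinianTestAlgebra 𝒪 (DualNumber (ResidueField 𝒪)) :=
    isArtinianTestAlgebra_dualNumber 𝒪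
  refine Nat.card_le_card_of_injective
    (fun φ : A →ₐ[𝒪] DualNumber (ResidueField 𝒪) =>
      (⟨φ ∘ x, hmap hA hk φ x hFx⟩ : {y : I → DualNumber (ResidueField 𝒪) // F y})) ?_
  intro φ ψ h
  exact algHom_comp_injective_of_adjoin_eq_top x hx (congrArg Subtype.val h)

/-- **[AT-2] Uniform cardinality bound.** -/
theorem exists_card_bound [IsNoetherianRing 𝒪] [Finite (ResidueField 𝒪)] {I : Type}
    (F : ∀ ⦃A : Type⦄ [CommRing A] [IsLocalRing A] [Algebra 𝒪 A], (I → A) → Prop)
    (hmap : ∀ ⦃A B : Type⦄ [CommRing A] [IsLocalRing A] [Algebra 𝒪 A]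
      [CommRing B] [IsLocalRing B] [Algebra 𝒪 B],
      IsArtinianTestAlgebra 𝒪 A → IsArtinianTestAlgebra 𝒪 B →
      ∀ (φ : A →ₐ[𝒪] B) (x : I → A), F x → F (φ ∘ x))
    (hfin : letI := TangentBound.dualNumberAlgebra 𝒪
      Finite {x : I → DualNumber (ResidueField 𝒪) // F x})
    (n : ℕ) :
    ∃ C : ℕ, ∀ ⦃A : Type⦄ [CommRing A] [IsLocalRing A] [Algebra 𝒪 A],
      IsArtinianTestAlgebra 𝒪 A → ∀ x : I → A, F x →
        Algebra.adjoin 𝒪 (Set.range x) = ⊤ → maximalIdeal A ^ n = ⊥ → Nat.card A ≤ C := by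
  letI := TangentBound.dualNumberAlgebra 𝒪
  refine ⟨Nat.card (TangentBound.BoundType 𝒪 n
    (Nat.card {y : I → DualNumber (ResidueField 𝒪) // F y})), ?_⟩
  intro A _ _ _ hA x hFx hx hn
  haveI : Finite A := finite_of_isArtinianTestAlgebra hA
  haveI : IsLocalHom (algebraMap 𝒪 A) := hA.isLocalHom
  exact TangentBound.natCard_le_of_natCard_algHom_le hA.residue_surjective _
    (natCard_algHom_dualNumber_le F hmap hfin hA x hFx hx) hn


/-! ## The same bound for quotients of the polynomial ring `Λ = 𝒪[X_i : i ∈ I]` -/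

section Quotient

/-- The coordinate family `X mod K` generates `Λ ⧸ K` as an `𝒪`-algebra. -/
theorem adjoin_range_mk_X_eq_top {I : Type} (K : Ideal (MvPolynomial I 𝒪)) :
    Algebra.adjoin 𝒪 (Set.range fun i : I => (Ideal.Quotient.mk K (MvPolynomial.X i))) = ⊤ := by
  have h1 : (Set.range fun i : I => (Ideal.Quotient.mk K (MvPolynomial.X i))) =
      (Ideal.Quotient.mkₐ 𝒪 K) '' (Set.range (MvPolynomial.X : I → MvPolynomial I 𝒪)) := by
    rw [← Set.range_comp]
    rfl
  rw [h1, ← AlgHom.map_adjoin, MvPolynomial.adjoin_range_X, Algebra.map_top,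
    AlgHom.range_eq_top]
  exact Ideal.Quotient.mkₐ_surjective 𝒪 K

/-- If `K ≤ M`, `M` maximal, `Λ ⧸ K` local and `M ^ n ≤ K`, then `𝔪_{Λ/K} ^ n = ⊥`. -/
theorem maximalIdeal_quotient_pow_eq_bot {Λ : Type*} [CommRing Λ] (M K : Ideal Λ)
    [M.IsMaximal] [IsLocalRing (Λ ⧸ K)] (hKM : K ≤ M) {n : ℕ} (hpow : M ^ n ≤ K) :
    maximalIdeal (Λ ⧸ K) ^ n = ⊥ := by
  have hmax : (M.map (Ideal.Quotient.mk K)).IsMaximal := by
    rcases Ideal.map_eq_top_or_isMaximal_of_surjective (Ideal.Quotient.mk K)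
      Ideal.Quotient.mk_surjective (inferInstance : M.IsMaximal) with h | h
    · exfalso
      have h1 : (1 : Λ ⧸ K) ∈ M.map (Ideal.Quotient.mk K) := by rw [h]; trivial
      rw [Ideal.mem_map_iff_of_surjective _ Ideal.Quotient.mk_surjective] at h1
      obtain ⟨m, hm, hm1⟩ := h1
      have h2 : m - 1 ∈ K := by
        rw [← Ideal.Quotient.eq_zero_iff_mem, map_sub, hm1, map_one, sub_self]
      have h3 : (1 : Λ) ∈ M := by
        have := M.sub_mem hm (hKM h2)
        simpa using this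
      exact (Ideal.IsMaximal.ne_top inferInstance) ((Ideal.eq_top_iff_one M).mpr h3)
    · exact h
  have heq : maximalIdeal (Λ ⧸ K) = M.map (Ideal.Quotient.mk K) :=
    (IsLocalRing.eq_maximalIdeal hmax).symm
  rw [heq, ← Ideal.map_pow, eq_bot_iff]
  refine (Ideal.map_mono hpow).trans ?_
  rw [Ideal.map_quotient_self]

/-- **[AT-2] in the shape of `LeastGood.GoodFamily.bound`**: a uniform bound for the
quotients `Λ ⧸ K` of the polynomial ring by good ideals `K ⊇ M ^ n`. -/
theorem exists_card_bound_quotient [IsNoetherianRing 𝒪] [Finite (ResidueField 𝒪)] {I : Type}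
    (F : ∀ ⦃A : Type⦄ [CommRing A] [IsLocalRing A] [Algebra 𝒪 A], (I → A) → Prop)
    (hmap : ∀ ⦃A B : Type⦄ [CommRing A] [IsLocalRing A] [Algebra 𝒪 A]
      [CommRing B] [IsLocalRing B] [Algebra 𝒪 B],
      IsArtinianTestAlgebra 𝒪 A → IsArtinianTestAlgebra 𝒪 B →
      ∀ (φ : A →ₐ[𝒪] B) (x : I → A), F x → F (φ ∘ x))
    (hfin : letI := TangentBound.dualNumberAlgebra 𝒪
      Finite {x : I → DualNumber (ResidueField 𝒪) // F x})
    (n : ℕ) :
    ∃ C : ℕ, ∀ (M : Ideal (MvPolynomial I 𝒪)) [M.IsMaximal] (K : Ideal (MvPolynomial I 𝒪))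
      [IsLocalRing (MvPolynomial I 𝒪 ⧸ K)],
      IsArtinianTestAlgebra 𝒪 (MvPolynomial I 𝒪 ⧸ K) →
      F (fun i : I => (Ideal.Quotient.mk K (MvPolynomial.X i))) →
      K ≤ M → M ^ n ≤ K → Nat.card (MvPolynomial I 𝒪 ⧸ K) ≤ C := by
  obtain ⟨C, hC⟩ := exists_card_bound F hmap hfin n
  refine ⟨C, ?_⟩
  intro M _ K _ hA hF hKM hpow
  exact hC hA _ hF (adjoin_range_mk_X_eq_top K) (maximalIdeal_quotient_pow_eq_bot M K hKM hpow)

end Quotient

end Fermat.Agent.S53.CardBound
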