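import Mathlib
import Fermat.Agent.S53.MatrixFormExtra

/-!
# S53: continuity of a matrix representation over a limit ring from its finite levels
-/

set_option autoImplicit false

namespace Fermat.Agent.S53

open IsLocalRing

variable {R : Type} [CommRing R] [IsLocalRing R]

/-- If `r` becomes trivial on an open subgroup after each projection `pr n : R → A n` whose kernel
is contained in `𝔪_R ^ n`, then `r` is adically continuous. -/
theorem matCont_of_forall_factors_proj {A : ℕ → Type} [∀ n, CommRing (A n)]
    (pr : ∀ n, R →+* A n) (hker : ∀ n, RingHom.ker (pr n) ≤ maximalIdeal R ^ n)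
    (r : GQ →* M2 R)
    (h : ∀ n, GaloisFactorsThroughFiniteLevel (mapMat (pr n) r)) : MatCont r := by
  intro n
  obtain ⟨L, hL, h1⟩ := h n
  refine ⟨L, hL, fun σ hσ i j => hker n ?_⟩
  have h2 := congrFun (congrFun (h1 σ hσ) i) j
  rw [mapMat_apply] at h2
  rw [RingHom.mem_ker, Matrix.sub_apply, map_sub, h2, Matrix.one_apply, Matrix.one_apply]
  split_ifs <;> simp

/-- Special case: the projections `R → R ⧸ 𝔪 ^ n`. -/
theorem matCont_of_forall_factors_quotient (r : GQ →* M2 R)
    (h : ∀ n, GaloisFactorsThroughFiniteLevel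
      (mapMat (Ideal.Quotient.mk (maximalIdeal R ^ n)) r)) : MatCont r :=
  matCont_of_forall_factors_proj (fun n => Ideal.Quotient.mk (maximalIdeal R ^ n))
    (fun n => by rw [Ideal.mk_ker]) r h

/-- Conversely a continuous `r` is of finite level modulo any ideal containing a power of `𝔪`. -/
theorem MatCont.factors_mapMat_of_pow_le {r : GQ →* M2 R} (h : MatCont r) {B : Type} [CommRing B]
    (φ : R →+* B) {n : ℕ} (hn : maximalIdeal R ^ n ≤ RingHom.ker φ) :
    GaloisFactorsThroughFiniteLevel (mapMat φ r) := by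
  obtain ⟨L, hL, h1⟩ := h n
  refine ⟨L, hL, fun σ hσ => ?_⟩
  ext i j
  have h2 := hn (h1 σ hσ i j)
  rw [RingHom.mem_ker, Matrix.sub_apply, map_sub, sub_eq_zero] at h2
  rw [mapMat_apply, h2, Matrix.one_apply, Matrix.one_apply]
  split_ifs <;> simp

end Fermat.Agent.S53
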