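import Mathlib
import Fermat.Prelude.Def_GaloisRep_DeformationCondition
import Fermat.Prelude.Def_GaloisRep_DeformationRingData
import Fermat.Agent.S53.MatrixForm

/-!
# S53: the functor of normalized matrix lifts (instantiation of the abstract representability theorem)

For a local `𝒪`-algebra `A`, a family `x : GQ × Fin 2 × Fin 2 → A` is *normalized-good* (`NF`)
if it is the family of entries of a continuous matrix representation `r : GQ →* M2 A` which
lifts a fixed residual matrix representation `rb0` exactly, satisfies a fixed set of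
`𝒪`-linear equations (the normalization), and such that `ofMat r` satisfies the deformation
condition `𝒟`.

We prove that `NF` is functorial for `𝒪`-algebra homs of test algebras, is reflected by injective
ones, glues along fibre products (in exactly the shape of `IsDeformationCondition.of_fibreProduct`),
has exactly one point over the residue field, and (given rigidity of normalized lifts) has
finitely many points over the dual numbers.
-/

set_option autoImplicit false

namespace Fermat.Agent.S53.NFF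

open IsLocalRing GaloisRep Fermat.Agent.S53

/-- The index type of matrix entries of a representation of `GQ`. -/
abbrev Idx : Type := GQ × Fin 2 × Fin 2

/-- The matrix-valued function attached to a family of entries. -/
def famMat {A : Type} (x : Idx → A) (g : GQ) : M2 A := Matrix.of fun i j => x (g, i, j)

@[simp] theorem famMat_apply {A : Type} (x : Idx → A) (g : GQ) (i j : Fin 2) :
    famMat x g i j = x (g, i, j) := rfl

/-- The family of entries of a matrix-valued function. -/
def entries {A : Type} (r : GQ → M2 A) : Idx → A := fun p => r p.1 p.2.1 p.2.2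

@[simp] theorem entries_apply {A : Type} (r : GQ → M2 A) (g : GQ) (i j : Fin 2) :
    entries r (g, i, j) = r g i j := rfl

theorem famMat_entries {A : Type} (r : GQ → M2 A) : famMat (entries r) = r := by
  funext g
  ext i j
  rfl

theorem entries_famMat {A : Type} (x : Idx → A) : entries (famMat x) = x := by
  funext p
  rcases p with ⟨g, i, j⟩
  rfl

/-- An `𝒪`-linear equation in the entries. -/
structure LinEq (𝒪 : Type) [CommRing 𝒪] where
  /-- the coefficients -/
  terms : Idx →₀ 𝒪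
  /-- the constant term -/
  const : 𝒪

/-- A family satisfies a linear equation. -/
def LinEq.Holds {𝒪 : Type} [CommRing 𝒪] (e : LinEq 𝒪) {A : Type} [CommRing A] [Algebra 𝒪 A]
    (x : Idx → A) : Prop :=
  (e.terms.sum fun p c => c • x p) = algebraMap 𝒪 A e.const

theorem LinEq.Holds.map {𝒪 : Type} [CommRing 𝒪] {e : LinEq 𝒪} {A B : Type} [CommRing A]
    [Algebra 𝒪 A] [CommRing B] [Algebra 𝒪 B] (u : A →ₐ[𝒪] B) {x : Idx → A} (h : e.Holds x) :
    e.Holds (u ∘ x) := by
  unfold LinEq.Holds at h ⊢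
  have := congrArg u h
  rw [map_finsuppSum] at this
  simpa [map_smul] using this

theorem LinEq.Holds.of_map {𝒪 : Type} [CommRing 𝒪] {e : LinEq 𝒪} {A B : Type} [CommRing A]
    [Algebra 𝒪 A] [CommRing B] [Algebra 𝒪 B] (u : A →ₐ[𝒪] B) {x : Idx → A} (h : e.Holds (u ∘ x)) :
    u (e.terms.sum fun p c => c • x p) = u (algebraMap 𝒪 A e.const) := by
  unfold LinEq.Holds at h
  rw [map_finsuppSum]
  simpa [map_smul] using h


section LocalFacts

variable {A : Type} [CommRing A] [IsLocalRing A] {B : Type} [CommRing B] [IsLocalRing B]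

/-- In an Artinian local ring some power of the maximal ideal vanishes. -/
theorem nf_exists_maximalIdeal_pow_eq_bot [IsArtinianRing A] :
    ∃ n : ℕ, maximalIdeal A ^ n = ⊥ := by
  have h := IsArtinianRing.isNilpotent_jacobson_bot (R := A)
  rw [IsLocalRing.jacobson_eq_maximalIdeal (⊥ : Ideal A) bot_ne_top] at h
  obtain ⟨n, hn⟩ := h
  exact ⟨n, by simpa using hn⟩

/-- A ring hom out of an Artinian local ring into a local ring is local. -/
theorem nf_isLocalHom_of_isArtinianRing [IsArtinianRing A] (u : A →+* B) : IsLocalHom u := by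
  refine ⟨fun a ha => ?_⟩
  by_contra hna
  have hmem : a ∈ maximalIdeal A := (IsLocalRing.mem_maximalIdeal a).mpr hna
  obtain ⟨n, hn⟩ := nf_exists_maximalIdeal_pow_eq_bot (A := A)
  have : a ^ n ∈ maximalIdeal A ^ n := Ideal.pow_mem_pow hmem n
  rw [hn, Ideal.mem_bot] at this
  have h0 : (u a) ^ n = 0 := by rw [← map_pow, this, map_zero]
  have hu : IsUnit ((u a) ^ n) := ha.pow n
  rw [h0] at hu
  exact not_isUnit_zero hu

/-- Any ring hom between local rings reflects membership in the maximal ideal. -/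
theorem nf_mem_maximalIdeal_of_map_mem (u : A →+* B) {a : A}
    (h : u a ∈ maximalIdeal B) : a ∈ maximalIdeal A := by
  rw [IsLocalRing.mem_maximalIdeal] at h ⊢
  intro ha
  exact h (ha.map u)

/-- A local hom maps the maximal ideal into the maximal ideal. -/
theorem nf_map_mem_maximalIdeal (u : A →+* B) (hu : IsLocalHom u) {a : A}
    (h : a ∈ maximalIdeal A) : u a ∈ maximalIdeal B := by
  rw [IsLocalRing.mem_maximalIdeal] at h ⊢
  intro ha
  exact h (hu.map_nonunit a ha)

/-- Over an Artinian local ring, a continuous matrix representation is trivial on an open subgroup. -/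
theorem nf_matCont_factors [IsArtinianRing A] {r : GQ →* M2 A} (h : MatCont r) :
    ∃ L : IntermediateField ℚ (AlgebraicClosure ℚ), FiniteDimensional ℚ L ∧
      ∀ σ : GQ, (∀ x ∈ L, σ x = x) → r σ = 1 := by
  obtain ⟨n, hn⟩ := nf_exists_maximalIdeal_pow_eq_bot (A := A)
  obtain ⟨L, hL, h1⟩ := h n
  refine ⟨L, hL, fun σ hσ => ?_⟩
  ext i j
  have := h1 σ hσ i j
  rw [hn, Ideal.mem_bot, Matrix.sub_apply, sub_eq_zero] at this
  exact this

/-- A matrix representation trivial on an open subgroup is continuous. -/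
theorem nf_matCont_of_factors {r : GQ →* M2 A}
    (h : ∃ L : IntermediateField ℚ (AlgebraicClosure ℚ), FiniteDimensional ℚ L ∧
      ∀ σ : GQ, (∀ x ∈ L, σ x = x) → r σ = 1) : MatCont r := by
  intro n
  obtain ⟨L, hL, h1⟩ := h
  refine ⟨L, hL, fun σ hσ i j => ?_⟩
  rw [h1 σ hσ, sub_self]
  exact Ideal.zero_mem _

end LocalFacts


section NFDef

variable {𝒪 : Type} [CommRing 𝒪] [IsLocalRing 𝒪]

/-- `r` lifts the residual matrix representation `rb0` exactly: every entry of `r g` is congruent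
modulo the maximal ideal to (the image of) a lift to `𝒪` of the corresponding entry of `rb0 g`. -/
def LiftsExactly (rb0 : GQ →* M2 (ResidueField 𝒪)) {A : Type} [CommRing A] [IsLocalRing A]
    [Algebra 𝒪 A] (x : Idx → A) : Prop :=
  ∀ g i j, ∃ c : 𝒪, residue 𝒪 c = rb0 g i j ∧ x (g, i, j) - algebraMap 𝒪 A c ∈ maximalIdeal A

/-- The functor of normalized good matrix lifts, as a predicate on families of entries. -/
def NF (rb0 : GQ →* M2 (ResidueField 𝒪)) (eqs : Set (LinEq 𝒪))
    (𝒟 : ∀ ⦃A : Type⦄ [CommRing A] [IsLocalRing A] [Algebra 𝒪 A], GaloisRepAdic A → Prop)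
    ⦃A : Type⦄ [CommRing A] [IsLocalRing A] [Algebra 𝒪 A] (x : Idx → A) : Prop :=
  ∃ (r : GQ →* M2 A) (h : MatCont r), (∀ g i j, r g i j = x (g, i, j)) ∧
    LiftsExactly rb0 x ∧ (∀ e ∈ eqs, e.Holds x) ∧ 𝒟 (ofMat r h)

variable {rb0 : GQ →* M2 (ResidueField 𝒪)} {eqs : Set (LinEq 𝒪)}
  {𝒟 : ∀ ⦃A : Type⦄ [CommRing A] [IsLocalRing A] [Algebra 𝒪 A], GaloisRepAdic A → Prop}

theorem LiftsExactly.map {A B : Type} [CommRing A] [IsLocalRing A] [Algebra 𝒪 A]
    [CommRing B] [IsLocalRing B] [Algebra 𝒪 B] (u : A →ₐ[𝒪] B) (hu : IsLocalHom (u : A →+* B))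
    {x : Idx → A} (h : LiftsExactly rb0 x) : LiftsExactly rb0 (u ∘ x) := by
  intro g i j
  obtain ⟨c, hc, hmem⟩ := h g i j
  refine ⟨c, hc, ?_⟩
  have := nf_map_mem_maximalIdeal (u : A →+* B) hu hmem
  simpa [map_sub] using this

theorem LiftsExactly.of_map {A B : Type} [CommRing A] [IsLocalRing A] [Algebra 𝒪 A]
    [CommRing B] [IsLocalRing B] [Algebra 𝒪 B] (u : A →ₐ[𝒪] B)
    {x : Idx → A} (h : LiftsExactly rb0 (u ∘ x)) : LiftsExactly rb0 x := by
  intro g i j
  obtain ⟨c, hc, hmem⟩ := h g i j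
  refine ⟨c, hc, ?_⟩
  apply nf_mem_maximalIdeal_of_map_mem (u : A →+* B)
  simpa [map_sub] using hmem

/-- The monoid hom with prescribed entries, when the family is multiplicative. -/
def homOfFam {A : Type} [CommRing A] (x : Idx → A) (h1 : famMat x 1 = 1)
    (hmul : ∀ g h, famMat x (g * h) = famMat x g * famMat x h) : GQ →* M2 A where
  toFun := famMat x
  map_one' := h1
  map_mul' := hmul

@[simp] theorem homOfFam_apply {A : Type} [CommRing A] (x : Idx → A) (h1 : famMat x 1 = 1)
    (hmul : ∀ g h, famMat x (g * h) = famMat x g * famMat x h) (g : GQ) (i j : Fin 2) :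
    homOfFam x h1 hmul g i j = x (g, i, j) := rfl

theorem eq_of_entries {A : Type} [CommRing A] {r r' : GQ →* M2 A}
    (h : ∀ g i j, r g i j = r' g i j) : r = r' := by
  ext g i j
  exact h g i j

omit [IsLocalRing 𝒪] in
/-- transport of `𝒟 (ofMat r h)` along an equality of matrix representations -/
theorem 𝒟_ofMat_congr {A : Type} [CommRing A] [IsLocalRing A] [Algebra 𝒪 A]
    {r r' : GQ →* M2 A} (e : r = r') {h : MatCont r} {h' : MatCont r'}
    (hd : 𝒟 (ofMat r h)) : 𝒟 (ofMat r' h') := by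
  subst e
  exact hd

end NFDef

section NFFunctoriality

variable {𝒪 : Type} [CommRing 𝒪] [IsLocalRing 𝒪]
  {rb0 : GQ →* M2 (ResidueField 𝒪)} {eqs : Set (LinEq 𝒪)}
  {𝒟 : ∀ ⦃A : Type⦄ [CommRing A] [IsLocalRing A] [Algebra 𝒪 A], GaloisRepAdic A → Prop}

/-- **(a)** `NF` is functorial along `𝒪`-algebra homs of test algebras. -/
theorem NF.map (h𝒟 : IsDeformationCondition 𝒪 𝒟)
    {A B : Type} [CommRing A] [IsLocalRing A] [Algebra 𝒪 A] [CommRing B] [IsLocalRing B]
    [Algebra 𝒪 B] (hA : IsArtinianTestAlgebra 𝒪 A) (hB : IsArtinianTestAlgebra 𝒪 B)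
    (u : A →ₐ[𝒪] B) {x : Idx → A} (hx : NF rb0 eqs 𝒟 x) : NF rb0 eqs 𝒟 (u ∘ x) := by
  obtain ⟨r, h, hr, hlift, heq, hd⟩ := hx
  have := hA.isArtinian
  have hu : IsLocalHom (u : A →+* B) := nf_isLocalHom_of_isArtinianRing _
  refine ⟨mapMat (u : A →+* B) r, h.map _ hu, ?_, hlift.map u hu, fun e he => (heq e he).map u, ?_⟩
  · intro g i j
    rw [mapMat_apply, hr]
    rfl
  · exact h𝒟.of_isEquiv hB (ofMat_baseChangeAlong r h _ hu) (h𝒟.baseChangeAlong hA hB u hu hd)

/-- **(b)** `NF` is reflected by injective `𝒪`-algebra homs of test algebras. -/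
theorem NF.of_map_injective (h𝒟 : IsDeformationCondition 𝒪 𝒟)
    {A B : Type} [CommRing A] [IsLocalRing A] [Algebra 𝒪 A] [CommRing B] [IsLocalRing B]
    [Algebra 𝒪 B] (hA : IsArtinianTestAlgebra 𝒪 A) (hB : IsArtinianTestAlgebra 𝒪 B)
    (u : A →ₐ[𝒪] B) (hinj : Function.Injective u) {x : Idx → A}
    (hx : NF rb0 eqs 𝒟 (u ∘ x)) : NF rb0 eqs 𝒟 x := by
  obtain ⟨r', h', hr', hlift, heq, hd⟩ := hx
  have := hA.isArtinian
  have := hB.isArtinian
  have hu : IsLocalHom (u : A →+* B) := nf_isLocalHom_of_isArtinianRing _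
  have h1 : famMat x 1 = 1 := by
    ext i j
    apply hinj
    have := hr' 1 i j
    rw [map_one] at this
    rw [famMat_apply]
    rw [Function.comp_apply] at this
    rw [← this, Matrix.one_apply, Matrix.one_apply]
    split_ifs <;> simp
  have hmul : ∀ g h, famMat x (g * h) = famMat x g * famMat x h := by
    intro g h
    ext i j
    apply hinj
    have := hr' (g * h) i j
    rw [map_mul, Matrix.mul_apply] at this
    rw [famMat_apply, Matrix.mul_apply, map_sum]
    rw [Function.comp_apply] at this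
    rw [← this]
    refine Finset.sum_congr rfl fun l _ => ?_
    rw [map_mul, hr', hr']
    rfl
  let r : GQ →* M2 A := homOfFam x h1 hmul
  have hmap : mapMat (u : A →+* B) r = r' := by
    apply eq_of_entries
    intro g i j
    rw [mapMat_apply, hr']
    rfl
  have hr : MatCont r := by
    apply nf_matCont_of_factors
    obtain ⟨L, hL, hL1⟩ := nf_matCont_factors h'
    refine ⟨L, hL, fun σ hσ => ?_⟩
    ext i j
    apply hinj
    have := congrFun (congrFun (hL1 σ hσ) i) j
    rw [← hmap, mapMat_apply] at this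
    show u (r σ i j) = u ((1 : M2 A) i j)
    rw [RingHom.coe_coe] at this
    rw [this, Matrix.one_apply, Matrix.one_apply]
    split_ifs <;> simp
  refine ⟨r, hr, fun g i j => rfl, hlift.of_map u, fun e he => ?_, ?_⟩
  · exact hinj ((heq e he).of_map u)
  · have hd' : 𝒟 (ofMat (mapMat (u : A →+* B) r) (hr.map _ hu)) := 𝒟_ofMat_congr hmap.symm hd
    exact h𝒟.of_baseChangeAlong_injective hA hB u hu hinj
      (h𝒟.of_isEquiv hB (isEquiv_symm (ofMat_baseChangeAlong r hr _ hu)) hd')

/-- **(c)** `NF` glues along fibre products, in exactly the shape of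
`IsDeformationCondition.of_fibreProduct`. -/
theorem NF.of_fibreProduct (h𝒟 : IsDeformationCondition 𝒪 𝒟)
    {A B C P : Type} [CommRing A] [IsLocalRing A] [Algebra 𝒪 A]
    [CommRing B] [IsLocalRing B] [Algebra 𝒪 B] [CommRing C] [IsLocalRing C] [Algebra 𝒪 C]
    [CommRing P] [IsLocalRing P] [Algebra 𝒪 P]
    (hA : IsArtinianTestAlgebra 𝒪 A) (hB : IsArtinianTestAlgebra 𝒪 B)
    (hC : IsArtinianTestAlgebra 𝒪 C) (hP : IsArtinianTestAlgebra 𝒪 P)
    (f : A →ₐ[𝒪] C) (g : B →ₐ[𝒪] C) (pA : P →ₐ[𝒪] A) (pB : P →ₐ[𝒪] B)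
    (hcomp : f.comp pA = g.comp pB)
    (hinj : Function.Injective (fun x => (pA x, pB x)))
    (hsurj : ∀ a b, f a = g b → ∃ x, pA x = a ∧ pB x = b)
    {x : Idx → P} (hxA : NF rb0 eqs 𝒟 (pA ∘ x)) (hxB : NF rb0 eqs 𝒟 (pB ∘ x)) :
    NF rb0 eqs 𝒟 x := by
  obtain ⟨rA, hrA, heA, hliftA, heqA, hdA⟩ := hxA
  obtain ⟨rB, hrB, heB, hliftB, heqB, hdB⟩ := hxB
  have := hA.isArtinian
  have := hB.isArtinian
  have := hP.isArtinian
  have hpA : IsLocalHom (pA : P →+* A) := nf_isLocalHom_of_isArtinianRing _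
  have hpB : IsLocalHom (pB : P →+* B) := nf_isLocalHom_of_isArtinianRing _
  have hext : ∀ {y z : P}, pA y = pA z → pB y = pB z → y = z := fun h1 h2 =>
    hinj (Prod.ext h1 h2)
  have h1 : famMat x 1 = 1 := by
    ext i j
    rw [famMat_apply]
    apply hext
    · have := heA 1 i j
      rw [map_one, Function.comp_apply] at this
      rw [← this, Matrix.one_apply, Matrix.one_apply]
      split_ifs <;> simp
    · have := heB 1 i j
      rw [map_one, Function.comp_apply] at this
      rw [← this, Matrix.one_apply, Matrix.one_apply]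
      split_ifs <;> simp
  have hmul : ∀ σ τ, famMat x (σ * τ) = famMat x σ * famMat x τ := by
    intro σ τ
    ext i j
    rw [famMat_apply, Matrix.mul_apply]
    apply hext
    · have := heA (σ * τ) i j
      rw [map_mul, Matrix.mul_apply, Function.comp_apply] at this
      rw [← this, map_sum]
      refine Finset.sum_congr rfl fun l _ => ?_
      rw [map_mul, heA, heA]
      rfl
    · have := heB (σ * τ) i j
      rw [map_mul, Matrix.mul_apply, Function.comp_apply] at this
      rw [← this, map_sum]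
      refine Finset.sum_congr rfl fun l _ => ?_
      rw [map_mul, heB, heB]
      rfl
  let r : GQ →* M2 P := homOfFam x h1 hmul
  have hmapA : mapMat (pA : P →+* A) r = rA := by
    apply eq_of_entries
    intro σ i j
    rw [mapMat_apply, heA]
    rfl
  have hmapB : mapMat (pB : P →+* B) r = rB := by
    apply eq_of_entries
    intro σ i j
    rw [mapMat_apply, heB]
    rfl
  have hr : MatCont r := by
    apply nf_matCont_of_factors
    obtain ⟨LA, hLA, hLA1⟩ := nf_matCont_factors hrA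
    obtain ⟨LB, hLB, hLB1⟩ := nf_matCont_factors hrB
    refine ⟨LA ⊔ LB, IntermediateField.finiteDimensional_sup LA LB, fun σ hσ => ?_⟩
    have hσA : ∀ y ∈ LA, σ y = y := fun y hy => hσ y ((le_sup_left : LA ≤ LA ⊔ LB) hy)
    have hσB : ∀ y ∈ LB, σ y = y := fun y hy => hσ y ((le_sup_right : LB ≤ LA ⊔ LB) hy)
    ext i j
    apply hext
    · have := congrFun (congrFun (hLA1 σ hσA) i) j
      rw [← hmapA, mapMat_apply, RingHom.coe_coe] at this
      rw [this, Matrix.one_apply, Matrix.one_apply]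
      split_ifs <;> simp
    · have := congrFun (congrFun (hLB1 σ hσB) i) j
      rw [← hmapB, mapMat_apply, RingHom.coe_coe] at this
      rw [this, Matrix.one_apply, Matrix.one_apply]
      split_ifs <;> simp
  refine ⟨r, hr, fun σ i j => rfl, hliftA.of_map pA, fun e he => ?_, ?_⟩
  · exact hext ((heqA e he).of_map pA) ((heqB e he).of_map pB)
  · have hdA' : 𝒟 (ofMat (mapMat (pA : P →+* A) r) (hr.map _ hpA)) := 𝒟_ofMat_congr hmapA.symm hdA
    have hdB' : 𝒟 (ofMat (mapMat (pB : P →+* B) r) (hr.map _ hpB)) := 𝒟_ofMat_congr hmapB.symm hdB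
    exact h𝒟.of_fibreProduct hA hB hC hP f g pA pB hpA hpB hcomp hinj hsurj
      (h𝒟.of_isEquiv hA (isEquiv_symm (ofMat_baseChangeAlong r hr _ hpA)) hdA')
      (h𝒟.of_isEquiv hB (isEquiv_symm (ofMat_baseChangeAlong r hr _ hpB)) hdB')

end NFFunctoriality

section Residual

variable {𝒪 : Type} [CommRing 𝒪] [IsLocalRing 𝒪]
  {rb0 : GQ →* M2 (ResidueField 𝒪)} {eqs : Set (LinEq 𝒪)}
  {𝒟 : ∀ ⦃A : Type⦄ [CommRing A] [IsLocalRing A] [Algebra 𝒪 A], GaloisRepAdic A → Prop}

/-- From an exact reduction statement (as produced by `exists_ofMat_isEquiv_of_residual`) to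
`LiftsExactly`. -/
theorem liftsExactly_of_residue_eq {A : Type} [CommRing A] [IsLocalRing A] [Algebra 𝒪 A]
    (ψ : ResidueField 𝒪 →+* ResidueField A)
    (hψ : ∀ c : 𝒪, ψ (residue 𝒪 c) = residue A (algebraMap 𝒪 A c))
    {x : Idx → A} (h : ∀ g i j, residue A (x (g, i, j)) = ψ (rb0 g i j)) :
    LiftsExactly rb0 x := by
  intro g i j
  obtain ⟨c, hc⟩ := IsLocalRing.residue_surjective (rb0 g i j)
  refine ⟨c, hc, ?_⟩
  rw [← IsLocalRing.residue_eq_zero_iff, map_sub, h, ← hc, hψ, sub_self]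

/-- `LiftsExactly` gives an exact reduction statement. -/
theorem LiftsExactly.residue_eq {A : Type} [CommRing A] [IsLocalRing A] [Algebra 𝒪 A]
    (ψ : ResidueField 𝒪 →+* ResidueField A)
    (hψ : ∀ c : 𝒪, ψ (residue 𝒪 c) = residue A (algebraMap 𝒪 A c))
    {x : Idx → A} (h : LiftsExactly rb0 x) (g : GQ) (i j : Fin 2) :
    residue A (x (g, i, j)) = ψ (rb0 g i j) := by
  obtain ⟨c, hc, hmem⟩ := h g i j
  rw [← IsLocalRing.residue_eq_zero_iff, map_sub, sub_eq_zero] at hmem
  rw [hmem, ← hc, hψ]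

/-- The residual representation of an exact matrix lift of `rb0` is the base change of any
residual representation equivalent to the matrix-form one of `rb0`. -/
theorem residual_isEquiv_of_liftsExactly {A : Type} [CommRing A] [IsLocalRing A] [Algebra 𝒪 A]
    (ψ : ResidueField 𝒪 →+* ResidueField A)
    (hψ : ∀ c : 𝒪, ψ (residue 𝒪 c) = residue A (algebraMap 𝒪 A c))
    (r : GQ →* M2 A) (h : MatCont r) (hlift : LiftsExactly rb0 (entries r))
    (hrb0 : GaloisFactorsThroughFiniteLevel rb0)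
    {ρbar : ResidualGaloisRep (ResidueField 𝒪)} (hρ : ρbar.IsEquiv (ofMatRes rb0 hrb0)) :
    (ofMat r h).residual.IsEquiv (ρbar.baseChangeAlong ψ) := by
  have key : mapMat (residue A) r = mapMat ψ rb0 := by
    apply eq_of_entries
    intro g i j
    rw [mapMat_apply, mapMat_apply]
    exact hlift.residue_eq ψ hψ g i j
  have e1 := residual_ofMat r h
  have e3 := ofMatRes_baseChangeAlong ψ rb0 hrb0
  have e2 : (ρbar.baseChangeAlong ψ).IsEquiv ((ofMatRes rb0 hrb0).baseChangeAlong ψ) :=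
    hρ.elim fun E => ⟨E.baseChangeAlong ψ⟩
  have e4 : (ofMatRes (mapMat (residue A) r) (factors_mapMat_residue h)).IsEquiv
      (ofMatRes (mapMat ψ rb0) (factors_mapMat ψ hrb0)) := by
    rw [ofMatRes_isEquiv_iff]
    refine ⟨1, fun g => ?_⟩
    rw [key]
    simp
  exact resIsEquiv_trans e1 (resIsEquiv_trans e4 (resIsEquiv_trans (resIsEquiv_symm e3)
    (resIsEquiv_symm e2)))

/-- The residue field of `𝒪` is a test algebra. -/
theorem isArtinianTestAlgebra_residueField :
    IsArtinianTestAlgebra 𝒪 (ResidueField 𝒪) where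
  isLocalHom := by
    rw [IsLocalRing.ResidueField.algebraMap_eq]
    infer_instance
  residue_surjective := by
    intro y
    obtain ⟨z, rfl⟩ := IsLocalRing.residue_surjective y
    obtain ⟨c, rfl⟩ := IsLocalRing.residue_surjective z
    exact ⟨c, rfl⟩
  isArtinian := inferInstance

/-- `𝒟` holds for the matrix form of `ρbar`. -/
theorem 𝒟_ofMat_rb0 (h𝒟 : IsDeformationCondition 𝒪 𝒟) (hrb0 : GaloisFactorsThroughFiniteLevel rb0)
    {ρbar : ResidualGaloisRep (ResidueField 𝒪)} (hρ : ρbar.IsEquiv (ofMatRes rb0 hrb0))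
    (hbar : 𝒟 (GaloisRepAdic.ofResidualGaloisRep ρbar)) :
    𝒟 (ofMat rb0 (matCont_of_factors hrb0)) := by
  have := h𝒟.of_isEquiv isArtinianTestAlgebra_residueField (ofResidualGaloisRep_isEquiv hρ) hbar
  rwa [ofResidualGaloisRep_ofMatRes] at this

/-- **(d)** Over the residue field, the only normalized good lift is `rb0` itself. -/
theorem NF.residueField_iff (hrb0 : GaloisFactorsThroughFiniteLevel rb0)
    (hd0 : 𝒟 (ofMat rb0 (matCont_of_factors hrb0)))
    (heqs0 : ∀ e ∈ eqs, e.Holds (entries (⇑rb0)))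
    (x : Idx → ResidueField 𝒪) : NF rb0 eqs 𝒟 x ↔ x = entries (⇑rb0) := by
  have hbot : maximalIdeal (ResidueField 𝒪) = ⊥ :=
    (Ideal.eq_bot_or_top _).resolve_right (Ideal.IsMaximal.ne_top inferInstance)
  constructor
  · rintro ⟨r, h, hr, hlift, -, -⟩
    funext p
    rcases p with ⟨g, i, j⟩
    obtain ⟨c, hc, hmem⟩ := hlift g i j
    rw [hbot, Ideal.mem_bot, sub_eq_zero, IsLocalRing.ResidueField.algebraMap_eq] at hmem
    rw [hmem, hc]
    rfl
  · rintro rfl
    refine ⟨rb0, matCont_of_factors hrb0, fun g i j => rfl, ?_, heqs0, hd0⟩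
    intro g i j
    obtain ⟨c, hc⟩ := IsLocalRing.residue_surjective (rb0 g i j)
    refine ⟨c, hc, ?_⟩
    rw [IsLocalRing.ResidueField.algebraMap_eq, hc]
    simp

end Residual

section Tangent

variable {𝒪 : Type} [CommRing 𝒪] [IsLocalRing 𝒪]
  {rb0 : GQ →* M2 (ResidueField 𝒪)} {eqs : Set (LinEq 𝒪)}
  {𝒟 : ∀ ⦃A : Type⦄ [CommRing A] [IsLocalRing A] [Algebra 𝒪 A], GaloisRepAdic A → Prop}

/-- Rigidity of normalized exact lifts: two conjugate ones are equal. -/
def Rigid (rb0 : GQ →* M2 (ResidueField 𝒪)) (eqs : Set (LinEq 𝒪)) : Prop :=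
  ∀ ⦃A : Type⦄ [CommRing A] [IsLocalRing A] [Algebra 𝒪 A], IsLocalHom (algebraMap 𝒪 A) →
    ∀ (r r' : GQ →* M2 A),
    LiftsExactly rb0 (entries (⇑r)) → LiftsExactly rb0 (entries (⇑r')) →
    (∀ e ∈ eqs, e.Holds (entries (⇑r))) → (∀ e ∈ eqs, e.Holds (entries (⇑r'))) →
    (∃ M : (M2 A)ˣ, ∀ g : GQ, (M : M2 A) * r g = r' g * (M : M2 A)) → r = r'

/-- The `𝒪`-algebra structure on the dual numbers of the residue field used in `TangentFinite`. -/
@[reducible] noncomputable def dualNumberAlgebra (𝒪 : Type) [CommRing 𝒪] [IsLocalRing 𝒪] :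
    Algebra 𝒪 (DualNumber (ResidueField 𝒪)) :=
  ((algebraMap (ResidueField 𝒪) (DualNumber (ResidueField 𝒪))).comp
      (algebraMap 𝒪 (ResidueField 𝒪))).toAlgebra

/-- **(e)** Given rigidity, `NF` has finitely many points over the dual numbers. -/
theorem NF.finite_dualNumber (hrb0 : GaloisFactorsThroughFiniteLevel rb0)
    {ρbar : ResidualGaloisRep (ResidueField 𝒪)} (hρ : ρbar.IsEquiv (ofMatRes rb0 hrb0))
    (hfin : TangentFinite 𝒪 ρbar 𝒟) (hrig : Rigid rb0 eqs) :
    letI := dualNumberAlgebra 𝒪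
    Finite {x : Idx → DualNumber (ResidueField 𝒪) // NF rb0 eqs 𝒟 x} := by
  let _ := dualNumberAlgebra 𝒪
  unfold TangentFinite at hfin
  let ψ : ResidueField 𝒪 →+* ResidueField (DualNumber (ResidueField 𝒪)) :=
    (IsLocalRing.residue (DualNumber (ResidueField 𝒪))).comp
      (algebraMap (ResidueField 𝒪) (DualNumber (ResidueField 𝒪)))
  have hψ : ∀ c : 𝒪, ψ (residue 𝒪 c) =
      residue (DualNumber (ResidueField 𝒪)) (algebraMap 𝒪 (DualNumber (ResidueField 𝒪)) c) := by
    intro c
    rfl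
  -- choose the data attached to each point
  have hch : ∀ x : {x : Idx → DualNumber (ResidueField 𝒪) // NF rb0 eqs 𝒟 x},
      ∃ (r : GQ →* M2 (DualNumber (ResidueField 𝒪))) (h : MatCont r),
        (∀ g i j, r g i j = x.1 (g, i, j)) ∧ LiftsExactly rb0 x.1 ∧ (∀ e ∈ eqs, e.Holds x.1) ∧
          𝒟 (ofMat r h) := fun x => x.2
  choose r hr hent hlift heq hd using hch
  have hent' : ∀ x, entries (⇑(r x)) = x.1 := by
    intro x
    funext p
    rcases p with ⟨g, i, j⟩
    exact hent x g i j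
  have hres : ∀ x, (ofMat (r x) (hr x)).residual.IsEquiv (ρbar.baseChangeAlong ψ) := by
    intro x
    refine residual_isEquiv_of_liftsExactly ψ hψ (r x) (hr x) ?_ hrb0 hρ
    rw [hent' x]
    exact hlift x
  refine @Finite.of_injective _ _ hfin
    (fun x => Quotient.mk _ ⟨ofMat (r x) (hr x), hd x, hres x⟩) ?_
  intro x y hxy
  have hxy' := Quotient.exact hxy
  have hE : (ofMat (r x) (hr x)).IsEquiv (ofMat (r y) (hr y)) := hxy'
  have hM := ofMat_isEquiv_iff.mp hE
  have hrr : r x = r y := by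
    have hloc : IsLocalHom (algebraMap 𝒪 (DualNumber (ResidueField 𝒪))) := by
      have hcomp : (TrivSqZeroExt.fstHom (ResidueField 𝒪) (ResidueField 𝒪) (ResidueField 𝒪) :
          DualNumber (ResidueField 𝒪) →+* ResidueField 𝒪).comp
          (algebraMap 𝒪 (DualNumber (ResidueField 𝒪))) = residue 𝒪 := by
        ext c
        rfl
      have : IsLocalHom ((TrivSqZeroExt.fstHom (ResidueField 𝒪) (ResidueField 𝒪) (ResidueField 𝒪) :
          DualNumber (ResidueField 𝒪) →+* ResidueField 𝒪).comp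
          (algebraMap 𝒪 (DualNumber (ResidueField 𝒪)))) := by
        rw [hcomp]
        infer_instance
      exact isLocalHom_of_comp _ (TrivSqZeroExt.fstHom (ResidueField 𝒪) (ResidueField 𝒪)
        (ResidueField 𝒪) : DualNumber (ResidueField 𝒪) →+* ResidueField 𝒪)
    refine hrig hloc (r x) (r y) ?_ ?_ ?_ ?_ hM
    · rw [hent' x]; exact hlift x
    · rw [hent' y]; exact hlift y
    · rw [hent' x]; exact heq x
    · rw [hent' y]; exact heq y
  apply Subtype.ext
  rw [← hent' x, ← hent' y, hrr]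

end Tangent

section Complete

variable {𝒪 : Type} [CommRing 𝒪] [IsLocalRing 𝒪]
  {rb0 : GQ →* M2 (ResidueField 𝒪)} {eqs : Set (LinEq 𝒪)}
  {𝒟 : ∀ ⦃A : Type⦄ [CommRing A] [IsLocalRing A] [Algebra 𝒪 A], GaloisRepAdic A → Prop}

/-- Pushing a normalized good lift over a complete Noetherian local `𝒪`-algebra to an Artinian
quotient gives a normalized good lift. -/
theorem NF.map_of_complete (h𝒟 : IsDeformationCondition 𝒪 𝒟)
    {A : Type} [CommRing A] [IsLocalRing A] [IsNoetherianRing A]
    [IsAdicComplete (maximalIdeal A) A] [Algebra 𝒪 A]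
    (hloc : IsLocalHom (algebraMap 𝒪 A))
    (hsurj : Function.Surjective (IsLocalRing.residue A ∘ algebraMap 𝒪 A))
    {B : Type} [CommRing B] [IsLocalRing B] [Algebra 𝒪 B] (hB : IsArtinianTestAlgebra 𝒪 B)
    (q : A →ₐ[𝒪] B) (hq : IsLocalHom (q : A →+* B)) (hqs : Function.Surjective q)
    {x : Idx → A} (hx : NF rb0 eqs 𝒟 x) : NF rb0 eqs 𝒟 (q ∘ x) := by
  obtain ⟨r, h, hr, hlift, heq, hd⟩ := hx
  refine ⟨mapMat (q : A →+* B) r, h.map _ hq, ?_, hlift.map q hq, fun e he => (heq e he).map q, ?_⟩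
  · intro g i j
    rw [mapMat_apply, hr]
    rfl
  · have := (h𝒟.iff_forall_surjective hloc hsurj (ofMat r h)).mp hd hB q hq hqs
    exact h𝒟.of_isEquiv hB (ofMat_baseChangeAlong r h _ hq) this

/-- A matrix lift over a complete Noetherian local `𝒪`-algebra all of whose Artinian quotients are
normalized good lifts satisfies `𝒟`. -/
theorem 𝒟_of_forall_NF (h𝒟 : IsDeformationCondition 𝒪 𝒟)
    {A : Type} [CommRing A] [IsLocalRing A] [IsNoetherianRing A]
    [IsAdicComplete (maximalIdeal A) A] [Algebra 𝒪 A]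
    (hloc : IsLocalHom (algebraMap 𝒪 A))
    (hsurj : Function.Surjective (IsLocalRing.residue A ∘ algebraMap 𝒪 A))
    (r : GQ →* M2 A) (h : MatCont r)
    (hall : ∀ ⦃B : Type⦄ [CommRing B] [IsLocalRing B] [Algebra 𝒪 B], IsArtinianTestAlgebra 𝒪 B →
      ∀ (q : A →ₐ[𝒪] B), IsLocalHom (q : A →+* B) → Function.Surjective q →
        NF rb0 eqs 𝒟 (q ∘ entries (⇑r))) : 𝒟 (ofMat r h) := by
  rw [h𝒟.iff_forall_surjective hloc hsurj (ofMat r h)]
  intro B _ _ _ hB q hq hqs
  obtain ⟨r', h', hr', -, -, hd'⟩ := hall hB q hq hqs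
  have e : r' = mapMat (q : A →+* B) r := by
    apply eq_of_entries
    intro g i j
    rw [hr', mapMat_apply]
    rfl
  have hd'' : 𝒟 (ofMat (mapMat (q : A →+* B) r) (h.map _ hq)) := 𝒟_ofMat_congr e hd'
  exact h𝒟.of_isEquiv hB (isEquiv_symm (ofMat_baseChangeAlong r h _ hq)) hd''

end Complete

end Fermat.Agent.S53.NFF
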