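import Mathlib

/-!
# Rigidification of 2x2 matrix pairs and representations over local rings (package for S53)

A pair `(T, S)` of 2x2 matrices over a commutative ring is *normalized* if
`T 1 0 = 0`, `S 0 0 = 0`, `S 1 0 = 1`, i.e. `e₀` is an eigenvector of `T` and `S e₀ = e₁`.

* `conj_eq_smul_one_of_normalized`: a matrix intertwining two normalized pairs is scalar.
* `exists_conj_normalized`: over a Henselian local ring, a pair reducing to `(E₀₀, E₁₀)` modulo the
  maximal ideal can be conjugated (by a matrix congruent to `1`) to a normalized pair.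
* `frame c r = ∑ g, c g • r g` for a finitely supported family of coefficients; the pair
  `(frame c r, frame d r)` is the pair attached to a matrix valued map `r`; it is compatible with
  algebra homomorphisms and with conjugation. `IsNormalizedRep c d r` is the resulting *linear*
  normal form for `r`, with uniqueness (`eq_of_conj_of_isNormalizedRep`) and existence
  (`exists_conj_isNormalizedRep`).
-/

namespace Fermat.Agent.S53.Rigidify

open Matrix IsLocalRing Polynomial

variable {A : Type*} [CommRing A]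

/-- Normal form for a pair of `2 × 2` matrices: `T e₀ ∈ A e₀` and `S e₀ = e₁`. -/
def IsNormalizedPair (T S : Matrix (Fin 2) (Fin 2) A) : Prop :=
  T 1 0 = 0 ∧ S 0 0 = 0 ∧ S 1 0 = 1

/-- `(T, S)` reduces to `(E₀₀, E₁₀)` modulo the ideal `I`. -/
def IsResidualFrame (I : Ideal A) (T S : Matrix (Fin 2) (Fin 2) A) : Prop :=
  (T 0 0 - 1 ∈ I ∧ T 0 1 ∈ I ∧ T 1 0 ∈ I ∧ T 1 1 ∈ I) ∧
    (S 0 0 ∈ I ∧ S 0 1 ∈ I ∧ S 1 0 - 1 ∈ I ∧ S 1 1 ∈ I)

theorem IsNormalizedPair.map {B : Type*} [CommRing B] (φ : A →+* B)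
    {T S : Matrix (Fin 2) (Fin 2) A} (h : IsNormalizedPair T S) :
    IsNormalizedPair (T.map φ) (S.map φ) := by
  obtain ⟨h1, h2, h3⟩ := h
  refine ⟨?_, ?_, ?_⟩
  · simp [Matrix.map_apply, h1]
  · simp [Matrix.map_apply, h2]
  · simp [Matrix.map_apply, h3]

theorem IsNormalizedPair.of_map {B : Type*} [CommRing B] (φ : A →+* B)
    (hφ : Function.Injective φ)
    {T S : Matrix (Fin 2) (Fin 2) A} (h : IsNormalizedPair (T.map φ) (S.map φ)) :
    IsNormalizedPair T S := by
  obtain ⟨h1, h2, h3⟩ := h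
  simp only [Matrix.map_apply] at h1 h2 h3
  refine ⟨hφ ?_, hφ ?_, hφ ?_⟩
  · rw [h1, map_zero]
  · rw [h2, map_zero]
  · rw [h3, map_one]

theorem IsResidualFrame.map {B : Type*} [CommRing B] (φ : A →+* B) {I : Ideal A} {J : Ideal B}
    (hIJ : I ≤ J.comap φ)
    {T S : Matrix (Fin 2) (Fin 2) A} (h : IsResidualFrame I T S) :
    IsResidualFrame J (T.map φ) (S.map φ) := by
  obtain ⟨⟨t00, t01, t10, t11⟩, ⟨s00, s01, s10, s11⟩⟩ := h
  have key : ∀ x ∈ I, φ x ∈ J := fun x hx => hIJ hx
  refine ⟨⟨?_, ?_, ?_, ?_⟩, ⟨?_, ?_, ?_, ?_⟩⟩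
  · simpa using key _ t00
  · simpa using key _ t01
  · simpa using key _ t10
  · simpa using key _ t11
  · simpa using key _ s00
  · simpa using key _ s01
  · simpa using key _ s10
  · simpa using key _ s11

theorem isResidualFrame_iff_map (I : Ideal A) (T S : Matrix (Fin 2) (Fin 2) A) :
    IsResidualFrame I T S ↔
      T.map (Ideal.Quotient.mk I) = !![1, 0; 0, 0] ∧ S.map (Ideal.Quotient.mk I) = !![0, 0; 1, 0] := by
  have key : ∀ x y : A, x - y ∈ I ↔ Ideal.Quotient.mk I x = Ideal.Quotient.mk I y := fun x y =>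
    (Ideal.Quotient.eq).symm
  have key0 : ∀ x : A, x ∈ I ↔ Ideal.Quotient.mk I x = 0 := fun x =>
    (Ideal.Quotient.eq_zero_iff_mem).symm
  unfold IsResidualFrame
  constructor
  · rintro ⟨⟨t00, t01, t10, t11⟩, ⟨s00, s01, s10, s11⟩⟩
    rw [key] at t00 s10
    rw [key0] at t01 t10 t11 s00 s01 s11
    constructor
    · ext i j; fin_cases i <;> fin_cases j <;> simp [*]
    · ext i j; fin_cases i <;> fin_cases j <;> simp [*]
  · rintro ⟨hT, hS⟩
    have hT' : ∀ i j, Ideal.Quotient.mk I (T i j) = (!![1, 0; 0, 0] : Matrix _ _ (A ⧸ I)) i j :=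
      fun i j => by rw [← hT]; rfl
    have hS' : ∀ i j, Ideal.Quotient.mk I (S i j) = (!![0, 0; 1, 0] : Matrix _ _ (A ⧸ I)) i j :=
      fun i j => by rw [← hS]; rfl
    refine ⟨⟨?_, ?_, ?_, ?_⟩, ⟨?_, ?_, ?_, ?_⟩⟩
    · rw [key, hT' 0 0]; simp
    · rw [key0, hT' 0 1]; simp
    · rw [key0, hT' 1 0]; simp
    · rw [key0, hT' 1 1]; simp
    · rw [key0, hS' 0 0]; simp
    · rw [key0, hS' 0 1]; simp
    · rw [key, hS' 1 0]; simp
    · rw [key0, hS' 1 1]; simp

/-- Conjugating by a matrix congruent to `1` modulo `I` does not change the reduction mod `I`. -/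
theorem map_conj_eq_of_sub_one_mem (I : Ideal A) (M : (Matrix (Fin 2) (Fin 2) A)ˣ)
    (hM : ∀ i j, ((M : Matrix (Fin 2) (Fin 2) A) - 1) i j ∈ I) (X : Matrix (Fin 2) (Fin 2) A) :
    ((↑M⁻¹ : Matrix (Fin 2) (Fin 2) A) * X * (↑M : Matrix (Fin 2) (Fin 2) A)).map
      (Ideal.Quotient.mk I) = X.map (Ideal.Quotient.mk I) := by
  let Q := (Ideal.Quotient.mk I).mapMatrix (m := Fin 2)
  have hQ : ∀ Y : Matrix (Fin 2) (Fin 2) A, Y.map (Ideal.Quotient.mk I) = Q Y := fun _ => rfl
  have h1 : Q (↑M : Matrix (Fin 2) (Fin 2) A) = 1 := by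
    have : Q ((↑M : Matrix (Fin 2) (Fin 2) A) - 1) = 0 := by
      ext i j
      simp only [Q, RingHom.mapMatrix_apply, Matrix.map_apply, Matrix.zero_apply]
      exact Ideal.Quotient.eq_zero_iff_mem.mpr (hM i j)
    rw [map_sub, map_one, sub_eq_zero] at this
    exact this
  have h2 : Q (↑M⁻¹ : Matrix (Fin 2) (Fin 2) A) = 1 := by
    have : Q (↑M⁻¹ : Matrix (Fin 2) (Fin 2) A) * Q (↑M : Matrix (Fin 2) (Fin 2) A) = 1 := by
      rw [← map_mul, Units.inv_mul, map_one]
    rwa [h1, mul_one] at this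
  rw [hQ, hQ, map_mul, map_mul, h1, h2, one_mul, mul_one]

theorem IsResidualFrame.conj {I : Ideal A} {T S : Matrix (Fin 2) (Fin 2) A}
    (h : IsResidualFrame I T S) (M : (Matrix (Fin 2) (Fin 2) A)ˣ)
    (hM : ∀ i j, ((M : Matrix (Fin 2) (Fin 2) A) - 1) i j ∈ I) :
    IsResidualFrame I ((↑M⁻¹ : Matrix (Fin 2) (Fin 2) A) * T * (↑M : Matrix (Fin 2) (Fin 2) A))
      ((↑M⁻¹ : Matrix (Fin 2) (Fin 2) A) * S * (↑M : Matrix (Fin 2) (Fin 2) A)) := by
  rw [isResidualFrame_iff_map] at h ⊢
  rw [map_conj_eq_of_sub_one_mem I M hM, map_conj_eq_of_sub_one_mem I M hM]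
  exact h

/-- **Uniqueness of the normal form**: a matrix intertwining two normalized pairs is scalar. -/
theorem conj_eq_smul_one_of_normalized {T S T' S' M : Matrix (Fin 2) (Fin 2) A}
    (hTS : IsNormalizedPair T S) (hTS' : IsNormalizedPair T' S')
    (hu : IsUnit (T' 1 1 - T 0 0))
    (hT : M * T = T' * M) (hS : M * S = S' * M) :
    M = (M 0 0) • (1 : Matrix (Fin 2) (Fin 2) A) := by
  obtain ⟨t10, s00, s10⟩ := hTS
  obtain ⟨t10', s00', s10'⟩ := hTS'
  -- entry (1,0) of `M T = T' M`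
  have e10 := congrFun (congrFun hT 1) 0
  simp only [Matrix.mul_apply, Fin.sum_univ_two] at e10
  rw [t10, t10'] at e10
  have hy : (T' 1 1 - T 0 0) * M 1 0 = 0 := by linear_combination -e10
  have hM10 : M 1 0 = 0 := by
    obtain ⟨u, hu⟩ := hu
    have := congrArg (fun x => (↑u⁻¹ : A) * x) hy
    simp only [mul_zero] at this
    rw [← hu, ← mul_assoc, Units.inv_mul, one_mul] at this
    exact this
  -- column 0 of `M S = S' M`
  have f00 := congrFun (congrFun hS 0) 0
  have f10 := congrFun (congrFun hS 1) 0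
  simp only [Matrix.mul_apply, Fin.sum_univ_two] at f00 f10
  rw [s00, s10, s00', hM10] at f00
  rw [s00, s10, s10', hM10] at f10
  have hM01 : M 0 1 = 0 := by linear_combination f00
  have hM11 : M 1 1 = M 0 0 := by linear_combination f10
  ext i j
  fin_cases i <;> fin_cases j <;> simp [hM10, hM01, hM11]

/-- If `X (M e) = M w` then `(M⁻¹ X M) e = w`. -/
theorem conj_mulVec_eq {M : (Matrix (Fin 2) (Fin 2) A)ˣ} {X : Matrix (Fin 2) (Fin 2) A}
    {e w : Fin 2 → A} (h : X *ᵥ ((M : Matrix (Fin 2) (Fin 2) A) *ᵥ e) = (M : Matrix _ _ A) *ᵥ w) :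
    ((↑M⁻¹ : Matrix (Fin 2) (Fin 2) A) * X * (↑M : Matrix (Fin 2) (Fin 2) A)) *ᵥ e = w := by
  rw [← Matrix.mulVec_mulVec, ← Matrix.mulVec_mulVec, h, Matrix.mulVec_mulVec, Units.inv_mul,
    Matrix.one_mulVec]

theorem mulVec_single_zero (N : Matrix (Fin 2) (Fin 2) A) (i : Fin 2) :
    (N *ᵥ ![1, 0]) i = N i 0 := by
  simp [Matrix.mulVec, dotProduct, Fin.sum_univ_two]

section existence

variable [IsLocalRing A]

theorem isUnit_of_sub_one_mem_maximalIdeal {x : A} (hx : x - 1 ∈ maximalIdeal A) : IsUnit x := by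
  by_contra h
  have h1 : x ∈ maximalIdeal A := (mem_maximalIdeal x).mpr h
  have h2 : (1 : A) ∈ maximalIdeal A := by
    have := (maximalIdeal A).sub_mem h1 hx
    rwa [sub_sub_cancel] at this
  exact (maximalIdeal A).ne_top_iff_one.mp (Ideal.IsMaximal.ne_top inferInstance) h2

/-- Over a Henselian local ring a matrix `T ≡ E₀₀` has an eigenvector `(1, y)`, `y ∈ 𝔪`. -/
theorem exists_eigenvector_of_residual [HenselianRing A (maximalIdeal A)]
    (T : Matrix (Fin 2) (Fin 2) A)
    (h00 : T 0 0 - 1 ∈ maximalIdeal A) (h01 : T 0 1 ∈ maximalIdeal A)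
    (h10 : T 1 0 ∈ maximalIdeal A) (h11 : T 1 1 ∈ maximalIdeal A) :
    ∃ α y : A, α - 1 ∈ maximalIdeal A ∧ y ∈ maximalIdeal A ∧
      T 0 0 + T 0 1 * y = α ∧ T 1 0 + T 1 1 * y = α * y := by
  set a := T 0 0 with ha
  set b := T 0 1 with hb
  set c := T 1 0 with hc
  set d := T 1 1 with hd
  let f : A[X] := X ^ 2 - C (a + d) * X + C (a * d - b * c)
  have hfm : f.Monic := by
    have : f = X ^ 2 + (-(C (a + d)) * X + C (a * d - b * c)) := by simp only [f]; ring
    rw [this]
    apply Polynomial.monic_X_pow_add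
    refine lt_of_le_of_lt (Polynomial.degree_add_le _ _) ?_
    refine max_lt ?_ ?_
    · rw [← map_neg]
      exact lt_of_le_of_lt (Polynomial.degree_C_mul_X_le _) (by norm_num)
    · exact lt_of_le_of_lt Polynomial.degree_C_le (by norm_num)
  have hfa : f.eval a ∈ maximalIdeal A := by
    have : f.eval a = -(b * c) := by simp [f]; ring
    rw [this]
    exact (maximalIdeal A).neg_mem ((maximalIdeal A).mul_mem_right _ h01)
  have hda : f.derivative.eval a = a - d := by
    simp [f]; ring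
  have had : IsUnit (a - d) := by
    apply isUnit_of_sub_one_mem_maximalIdeal
    have : a - d - 1 = (a - 1) - d := by ring
    rw [this]
    exact (maximalIdeal A).sub_mem h00 h11
  obtain ⟨α, hα, hαa⟩ := HenselianRing.is_henselian f hfm a hfa (by rw [hda]; exact had.map _)
  have hα1 : α - 1 ∈ maximalIdeal A := by
    have : α - 1 = (α - a) + (a - 1) := by ring
    rw [this]; exact (maximalIdeal A).add_mem hαa h00
  have hu : IsUnit (α - d) := by
    apply isUnit_of_sub_one_mem_maximalIdeal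
    have : α - d - 1 = (α - 1) - d := by ring
    rw [this]; exact (maximalIdeal A).sub_mem hα1 h11
  obtain ⟨u, hu⟩ := hu
  have hroot : α ^ 2 - (a + d) * α + (a * d - b * c) = 0 := by
    have := hα
    simp only [IsRoot.def, f, eval_add, eval_sub, eval_mul, eval_pow, eval_X, eval_C] at this
    exact this
  refine ⟨α, c * ↑u⁻¹, hα1, (maximalIdeal A).mul_mem_right _ h10, ?_, ?_⟩
  · have h1 : (↑u : A) * ↑u⁻¹ = 1 := Units.mul_inv u
    have key : (a + b * (c * ↑u⁻¹) - α) * ↑u = 0 := by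
      have : (a + b * (c * ↑u⁻¹) - α) * ↑u = (a - α) * ↑u + b * c * (↑u * ↑u⁻¹) := by ring
      rw [this, h1, hu]
      linear_combination -hroot
    have := congrArg (fun x => x * (↑u⁻¹ : A)) key
    simp only [zero_mul, mul_assoc, h1, mul_one] at this
    linear_combination this
  · have h1 : (↑u : A) * ↑u⁻¹ = 1 := Units.mul_inv u
    have : c + d * (c * ↑u⁻¹) - α * (c * ↑u⁻¹) = c * (1 - (α - d) * ↑u⁻¹) := by ring
    have h2 : (α - d) * ↑u⁻¹ = 1 := by rw [← hu]; exact h1
    have h3 : c + d * (c * ↑u⁻¹) - α * (c * ↑u⁻¹) = 0 := by rw [this, h2]; ring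
    linear_combination h3

/-- **Existence of the normal form** over a Henselian local ring (e.g. an adically complete local
ring): a pair reducing to `(E₀₀, E₁₀)` is conjugate, by a matrix congruent to `1`, to a normalized
pair. -/
theorem exists_conj_normalized [HenselianRing A (maximalIdeal A)]
    {T S : Matrix (Fin 2) (Fin 2) A} (h : IsResidualFrame (maximalIdeal A) T S) :
    ∃ M : (Matrix (Fin 2) (Fin 2) A)ˣ,
      (∀ i j, ((M : Matrix (Fin 2) (Fin 2) A) - 1) i j ∈ maximalIdeal A) ∧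
      IsNormalizedPair ((↑M⁻¹ : Matrix (Fin 2) (Fin 2) A) * T * (↑M : Matrix (Fin 2) (Fin 2) A))
        ((↑M⁻¹ : Matrix (Fin 2) (Fin 2) A) * S * (↑M : Matrix (Fin 2) (Fin 2) A)) := by
  obtain ⟨⟨t00, t01, t10, t11⟩, ⟨s00, s01, s10, s11⟩⟩ := h
  obtain ⟨α, y, hα, hy, e0, e1⟩ := exists_eigenvector_of_residual T t00 t01 t10 t11
  let M0 : Matrix (Fin 2) (Fin 2) A := !![1, S 0 0 + S 0 1 * y; y, S 1 0 + S 1 1 * y]
  have hdet : M0.det = (S 1 0 + S 1 1 * y) - (S 0 0 + S 0 1 * y) * y := by
    simp [M0, Matrix.det_fin_two]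
  have hunit : IsUnit M0.det := by
    apply isUnit_of_sub_one_mem_maximalIdeal
    rw [hdet]
    have : S 1 0 + S 1 1 * y - (S 0 0 + S 0 1 * y) * y - 1
        = (S 1 0 - 1) + (S 1 1 - (S 0 0 + S 0 1 * y)) * y := by ring
    rw [this]
    exact (maximalIdeal A).add_mem s10 ((maximalIdeal A).mul_mem_left _ hy)
  obtain ⟨M, hM⟩ := (Matrix.isUnit_iff_isUnit_det M0).mpr hunit
  refine ⟨M, ?_, ?_⟩
  · intro i j
    rw [hM]
    fin_cases i <;> fin_cases j
    · simp [M0]
    · simpa [M0] using (maximalIdeal A).add_mem s00 ((maximalIdeal A).mul_mem_left _ hy)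
    · simpa [M0] using hy
    · have : S 1 0 + S 1 1 * y - 1 = (S 1 0 - 1) + S 1 1 * y := by ring
      simpa [M0, this] using (maximalIdeal A).add_mem s10 ((maximalIdeal A).mul_mem_left _ hy)
  · have hMe : (M : Matrix (Fin 2) (Fin 2) A) *ᵥ ![1, 0] = ![1, y] := by
      rw [hM]; ext i; fin_cases i <;> simp [M0, Matrix.mulVec, dotProduct, Fin.sum_univ_two]
    have hT : T *ᵥ ((M : Matrix (Fin 2) (Fin 2) A) *ᵥ ![1, 0])
        = (M : Matrix (Fin 2) (Fin 2) A) *ᵥ ![α, 0] := by
      rw [hMe, hM]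
      ext i; fin_cases i
      · simp [M0, Matrix.mulVec, dotProduct, Fin.sum_univ_two]; linear_combination e0
      · simp [M0, Matrix.mulVec, dotProduct, Fin.sum_univ_two]; linear_combination e1
    have hS : S *ᵥ ((M : Matrix (Fin 2) (Fin 2) A) *ᵥ ![1, 0])
        = (M : Matrix (Fin 2) (Fin 2) A) *ᵥ ![0, 1] := by
      rw [hMe, hM]
      ext i; fin_cases i <;> simp [M0, Matrix.mulVec, dotProduct, Fin.sum_univ_two]
    have hT' := conj_mulVec_eq hT
    have hS' := conj_mulVec_eq hS
    refine ⟨?_, ?_, ?_⟩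
    · have := congrFun hT' 1
      rw [mulVec_single_zero] at this
      simpa using this
    · have := congrFun hS' 0
      rw [mulVec_single_zero] at this
      simpa using this
    · have := congrFun hS' 1
      rw [mulVec_single_zero] at this
      simpa using this

end existence

/-! ### Frames attached to matrix valued maps -/

section frame

variable {𝒪 : Type*} [CommRing 𝒪] [Algebra 𝒪 A] {G : Type*}

/-- The matrix `∑ g, c g • r g` attached to finitely supported coefficients `c`. -/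
noncomputable def frame (c : G →₀ 𝒪) (r : G → Matrix (Fin 2) (Fin 2) A) :
    Matrix (Fin 2) (Fin 2) A :=
  c.sum fun g a => a • r g

theorem frame_mul_left (c : G →₀ 𝒪) (r : G → Matrix (Fin 2) (Fin 2) A)
    (M : Matrix (Fin 2) (Fin 2) A) : M * frame c r = frame c fun g => M * r g := by
  simp only [frame, Finsupp.sum, Finset.mul_sum, Matrix.mul_smul]

theorem frame_mul_right (c : G →₀ 𝒪) (r : G → Matrix (Fin 2) (Fin 2) A)
    (M : Matrix (Fin 2) (Fin 2) A) : frame c r * M = frame c fun g => r g * M := by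
  simp only [frame, Finsupp.sum, Finset.sum_mul, Matrix.smul_mul]

theorem frame_conj (c : G →₀ 𝒪) (r : G → Matrix (Fin 2) (Fin 2) A)
    (N M : Matrix (Fin 2) (Fin 2) A) : N * frame c r * M = frame c fun g => N * r g * M := by
  rw [frame_mul_left, frame_mul_right]

theorem frame_map {B : Type*} [CommRing B] [Algebra 𝒪 B] (φ : A →ₐ[𝒪] B) (c : G →₀ 𝒪)
    (r : G → Matrix (Fin 2) (Fin 2) A) :
    (frame c r).map φ = frame c fun g => (r g).map φ := by
  ext i j
  simp only [frame, Finsupp.sum, Matrix.map_apply, Matrix.sum_apply, Matrix.smul_apply, map_sum,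
    map_smul]

/-- The linear normal form on matrix valued maps determined by coefficient families `c`, `d`. -/
def IsNormalizedRep (c d : G →₀ 𝒪) (r : G → Matrix (Fin 2) (Fin 2) A) : Prop :=
  IsNormalizedPair (frame c r) (frame d r)

/-- `r` is residually framed by `(c, d)`: `∑ c g • r g ≡ E₀₀`, `∑ d g • r g ≡ E₁₀` mod `I`. -/
def IsResiduallyFramed (I : Ideal A) (c d : G →₀ 𝒪) (r : G → Matrix (Fin 2) (Fin 2) A) : Prop :=
  IsResidualFrame I (frame c r) (frame d r)

theorem IsNormalizedRep.map {B : Type*} [CommRing B] [Algebra 𝒪 B] (φ : A →ₐ[𝒪] B)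
    {c d : G →₀ 𝒪} {r : G → Matrix (Fin 2) (Fin 2) A} (h : IsNormalizedRep c d r) :
    IsNormalizedRep c d fun g => (r g).map φ := by
  unfold IsNormalizedRep
  rw [← frame_map, ← frame_map]
  exact IsNormalizedPair.map (φ : A →+* B) h

theorem IsNormalizedRep.of_map {B : Type*} [CommRing B] [Algebra 𝒪 B] (φ : A →ₐ[𝒪] B)
    (hφ : Function.Injective φ)
    {c d : G →₀ 𝒪} {r : G → Matrix (Fin 2) (Fin 2) A}
    (h : IsNormalizedRep c d fun g => (r g).map φ) : IsNormalizedRep c d r := by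
  unfold IsNormalizedRep at h
  rw [← frame_map, ← frame_map] at h
  exact IsNormalizedPair.of_map (φ : A →+* B) hφ h

theorem IsResiduallyFramed.map {B : Type*} [CommRing B] [Algebra 𝒪 B] (φ : A →ₐ[𝒪] B)
    {I : Ideal A} {J : Ideal B} (hIJ : I ≤ J.comap (φ : A →+* B))
    {c d : G →₀ 𝒪} {r : G → Matrix (Fin 2) (Fin 2) A} (h : IsResiduallyFramed I c d r) :
    IsResiduallyFramed J c d fun g => (r g).map φ := by
  unfold IsResiduallyFramed
  rw [← frame_map, ← frame_map]
  exact IsResidualFrame.map (φ : A →+* B) hIJ h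

/-- **Uniqueness**: an intertwiner between two normalized, residually framed matrix valued maps
is scalar. -/
theorem conj_eq_smul_one_of_isNormalizedRep [IsLocalRing A] {c d : G →₀ 𝒪}
    {r r' : G → Matrix (Fin 2) (Fin 2) A}
    (hr : IsNormalizedRep c d r) (hr' : IsNormalizedRep c d r')
    (hres : IsResiduallyFramed (maximalIdeal A) c d r)
    (hres' : IsResiduallyFramed (maximalIdeal A) c d r')
    {M : Matrix (Fin 2) (Fin 2) A} (hM : ∀ g, M * r g = r' g * M) :
    M = (M 0 0) • (1 : Matrix (Fin 2) (Fin 2) A) := by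
  refine conj_eq_smul_one_of_normalized hr hr' ?_ ?_ ?_
  · have h1 : frame c r 0 0 - 1 ∈ maximalIdeal A := hres.1.1
    have h2 : frame c r' 1 1 ∈ maximalIdeal A := hres'.1.2.2.2
    have : IsUnit (frame c r 0 0 - frame c r' 1 1) := by
      apply isUnit_of_sub_one_mem_maximalIdeal
      have : frame c r 0 0 - frame c r' 1 1 - 1 = (frame c r 0 0 - 1) - frame c r' 1 1 := by ring
      rw [this]
      exact (maximalIdeal A).sub_mem h1 h2
    have h3 : frame c r' 1 1 - frame c r 0 0 = -(frame c r 0 0 - frame c r' 1 1) := by ring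
    rw [h3]
    exact this.neg
  · rw [frame_mul_left, frame_mul_right]
    congr 1
    funext g
    exact hM g
  · rw [frame_mul_left, frame_mul_right]
    congr 1
    funext g
    exact hM g

/-- **Uniqueness**: two normalized residually framed matrix valued maps which are conjugate by an
invertible matrix are equal. -/
theorem eq_of_conj_of_isNormalizedRep [IsLocalRing A] {c d : G →₀ 𝒪}
    {r r' : G → Matrix (Fin 2) (Fin 2) A}
    (hr : IsNormalizedRep c d r) (hr' : IsNormalizedRep c d r')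
    (hres : IsResiduallyFramed (maximalIdeal A) c d r)
    (hres' : IsResiduallyFramed (maximalIdeal A) c d r')
    {M : Matrix (Fin 2) (Fin 2) A} (hMu : IsUnit M) (hM : ∀ g, M * r g = r' g * M) :
    r = r' := by
  have hsc := conj_eq_smul_one_of_isNormalizedRep hr hr' hres hres' hM
  generalize M 0 0 = x at hsc
  have hx : IsUnit x := by
    have hdet : IsUnit M.det := (Matrix.isUnit_iff_isUnit_det M).mp hMu
    rw [hsc, Matrix.det_smul, Matrix.det_one, mul_one, Fintype.card_fin] at hdet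
    exact (isUnit_pow_iff two_ne_zero).mp hdet
  funext g
  have h1 := hM g
  rw [hsc, Matrix.smul_mul, Matrix.mul_smul, Matrix.one_mul, Matrix.mul_one] at h1
  obtain ⟨u, rfl⟩ := hx
  have := congrArg (fun X => (↑u⁻¹ : A) • X) h1
  simpa [smul_smul] using this

/-- **Existence**: over a Henselian local ring (e.g. an adically complete local ring), a
residually framed matrix valued map is conjugate, by a matrix congruent to `1`, to a normalized
(and still residually framed) one. -/
theorem exists_conj_isNormalizedRep [IsLocalRing A] [HenselianRing A (maximalIdeal A)]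
    {c d : G →₀ 𝒪} {r : G → Matrix (Fin 2) (Fin 2) A}
    (hres : IsResiduallyFramed (maximalIdeal A) c d r) :
    ∃ M : (Matrix (Fin 2) (Fin 2) A)ˣ,
      (∀ i j, ((M : Matrix (Fin 2) (Fin 2) A) - 1) i j ∈ maximalIdeal A) ∧
      IsNormalizedRep c d (fun g =>
        (↑M⁻¹ : Matrix (Fin 2) (Fin 2) A) * r g * (↑M : Matrix (Fin 2) (Fin 2) A)) ∧
      IsResiduallyFramed (maximalIdeal A) c d (fun g =>
        (↑M⁻¹ : Matrix (Fin 2) (Fin 2) A) * r g * (↑M : Matrix (Fin 2) (Fin 2) A)) := by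
  obtain ⟨M, hM1, hMn⟩ := exists_conj_normalized hres
  refine ⟨M, hM1, ?_, ?_⟩
  · unfold IsNormalizedRep
    rw [← frame_conj, ← frame_conj]
    exact hMn
  · unfold IsResiduallyFramed
    rw [← frame_conj, ← frame_conj]
    exact IsResidualFrame.conj hres M hM1

end frame

end Fermat.Agent.S53.Rigidify
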