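import Mathlib
import Fermat.Agent.S53.NFFunctor
import Fermat.Agent.S53.Rigidify
import Fermat.Agent.S53.Burnside

/-!
# S53: glue between the normal form functor `NF`, rigidification and Burnside

* `normEqs c d` : the three `𝒪`-linear equations expressing `Rigidify.IsNormalizedRep c d`.
* `exists_base_data` : from absolute irreducibility of `ρbar`, a matrix form `rb0` and coefficient
  families `c d : GQ →₀ 𝒪` with `∑ c g • rb0 g = E₀₀`, `∑ d g • rb0 g = E₁₀`.
* `rigid_normEqs` : rigidity of normalized exact lifts (`Rigid rb0 (normEqs c d)`).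
* `exists_NF_of_deformation` : over a complete Noetherian local `𝒪`-algebra every deformation of
  type `𝒟` is equivalent to `ofMat r` for an `r` whose entries are in `NF`; `eq_of_isEquiv_of_NF`:
  such an `r` is unique.
-/

set_option autoImplicit false

namespace Fermat.Agent.S53.NFF

open IsLocalRing GaloisRep Fermat.Agent.S53 Fermat.Agent.S53.Rigidify

section NormEqs

variable {𝒪 : Type} [CommRing 𝒪]

/-- The linear equation "the `(i, j)` entry of `frame c r` equals `a`". -/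
noncomputable def frameEq (c : GQ →₀ 𝒪) (i j : Fin 2) (a : 𝒪) : LinEq 𝒪 :=
  ⟨c.mapDomain (fun g => ((g, i, j) : Idx)), a⟩

theorem frame_famMat_apply {A : Type} [CommRing A] [Algebra 𝒪 A] (c : GQ →₀ 𝒪) (x : Idx → A)
    (i j : Fin 2) : frame c (famMat x) i j = c.sum fun g a => a • x (g, i, j) := by
  simp only [frame, Finsupp.sum, Matrix.sum_apply, Matrix.smul_apply, famMat_apply]

theorem frameEq_holds_iff {A : Type} [CommRing A] [Algebra 𝒪 A] (c : GQ →₀ 𝒪) (i j : Fin 2)
    (a : 𝒪) (x : Idx → A) :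
    (frameEq c i j a).Holds x ↔ frame c (famMat x) i j = algebraMap 𝒪 A a := by
  unfold LinEq.Holds frameEq
  rw [frame_famMat_apply]
  simp only
  rw [Finsupp.sum_mapDomain_index (h := fun (p : Idx) (c : 𝒪) => c • x p)
    (fun _ => zero_smul _ _) (fun _ _ _ => add_smul _ _ _)]

/-- The three linear equations of the normal form `IsNormalizedRep c d`. -/
noncomputable def normEqs (c d : GQ →₀ 𝒪) : Set (LinEq 𝒪) :=
  {frameEq c 1 0 0, frameEq d 0 0 0, frameEq d 1 0 1}

theorem normEqs_holds_iff {A : Type} [CommRing A] [Algebra 𝒪 A] (c d : GQ →₀ 𝒪) (x : Idx → A) :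
    (∀ e ∈ normEqs c d, e.Holds x) ↔ IsNormalizedRep c d (famMat x) := by
  unfold IsNormalizedRep IsNormalizedPair normEqs
  simp only [Set.mem_insert_iff, Set.mem_singleton_iff, forall_eq_or_imp, forall_eq,
    frameEq_holds_iff, map_zero, map_one]

end NormEqs

section Framed

variable {𝒪 : Type} [CommRing 𝒪] [IsLocalRing 𝒪] {rb0 : GQ →* M2 (ResidueField 𝒪)}

/-- The reduction of `frame c` of an exact lift is the image of `frame c rb0`. -/
theorem residue_frame_of_liftsExactly {A : Type} [CommRing A] [IsLocalRing A] [Algebra 𝒪 A]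
    [IsLocalHom (algebraMap 𝒪 A)] {x : Idx → A} (hx : LiftsExactly rb0 x) (c : GQ →₀ 𝒪)
    (i j : Fin 2) :
    residue A (frame c (famMat x) i j) =
      ResidueField.map (algebraMap 𝒪 A) (frame c (⇑rb0) i j) := by
  have hψ : ∀ a : 𝒪, ResidueField.map (algebraMap 𝒪 A) (residue 𝒪 a) =
      residue A (algebraMap 𝒪 A a) := fun a => ResidueField.map_residue _ a
  rw [frame_famMat_apply]
  simp only [frame, Finsupp.sum, Matrix.sum_apply, Matrix.smul_apply, map_sum]
  refine Finset.sum_congr rfl fun g _ => ?_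
  rw [Algebra.smul_def, map_mul, hx.residue_eq _ hψ g i j, Algebra.smul_def, map_mul,
    IsLocalRing.ResidueField.algebraMap_eq, hψ]

/-- An exact lift of a residually framed `rb0` is residually framed. -/
theorem isResiduallyFramed_of_liftsExactly {A : Type} [CommRing A] [IsLocalRing A] [Algebra 𝒪 A]
    (hloc : IsLocalHom (algebraMap 𝒪 A)) {x : Idx → A} (hx : LiftsExactly rb0 x)
    {c d : GQ →₀ 𝒪} (hc : frame c (⇑rb0) = !![1, 0; 0, 0]) (hd : frame d (⇑rb0) = !![0, 0; 1, 0]) :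
    IsResiduallyFramed (maximalIdeal A) c d (famMat x) := by
  have hc' := fun i j => residue_frame_of_liftsExactly hx c i j
  have hd' := fun i j => residue_frame_of_liftsExactly hx d i j
  simp only [hc, hd] at hc' hd'
  have h0 : ∀ a : A, residue A a = 0 → a ∈ maximalIdeal A := fun a ha =>
    (IsLocalRing.residue_eq_zero_iff a).mp ha
  have h1 : ∀ a : A, residue A a = 1 → a - 1 ∈ maximalIdeal A := fun a ha => by
    rw [← IsLocalRing.residue_eq_zero_iff, map_sub, ha, map_one, sub_self]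
  refine ⟨⟨h1 _ ?_, h0 _ ?_, h0 _ ?_, h0 _ ?_⟩, ⟨h0 _ ?_, h0 _ ?_, h1 _ ?_, h0 _ ?_⟩⟩
  · rw [hc' 0 0]; simp
  · rw [hc' 0 1]; simp
  · rw [hc' 1 0]; simp
  · rw [hc' 1 1]; simp
  · rw [hd' 0 0]; simp
  · rw [hd' 0 1]; simp
  · rw [hd' 1 0]; simp
  · rw [hd' 1 1]; simp

/-- **Rigidity** of normalized exact lifts. -/
theorem rigid_normEqs {c d : GQ →₀ 𝒪} (hc : frame c (⇑rb0) = !![1, 0; 0, 0])
    (hd : frame d (⇑rb0) = !![0, 0; 1, 0]) : Rigid rb0 (normEqs c d) := by
  intro A _ _ _ hloc r r' hl hl' he he' hM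
  obtain ⟨M, hM⟩ := hM
  have hn : IsNormalizedRep c d (⇑r) := by
    have := (normEqs_holds_iff c d _).mp he
    rwa [famMat_entries] at this
  have hn' : IsNormalizedRep c d (⇑r') := by
    have := (normEqs_holds_iff c d _).mp he'
    rwa [famMat_entries] at this
  have hf : IsResiduallyFramed (maximalIdeal A) c d (⇑r) := by
    have := isResiduallyFramed_of_liftsExactly hloc hl hc hd
    rwa [famMat_entries] at this
  have hf' : IsResiduallyFramed (maximalIdeal A) c d (⇑r') := by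
    have := isResiduallyFramed_of_liftsExactly hloc hl' hc hd
    rwa [famMat_entries] at this
  exact DFunLike.coe_injective (eq_of_conj_of_isNormalizedRep hn hn' hf hf' M.isUnit hM)

end Framed

section BaseData

variable {𝒪 : Type} [CommRing 𝒪] [IsLocalRing 𝒪]

theorem smul_matrix_residueField (a : 𝒪) (M : M2 (ResidueField 𝒪)) :
    a • M = (residue 𝒪 a) • M := by
  ext i j
  rw [Matrix.smul_apply, Matrix.smul_apply, Algebra.smul_def,
    IsLocalRing.ResidueField.algebraMap_eq, smul_eq_mul]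

/-- Lifting coefficient families from the residue field to `𝒪`. -/
theorem exists_frame_eq (rb0 : GQ → M2 (ResidueField 𝒪))
    (hspan : Submodule.span (ResidueField 𝒪) (Set.range rb0) = ⊤) (X : M2 (ResidueField 𝒪)) :
    ∃ c : GQ →₀ 𝒪, frame c rb0 = X := by
  classical
  obtain ⟨cbar, hcbar⟩ := Burnside.exists_finsupp_sum_eq rb0 hspan X
  have hsurj : Function.Surjective (residue 𝒪) := IsLocalRing.residue_surjective
  let f : ResidueField 𝒪 → 𝒪 := fun a => if a = 0 then 0 else Function.surjInv hsurj a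
  have hf0 : f 0 = 0 := if_pos rfl
  have hf : ∀ a, residue 𝒪 (f a) = a := by
    intro a
    by_cases ha : a = 0
    · simp [f, ha]
    · simp only [f, if_neg ha]
      exact Function.surjInv_eq hsurj a
  refine ⟨cbar.mapRange f hf0, ?_⟩
  rw [← hcbar]
  unfold frame
  rw [Finsupp.sum_mapRange_index (h := fun (g : GQ) (a : 𝒪) => a • rb0 g) (fun g => zero_smul _ _)]
  refine Finsupp.sum_congr fun g _ => ?_
  rw [smul_matrix_residueField, hf]

/-- **Base data**: a matrix form of an absolutely irreducible `ρbar` together with coefficient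
families framing it. -/
theorem exists_base_data (ρbar : ResidualGaloisRep (ResidueField 𝒪))
    (habs : ρbar.IsAbsolutelyIrreducible) :
    ∃ (rb0 : GQ →* M2 (ResidueField 𝒪)) (hrb0 : GaloisFactorsThroughFiniteLevel rb0)
      (c d : GQ →₀ 𝒪), ρbar.IsEquiv (ofMatRes rb0 hrb0) ∧
        frame c (⇑rb0) = !![1, 0; 0, 0] ∧ frame d (⇑rb0) = !![0, 0; 1, 0] := by
  obtain ⟨rb0, hrb0, hρ⟩ := exists_ofMatRes_isEquiv ρbar
  have habs' := isAbsolutelyIrreducible_of_isEquiv hρ habs
  have hirr := isIrreducible_of_isEquiv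
    (ofMatRes_baseChange (k' := AlgebraicClosure (ResidueField 𝒪)) rb0 hrb0) habs'
  rw [ofMatRes_isIrreducible_iff] at hirr
  have hspanK := Burnside.span_range_eq_top_of_irreducible
    (mapMat (algebraMap (ResidueField 𝒪) (AlgebraicClosure (ResidueField 𝒪))) rb0) hirr
  have hspank : Submodule.span (ResidueField 𝒪) (Set.range (⇑rb0)) = ⊤ := by
    apply Burnside.span_range_eq_top_of_map (K := AlgebraicClosure (ResidueField 𝒪))
    convert hspanK using 3
    funext g
    rw [mapMat_apply']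
  obtain ⟨c, hc⟩ := exists_frame_eq (⇑rb0) hspank !![1, 0; 0, 0]
  obtain ⟨d, hd⟩ := exists_frame_eq (⇑rb0) hspank !![0, 0; 1, 0]
  exact ⟨rb0, hrb0, c, d, hρ, hc, hd⟩

end BaseData

section CompleteLocal

variable {𝒪 : Type} [CommRing 𝒪] [IsLocalRing 𝒪]
  {rb0 : GQ →* M2 (ResidueField 𝒪)}
  {𝒟 : ∀ ⦃A : Type⦄ [CommRing A] [IsLocalRing A] [Algebra 𝒪 A], GaloisRepAdic A → Prop}

omit [IsLocalRing 𝒪] in
/-- Over a complete Noetherian local `𝒪`-algebra, `𝒟` is invariant under equivalence. -/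
theorem 𝒟_of_isEquiv_complete (h𝒟 : IsDeformationCondition 𝒪 𝒟)
    {A : Type} [CommRing A] [IsLocalRing A] [IsNoetherianRing A]
    [IsAdicComplete (maximalIdeal A) A] [Algebra 𝒪 A]
    (hloc : IsLocalHom (algebraMap 𝒪 A))
    (hsurj : Function.Surjective (IsLocalRing.residue A ∘ algebraMap 𝒪 A))
    {ρ ρ' : GaloisRepAdic A} (e : ρ.IsEquiv ρ') (h : 𝒟 ρ) : 𝒟 ρ' := by
  rw [h𝒟.iff_forall_surjective hloc hsurj] at h ⊢
  intro B _ _ _ hB q hq hqs
  exact h𝒟.of_isEquiv hB (e.elim fun E => ⟨E.baseChangeAlong _ hq⟩) (h hB q hq hqs)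

/-- Conjugating by a matrix congruent to `1` preserves exactness of a lift. -/
theorem liftsExactly_conj {A : Type} [CommRing A] [IsLocalRing A] [Algebra 𝒪 A]
    {r : GQ → M2 A} (hl : LiftsExactly rb0 (entries r)) (M : (M2 A)ˣ)
    (hM : ∀ i j, ((M : M2 A) - 1) i j ∈ maximalIdeal A) :
    LiftsExactly rb0 (entries fun g => (↑M⁻¹ : M2 A) * r g * (↑M : M2 A)) := by
  intro g i j
  obtain ⟨c, hc, hmem⟩ := hl g i j
  refine ⟨c, hc, ?_⟩
  have h1 := map_conj_eq_of_sub_one_mem (maximalIdeal A) M hM (r g)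
  have h2 := congrFun (congrFun h1 i) j
  simp only [Matrix.map_apply] at h2
  rw [Ideal.Quotient.eq] at h2
  rw [entries_apply] at hmem ⊢
  have : ((↑M⁻¹ : M2 A) * r g * (↑M : M2 A)) i j - algebraMap 𝒪 A c =
      (((↑M⁻¹ : M2 A) * r g * (↑M : M2 A)) i j - r g i j) + (r g i j - algebraMap 𝒪 A c) := by ring
  rw [this]
  exact (maximalIdeal A).add_mem h2 hmem

/-- **Existence of the normalized representative**: over a complete Noetherian local `𝒪`-algebra,
every deformation of type `𝒟` is equivalent to a matrix-form one whose entries lie in `NF`. -/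
theorem exists_NF_of_deformation (h𝒟 : IsDeformationCondition 𝒪 𝒟)
    {A : Type} [CommRing A] [IsLocalRing A] [IsNoetherianRing A]
    [IsAdicComplete (maximalIdeal A) A] [Algebra 𝒪 A] [hloc : IsLocalHom (algebraMap 𝒪 A)]
    (hsurj : Function.Surjective (IsLocalRing.residue A ∘ algebraMap 𝒪 A))
    (hrb0 : GaloisFactorsThroughFiniteLevel rb0)
    {ρbar : ResidualGaloisRep (ResidueField 𝒪)} (hρ : ρbar.IsEquiv (ofMatRes rb0 hrb0))
    {c d : GQ →₀ 𝒪} (hc : frame c (⇑rb0) = !![1, 0; 0, 0]) (hd : frame d (⇑rb0) = !![0, 0; 1, 0])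
    (ρA : GaloisRepAdic A) (hdA : 𝒟 ρA)
    (hresA : ρA.residual.IsEquiv
      (ρbar.baseChangeAlong (IsLocalRing.ResidueField.map (algebraMap 𝒪 A)))) :
    ∃ (r : GQ →* M2 A) (h : MatCont r), ρA.IsEquiv (ofMat r h) ∧
      NF rb0 (normEqs c d) 𝒟 (entries (⇑r)) := by
  let ψ : ResidueField 𝒪 →+* ResidueField A := IsLocalRing.ResidueField.map (algebraMap 𝒪 A)
  have hψ : ∀ a : 𝒪, ψ (residue 𝒪 a) = residue A (algebraMap 𝒪 A a) :=
    fun a => ResidueField.map_residue _ a
  have hres' : ρA.residual.IsEquiv ((ofMatRes rb0 hrb0).baseChangeAlong ψ) :=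
    resIsEquiv_trans hresA (hρ.elim fun E => ⟨E.baseChangeAlong ψ⟩)
  obtain ⟨r0, h0, e0, hred⟩ := exists_ofMat_isEquiv_of_residual ρA rb0 hrb0 ψ hres'
  have hl0 : LiftsExactly rb0 (entries (⇑r0)) :=
    liftsExactly_of_residue_eq ψ hψ (fun g i j => hred g i j)
  have hf0 : IsResiduallyFramed (maximalIdeal A) c d (⇑r0) := by
    have := isResiduallyFramed_of_liftsExactly hloc hl0 hc hd
    rwa [famMat_entries] at this
  obtain ⟨M, hM1, hMn, -⟩ := exists_conj_isNormalizedRep hf0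
  have hfun : (⇑(conjMat M⁻¹ r0) : GQ → M2 A) =
      fun g => (↑M⁻¹ : M2 A) * r0 g * (↑M : M2 A) := by
    funext g
    rw [conjMat_apply, inv_inv]
  have hcont : MatCont (conjMat M⁻¹ r0) := h0.conj M⁻¹
  have e : ρA.IsEquiv (ofMat (conjMat M⁻¹ r0) hcont) :=
    isEquiv_trans e0 (ofMat_isEquiv_conjMat r0 h0 M⁻¹)
  refine ⟨conjMat M⁻¹ r0, hcont, e, conjMat M⁻¹ r0, hcont, fun g i j => rfl, ?_, ?_, ?_⟩
  · rw [hfun]
    exact liftsExactly_conj hl0 M hM1
  · rw [normEqs_holds_iff, famMat_entries, hfun]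
    exact hMn
  · exact 𝒟_of_isEquiv_complete h𝒟 hloc hsurj e hdA

/-- **Uniqueness of the normalized representative.** -/
theorem eq_of_isEquiv_of_NF {A : Type} [CommRing A] [IsLocalRing A] [Algebra 𝒪 A]
    (hloc : IsLocalHom (algebraMap 𝒪 A))
    {c d : GQ →₀ 𝒪} (hc : frame c (⇑rb0) = !![1, 0; 0, 0]) (hd : frame d (⇑rb0) = !![0, 0; 1, 0])
    {r r' : GQ →* M2 A} {h : MatCont r} {h' : MatCont r'}
    (hn : NF rb0 (normEqs c d) 𝒟 (entries (⇑r))) (hn' : NF rb0 (normEqs c d) 𝒟 (entries (⇑r')))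
    (e : (ofMat r h).IsEquiv (ofMat r' h')) : r = r' := by
  obtain ⟨-, -, -, hl, he, -⟩ := hn
  obtain ⟨-, -, -, hl', he', -⟩ := hn'
  exact rigid_normEqs hc hd hloc r r' hl hl' he he' (ofMat_isEquiv_iff.mp e)

end CompleteLocal

end Fermat.Agent.S53.NFF
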