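import Mathlib
import Fermat.Agent.S53.NFRigid
import Fermat.Agent.S53.TestAlgebra

/-!
# S53: final assembly from the abstract representability theorem

Given the statement `ATStatement 𝒪` of the abstract representability theorem (for arbitrary
functors `F` of families of ring elements over test algebras), we instantiate it with the functor
`NF rb0 (normEqs c d) 𝒟` of normalized good matrix lifts and deduce the existence of the universal
deformation ring (`GaloisRep.DeformationRingData`).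

* `universal_rep`   : the universal family `xR` over `R` is itself in `NF` (multiplicativity,
  continuity, exact lifting, normalization and `𝒟` are all checked on the quotients `R ⧸ 𝔪 ^ (n+1)`).
* `universal_property` : the universal property over complete Noetherian local `𝒪`-algebras.
* `nonempty_deformationRingData_of_AT` : the statement of S53 from `ATStatement 𝒪`.
-/

set_option autoImplicit false

namespace Fermat.Agent.S53.Final76

open IsLocalRing GaloisRep Fermat.Agent.S53 Fermat.Agent.S53.NFF Fermat.Agent.S53.Rigidify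

/-- The statement of the abstract representability theorem over `𝒪`. -/
def ATStatement (𝒪 : Type) [CommRing 𝒪] [IsLocalRing 𝒪] : Prop :=
  ∀ (I : Type)
    (F : ∀ ⦃A : Type⦄ [CommRing A] [IsLocalRing A] [Algebra 𝒪 A], (I → A) → Prop),
    (∀ ⦃A B : Type⦄ [CommRing A] [IsLocalRing A] [Algebra 𝒪 A]
      [CommRing B] [IsLocalRing B] [Algebra 𝒪 B],
      IsArtinianTestAlgebra 𝒪 A → IsArtinianTestAlgebra 𝒪 B →
      ∀ (φ : A →ₐ[𝒪] B) (x : I → A), F x → F (φ ∘ x)) →
    (∀ ⦃A B : Type⦄ [CommRing A] [IsLocalRing A] [Algebra 𝒪 A]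
      [CommRing B] [IsLocalRing B] [Algebra 𝒪 B],
      IsArtinianTestAlgebra 𝒪 A → IsArtinianTestAlgebra 𝒪 B →
      ∀ (φ : A →ₐ[𝒪] B), Function.Injective φ → ∀ (x : I → A), F (φ ∘ x) → F x) →
    (∀ ⦃A B C P : Type⦄ [CommRing A] [IsLocalRing A] [Algebra 𝒪 A]
      [CommRing B] [IsLocalRing B] [Algebra 𝒪 B] [CommRing C] [IsLocalRing C] [Algebra 𝒪 C]
      [CommRing P] [IsLocalRing P] [Algebra 𝒪 P],
      IsArtinianTestAlgebra 𝒪 A → IsArtinianTestAlgebra 𝒪 B →
      IsArtinianTestAlgebra 𝒪 C → IsArtinianTestAlgebra 𝒪 P →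
      ∀ (f : A →ₐ[𝒪] C) (g : B →ₐ[𝒪] C) (pA : P →ₐ[𝒪] A) (pB : P →ₐ[𝒪] B),
        f.comp pA = g.comp pB →
        Function.Injective (fun x => (pA x, pB x)) →
        (∀ a b, f a = g b → ∃ x, pA x = a ∧ pB x = b) →
        ∀ (x : I → P), F (pA ∘ x) → F (pB ∘ x) → F x) →
    (∃! x : I → ResidueField 𝒪, F x) →
    (letI := NFF.dualNumberAlgebra 𝒪;
      Finite {x : I → DualNumber (ResidueField 𝒪) // F x}) →
    ∃ (R : Type) (_ : CommRing R) (_ : IsLocalRing R) (_ : IsNoetherianRing R)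
      (_ : IsAdicComplete (maximalIdeal R) R) (_ : Algebra 𝒪 R)
      (_ : IsLocalHom (algebraMap 𝒪 R)) (xR : I → R),
      Function.Surjective (IsLocalRing.residue R ∘ algebraMap 𝒪 R) ∧
      (∀ ⦃B : Type⦄ [CommRing B] [IsLocalRing B] [Algebra 𝒪 B],
        IsArtinianTestAlgebra 𝒪 B → ∀ q : R →ₐ[𝒪] B, F (q ∘ xR)) ∧
      (∀ ⦃B : Type⦄ [CommRing B] [IsLocalRing B] [Algebra 𝒪 B],
        IsArtinianTestAlgebra 𝒪 B → ∀ x : I → B, F x →
          ∃! φ : R →ₐ[𝒪] B, φ ∘ xR = x)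

section Aux

/-- Hausdorff separation via the quotients by `𝔪 ^ (n + 1)`. -/
theorem eq_of_forall_mk_eq {A : Type} [CommRing A] [IsLocalRing A]
    [IsHausdorff (maximalIdeal A) A] {a b : A}
    (h : ∀ n : ℕ, Ideal.Quotient.mk (maximalIdeal A ^ (n + 1)) a =
      Ideal.Quotient.mk (maximalIdeal A ^ (n + 1)) b) : a = b := by
  rw [← sub_eq_zero]
  apply IsHausdorff.haus (inferInstance : IsHausdorff (maximalIdeal A) A)
  intro n
  rw [SModEq.zero, smul_eq_mul, Ideal.mul_top]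
  have h1 := h n
  rw [Ideal.Quotient.eq] at h1
  exact Ideal.pow_le_pow_right (Nat.le_succ n) h1

/-- Every `𝒪`-algebra hom from a local `𝒪`-algebra to a local `𝒪`-algebra whose residue field is
generated by `𝒪` is local. -/
theorem isLocalHom_of_residue_surj {𝒪 : Type} [CommRing 𝒪] {R A : Type} [CommRing R]
    [IsLocalRing R] [Algebra 𝒪 R] [CommRing A] [IsLocalRing A] [Algebra 𝒪 A]
    (hs : Function.Surjective (residue A ∘ algebraMap 𝒪 A)) (φ : R →ₐ[𝒪] A) :
    IsLocalHom (φ : R →+* A) := by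
  let ψ : R →+* ResidueField A := (residue A).comp (φ : R →+* A)
  have hψ : Function.Surjective ψ := by
    intro y
    obtain ⟨o, ho⟩ := hs y
    refine ⟨algebraMap 𝒪 R o, ?_⟩
    show residue A (φ (algebraMap 𝒪 R o)) = y
    rw [AlgHom.commutes]
    exact ho
  have hmax : (RingHom.ker ψ).IsMaximal := RingHom.ker_isMaximal_of_surjective ψ hψ
  have hker : RingHom.ker ψ = maximalIdeal R := IsLocalRing.eq_maximalIdeal hmax
  refine ⟨fun a ha => ?_⟩
  by_contra hna
  have h1 : a ∈ maximalIdeal R := (mem_maximalIdeal a).mpr hna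
  rw [← hker, RingHom.mem_ker] at h1
  have h2 : residue A (φ a) = 0 := h1
  rw [residue_eq_zero_iff] at h2
  exact ((mem_maximalIdeal _).mp h2) ha

end Aux

section UniversalRep

variable {𝒪 : Type} [CommRing 𝒪] [IsLocalRing 𝒪]
  {rb0 : GQ →* M2 (ResidueField 𝒪)} {eqs : Set (LinEq 𝒪)}
  {𝒟 : ∀ ⦃A : Type⦄ [CommRing A] [IsLocalRing A] [Algebra 𝒪 A], GaloisRepAdic A → Prop}

/-- **The universal representation.**  If all push-forwards of a family `xR` over a complete
Noetherian local `𝒪`-algebra `R` to test algebras are normalized good lifts, then so is `xR`. -/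
theorem universal_rep (h𝒟 : IsDeformationCondition 𝒪 𝒟)
    {R : Type} [CommRing R] [IsLocalRing R] [IsNoetherianRing R]
    [IsAdicComplete (maximalIdeal R) R] [Algebra 𝒪 R]
    (hloc : IsLocalHom (algebraMap 𝒪 R))
    (hsurj : Function.Surjective (IsLocalRing.residue R ∘ algebraMap 𝒪 R))
    (xR : Idx → R)
    (hq : ∀ ⦃B : Type⦄ [CommRing B] [IsLocalRing B] [Algebra 𝒪 B],
      IsArtinianTestAlgebra 𝒪 B → ∀ q : R →ₐ[𝒪] B, NF rb0 eqs 𝒟 (q ∘ xR)) :
    NF rb0 eqs 𝒟 xR := by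
  have hlr : ∀ n : ℕ, IsLocalRing (R ⧸ maximalIdeal R ^ (n + 1)) := fun n =>
    isLocalRing_quotient_maximalIdeal_pow (Nat.succ_ne_zero n)
  have htest : ∀ n : ℕ, IsArtinianTestAlgebra 𝒪 (R ⧸ maximalIdeal R ^ (n + 1)) := fun n =>
    isArtinianTestAlgebra_quotient_maximalIdeal_pow hloc hsurj (Nat.succ_ne_zero n)
  have hlev : ∀ n : ℕ, NF rb0 eqs 𝒟
      ((Ideal.Quotient.mkₐ 𝒪 (maximalIdeal R ^ (n + 1))) ∘ xR) := fun n => hq (htest n) _
  -- multiplicativity
  have h1 : famMat xR 1 = 1 := by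
    ext i j
    apply eq_of_forall_mk_eq
    intro n
    obtain ⟨r, -, hr, -⟩ := hlev n
    have h2 := hr 1 i j
    rw [map_one] at h2
    rw [Function.comp_apply, Ideal.Quotient.mkₐ_eq_mk] at h2
    rw [famMat_apply, ← h2, Matrix.one_apply, Matrix.one_apply]
    split_ifs <;> simp
  have hmul : ∀ g h, famMat xR (g * h) = famMat xR g * famMat xR h := by
    intro g h
    ext i j
    apply eq_of_forall_mk_eq
    intro n
    obtain ⟨r, -, hr, -⟩ := hlev n
    have h2 := hr (g * h) i j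
    rw [map_mul, Matrix.mul_apply] at h2
    rw [Function.comp_apply, Ideal.Quotient.mkₐ_eq_mk] at h2
    rw [famMat_apply, ← h2, Matrix.mul_apply, map_sum]
    refine Finset.sum_congr rfl fun l _ => ?_
    rw [map_mul, hr, hr]
    rfl
  let rR : GQ →* M2 R := homOfFam xR h1 hmul
  have hent : ∀ g i j, rR g i j = xR (g, i, j) := fun g i j => rfl
  have hentries : entries (⇑rR) = xR := by
    funext p
    rcases p with ⟨g, i, j⟩
    rfl
  -- continuity
  have hcont : MatCont rR := by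
    intro n
    obtain ⟨r, hr, hre, -⟩ := hlev n
    have := (htest n).isArtinian
    obtain ⟨L, hL, hL1⟩ := nf_matCont_factors hr
    refine ⟨L, hL, fun σ hσ i j => Ideal.pow_le_pow_right (Nat.le_succ n) ?_⟩
    rw [← Ideal.Quotient.eq_zero_iff_mem]
    have h2 := congrFun (congrFun (hL1 σ hσ) i) j
    rw [hre, Function.comp_apply, Ideal.Quotient.mkₐ_eq_mk] at h2
    rw [Matrix.sub_apply, map_sub, hent, h2, Matrix.one_apply, Matrix.one_apply]
    split_ifs <;> simp
  -- exact lifting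
  have hlift : LiftsExactly rb0 xR := by
    obtain ⟨-, -, -, hl, -, -⟩ := hlev 0
    exact hl.of_map _
  -- the linear equations
  have heqs : ∀ e ∈ eqs, e.Holds xR := by
    intro e he
    unfold LinEq.Holds
    apply eq_of_forall_mk_eq
    intro n
    obtain ⟨-, -, -, -, heq, -⟩ := hlev n
    have := (heq e he).of_map (Ideal.Quotient.mkₐ 𝒪 (maximalIdeal R ^ (n + 1)))
    rwa [Ideal.Quotient.mkₐ_eq_mk] at this
  refine ⟨rR, hcont, hent, hlift, heqs, ?_⟩
  refine 𝒟_of_forall_NF (rb0 := rb0) (eqs := eqs) h𝒟 hloc hsurj rR hcont ?_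
  intro B _ _ _ hB q _ _
  rw [hentries]
  exact hq hB q

end UniversalRep

section UniversalProperty

variable {𝒪 : Type} [CommRing 𝒪] [IsLocalRing 𝒪]
  {rb0 : GQ →* M2 (ResidueField 𝒪)}
  {𝒟 : ∀ ⦃A : Type⦄ [CommRing A] [IsLocalRing A] [Algebra 𝒪 A], GaloisRepAdic A → Prop}

/-- **The universal property** over complete Noetherian local `𝒪`-algebras. -/
theorem universal_property (h𝒟 : IsDeformationCondition 𝒪 𝒟)
    (hrb0 : GaloisFactorsThroughFiniteLevel rb0)
    {ρbar : ResidualGaloisRep (ResidueField 𝒪)} (hρ : ρbar.IsEquiv (ofMatRes rb0 hrb0))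
    {c d : GQ →₀ 𝒪} (hc : frame c (⇑rb0) = !![1, 0; 0, 0]) (hd : frame d (⇑rb0) = !![0, 0; 1, 0])
    {R : Type} [CommRing R] [IsLocalRing R] [Algebra 𝒪 R]
    (xR : Idx → R) (rR : GQ →* M2 R) (hcont : MatCont rR)
    (hent : ∀ g i j, rR g i j = xR (g, i, j))
    (hliftR : LiftsExactly rb0 xR) (heqsR : ∀ e ∈ normEqs c d, e.Holds xR)
    (hq : ∀ ⦃B : Type⦄ [CommRing B] [IsLocalRing B] [Algebra 𝒪 B],
      IsArtinianTestAlgebra 𝒪 B → ∀ q : R →ₐ[𝒪] B, NF rb0 (normEqs c d) 𝒟 (q ∘ xR))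
    (huniv : ∀ ⦃B : Type⦄ [CommRing B] [IsLocalRing B] [Algebra 𝒪 B],
      IsArtinianTestAlgebra 𝒪 B → ∀ x : Idx → B, NF rb0 (normEqs c d) 𝒟 x →
        ∃! φ : R →ₐ[𝒪] B, φ ∘ xR = x)
    (A : Type) [CommRing A] [IsLocalRing A] [IsNoetherianRing A]
    [IsAdicComplete (maximalIdeal A) A] [Algebra 𝒪 A] [hlocA : IsLocalHom (algebraMap 𝒪 A)]
    (hA : Function.Surjective (IsLocalRing.residue A ∘ algebraMap 𝒪 A))
    (ρA : GaloisRepAdic A) (hρA : 𝒟 ρA)
    (hres : ρA.residual.IsEquiv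
      (ρbar.baseChangeAlong (IsLocalRing.ResidueField.map (algebraMap 𝒪 A)))) :
    ∃! φ : R →ₐ[𝒪] A, ∃ hφ : IsLocalHom (φ : R →+* A),
      ((ofMat rR hcont).baseChangeAlong (φ : R →+* A) hφ).IsEquiv ρA := by
  obtain ⟨r, h, e, hNF⟩ := exists_NF_of_deformation h𝒟 hA hrb0 hρ hc hd ρA hρA hres
  have hlr : ∀ n : ℕ, IsLocalRing (A ⧸ maximalIdeal A ^ (n + 1)) := fun n =>
    isLocalRing_quotient_maximalIdeal_pow (Nat.succ_ne_zero n)
  have htest : ∀ n : ℕ, IsArtinianTestAlgebra 𝒪 (A ⧸ maximalIdeal A ^ (n + 1)) := fun n =>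
    isArtinianTestAlgebra_quotient_maximalIdeal_pow hlocA hA (Nat.succ_ne_zero n)
  have hmkloc : ∀ n : ℕ, IsLocalHom
      ((Ideal.Quotient.mkₐ 𝒪 (maximalIdeal A ^ (n + 1)) :
        A →ₐ[𝒪] A ⧸ maximalIdeal A ^ (n + 1)) : A →+* A ⧸ maximalIdeal A ^ (n + 1)) := fun n => by
    refine IsLocalHom.of_surjective _ ?_
    exact Ideal.Quotient.mk_surjective
  have hxn : ∀ n : ℕ, NF rb0 (normEqs c d) 𝒟
      ((Ideal.Quotient.mkₐ 𝒪 (maximalIdeal A ^ (n + 1))) ∘ entries (⇑r)) := fun n =>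
    NF.map_of_complete h𝒟 hlocA hA (htest n) _ (hmkloc n) (Ideal.Quotient.mkₐ_surjective 𝒪 _) hNF
  -- the level maps
  have hex : ∀ n : ℕ, ∃ φ : R →ₐ[𝒪] A ⧸ maximalIdeal A ^ (n + 1),
      (φ ∘ xR = (Ideal.Quotient.mkₐ 𝒪 (maximalIdeal A ^ (n + 1))) ∘ entries (⇑r)) ∧
      ∀ ψ : R →ₐ[𝒪] A ⧸ maximalIdeal A ^ (n + 1),
        ψ ∘ xR = (Ideal.Quotient.mkₐ 𝒪 (maximalIdeal A ^ (n + 1))) ∘ entries (⇑r) → ψ = φ :=
    fun n => huniv (htest n) _ (hxn n)
  choose φn hφn hφn_uniq using hex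
  have hcompat : ∀ {m n : ℕ} (hmn : m ≤ n),
      (Ideal.Quotient.factorₐ 𝒪 (Ideal.pow_le_pow_right (I := maximalIdeal A)
        (Nat.succ_le_succ hmn))).comp (φn n) = φn m := by
    intro m n hmn
    apply hφn_uniq m
    funext p
    have h2 := congrFun (hφn n) p
    simp only [Function.comp_apply] at h2
    simp only [Function.comp_apply, AlgHom.comp_apply, h2]
    rfl
  let f : ∀ n : ℕ, R →ₐ[𝒪] A ⧸ maximalIdeal A ^ n := fun n =>
    (Ideal.Quotient.factorₐ 𝒪 (Ideal.pow_le_pow_right (I := maximalIdeal A)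
      (Nat.le_succ n))).comp (φn n)
  have hf : ∀ {m n : ℕ} (hle : m ≤ n),
      (Ideal.Quotient.factorₐ 𝒪 (Ideal.pow_le_pow_right (I := maximalIdeal A) hle)).comp (f n)
        = f m := by
    intro m n hle
    simp only [f]
    rw [← hcompat hle, ← AlgHom.comp_assoc, ← AlgHom.comp_assoc, Ideal.Quotient.factorₐ_comp,
      Ideal.Quotient.factorₐ_comp]
  let φ : R →ₐ[𝒪] A := IsAdicComplete.liftAlgHom (maximalIdeal A) f hf
  have hφmk : ∀ (n : ℕ) (a : R), Ideal.Quotient.mk (maximalIdeal A ^ n) (φ a) = f n a :=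
    fun n a => IsAdicComplete.mk_liftAlgHom (maximalIdeal A) f hf n a
  have hfx : ∀ (n : ℕ) (p : Idx), f n (xR p) = Ideal.Quotient.mk (maximalIdeal A ^ n)
      (entries (⇑r) p) := by
    intro n p
    have h2 := congrFun (hφn n) p
    simp only [Function.comp_apply] at h2
    simp only [f, AlgHom.comp_apply, h2]
    rfl
  have hφx : ∀ p : Idx, φ (xR p) = entries (⇑r) p := by
    intro p
    apply eq_of_forall_mk_eq
    intro n
    rw [hφmk, hfx]
  have hφloc : IsLocalHom (φ : R →+* A) := isLocalHom_of_residue_surj hA φ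
  -- characterisation of the level maps of an algebra hom compatible with the families
  have hlevel : ∀ (ψ : R →ₐ[𝒪] A), (∀ p : Idx, ψ (xR p) = entries (⇑r) p) → ∀ n : ℕ,
      (Ideal.Quotient.mkₐ 𝒪 (maximalIdeal A ^ (n + 1))).comp ψ = φn n := by
    intro ψ hψ n
    apply hφn_uniq n
    funext p
    simp only [Function.comp_apply, AlgHom.comp_apply, hψ p]
  refine ⟨φ, ⟨hφloc, ?_⟩, ?_⟩
  · have hmap : mapMat (φ : R →+* A) rR = r := by
      apply eq_of_entries
      intro g i j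
      rw [mapMat_apply, hent]
      exact hφx (g, i, j)
    have e1 := ofMat_baseChangeAlong rR hcont (φ : R →+* A) hφloc
    have e2 : (ofMat (mapMat (φ : R →+* A) rR) (hcont.map _ hφloc)).IsEquiv (ofMat r h) := by
      rw [ofMat_isEquiv_iff]
      refine ⟨1, fun g => ?_⟩
      rw [hmap]
      simp
    exact isEquiv_trans e1 (isEquiv_trans e2 (isEquiv_symm e))
  · rintro ψ ⟨hψloc, eψ⟩
    -- `mapMat ψ rR` is a normalized good lift equivalent to `r`, hence equal to it
    have hentψ : entries (⇑(mapMat (ψ : R →+* A) rR)) = ψ ∘ xR := by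
      funext p
      rcases p with ⟨g, i, j⟩
      show ψ (rR g i j) = ψ (xR (g, i, j))
      rw [hent]
    have hNFψ : NF rb0 (normEqs c d) 𝒟 (entries (⇑(mapMat (ψ : R →+* A) rR))) := by
      refine ⟨mapMat (ψ : R →+* A) rR, hcont.map _ hψloc, fun g i j => rfl, ?_, ?_, ?_⟩
      · rw [hentψ]
        exact hliftR.map ψ hψloc
      · rw [hentψ]
        exact fun e he => (heqsR e he).map ψ
      · refine 𝒟_of_forall_NF (rb0 := rb0) (eqs := normEqs c d) h𝒟 hlocA hA _ _ ?_
        intro B _ _ _ hB q _ _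
        rw [hentψ]
        have := hq hB (q.comp ψ)
        exact this
    have e1 := ofMat_baseChangeAlong rR hcont (ψ : R →+* A) hψloc
    have e3 : (ofMat (mapMat (ψ : R →+* A) rR) (hcont.map _ hψloc)).IsEquiv (ofMat r h) :=
      isEquiv_trans (isEquiv_symm e1) (isEquiv_trans eψ e)
    have hψr : mapMat (ψ : R →+* A) rR = r := eq_of_isEquiv_of_NF hlocA hc hd hNFψ hNF e3
    have hψx : ∀ p : Idx, ψ (xR p) = entries (⇑r) p := by
      intro p
      rw [← hψr]
      exact (congrFun hentψ p).symm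
    apply AlgHom.ext
    intro a
    apply eq_of_forall_mk_eq
    intro n
    have h1 := congrArg (fun u : R →ₐ[𝒪] A ⧸ maximalIdeal A ^ (n + 1) => u a) (hlevel ψ hψx n)
    have h2 := congrArg (fun u : R →ₐ[𝒪] A ⧸ maximalIdeal A ^ (n + 1) => u a) (hlevel φ hφx n)
    simp only [AlgHom.comp_apply, Ideal.Quotient.mkₐ_eq_mk] at h1 h2
    rw [h1, h2]

end UniversalProperty

section Main

/-- **S53 from the abstract representability theorem.** -/
theorem nonempty_deformationRingData_of_AT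
    (𝒪 : Type) [CommRing 𝒪] [IsDomain 𝒪] [IsDiscreteValuationRing 𝒪]
    [IsAdicComplete (IsLocalRing.maximalIdeal 𝒪) 𝒪] [Finite (IsLocalRing.ResidueField 𝒪)]
    (hAT : ATStatement 𝒪)
    (ρbar : ResidualGaloisRep (IsLocalRing.ResidueField 𝒪))
    (𝒟 : ∀ ⦃A : Type⦄ [CommRing A] [IsLocalRing A] [Algebra 𝒪 A], GaloisRepAdic A → Prop)
    (habs : ρbar.IsAbsolutelyIrreducible)
    (h𝒟 : GaloisRep.IsDeformationCondition 𝒪 𝒟)
    (hbar : 𝒟 (GaloisRepAdic.ofResidualGaloisRep ρbar))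
    (hfin : GaloisRep.TangentFinite 𝒪 ρbar 𝒟) :
    Nonempty (GaloisRep.DeformationRingData 𝒪 ρbar 𝒟) := by
  obtain ⟨rb0, hrb0, c, d, hρ, hc, hd⟩ := exists_base_data ρbar habs
  have heqs0 : ∀ e ∈ normEqs c d, e.Holds (entries (⇑rb0)) := by
    rw [normEqs_holds_iff, famMat_entries]
    unfold IsNormalizedRep IsNormalizedPair
    rw [hc, hd]
    simp
  have hk : ∃! x : Idx → ResidueField 𝒪, NF rb0 (normEqs c d) 𝒟 x := by
    have hiff := NF.residueField_iff (eqs := normEqs c d) hrb0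
      (𝒟_ofMat_rb0 h𝒟 hrb0 hρ hbar) heqs0
    exact ⟨entries (⇑rb0), (hiff _).mpr rfl, fun y hy => (hiff y).mp hy⟩
  obtain ⟨R, _, _, _, _, _, hlocR, xR, hsurj, hq, huniv⟩ :=
    hAT Idx (NF rb0 (normEqs c d) 𝒟)
      (fun A B _ _ _ _ _ _ hA hB φ x hx => NF.map h𝒟 hA hB φ hx)
      (fun A B _ _ _ _ _ _ hA hB φ hφ x hx => NF.of_map_injective h𝒟 hA hB φ hφ hx)
      (fun A B C P _ _ _ _ _ _ _ _ _ _ _ _ hA hB hC hP f g pA pB hcomp hinj hsurj x hxA hxB =>
        NF.of_fibreProduct h𝒟 hA hB hC hP f g pA pB hcomp hinj hsurj hxA hxB)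
      hk
      (NF.finite_dualNumber hrb0 hρ hfin (rigid_normEqs hc hd))
  obtain ⟨rR, hcont, hent, hliftR, heqsR, hdR⟩ := universal_rep h𝒟 hlocR hsurj xR hq
  have hentries : entries (⇑rR) = xR := by
    funext p
    rcases p with ⟨g, i, j⟩
    exact hent g i j
  exact ⟨{ R := R
           residue_surjective := hsurj
           absIrr := habs
           ρ := ofMat rR hcont
           isOfType := hdR
           residual_isEquiv :=
             residual_isEquiv_of_liftsExactly (IsLocalRing.ResidueField.map (algebraMap 𝒪 R))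
               (fun a => IsLocalRing.ResidueField.map_residue _ a) rR hcont
               (by rw [hentries]; exact hliftR) hrb0 hρ
           universal := fun A _ _ _ _ _ _ hA ρA hρA hres =>
             universal_property h𝒟 hrb0 hρ hc hd xR rR hcont hent hliftR heqsR hq huniv
               A hA ρA hρA hres }⟩

end Main

end Fermat.Agent.S53.Final76
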