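import Mathlib
import Fermat.Prelude.Def_GaloisRep_Adic

/-!
# S53 / package L : basic functoriality of `GaloisRepAdic` and `ResidualGaloisRep`

Design-independent lemmas about the Prelude definitions
`GaloisRepAdic.baseChangeAlong`, `GaloisRepAdic.residual`, `GaloisRepAdic.trace`,
`ResidualGaloisRep.baseChangeAlong`:

* `trace_baseChangeAlong`, `trace_eq_of_isEquiv`
* `baseChangeAlongCompEquiv`, `baseChangeAlongIdEquiv`, `isEquiv_baseChangeAlong_congr`
* `residualBaseChangeAlongEquiv`
* `resBaseChangeAlongCompEquiv`, `resBaseChangeAlongIdEquiv`,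
  `res_isEquiv_of_baseChangeAlong_bijective`
* `LiftsResidual` (the residual condition of `DeformationRingData`) and its transport along
  local algebra homomorphisms (`LiftsResidual.baseChangeAlong`, `LiftsResidual.of_baseChangeAlong`).
-/

set_option autoImplicit false
set_option linter.unusedSectionVars false
set_option linter.style.haveILetI false

open scoped TensorProduct
open IsLocalRing

namespace Fermat.Agent.S53.Func

/-- The absolute Galois group of `ℚ`. -/
abbrev GalQ : Type := AlgebraicClosure ℚ ≃ₐ[ℚ] AlgebraicClosure ℚ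

/-! ### Linear algebra: iterated base change -/

section LinearAlgebra

variable {A B C V : Type*} [CommRing A] [CommRing B] [CommRing C] [Algebra A B] [Algebra B C]
  [Algebra A C] [IsScalarTower A B C] [AddCommGroup V] [Module A V]

theorem cancelBaseChange_baseChange_baseChange (f : V →ₗ[A] V) (x : C ⊗[B] (B ⊗[A] V)) :
    TensorProduct.AlgebraTensorModule.cancelBaseChange A B C C V
        ((f.baseChange B).baseChange C x) =
      f.baseChange C (TensorProduct.AlgebraTensorModule.cancelBaseChange A B C C V x) := by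
  induction x using TensorProduct.induction_on with
  | zero => simp only [map_zero]
  | tmul c y =>
    induction y using TensorProduct.induction_on with
    | zero => simp only [TensorProduct.tmul_zero, map_zero]
    | tmul b v =>
      rw [LinearMap.baseChange_tmul, LinearMap.baseChange_tmul,
        TensorProduct.AlgebraTensorModule.cancelBaseChange_tmul,
        TensorProduct.AlgebraTensorModule.cancelBaseChange_tmul, LinearMap.baseChange_tmul]
    | add y z hy hz =>
      simp only [TensorProduct.tmul_add, map_add, hy, hz]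
  | add x y hx hy => simp only [map_add, hx, hy]

theorem cancelBaseChange_symm_baseChange (f : V →ₗ[A] V) (x : C ⊗[A] V) :
    (TensorProduct.AlgebraTensorModule.cancelBaseChange A B C C V).symm (f.baseChange C x) =
      (f.baseChange B).baseChange C
        ((TensorProduct.AlgebraTensorModule.cancelBaseChange A B C C V).symm x) := by
  apply (TensorProduct.AlgebraTensorModule.cancelBaseChange A B C C V).injective
  rw [LinearEquiv.apply_symm_apply, cancelBaseChange_baseChange_baseChange,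
    LinearEquiv.apply_symm_apply]

theorem lid_baseChange {A V : Type*} [CommRing A] [AddCommGroup V] [Module A V] (f : V →ₗ[A] V)
    (x : A ⊗[A] V) : TensorProduct.lid A V (f.baseChange A x) = f (TensorProduct.lid A V x) := by
  induction x using TensorProduct.induction_on with
  | zero => simp only [map_zero]
  | tmul a v =>
    rw [LinearMap.baseChange_tmul, TensorProduct.lid_tmul, TensorProduct.lid_tmul, map_smul]
  | add x y hx hy => simp only [map_add, hx, hy]

end LinearAlgebra

section Square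

variable (A B K L V : Type*) [CommRing A] [CommRing B] [CommRing K] [CommRing L]
  [AddCommGroup V] [Module A V]
  [iAB : Algebra A B] [iAK : Algebra A K] [iBL : Algebra B L] [iKL : Algebra K L]
  [iAL : Algebra A L] [tB : IsScalarTower A B L] [tK : IsScalarTower A K L]

/-- For a commutative square `A → B → L`, `A → K → L`: the two iterated base changes agree. -/
noncomputable def squareBaseChangeEquiv : L ⊗[B] (B ⊗[A] V) ≃ₗ[L] L ⊗[K] (K ⊗[A] V) :=
  (TensorProduct.AlgebraTensorModule.cancelBaseChange A B L L V).trans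
    (TensorProduct.AlgebraTensorModule.cancelBaseChange A K L L V).symm

variable {A B K L V}

theorem squareBaseChangeEquiv_baseChange (f : V →ₗ[A] V) (x : L ⊗[B] (B ⊗[A] V)) :
    squareBaseChangeEquiv A B K L V ((f.baseChange B).baseChange L x) =
      (f.baseChange K).baseChange L (squareBaseChangeEquiv A B K L V x) := by
  unfold squareBaseChangeEquiv
  rw [LinearEquiv.trans_apply, LinearEquiv.trans_apply, cancelBaseChange_baseChange_baseChange,
    cancelBaseChange_symm_baseChange]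

end Square

/-! ### `GaloisRepAdic` -/

section Adic

variable {A : Type} [CommRing A] [IsLocalRing A]
variable {B : Type} [CommRing B] [IsLocalRing B]
variable {C : Type} [CommRing C] [IsLocalRing C]

theorem isLocalHom_comp (φ : A →+* B) (hφ : IsLocalHom φ) (ψ : B →+* C) (hψ : IsLocalHom ψ) :
    IsLocalHom (ψ.comp φ) :=
  ⟨fun a ha => hφ.map_nonunit a (hψ.map_nonunit (φ a) ha)⟩

theorem isLocalHom_id : IsLocalHom (RingHom.id A) := ⟨fun _ h => h⟩

/-- (L1) trace commutes with base change. -/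
theorem trace_baseChangeAlong (φ : A →+* B) (hφ : IsLocalHom φ) (ρ : GaloisRepAdic A) (g : GalQ) :
    (ρ.baseChangeAlong φ hφ).trace g = φ (ρ.trace g) := by
  letI : Algebra A B := φ.toAlgebra
  show LinearMap.trace B (B ⊗[A] ρ.V) ((ρ.ρ g).baseChange B) = φ (LinearMap.trace A ρ.V (ρ.ρ g))
  rw [LinearMap.trace_baseChange]
  rfl

/-- (L2) trace is invariant under equivalence. -/
theorem trace_eq_of_equiv {ρ₁ ρ₂ : GaloisRepAdic A} (e : GaloisRepAdic.Equiv ρ₁ ρ₂) (g : GalQ) :
    ρ₁.trace g = ρ₂.trace g := by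
  have h : ρ₂.ρ g = e.toLinearEquiv.conj (ρ₁.ρ g) := by
    apply LinearMap.ext
    intro y
    rw [LinearEquiv.conj_apply_apply, e.map_apply, LinearEquiv.apply_symm_apply]
  show LinearMap.trace A ρ₁.V (ρ₁.ρ g) = LinearMap.trace A ρ₂.V (ρ₂.ρ g)
  rw [h, LinearMap.trace_conj']

theorem trace_eq_of_isEquiv {ρ₁ ρ₂ : GaloisRepAdic A} (h : ρ₁.IsEquiv ρ₂) (g : GalQ) :
    ρ₁.trace g = ρ₂.trace g :=
  h.elim fun e => trace_eq_of_equiv e g

theorem isEquiv_refl (ρ : GaloisRepAdic A) : ρ.IsEquiv ρ := ⟨GaloisRepAdic.Equiv.refl ρ⟩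

theorem isEquiv_symm {ρ₁ ρ₂ : GaloisRepAdic A} (h : ρ₁.IsEquiv ρ₂) : ρ₂.IsEquiv ρ₁ :=
  h.elim fun e => ⟨e.symm⟩

theorem isEquiv_trans {ρ₁ ρ₂ ρ₃ : GaloisRepAdic A} (h : ρ₁.IsEquiv ρ₂) (h' : ρ₂.IsEquiv ρ₃) :
    ρ₁.IsEquiv ρ₃ :=
  h.elim fun e => h'.elim fun e' => ⟨e.trans e'⟩

theorem isEquiv_baseChangeAlong (φ : A →+* B) (hφ : IsLocalHom φ) {ρ₁ ρ₂ : GaloisRepAdic A}
    (h : ρ₁.IsEquiv ρ₂) : (ρ₁.baseChangeAlong φ hφ).IsEquiv (ρ₂.baseChangeAlong φ hφ) :=
  h.elim fun e => ⟨e.baseChangeAlong φ hφ⟩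

/-- (L3) base change along a composite. -/
noncomputable def baseChangeAlongCompEquiv (φ : A →+* B) (hφ : IsLocalHom φ) (ψ : B →+* C)
    (hψ : IsLocalHom ψ) (ρ : GaloisRepAdic A) :
    GaloisRepAdic.Equiv ((ρ.baseChangeAlong φ hφ).baseChangeAlong ψ hψ)
      (ρ.baseChangeAlong (ψ.comp φ) (isLocalHom_comp φ hφ ψ hψ)) :=
  letI : Algebra A B := φ.toAlgebra
  letI : Algebra B C := ψ.toAlgebra
  letI : Algebra A C := (ψ.comp φ).toAlgebra
  haveI : IsScalarTower A B C := IsScalarTower.of_algebraMap_eq (fun _ => rfl)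
  { toLinearEquiv := TensorProduct.AlgebraTensorModule.cancelBaseChange A B C C ρ.V
    map_apply := fun σ x => cancelBaseChange_baseChange_baseChange (ρ.ρ σ) x }

theorem isEquiv_baseChangeAlong_comp (φ : A →+* B) (hφ : IsLocalHom φ) (ψ : B →+* C)
    (hψ : IsLocalHom ψ) (ρ : GaloisRepAdic A) (hψφ : IsLocalHom (ψ.comp φ)) :
    ((ρ.baseChangeAlong φ hφ).baseChangeAlong ψ hψ).IsEquiv (ρ.baseChangeAlong (ψ.comp φ) hψφ) :=
  ⟨baseChangeAlongCompEquiv φ hφ ψ hψ ρ⟩

/-- (L4) base change along the identity. -/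
noncomputable def baseChangeAlongIdEquiv (h : IsLocalHom (RingHom.id A)) (ρ : GaloisRepAdic A) :
    GaloisRepAdic.Equiv (ρ.baseChangeAlong (RingHom.id A) h) ρ :=
  { toLinearEquiv := TensorProduct.lid A ρ.V
    map_apply := fun σ x => lid_baseChange (ρ.ρ σ) x }

theorem isEquiv_baseChangeAlong_id (h : IsLocalHom (RingHom.id A)) (ρ : GaloisRepAdic A) :
    (ρ.baseChangeAlong (RingHom.id A) h).IsEquiv ρ :=
  ⟨baseChangeAlongIdEquiv h ρ⟩

/-- (L4b) base change along equal homomorphisms. -/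
theorem isEquiv_baseChangeAlong_congr {φ φ' : A →+* B} (h : φ = φ') (hφ : IsLocalHom φ)
    (hφ' : IsLocalHom φ') (ρ : GaloisRepAdic A) :
    (ρ.baseChangeAlong φ hφ).IsEquiv (ρ.baseChangeAlong φ' hφ') := by
  subst h
  exact isEquiv_refl _

/-- If `ψ ∘ φ = χ` then `(ρ ⊗_φ B) ⊗_ψ C ≅ ρ ⊗_χ C`. -/
theorem isEquiv_baseChangeAlong_of_comp_eq (φ : A →+* B) (hφ : IsLocalHom φ) (ψ : B →+* C)
    (hψ : IsLocalHom ψ) {χ : A →+* C} (hχ : IsLocalHom χ) (h : ψ.comp φ = χ)
    (ρ : GaloisRepAdic A) :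
    ((ρ.baseChangeAlong φ hφ).baseChangeAlong ψ hψ).IsEquiv (ρ.baseChangeAlong χ hχ) := by
  subst h
  exact ⟨baseChangeAlongCompEquiv φ hφ ψ hψ ρ⟩

/-- (L5) residual of a base change. -/
noncomputable def residualBaseChangeAlongEquiv (φ : A →+* B) (hφ : IsLocalHom φ)
    (ρ : GaloisRepAdic A) :
    ResidualGaloisRep.Equiv (ρ.baseChangeAlong φ hφ).residual
      (ρ.residual.baseChangeAlong (haveI := hφ; ResidueField.map φ)) :=
  haveI := hφ
  let iAB : Algebra A B := φ.toAlgebra
  let iKL : Algebra (ResidueField A) (ResidueField B) := (ResidueField.map φ).toAlgebra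
  let iAL : Algebra A (ResidueField B) := ((residue B).comp φ).toAlgebra
  have tB : @IsScalarTower A B (ResidueField B) iAB.toSMul Algebra.toSMul iAL.toSMul :=
    @IsScalarTower.of_algebraMap_eq A B (ResidueField B) _ _ _ iAB _ iAL (fun _ => rfl)
  have tK : @IsScalarTower A (ResidueField A) (ResidueField B) Algebra.toSMul iKL.toSMul
      iAL.toSMul :=
    @IsScalarTower.of_algebraMap_eq A (ResidueField A) (ResidueField B) _ _ _ _ iKL iAL
      (fun x => (ResidueField.map_residue φ x).symm)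
  { toLinearEquiv := @squareBaseChangeEquiv A B (ResidueField A) (ResidueField B) ρ.V _ _ _ _ _ _
      iAB _ _ iKL iAL tB tK
    map_apply := fun σ x =>
      @squareBaseChangeEquiv_baseChange A B (ResidueField A) (ResidueField B) ρ.V _ _ _ _ _ _
      iAB _ _ iKL iAL tB tK (ρ.ρ σ) x }

theorem isEquiv_residual_baseChangeAlong (φ : A →+* B) (hφ : IsLocalHom φ)
    (ρ : GaloisRepAdic A) :
    (ρ.baseChangeAlong φ hφ).residual.IsEquiv
      (ρ.residual.baseChangeAlong (haveI := hφ; ResidueField.map φ)) :=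
  ⟨residualBaseChangeAlongEquiv φ hφ ρ⟩

theorem isEquiv_residual {ρ₁ ρ₂ : GaloisRepAdic A} (h : ρ₁.IsEquiv ρ₂) :
    ρ₁.residual.IsEquiv ρ₂.residual :=
  h.elim fun e => ⟨e.residual⟩

end Adic

/-! ### `ResidualGaloisRep` -/

section Residual

variable {k k' k'' : Type} [Field k] [Field k'] [Field k'']

theorem res_isEquiv_refl (r : ResidualGaloisRep k) : r.IsEquiv r :=
  ⟨ResidualGaloisRep.Equiv.refl r⟩

theorem res_isEquiv_symm {r₁ r₂ : ResidualGaloisRep k} (h : r₁.IsEquiv r₂) : r₂.IsEquiv r₁ :=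
  h.elim fun e => ⟨e.symm⟩

theorem res_isEquiv_trans {r₁ r₂ r₃ : ResidualGaloisRep k} (h : r₁.IsEquiv r₂)
    (h' : r₂.IsEquiv r₃) : r₁.IsEquiv r₃ :=
  h.elim fun e => h'.elim fun e' => ⟨e.trans e'⟩

theorem res_isEquiv_baseChangeAlong (ψ : k →+* k') {r₁ r₂ : ResidualGaloisRep k}
    (h : r₁.IsEquiv r₂) : (r₁.baseChangeAlong ψ).IsEquiv (r₂.baseChangeAlong ψ) :=
  h.elim fun e => ⟨e.baseChangeAlong ψ⟩

noncomputable def resBaseChangeAlongCompEquiv (ψ₁ : k →+* k') (ψ₂ : k' →+* k'')
    (r : ResidualGaloisRep k) :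
    ResidualGaloisRep.Equiv ((r.baseChangeAlong ψ₁).baseChangeAlong ψ₂)
      (r.baseChangeAlong (ψ₂.comp ψ₁)) :=
  letI : Algebra k k' := ψ₁.toAlgebra
  letI : Algebra k' k'' := ψ₂.toAlgebra
  letI : Algebra k k'' := (ψ₂.comp ψ₁).toAlgebra
  haveI : IsScalarTower k k' k'' := IsScalarTower.of_algebraMap_eq (fun _ => rfl)
  { toLinearEquiv := TensorProduct.AlgebraTensorModule.cancelBaseChange k k' k'' k'' r.V
    map_apply := fun σ x => cancelBaseChange_baseChange_baseChange (r.ρ σ) x }

noncomputable def resBaseChangeAlongIdEquiv (r : ResidualGaloisRep k) :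
    ResidualGaloisRep.Equiv (r.baseChangeAlong (RingHom.id k)) r :=
  { toLinearEquiv := TensorProduct.lid k r.V
    map_apply := fun σ x => lid_baseChange (r.ρ σ) x }

theorem res_isEquiv_baseChangeAlong_congr (r : ResidualGaloisRep k) {ψ ψ' : k →+* k'}
    (h : ψ = ψ') : (r.baseChangeAlong ψ).IsEquiv (r.baseChangeAlong ψ') :=
  h ▸ ⟨ResidualGaloisRep.Equiv.refl _⟩

theorem res_isEquiv_baseChangeAlong_of_comp_eq (ψ₁ : k →+* k') (ψ₂ : k' →+* k'')
    {χ : k →+* k''} (h : ψ₂.comp ψ₁ = χ) (r : ResidualGaloisRep k) :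
    ((r.baseChangeAlong ψ₁).baseChangeAlong ψ₂).IsEquiv (r.baseChangeAlong χ) := by
  subst h
  exact ⟨resBaseChangeAlongCompEquiv ψ₁ ψ₂ r⟩

/-- (L6) descent of equivalence along a bijective field homomorphism. -/
theorem res_isEquiv_of_baseChangeAlong_bijective {r₁ r₂ : ResidualGaloisRep k} (ψ : k →+* k')
    (hψ : Function.Bijective ψ)
    (h : (r₁.baseChangeAlong ψ).IsEquiv (r₂.baseChangeAlong ψ)) : r₁.IsEquiv r₂ := by
  obtain ⟨e⟩ := h
  let ψe : k ≃+* k' := RingEquiv.ofBijective ψ hψ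
  let χ : k' →+* k := ψe.symm.toRingHom
  have hχ : χ.comp ψ = RingHom.id k := by
    ext x
    exact ψe.symm_apply_apply x
  have e1 := ResidualGaloisRep.Equiv.baseChangeAlong χ e
  have a1 := resBaseChangeAlongCompEquiv ψ χ r₁
  have a2 := resBaseChangeAlongCompEquiv ψ χ r₂
  obtain ⟨b1⟩ := res_isEquiv_baseChangeAlong_congr r₁ hχ
  obtain ⟨b2⟩ := res_isEquiv_baseChangeAlong_congr r₂ hχ
  have c1 := resBaseChangeAlongIdEquiv r₁
  have c2 := resBaseChangeAlongIdEquiv r₂
  exact ⟨c1.symm.trans (b1.symm.trans (a1.symm.trans (e1.trans (a2.trans (b2.trans c2)))))⟩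

end Residual

/-! ### The residual condition of `DeformationRingData` -/

section Lifts

variable (𝒪 : Type) [CommRing 𝒪] [IsLocalRing 𝒪]
variable (ρbar : ResidualGaloisRep (ResidueField 𝒪))
variable {A : Type} [CommRing A] [IsLocalRing A] [Algebra 𝒪 A]
variable {B : Type} [CommRing B] [IsLocalRing B] [Algebra 𝒪 B]

/-- `ρ` lifts `ρbar`: exactly the condition `residual_isEquiv` of `DeformationRingData`
(with the `IsLocalHom (algebraMap 𝒪 A)` instance passed explicitly). -/
def LiftsResidual (hA : IsLocalHom (algebraMap 𝒪 A)) (ρ : GaloisRepAdic A) : Prop :=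
  ρ.residual.IsEquiv
    (ρbar.baseChangeAlong (haveI := hA; ResidueField.map (algebraMap 𝒪 A)))

variable {𝒪 ρbar}

theorem LiftsResidual.of_isEquiv {hA : IsLocalHom (algebraMap 𝒪 A)} {ρ ρ' : GaloisRepAdic A}
    (h : LiftsResidual 𝒪 ρbar hA ρ) (e : ρ.IsEquiv ρ') : LiftsResidual 𝒪 ρbar hA ρ' :=
  res_isEquiv_trans (isEquiv_residual (isEquiv_symm e)) h

theorem residueFieldMap_comp_algebraMap (hA : IsLocalHom (algebraMap 𝒪 A))
    (hB : IsLocalHom (algebraMap 𝒪 B)) (u : A →ₐ[𝒪] B) (hu : IsLocalHom (u : A →+* B)) :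
    (haveI := hu; ResidueField.map (u : A →+* B)).comp
        (haveI := hA; ResidueField.map (algebraMap 𝒪 A)) =
      (haveI := hB; ResidueField.map (algebraMap 𝒪 B)) := by
  haveI := hA
  haveI := hB
  haveI := hu
  apply RingHom.ext
  intro x
  obtain ⟨x, rfl⟩ := residue_surjective x
  simp only [RingHom.comp_apply, ResidueField.map_residue]
  congr 1
  exact u.commutes x

/-- (L7) the residual condition is preserved by base change along local `𝒪`-algebra maps. -/
theorem LiftsResidual.baseChangeAlong {hA : IsLocalHom (algebraMap 𝒪 A)}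
    (hB : IsLocalHom (algebraMap 𝒪 B)) {ρ : GaloisRepAdic A}
    (h : LiftsResidual 𝒪 ρbar hA ρ) (u : A →ₐ[𝒪] B) (hu : IsLocalHom (u : A →+* B)) :
    LiftsResidual 𝒪 ρbar hB (ρ.baseChangeAlong (u : A →+* B) hu) := by
  unfold LiftsResidual at h ⊢
  refine res_isEquiv_trans (isEquiv_residual_baseChangeAlong (u : A →+* B) hu ρ) ?_
  refine res_isEquiv_trans (res_isEquiv_baseChangeAlong _ h) ?_
  exact res_isEquiv_baseChangeAlong_of_comp_eq _ _
    (residueFieldMap_comp_algebraMap hA hB u hu) ρbar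

/-- (L7') the residual condition descends along a local `𝒪`-algebra map inducing a bijection
on residue fields. -/
theorem LiftsResidual.of_baseChangeAlong (hA : IsLocalHom (algebraMap 𝒪 A))
    {hB : IsLocalHom (algebraMap 𝒪 B)} {ρ : GaloisRepAdic A}
    (u : A →ₐ[𝒪] B) (hu : IsLocalHom (u : A →+* B))
    (hbij : Function.Bijective (haveI := hu; ResidueField.map (u : A →+* B)))
    (h : LiftsResidual 𝒪 ρbar hB (ρ.baseChangeAlong (u : A →+* B) hu)) :
    LiftsResidual 𝒪 ρbar hA ρ := by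
  unfold LiftsResidual at h ⊢
  refine res_isEquiv_of_baseChangeAlong_bijective _ hbij ?_
  refine res_isEquiv_trans
    (res_isEquiv_symm (isEquiv_residual_baseChangeAlong (u : A →+* B) hu ρ)) ?_
  refine res_isEquiv_trans h ?_
  exact res_isEquiv_symm (res_isEquiv_baseChangeAlong_of_comp_eq _ _
    (residueFieldMap_comp_algebraMap hA hB u hu) ρbar)

/-- If the residue maps from `𝒪` are surjective, any local `𝒪`-algebra map induces a bijection
of residue fields. -/
theorem residueFieldMap_bijective_of_surjective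
    (hA : Function.Surjective (residue A ∘ algebraMap 𝒪 A))
    (hB : Function.Surjective (residue B ∘ algebraMap 𝒪 B))
    (u : A →ₐ[𝒪] B) (hu : IsLocalHom (u : A →+* B)) :
    Function.Bijective (haveI := hu; ResidueField.map (u : A →+* B)) := by
  haveI := hu
  refine ⟨(ResidueField.map (u : A →+* B)).injective, fun y => ?_⟩
  obtain ⟨o, ho⟩ := hB y
  refine ⟨residue A (algebraMap 𝒪 A o), ?_⟩
  rw [ResidueField.map_residue, ← ho]
  simp only [Function.comp_apply]
  congr 1
  exact u.commutes o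

end Lifts

end Fermat.Agent.S53.Func
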