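/-
S53 helper (package C of the minimal-object plan): abstract finite-level theory in matrix form.
All declarations live in `Fermat.Agent.S53.Minimal`.
-/
import Mathlib

set_option autoImplicit false

namespace Fermat.Agent.S53.Minimal

open IsLocalRing Matrix

/-- 2×2 matrices (local notation only). -/
local notation "Mat2" => Matrix (Fin 2) (Fin 2)

set_option linter.unusedSectionVars false

section Basics

variable (𝒪 : Type) [CommRing 𝒪]

/-- A finite local test algebra over `𝒪`. -/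
structure IsFinTest (A : Type) [CommRing A] [IsLocalRing A] [Algebra 𝒪 A] : Prop where
  finite : Finite A
  isLocalHom : IsLocalHom (algebraMap 𝒪 A)
  res_surj : Function.Surjective (IsLocalRing.residue A ∘ algebraMap 𝒪 A)

variable {𝒪}
variable {A : Type} [CommRing A] [IsLocalRing A] [Algebra 𝒪 A]
variable {B : Type} [CommRing B] [IsLocalRing B] [Algebra 𝒪 B]

/-- Every element of a finite test algebra is `algebraMap c + (element of the maximal ideal)`. -/
theorem IsFinTest.exists_sub_mem (hA : IsFinTest 𝒪 A) (a : A) :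
    ∃ c : 𝒪, a - algebraMap 𝒪 A c ∈ maximalIdeal A := by
  obtain ⟨c, hc⟩ := hA.res_surj (IsLocalRing.residue A a)
  refine ⟨c, ?_⟩
  rw [← Ideal.Quotient.eq_zero_iff_mem]
  change IsLocalRing.residue A (a - algebraMap 𝒪 A c) = 0
  rw [map_sub, sub_eq_zero]
  exact hc.symm

/-- In a finite local ring every element of the maximal ideal is nilpotent. -/
theorem isNilpotent_of_mem_maximalIdeal [Finite A] {a : A} (ha : a ∈ maximalIdeal A) :
    IsNilpotent a := by
  have h1 : IsNilpotent (⊥ : Ideal A).jacobson := IsArtinianRing.isNilpotent_jacobson_bot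
  rw [IsLocalRing.jacobson_eq_maximalIdeal ⊥ bot_ne_top] at h1
  obtain ⟨n, hn⟩ := h1
  refine ⟨n, ?_⟩
  have : a ^ n ∈ (maximalIdeal A) ^ n := Ideal.pow_mem_pow ha n
  rw [hn] at this
  simpa using this

/-- Any ring hom out of a finite local ring into a nontrivial ring is local. -/
theorem isLocalHom_of_finite [Finite A] {S : Type} [CommRing S] [Nontrivial S] (f : A →+* S) :
    IsLocalHom f := by
  constructor
  intro a ha
  by_contra hna
  have hmem : a ∈ maximalIdeal A := (IsLocalRing.mem_maximalIdeal a).mpr hna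
  obtain ⟨n, hn⟩ := isNilpotent_of_mem_maximalIdeal hmem
  have : IsUnit (f a ^ n) := ha.pow n
  rw [← map_pow, hn, map_zero] at this
  exact not_isUnit_zero this

/-- A ring hom between local rings, out of a finite one, maps the maximal ideal into
the maximal ideal. -/
theorem map_mem_maximalIdeal [Finite A] (f : A →+* B) {a : A} (ha : a ∈ maximalIdeal A) :
    f a ∈ maximalIdeal B := by
  rw [IsLocalRing.mem_maximalIdeal, mem_nonunits_iff]
  intro hu
  obtain ⟨n, hn⟩ := isNilpotent_of_mem_maximalIdeal ha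
  have : IsUnit (f a ^ n) := hu.pow n
  rw [← map_pow, hn, map_zero] at this
  exact not_isUnit_zero this

end Basics

theorem isUnit_of_isUnit_map_of_injective {B A : Type} [CommRing B] [CommRing A] [Finite A]
    (f : B →+* A) (hf : Function.Injective f) {b : B} (hb : IsUnit (f b)) : IsUnit b := by
  obtain ⟨u, hu⟩ := hb
  obtain ⟨n, hn, hun⟩ := isOfFinOrder_iff_pow_eq_one.mp (isOfFinOrder_of_finite u)
  have h1 : f (b ^ n) = 1 := by
    rw [map_pow, ← hu, ← Units.val_pow_eq_pow_val, hun, Units.val_one]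
  have h2 : b ^ n = 1 := hf (by rw [h1, map_one])
  exact IsUnit.of_pow_eq_one h2 hn.ne'

theorem isLocalRing_of_injective {B A : Type} [CommRing B] [CommRing A] [IsLocalRing A] [Finite A]
    (f : B →+* A) (hf : Function.Injective f) : IsLocalRing B := by
  have : Nontrivial B := f.domain_nontrivial
  refine IsLocalRing.of_nonunits_add ?_
  intro a b ha hb
  have ha' : f a ∈ nonunits A := fun h => ha (isUnit_of_isUnit_map_of_injective f hf h)
  have hb' : f b ∈ nonunits A := fun h => hb (isUnit_of_isUnit_map_of_injective f hf h)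
  have : f (a + b) ∈ nonunits A := by
    rw [map_add]; exact IsLocalRing.nonunits_add ha' hb'
  exact fun h => this (h.map f)

section Transfer
variable {𝒪 : Type} [CommRing 𝒪]
variable {A : Type} [CommRing A] [IsLocalRing A] [Algebra 𝒪 A]
variable {B : Type} [CommRing B] [IsLocalRing B] [Algebra 𝒪 B]

theorem mem_maximalIdeal_iff_of_injective [Finite A] (f : B →+* A) (hf : Function.Injective f)
    (b : B) : b ∈ maximalIdeal B ↔ f b ∈ maximalIdeal A := by
  rw [IsLocalRing.mem_maximalIdeal, IsLocalRing.mem_maximalIdeal, mem_nonunits_iff, mem_nonunits_iff]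
  exact not_congr ⟨fun h => h.map f, fun h => isUnit_of_isUnit_map_of_injective f hf h⟩

theorem IsFinTest.of_injective (hA : IsFinTest 𝒪 A) (f : B →ₐ[𝒪] A) (hf : Function.Injective f) :
    IsFinTest 𝒪 B := by
  have := hA.finite
  refine ⟨Finite.of_injective f hf, ⟨fun c hc => ?_⟩, ?_⟩
  · have := hA.isLocalHom
    have h2 : IsUnit (algebraMap 𝒪 A c) := by
      have := hc.map f
      rwa [AlgHom.commutes] at this
    exact isUnit_of_map_unit (algebraMap 𝒪 A) c h2
  · intro x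
    obtain ⟨b, rfl⟩ := IsLocalRing.residue_surjective x
    obtain ⟨c, hc⟩ := hA.exists_sub_mem (f b)
    refine ⟨c, ?_⟩
    change IsLocalRing.residue B (algebraMap 𝒪 B c) = IsLocalRing.residue B b
    rw [eq_comm, ← sub_eq_zero, ← map_sub, IsLocalRing.residue_eq_zero_iff,
      mem_maximalIdeal_iff_of_injective (f : B →+* A) hf]
    simpa using hc

theorem IsFinTest.of_surjective (hA : IsFinTest 𝒪 A) (f : A →ₐ[𝒪] B) (hf : Function.Surjective f) :
    IsFinTest 𝒪 B := by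
  have := hA.finite
  refine ⟨Finite.of_surjective f hf, ⟨fun c hc => ?_⟩, ?_⟩
  · have := hA.isLocalHom
    have h2 : IsUnit (algebraMap 𝒪 A c) := by
      by_contra hna
      have hmem : algebraMap 𝒪 A c ∈ maximalIdeal A := (IsLocalRing.mem_maximalIdeal _).mpr hna
      have := map_mem_maximalIdeal (f : A →+* B) hmem
      rw [IsLocalRing.mem_maximalIdeal, mem_nonunits_iff] at this
      apply this
      simpa using hc
    exact isUnit_of_map_unit (algebraMap 𝒪 A) c h2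
  · intro x
    obtain ⟨b, rfl⟩ := IsLocalRing.residue_surjective x
    obtain ⟨a, rfl⟩ := hf b
    obtain ⟨c, hc⟩ := hA.exists_sub_mem a
    refine ⟨c, ?_⟩
    change IsLocalRing.residue B (algebraMap 𝒪 B c) = IsLocalRing.residue B (f a)
    rw [eq_comm, ← sub_eq_zero, ← map_sub, IsLocalRing.residue_eq_zero_iff]
    have := map_mem_maximalIdeal (f : A →+* B) hc
    simpa using this

end Transfer

section Mat
variable {A : Type} [CommRing A] [IsLocalRing A]
variable {B : Type} [CommRing B] [IsLocalRing B]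

/-- reduction of a matrix modulo the maximal ideal -/
noncomputable def resM (M : Mat2 A) : Mat2 (ResidueField A) := (IsLocalRing.residue A).mapMatrix M

theorem resM_apply (M : Mat2 A) (i j : Fin 2) : resM M i j = IsLocalRing.residue A (M i j) := rfl
@[simp] theorem resM_one : resM (1 : Mat2 A) = 1 := map_one _
@[simp] theorem resM_mul (M N : Mat2 A) : resM (M * N) = resM M * resM N := map_mul _ _ _
@[simp] theorem resM_add (M N : Mat2 A) : resM (M + N) = resM M + resM N := map_add _ _ _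
@[simp] theorem resM_sub (M N : Mat2 A) : resM (M - N) = resM M - resM N := map_sub _ _ _

theorem resM_eq_iff (M N : Mat2 A) : resM M = resM N ↔ ∀ i j, M i j - N i j ∈ maximalIdeal A := by
  constructor
  · intro h i j
    rw [← IsLocalRing.residue_eq_zero_iff, map_sub, sub_eq_zero]
    exact congrFun (congrFun h i) j
  · intro h
    ext i j
    have := h i j
    rw [← IsLocalRing.residue_eq_zero_iff, map_sub, sub_eq_zero] at this
    exact this

/-- congruent to the identity modulo the maximal ideal -/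
def CongOne (M : Mat2 A) : Prop := resM M = 1

theorem CongOne.one : CongOne (1 : Mat2 A) := resM_one
theorem CongOne.mul {M N : Mat2 A} (hM : CongOne M) (hN : CongOne N) : CongOne (M * N) := by
  unfold CongOne at *; rw [resM_mul, hM, hN, one_mul]

theorem CongOne.isUnit {M : Mat2 A} (h : CongOne M) : IsUnit M := by
  rw [Matrix.isUnit_iff_isUnit_det]
  by_contra hdet
  have hmem : M.det ∈ maximalIdeal A := (IsLocalRing.mem_maximalIdeal _).mpr hdet
  have h1 : IsLocalRing.residue A M.det = 1 := by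
    have : (resM M).det = 1 := by rw [h, Matrix.det_one]
    rw [← this, resM, RingHom.map_det]
  rw [← IsLocalRing.residue_eq_zero_iff, h1] at hmem
  exact one_ne_zero hmem

theorem CongOne.inv {N : (Mat2 A)ˣ} (h : CongOne (N : Mat2 A)) : CongOne ((N⁻¹ : (Mat2 A)ˣ) : Mat2 A) := by
  unfold CongOne at *
  have : resM (N : Mat2 A) * resM ((N⁻¹ : (Mat2 A)ˣ) : Mat2 A) = 1 := by
    rw [← resM_mul, Units.mul_inv, resM_one]
  rwa [h, one_mul] at this

/-- entries in an ideal -/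
def EntriesIn (I : Ideal A) (X : Mat2 A) : Prop := ∀ i j, X i j ∈ I

theorem EntriesIn.add {I : Ideal A} {X Y : Mat2 A} (hX : EntriesIn I X) (hY : EntriesIn I Y) :
    EntriesIn I (X + Y) := fun i j => by simpa using I.add_mem (hX i j) (hY i j)
theorem EntriesIn.sub {I : Ideal A} {X Y : Mat2 A} (hX : EntriesIn I X) (hY : EntriesIn I Y) :
    EntriesIn I (X - Y) := fun i j => by simpa using I.sub_mem (hX i j) (hY i j)
theorem EntriesIn.neg {I : Ideal A} {X : Mat2 A} (hX : EntriesIn I X) :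
    EntriesIn I (-X) := fun i j => by simpa using I.neg_mem (hX i j)
theorem EntriesIn.mul_right {I : Ideal A} {X : Mat2 A} (hX : EntriesIn I X) (P : Mat2 A) :
    EntriesIn I (X * P) := fun i j => by
  rw [Matrix.mul_apply]
  exact I.sum_mem fun k _ => I.mul_mem_right _ (hX i k)
theorem EntriesIn.mul_left {I : Ideal A} {X : Mat2 A} (hX : EntriesIn I X) (P : Mat2 A) :
    EntriesIn I (P * X) := fun i j => by
  rw [Matrix.mul_apply]
  exact I.sum_mem fun k _ => I.mul_mem_left _ (hX k j)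

/-- if `I * m = 0`, multiplying a matrix with entries in `I` only sees the other factor mod `m` -/
theorem EntriesIn.mul_congr_right {I : Ideal A} (hIm : ∀ x ∈ I, ∀ y ∈ maximalIdeal A, x * y = 0)
    {X : Mat2 A} (hX : EntriesIn I X) {P Q : Mat2 A} (hPQ : resM P = resM Q) : X * P = X * Q := by
  rw [resM_eq_iff] at hPQ
  rw [← sub_eq_zero, ← Matrix.mul_sub]
  ext i j
  rw [Matrix.mul_apply]
  simp only [Matrix.sub_apply, Matrix.zero_apply]
  exact Finset.sum_eq_zero fun k _ => hIm _ (hX i k) _ (hPQ k j)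

theorem EntriesIn.mul_congr_left {I : Ideal A} (hIm : ∀ x ∈ I, ∀ y ∈ maximalIdeal A, x * y = 0)
    {X : Mat2 A} (hX : EntriesIn I X) {P Q : Mat2 A} (hPQ : resM P = resM Q) : P * X = Q * X := by
  rw [resM_eq_iff] at hPQ
  rw [← sub_eq_zero, ← Matrix.sub_mul]
  ext i j
  rw [Matrix.mul_apply]
  simp only [Matrix.sub_apply, Matrix.zero_apply]
  exact Finset.sum_eq_zero fun k _ => by rw [mul_comm]; exact hIm _ (hX k j) _ (hPQ i k)

theorem EntriesIn.mul_eq_zero {I : Ideal A} (hII : ∀ x ∈ I, ∀ y ∈ I, x * y = 0)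
    {X Y : Mat2 A} (hX : EntriesIn I X) (hY : EntriesIn I Y) : X * Y = 0 := by
  ext i j
  rw [Matrix.mul_apply]
  simp only [Matrix.zero_apply]
  exact Finset.sum_eq_zero fun k _ => hII _ (hX i k) _ (hY k j)

/-- functoriality of `resM` -/
theorem resM_map [Finite A] (f : A →+* B) {M N : Mat2 A} (h : resM M = resM N) :
    resM (f.mapMatrix M) = resM (f.mapMatrix N) := by
  rw [resM_eq_iff] at h ⊢
  intro i j
  have := map_mem_maximalIdeal f (h i j)
  simpa using this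

theorem CongOne.map [Finite A] (f : A →+* B) {M : Mat2 A} (h : CongOne M) :
    CongOne (f.mapMatrix M) := by
  unfold CongOne at *
  have := resM_map f (h.trans resM_one.symm)
  rw [this, map_one, resM_one]

end Mat

section Rep
variable {𝒪 : Type} [CommRing 𝒪] {G : Type} [Monoid G]
variable {A : Type} [CommRing A] [IsLocalRing A] [Algebra 𝒪 A]
variable {B : Type} [CommRing B] [IsLocalRing B] [Algebra 𝒪 B]

/-- conjugate of a matrix representation by a unit -/
def conjRep (N : (Mat2 A)ˣ) (r : G →* Mat2 A) : G →* Mat2 A where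
  toFun g := (N : Mat2 A) * r g * ((N⁻¹ : (Mat2 A)ˣ) : Mat2 A)
  map_one' := by simp
  map_mul' g h := by
    simp only [map_mul]
    calc (N : Mat2 A) * (r g * r h) * ((N⁻¹ : (Mat2 A)ˣ) : Mat2 A)
        = (N : Mat2 A) * r g * (((N⁻¹ : (Mat2 A)ˣ) : Mat2 A) * (N : Mat2 A)) * r h
            * ((N⁻¹ : (Mat2 A)ˣ) : Mat2 A) := by
          rw [Units.inv_mul, mul_one]; simp only [mul_assoc]
      _ = _ := by simp only [mul_assoc]

@[simp] theorem conjRep_apply (N : (Mat2 A)ˣ) (r : G →* Mat2 A) (g : G) :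
    conjRep N r g = (N : Mat2 A) * r g * ((N⁻¹ : (Mat2 A)ˣ) : Mat2 A) := rfl

theorem conjRep_one (r : G →* Mat2 A) : conjRep 1 r = r := by
  ext g : 1; simp

theorem conjRep_mul (N N' : (Mat2 A)ˣ) (r : G →* Mat2 A) :
    conjRep (N * N') r = conjRep N (conjRep N' r) := by
  ext g : 1; simp [mul_assoc]

/-- push a matrix representation forward along an algebra hom -/
def mapRep (f : A →ₐ[𝒪] B) (r : G →* Mat2 A) : G →* Mat2 B :=
  ((f.mapMatrix : Mat2 A →ₐ[𝒪] Mat2 B) : Mat2 A →* Mat2 B).comp r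

@[simp] theorem mapRep_apply (f : A →ₐ[𝒪] B) (r : G →* Mat2 A) (g : G) :
    mapRep f r g = f.mapMatrix (r g) := rfl

theorem mapRep_apply_apply (f : A →ₐ[𝒪] B) (r : G →* Mat2 A) (g : G) (i j : Fin 2) :
    mapRep f r g i j = f (r g i j) := rfl

theorem mapRep_id (r : G →* Mat2 A) : mapRep (AlgHom.id 𝒪 A) r = r := by
  ext g i j; rfl

theorem mapRep_comp {C : Type} [CommRing C] [IsLocalRing C] [Algebra 𝒪 C]
    (f : A →ₐ[𝒪] B) (h : B →ₐ[𝒪] C) (r : G →* Mat2 A) :
    mapRep (h.comp f) r = mapRep h (mapRep f r) := by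
  ext g i j; rfl

/-- the units of the matrix ring are pushed forward along an algebra hom -/
def mapUnit (f : A →ₐ[𝒪] B) (N : (Mat2 A)ˣ) : (Mat2 B)ˣ :=
  Units.map ((f.mapMatrix : Mat2 A →ₐ[𝒪] Mat2 B) : Mat2 A →* Mat2 B) N

@[simp] theorem coe_mapUnit (f : A →ₐ[𝒪] B) (N : (Mat2 A)ˣ) :
    ((mapUnit f N : (Mat2 B)ˣ) : Mat2 B) = f.mapMatrix (N : Mat2 A) := rfl

@[simp] theorem coe_mapUnit_inv (f : A →ₐ[𝒪] B) (N : (Mat2 A)ˣ) :
    (((mapUnit f N)⁻¹ : (Mat2 B)ˣ) : Mat2 B) = f.mapMatrix ((N⁻¹ : (Mat2 A)ˣ) : Mat2 A) := rfl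

theorem mapRep_conjRep (f : A →ₐ[𝒪] B) (N : (Mat2 A)ˣ) (r : G →* Mat2 A) :
    mapRep f (conjRep N r) = conjRep (mapUnit f N) (mapRep f r) := by
  ext g : 1
  rw [mapRep_apply, conjRep_apply, conjRep_apply, map_mul, map_mul]
  rfl

variable (R0 : G → Mat2 𝒪)

/-- `r` reduces to (the image of) `R0` modulo the maximal ideal -/
def Lifts (r : G →* Mat2 A) : Prop :=
  ∀ g, resM (r g) = resM ((algebraMap 𝒪 A).mapMatrix (R0 g))

theorem Lifts.conj {r : G →* Mat2 A} (h : Lifts R0 r) {N : (Mat2 A)ˣ} (hN : CongOne (N : Mat2 A)) :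
    Lifts R0 (conjRep N r) := by
  intro g
  rw [conjRep_apply, resM_mul, resM_mul, hN, hN.inv, one_mul, mul_one, h g]

theorem Lifts.map [Finite A] {r : G →* Mat2 A} (h : Lifts R0 r) (f : A →ₐ[𝒪] B) :
    Lifts R0 (mapRep f r) := by
  intro g
  have := resM_map (f : A →+* B) (h g)
  have e : (f : A →+* B).mapMatrix ((algebraMap 𝒪 A).mapMatrix (R0 g))
      = (algebraMap 𝒪 B).mapMatrix (R0 g) := by
    ext i j; simp
  rw [e] at this
  exact this

/-- `Lifts` can be checked after an injective map. -/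
theorem Lifts.of_map_injective [Finite B] {r : G →* Mat2 A} (f : A →ₐ[𝒪] B)
    (hf : Function.Injective f) (h : Lifts R0 (mapRep f r)) : Lifts R0 r := by
  intro g
  rw [resM_eq_iff]
  intro i j
  rw [mem_maximalIdeal_iff_of_injective (f : A →+* B) hf]
  have := (resM_eq_iff _ _).mp (h g) i j
  simpa using this

variable (𝒪)

/-- minimality: no conjugate of `r` has entries in a proper subalgebra -/
def IsMinimal (r : G →* Mat2 A) : Prop :=
  ∀ (S : Subalgebra 𝒪 A) (N : (Mat2 A)ˣ), CongOne (N : Mat2 A) →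
    (∀ g i j, conjRep N r g i j ∈ S) → S = ⊤

variable {𝒪}

/-- a morphism of (matrix) deformations, witnessed by a conjugator -/
def IsMor (r : G →* Mat2 A) (r' : G →* Mat2 B) (f : A →ₐ[𝒪] B) : Prop :=
  ∃ M : (Mat2 B)ˣ, CongOne (M : Mat2 B) ∧ mapRep f r = conjRep M r'

end Rep

section Unique
variable {𝒪 : Type} [CommRing 𝒪] {G : Type} [Monoid G]
variable {A : Type} [CommRing A] [IsLocalRing A] [Algebra 𝒪 A]
variable {A' : Type} [CommRing A'] [IsLocalRing A'] [Algebra 𝒪 A']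

theorem sub_mem_maximalIdeal_of_algHom (hA : IsFinTest 𝒪 A) (u v : A →ₐ[𝒪] A') (a : A) :
    u a - v a ∈ maximalIdeal A' := by
  have := hA.finite
  obtain ⟨c, hc⟩ := hA.exists_sub_mem a
  have h1 := map_mem_maximalIdeal (u : A →+* A') hc
  have h2 := map_mem_maximalIdeal (v : A →+* A') hc
  have : u a - v a = (u : A →+* A') (a - algebraMap 𝒪 A c) - (v : A →+* A') (a - algebraMap 𝒪 A c) := by
    simp
  rw [this]
  exact Ideal.sub_mem _ h1 h2

/-- the key computation: `u (r g) - v (r g) = X r' - r' X` -/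
theorem diff_eq_comm
    (r : G →* Mat2 A) (r' : G →* Mat2 A') (u v : A →ₐ[𝒪] A') (Mu Mv : (Mat2 A')ˣ)
    (hMu : CongOne (Mu : Mat2 A')) (hMv : CongOne (Mv : Mat2 A'))
    (hu : mapRep u r = conjRep Mu r') (hv : mapRep v r = conjRep Mv r')
    (I : Ideal A') (hIm : ∀ x ∈ I, ∀ y ∈ maximalIdeal A', x * y = 0)
    (c : A') (X : Mat2 A') (hX : EntriesIn I X)
    (hXc : ((Mv⁻¹ * Mu : (Mat2 A')ˣ) : Mat2 A') = X + c • (1 : Mat2 A')) (g : G) :
    u.mapMatrix (r g) - v.mapMatrix (r g) = X * r' g - r' g * X := by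
  have hu' : u.mapMatrix (r g) = (Mu : Mat2 A') * r' g * ((Mu⁻¹ : (Mat2 A')ˣ) : Mat2 A') := by
    rw [← mapRep_apply, hu, conjRep_apply]
  have hv' : v.mapMatrix (r g) = (Mv : Mat2 A') * r' g * ((Mv⁻¹ : (Mat2 A')ˣ) : Mat2 A') := by
    rw [← mapRep_apply, hv, conjRep_apply]
  set C : (Mat2 A')ˣ := Mv⁻¹ * Mu with hC
  have hMuC : Mu = Mv * C := by rw [hC, mul_inv_cancel_left]
  have hCone : CongOne (C : Mat2 A') := by
    rw [hC, Units.val_mul]; exact hMv.inv.mul hMu
  set Z : Mat2 A' := X * r' g - r' g * X with hZ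
  have hZI : EntriesIn I Z := (hX.mul_right _).sub (hX.mul_left _)
  -- C r' - r' C = Z
  have h1 : (C : Mat2 A') * r' g - r' g * (C : Mat2 A') = Z := by
    rw [hXc, hZ]
    simp only [add_mul, mul_add, Matrix.smul_mul, Matrix.mul_smul, one_mul, mul_one]
    abel
  -- C r' C⁻¹ - r' = Z
  have h2 : (C : Mat2 A') * r' g * ((C⁻¹ : (Mat2 A')ˣ) : Mat2 A') - r' g = Z := by
    have : (C : Mat2 A') * r' g * ((C⁻¹ : (Mat2 A')ˣ) : Mat2 A') - r' g
        = ((C : Mat2 A') * r' g - r' g * (C : Mat2 A')) * ((C⁻¹ : (Mat2 A')ˣ) : Mat2 A') := by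
      rw [sub_mul, mul_assoc (r' g), Units.mul_inv, mul_one]
    rw [this, h1]
    have := hZI.mul_congr_right hIm (P := ((C⁻¹ : (Mat2 A')ˣ) : Mat2 A')) (Q := 1)
      (by rw [hCone.inv, resM_one])
    rw [this, mul_one]
  have hMu1 : (Mu : Mat2 A') = (Mv : Mat2 A') * (C : Mat2 A') := by
    rw [← Units.val_mul, ← hMuC]
  have hMu2 : ((Mu⁻¹ : (Mat2 A')ˣ) : Mat2 A')
      = ((C⁻¹ : (Mat2 A')ˣ) : Mat2 A') * ((Mv⁻¹ : (Mat2 A')ˣ) : Mat2 A') := by
    rw [← Units.val_mul, ← _root_.mul_inv_rev, ← hMuC]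
  rw [hu', hv', hMu1, hMu2]
  have : (Mv : Mat2 A') * (C : Mat2 A') * r' g
        * (((C⁻¹ : (Mat2 A')ˣ) : Mat2 A') * ((Mv⁻¹ : (Mat2 A')ˣ) : Mat2 A'))
      - (Mv : Mat2 A') * r' g * ((Mv⁻¹ : (Mat2 A')ˣ) : Mat2 A')
      = (Mv : Mat2 A') * ((C : Mat2 A') * r' g * ((C⁻¹ : (Mat2 A')ˣ) : Mat2 A') - r' g)
          * ((Mv⁻¹ : (Mat2 A')ˣ) : Mat2 A') := by
    simp only [mul_sub, sub_mul, mul_assoc]
  rw [this, h2]
  have e1 := hZI.mul_congr_left hIm (P := (Mv : Mat2 A')) (Q := 1) (by rw [hMv, resM_one])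
  rw [e1, one_mul]
  have e2 := hZI.mul_congr_right hIm (P := ((Mv⁻¹ : (Mat2 A')ˣ) : Mat2 A')) (Q := 1)
    (by rw [hMv.inv, resM_one])
  rw [e2, mul_one]


theorem hom_unique_step (hA : IsFinTest 𝒪 A) (hA' : IsFinTest 𝒪 A')
    (r : G →* Mat2 A) (hmin : IsMinimal 𝒪 r)
    (r' : G →* Mat2 A') (u v : A →ₐ[𝒪] A') (Mu Mv : (Mat2 A')ˣ)
    (hMu : CongOne (Mu : Mat2 A')) (hMv : CongOne (Mv : Mat2 A'))
    (hu : mapRep u r = conjRep Mu r') (hv : mapRep v r = conjRep Mv r')
    (I : Ideal A') (hI : IsAtom I) (hIm : ∀ x ∈ I, ∀ y ∈ maximalIdeal A', x * y = 0)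
    (hIle : I ≤ maximalIdeal A')
    (hD : ∀ a, u a - v a ∈ I)
    (c : A') (X : Mat2 A') (hX : EntriesIn I X)
    (hXc : ((Mv⁻¹ * Mu : (Mat2 A')ˣ) : Mat2 A') = X + c • (1 : Mat2 A')) : u = v := by
  have hfinA := hA.finite
  by_cases hz : ∀ a, u a = v a
  · exact AlgHom.ext hz
  simp only [not_forall] at hz
  obtain ⟨a₀, ha₀⟩ := hz
  have hd₀ : u a₀ - v a₀ ≠ 0 := sub_ne_zero.mpr ha₀
  have hspan : Ideal.span {u a₀ - v a₀} = I := by
    have hle : Ideal.span {u a₀ - v a₀} ≤ I := (Ideal.span_singleton_le_iff_mem _).mpr (hD a₀)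
    rcases hI.le_iff.mp hle with h | h
    · exfalso
      apply hd₀
      have : u a₀ - v a₀ ∈ Ideal.span {u a₀ - v a₀} := Ideal.subset_span rfl
      rw [h] at this
      simpa using this
    · exact h
  have hII : ∀ x ∈ I, ∀ y ∈ I, x * y = 0 := fun x hx y hy => hIm x hx y (hIle hy)
  -- surjectivity of `u - v` from the maximal ideal of `A` onto `I`
  have hsurj : ∀ x ∈ I, ∃ a ∈ maximalIdeal A, u a - v a = x := by
    intro x hx
    rw [← hspan, Ideal.mem_span_singleton'] at hx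
    obtain ⟨t, rfl⟩ := hx
    obtain ⟨c1, hc1⟩ := hA'.exists_sub_mem t
    have h1 : t * (u a₀ - v a₀) = algebraMap 𝒪 A' c1 * (u a₀ - v a₀) := by
      have := hIm _ (hD a₀) _ hc1
      linear_combination this
    obtain ⟨c2, hc2⟩ := hA.exists_sub_mem (algebraMap 𝒪 A c1 * a₀)
    refine ⟨algebraMap 𝒪 A c1 * a₀ - algebraMap 𝒪 A c2, hc2, ?_⟩
    rw [h1]
    simp only [map_sub, map_mul, AlgHom.commutes]
    ring
  choose Yf hYm hYd using fun (p : Fin 2 × Fin 2) =>
    hsurj (-(X p.1 p.2)) (I.neg_mem (hX p.1 p.2))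
  set Y : Mat2 A := Matrix.of fun i j => Yf (i, j) with hY
  have hYmem : ∀ i j, Y i j ∈ maximalIdeal A := fun i j => hYm (i, j)
  have hYD : u.mapMatrix Y - v.mapMatrix Y = -X := by
    ext i j
    simpa [hY] using hYd (i, j)
  have hN1 : CongOne (1 + Y) := by
    unfold CongOne
    rw [← resM_one, resM_eq_iff]
    intro i j
    simpa using hYmem i j
  obtain ⟨Nu, hNu⟩ := hN1.isUnit
  have hNuC : CongOne (Nu : Mat2 A) := hNu ▸ hN1
  have key : ∀ g, u.mapMatrix (conjRep Nu r g) = v.mapMatrix (conjRep Nu r g) := by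
    intro g
    set T : Mat2 A := conjRep Nu r g with hT
    have hTN : T * (Nu : Mat2 A) = (Nu : Mat2 A) * r g := by
      rw [hT, conjRep_apply, mul_assoc, Units.inv_mul, mul_one]
    set P : Mat2 A' := v.mapMatrix (Nu : Mat2 A) with hP
    have hPone : CongOne P := hNuC.map (v : A →+* A')
    have hUN : u.mapMatrix (Nu : Mat2 A) = P - X := by
      have : u.mapMatrix (Nu : Mat2 A) - v.mapMatrix (Nu : Mat2 A) = -X := by
        rw [hNu, map_add, map_add, map_one, map_one, add_sub_add_left_eq_sub, hYD]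
      rw [hP, eq_sub_iff_add_eq]
      have h2 : X = -(u.mapMatrix (Nu : Mat2 A) - v.mapMatrix (Nu : Mat2 A)) := by rw [this, neg_neg]
      rw [h2]; abel
    have Eu : u.mapMatrix T * (P - X) = (P - X) * u.mapMatrix (r g) := by
      rw [← hUN, ← map_mul, hTN, map_mul]
    have Ev : v.mapMatrix T * P = P * v.mapMatrix (r g) := by
      rw [hP, ← map_mul, hTN, map_mul]
    have hZ := diff_eq_comm r r' u v Mu Mv hMu hMv hu hv I hIm c X hX hXc g
    set Z : Mat2 A' := X * r' g - r' g * X with hZdef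
    have hZI : EntriesIn I Z := (hX.mul_right _).sub (hX.mul_left _)
    have hur : u.mapMatrix (r g) = v.mapMatrix (r g) + Z := by rw [← hZ]; abel
    -- residues
    have hv' : v.mapMatrix (r g) = (Mv : Mat2 A') * r' g * ((Mv⁻¹ : (Mat2 A')ˣ) : Mat2 A') := by
      rw [← mapRep_apply, hv, conjRep_apply]
    have hres1 : resM (v.mapMatrix (r g)) = resM (r' g) := by
      rw [hv', resM_mul, resM_mul, hMv, hMv.inv, one_mul, mul_one]
    have hres2 : resM (v.mapMatrix T) = resM (r' g) := by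
      rw [hT, conjRep_apply, map_mul, map_mul, resM_mul, resM_mul, hres1]
      have e1 : resM (v.mapMatrix (Nu : Mat2 A)) = 1 := hPone
      have e2 : resM (v.mapMatrix ((Nu⁻¹ : (Mat2 A)ˣ) : Mat2 A)) = 1 :=
        (hNuC.inv).map (v : A →+* A')
      rw [e1, e2, one_mul, mul_one]
    -- the unit
    have hunit : IsUnit (P - X) := by
      rw [← hUN]
      exact (Nu.isUnit).map (u.mapMatrix : Mat2 A →ₐ[𝒪] Mat2 A')
    apply hunit.mul_left_injective
    change u.mapMatrix T * (P - X) = v.mapMatrix T * (P - X)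
    rw [Eu, hur, mul_sub, Ev]
    have t1 : v.mapMatrix T * X = r' g * X := hX.mul_congr_left hIm hres2
    have t2 : P * Z = Z := by
      have := hZI.mul_congr_left hIm (P := P) (Q := 1) (by rw [hPone, resM_one])
      rw [this, one_mul]
    have t3 : X * v.mapMatrix (r g) = X * r' g := hX.mul_congr_right hIm hres1
    have t4 : X * Z = 0 := hX.mul_eq_zero hII hZI
    rw [t1, sub_mul, mul_add, mul_add, t2, t3, t4, hZdef]
    abel
  have htop := hmin (AlgHom.equalizer u v) Nu hNuC (fun g i j => by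
    have := congrFun (congrFun (key g) i) j
    simpa [AlgHom.mem_equalizer] using this)
  ext a
  have : a ∈ AlgHom.equalizer u v := htop ▸ Algebra.mem_top
  exact this

end Unique

section Unique2
variable {𝒪 : Type} [CommRing 𝒪] {G : Type} [Monoid G]
variable {A : Type} [CommRing A] [IsLocalRing A] [Algebra 𝒪 A]
variable {A' : Type} [CommRing A'] [IsLocalRing A'] [Algebra 𝒪 A']

/-- an atom of the ideal lattice of a finite local ring is killed by the maximal ideal -/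
theorem atom_mul_maximalIdeal [Finite A'] {I : Ideal A'} (hI : IsAtom I) :
    ∀ x ∈ I, ∀ y ∈ maximalIdeal A', x * y = 0 := by
  have hle : maximalIdeal A' • I ≤ I := Submodule.smul_le_right
  have hne : maximalIdeal A' • I ≠ I := by
    intro h
    have hfg : (I : Submodule A' A').FG := IsNoetherian.noetherian I
    have := Submodule.eq_bot_of_le_smul_of_le_jacobson_bot (maximalIdeal A') I hfg (le_of_eq h.symm)
      (by rw [IsLocalRing.jacobson_eq_maximalIdeal ⊥ bot_ne_top])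
    exact hI.1 this
  have hbot : maximalIdeal A' • I = ⊥ := hI.lt_iff.mp (lt_of_le_of_ne hle hne)
  intro x hx y hy
  have : y * x ∈ maximalIdeal A' • I := Submodule.smul_mem_smul hy hx
  rw [hbot] at this
  rw [mul_comm]
  simpa using this

/-- if two conjugates of `r` agree, the quotient of the conjugators commutes with `r` -/
theorem commute_of_conjRep_eq {N N' : (Mat2 A)ˣ} {r : G →* Mat2 A}
    (h : conjRep N r = conjRep N' r) (g : G) :
    ((N'⁻¹ * N : (Mat2 A)ˣ) : Mat2 A) * r g = r g * ((N'⁻¹ * N : (Mat2 A)ˣ) : Mat2 A) := by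
  have h1 := DFunLike.congr_fun h g
  rw [conjRep_apply, conjRep_apply] at h1
  have h2 : ((N'⁻¹ : (Mat2 A)ˣ) : Mat2 A) * ((N : Mat2 A) * r g * ((N⁻¹ : (Mat2 A)ˣ) : Mat2 A))
      * (N : Mat2 A)
      = ((N'⁻¹ : (Mat2 A)ˣ) : Mat2 A) * ((N' : Mat2 A) * r g * ((N'⁻¹ : (Mat2 A)ˣ) : Mat2 A))
      * (N : Mat2 A) := by rw [h1]
  rw [Units.val_mul]
  calc ((N'⁻¹ : (Mat2 A)ˣ) : Mat2 A) * (N : Mat2 A) * r g
      = ((N'⁻¹ : (Mat2 A)ˣ) : Mat2 A) * ((N : Mat2 A) * r g * ((N⁻¹ : (Mat2 A)ˣ) : Mat2 A))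
        * (N : Mat2 A) := by
        simp only [mul_assoc, Units.inv_mul, mul_one]
    _ = ((N'⁻¹ : (Mat2 A)ˣ) : Mat2 A) * ((N' : Mat2 A) * r g * ((N'⁻¹ : (Mat2 A)ˣ) : Mat2 A))
        * (N : Mat2 A) := h2
    _ = r g * (((N'⁻¹ : (Mat2 A)ˣ) : Mat2 A) * (N : Mat2 A)) := by
        simp only [← mul_assoc, Units.inv_mul, one_mul]

variable (𝒪) in
/-- Schur's lemma over finite test algebras (hypothesis form). -/
def SchurProp (R0 : G → Mat2 𝒪) : Prop :=
  ∀ (B : Type) [CommRing B] [IsLocalRing B] [Algebra 𝒪 B], IsFinTest 𝒪 B →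
    ∀ r : G →* Mat2 B, Lifts R0 r → ∀ C : Mat2 B, (∀ g, C * r g = r g * C) →
      ∃ c : B, C = c • (1 : Mat2 B)

/-- (M2) morphisms out of a minimal object are unique. -/
theorem hom_unique_aux (R0 : G → Mat2 𝒪) (hS : SchurProp 𝒪 R0) (hA : IsFinTest 𝒪 A)
    (r : G →* Mat2 A) (hmin : IsMinimal 𝒪 r) :
    ∀ (n : ℕ) (A' : Type) [CommRing A'] [IsLocalRing A'] [Algebra 𝒪 A'], IsFinTest 𝒪 A' →
      Nat.card A' = n → ∀ (r' : G →* Mat2 A'), Lifts R0 r' → ∀ (u v : A →ₐ[𝒪] A')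
      (Mu Mv : (Mat2 A')ˣ), CongOne (Mu : Mat2 A') → CongOne (Mv : Mat2 A') →
      mapRep u r = conjRep Mu r' → mapRep v r = conjRep Mv r' → u = v := by
  intro n
  induction n using Nat.strong_induction_on with
  | _ n ih =>
  intro A' _ _ _ hA' hcard r' hr' u v Mu Mv hMu hMv hu hv
  have hfin := hA'.finite
  by_cases hm : maximalIdeal A' = ⊥
  · ext a
    have := sub_mem_maximalIdeal_of_algHom hA u v a
    rw [hm] at this
    exact sub_eq_zero.mp (by simpa using this)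
  obtain ⟨I, hIatom, hIle⟩ : ∃ I : Ideal A', IsAtom I ∧ I ≤ maximalIdeal A' :=
    (eq_bot_or_exists_atom_le _).resolve_left hm
  have hIm := atom_mul_maximalIdeal hIatom
  have hIne : I ≠ ⊤ := fun h => by
    rw [h, top_le_iff] at hIle
    exact (IsLocalRing.maximalIdeal.isMaximal A').ne_top hIle
  have : Nontrivial (A' ⧸ I) := Ideal.Quotient.nontrivial_iff.mpr hIne
  have : IsLocalRing (A' ⧸ I) :=
    IsLocalRing.of_surjective' (Ideal.Quotient.mk I) Ideal.Quotient.mk_surjective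
  set π : A' →ₐ[𝒪] A' ⧸ I := Ideal.Quotient.mkₐ 𝒪 I with hπ
  have hπs : Function.Surjective π := Ideal.Quotient.mkₐ_surjective 𝒪 I
  have hQ : IsFinTest 𝒪 (A' ⧸ I) := hA'.of_surjective π hπs
  have hlt : Nat.card (A' ⧸ I) < n := by
    rw [← hcard]
    have := Fintype.ofFinite A'
    have := Fintype.ofFinite (A' ⧸ I)
    rw [Nat.card_eq_fintype_card, Nat.card_eq_fintype_card]
    refine Fintype.card_lt_of_surjective_not_injective π hπs ?_
    intro hinj
    obtain ⟨x, hx, hx0⟩ := Submodule.exists_mem_ne_zero_of_ne_bot hIatom.1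
    apply hx0
    apply hinj
    rw [map_zero]
    exact Ideal.Quotient.eq_zero_iff_mem.mpr hx
  have huQ : mapRep (π.comp u) r = conjRep (mapUnit π Mu) (mapRep π r') := by
    rw [mapRep_comp, hu, mapRep_conjRep]
  have hvQ : mapRep (π.comp v) r = conjRep (mapUnit π Mv) (mapRep π r') := by
    rw [mapRep_comp, hv, mapRep_conjRep]
  have hMuQ : CongOne ((mapUnit π Mu : (Mat2 (A' ⧸ I))ˣ) : Mat2 (A' ⧸ I)) := hMu.map (π : A' →+* A' ⧸ I)
  have hMvQ : CongOne ((mapUnit π Mv : (Mat2 (A' ⧸ I))ˣ) : Mat2 (A' ⧸ I)) := hMv.map (π : A' →+* A' ⧸ I)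
  have hIH : π.comp u = π.comp v :=
    ih _ hlt (A' ⧸ I) hQ rfl (mapRep π r') (hr'.map R0 π) (π.comp u) (π.comp v)
      (mapUnit π Mu) (mapUnit π Mv) hMuQ hMvQ huQ hvQ
  have hD : ∀ a, u a - v a ∈ I := by
    intro a
    have := DFunLike.congr_fun hIH a
    simp only [AlgHom.comp_apply] at this
    rw [← Ideal.Quotient.eq_zero_iff_mem, map_sub, sub_eq_zero]
    exact this
  -- Schur on the quotient
  have hcomm : ∀ g, ((mapUnit π Mv)⁻¹ * mapUnit π Mu : (Mat2 (A' ⧸ I))ˣ).val * mapRep π r' g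
      = mapRep π r' g * ((mapUnit π Mv)⁻¹ * mapUnit π Mu : (Mat2 (A' ⧸ I))ˣ).val := by
    apply commute_of_conjRep_eq
    rw [← huQ, ← hvQ, hIH]
  obtain ⟨cQ, hcQ⟩ := hS (A' ⧸ I) hQ (mapRep π r') (hr'.map R0 π) _ hcomm
  obtain ⟨c, rfl⟩ := hπs cQ
  set X : Mat2 A' := ((Mv⁻¹ * Mu : (Mat2 A')ˣ) : Mat2 A') - c • (1 : Mat2 A') with hXdef
  have hX : EntriesIn I X := by
    intro i j
    rw [← Ideal.Quotient.eq_zero_iff_mem]
    have h1 : π.mapMatrix ((Mv⁻¹ * Mu : (Mat2 A')ˣ) : Mat2 A') = π c • (1 : Mat2 (A' ⧸ I)) := by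
      rw [← hcQ, Units.val_mul, Units.val_mul, map_mul]
      rfl
    have h2 := congrFun (congrFun h1 i) j
    have h3 : π (X i j) = 0 := by
      rw [hXdef]
      simp only [Matrix.sub_apply, Matrix.smul_apply, map_sub, smul_eq_mul, map_mul]
      rw [sub_eq_zero]
      simp only [AlgHom.mapMatrix_apply, Matrix.map_apply, Matrix.smul_apply, smul_eq_mul] at h2
      rw [h2]
      by_cases hij : i = j
      · subst hij; simp
      · simp [hij]
    exact h3
  exact hom_unique_step hA hA' r hmin r' u v Mu Mv hMu hMv hu hv I hIatom hIm hIle hD c X hX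
    (by rw [hXdef]; abel)

end Unique2

section M1
variable {𝒪 : Type} [CommRing 𝒪] {G : Type} [Monoid G]
variable {A : Type} [CommRing A] [IsLocalRing A] [Algebra 𝒪 A]
variable {B : Type} [CommRing B] [IsLocalRing B] [Algebra 𝒪 B]

/-- (M2), packaged. -/
theorem hom_unique (R0 : G → Mat2 𝒪) (hS : SchurProp 𝒪 R0) (hA : IsFinTest 𝒪 A)
    (hB : IsFinTest 𝒪 B) {r : G →* Mat2 A} (hmin : IsMinimal 𝒪 r) {r' : G →* Mat2 B}
    (hr' : Lifts R0 r') {u v : A →ₐ[𝒪] B} (hu : IsMor r r' u) (hv : IsMor r r' v) : u = v := by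
  obtain ⟨Mu, hMu, hu⟩ := hu
  obtain ⟨Mv, hMv, hv⟩ := hv
  exact hom_unique_aux R0 hS hA r hmin _ B hB rfl r' hr' u v Mu Mv hMu hMv hu hv

theorem IsMor.id (r : G →* Mat2 A) : IsMor r r (AlgHom.id 𝒪 A) :=
  ⟨1, by simpa using CongOne.one, by rw [mapRep_id, conjRep_one]⟩

theorem IsMor.comp {C : Type} [CommRing C] [IsLocalRing C] [Algebra 𝒪 C] [Finite B]
    {r : G →* Mat2 A} {r' : G →* Mat2 B} {r'' : G →* Mat2 C} {f : A →ₐ[𝒪] B} {h : B →ₐ[𝒪] C}
    (hf : IsMor r r' f) (hh : IsMor r' r'' h) : IsMor r r'' (h.comp f) := by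
  obtain ⟨M, hM, hf⟩ := hf
  obtain ⟨M', hM', hh⟩ := hh
  refine ⟨mapUnit h M * M', ?_, ?_⟩
  · rw [Units.val_mul]
    exact (hM.map (h : B →+* C)).mul hM'
  · rw [mapRep_comp, hf, mapRep_conjRep, hh, conjRep_mul]

/-- conjugating the source by a unit congruent to one -/
theorem IsMor.conj_left [Finite A] {r : G →* Mat2 A} {r' : G →* Mat2 B} {f : A →ₐ[𝒪] B}
    (hf : IsMor r r' f) {N : (Mat2 A)ˣ} (hN : CongOne (N : Mat2 A)) : IsMor (conjRep N r) r' f := by
  obtain ⟨M, hM, hf⟩ := hf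
  refine ⟨mapUnit f N * M, ?_, ?_⟩
  · rw [Units.val_mul]
    exact (hN.map (f : A →+* B)).mul hM
  · rw [mapRep_conjRep, hf, conjRep_mul]

/-- maps into minimal objects are onto -/
theorem IsMor.surjective_of_isMinimal {r : G →* Mat2 A} {r' : G →* Mat2 B} {f : A →ₐ[𝒪] B}
    (hf : IsMor r r' f) (hmin : IsMinimal 𝒪 r') : Function.Surjective f := by
  obtain ⟨M, hM, hf⟩ := hf
  have := hmin f.range M hM (fun g i j => by
    rw [← hf]
    exact ⟨r g i j, rfl⟩)
  exact AlgHom.range_eq_top f |>.mp this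

/-- `CongOne` can be detected after any ring hom between local rings. -/
theorem CongOne.of_map (f : A →+* B) {M : Mat2 A} (h : CongOne (f.mapMatrix M)) : CongOne M := by
  unfold CongOne at *
  rw [← resM_one, resM_eq_iff] at h ⊢
  intro i j
  have hij := h i j
  by_contra hnot
  have hu : IsUnit (M i j - (1 : Mat2 A) i j) := by
    by_contra hnu
    exact hnot ((IsLocalRing.mem_maximalIdeal _).mpr hnu)
  have := hu.map f
  rw [IsLocalRing.mem_maximalIdeal, mem_nonunits_iff] at hij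
  apply hij
  convert this using 1
  simp only [RingHom.mapMatrix_apply, Matrix.map_apply, map_sub]
  congr 1
  by_cases e : i = j
  · subst e; simp
  · simp [e]

/-- quotients of minimal objects are minimal -/
theorem IsMinimal.map {r : G →* Mat2 A} (hmin : IsMinimal 𝒪 r) (f : A →ₐ[𝒪] B)
    (hf : Function.Surjective f) : IsMinimal 𝒪 (mapRep f r) := by
  intro S N hN hS
  -- lift N
  choose N₀f hN₀f using fun (p : Fin 2 × Fin 2) => hf ((N : Mat2 B) p.1 p.2)
  set N₀ : Mat2 A := Matrix.of fun i j => N₀f (i, j) with hN₀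
  have hmapN₀ : f.mapMatrix N₀ = (N : Mat2 B) := by
    ext i j
    simp [hN₀, hN₀f]
  have hN₀C : CongOne N₀ := CongOne.of_map (f : A →+* B) (by
    have : (f : A →+* B).mapMatrix N₀ = f.mapMatrix N₀ := rfl
    rw [this, hmapN₀]; exact hN)
  obtain ⟨Nu, hNu⟩ := hN₀C.isUnit
  have hNuN : mapUnit f Nu = N := by
    apply Units.ext
    rw [coe_mapUnit, hNu, hmapN₀]
  have htop := hmin (S.comap f) Nu (hNu ▸ hN₀C) (fun g i j => by
    rw [Subalgebra.mem_comap]
    have := hS g i j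
    rw [← hNuN, ← mapRep_conjRep] at this
    exact this)
  rw [eq_top_iff]
  intro b _
  obtain ⟨a, rfl⟩ := hf b
  have : a ∈ S.comap f := htop ▸ Algebra.mem_top
  exact this

end M1

section M1c
variable {𝒪 : Type} [CommRing 𝒪] {G : Type} [Monoid G]
variable {A : Type} [CommRing A] [IsLocalRing A] [Algebra 𝒪 A]
variable {B : Type} [CommRing B] [Algebra 𝒪 B]

theorem mapMatrix_injective (f : B →ₐ[𝒪] A) (hf : Function.Injective f) :
    Function.Injective (f.mapMatrix : Mat2 B → Mat2 A) := by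
  intro M N h
  ext i j
  apply hf
  exact congrFun (congrFun h i) j

/-- entries of the pulled-back representation -/
noncomputable def pullEntry (f : B →ₐ[𝒪] A) (ρ : G →* Mat2 A)
    (h : ∀ g i j, ρ g i j ∈ f.range) (g : G) (i j : Fin 2) : B :=
  ((AlgHom.mem_range f).mp (h g i j)).choose

theorem map_pullEntry (f : B →ₐ[𝒪] A) (ρ : G →* Mat2 A)
    (h : ∀ g i j, ρ g i j ∈ f.range) (g : G) (i j : Fin 2) :
    f (pullEntry f ρ h g i j) = ρ g i j :=
  ((AlgHom.mem_range f).mp (h g i j)).choose_spec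

theorem mapMatrix_pullEntry (f : B →ₐ[𝒪] A) (ρ : G →* Mat2 A)
    (h : ∀ g i j, ρ g i j ∈ f.range) (g : G) :
    f.mapMatrix (Matrix.of fun i j => pullEntry f ρ h g i j) = ρ g := by
  ext i j
  exact map_pullEntry f ρ h g i j

/-- pull a representation back along an injective algebra hom whose range contains all
matrix entries -/
noncomputable def pullRep (f : B →ₐ[𝒪] A) (hf : Function.Injective f) (ρ : G →* Mat2 A)
    (h : ∀ g i j, ρ g i j ∈ f.range) : G →* Mat2 B where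
  toFun g := Matrix.of fun i j => pullEntry f ρ h g i j
  map_one' := by
    apply mapMatrix_injective f hf
    rw [mapMatrix_pullEntry, map_one, map_one]
  map_mul' g g' := by
    apply mapMatrix_injective f hf
    rw [map_mul, mapMatrix_pullEntry, mapMatrix_pullEntry, mapMatrix_pullEntry, map_mul]

theorem mapRep_pullRep [IsLocalRing B] (f : B →ₐ[𝒪] A) (hf : Function.Injective f)
    (ρ : G →* Mat2 A) (h : ∀ g i j, ρ g i j ∈ f.range) : mapRep f (pullRep f hf ρ h) = ρ := by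
  ext g : 1
  exact mapMatrix_pullEntry f ρ h g


variable (𝒪) in
/-- (M1) every object contains a minimal sub-object (up to conjugation). -/
theorem exists_minimal_sub (hA : IsFinTest 𝒪 A) (r : G →* Mat2 A) :
    ∃ (S : Subalgebra 𝒪 A) (_ : IsLocalRing S) (N : (Mat2 A)ˣ) (rS : G →* Mat2 S),
      CongOne (N : Mat2 A) ∧ mapRep S.val rS = conjRep N r ∧ IsMinimal 𝒪 rS := by
  have hfin := hA.finite
  let 𝒮 : Set (Subalgebra 𝒪 A) :=
    {S | ∃ N : (Mat2 A)ˣ, CongOne (N : Mat2 A) ∧ ∀ g i j, conjRep N r g i j ∈ S}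
  have hfinS : Finite (Subalgebra 𝒪 A) :=
    Finite.of_injective (fun S : Subalgebra 𝒪 A => (S : Set A)) SetLike.coe_injective
  have hne : 𝒮.Nonempty := ⟨⊤, 1, by simpa using CongOne.one, fun _ _ _ => Algebra.mem_top⟩
  obtain ⟨S, hSmin⟩ := (Set.toFinite 𝒮).exists_minimal hne
  obtain ⟨⟨N, hN, hNS⟩, hmin⟩ := hSmin
  have hinj : Function.Injective S.val := Subtype.val_injective
  have hloc : IsLocalRing S := isLocalRing_of_injective (S.val : S →+* A) hinj
  have hrange : ∀ g i j, conjRep N r g i j ∈ S.val.range := by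
    intro g i j
    rw [Subalgebra.range_val]
    exact hNS g i j
  refine ⟨S, hloc, N, pullRep S.val hinj (conjRep N r) hrange, hN,
    mapRep_pullRep S.val hinj _ hrange, ?_⟩
  intro S' N' hN' hS'
  have hfinS' : Finite S := Finite.of_injective _ hinj
  -- the image subalgebra
  have hmem : S'.map S.val ∈ 𝒮 := by
    refine ⟨mapUnit S.val N' * N, ?_, ?_⟩
    · rw [Units.val_mul]
      exact (hN'.map (S.val : S →+* A)).mul hN
    · intro g i j
      rw [conjRep_mul, ← mapRep_pullRep S.val hinj (conjRep N r) hrange, ← mapRep_conjRep]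
      exact ⟨_, hS' g i j, rfl⟩
  have hle : S'.map S.val ≤ S := by
    rintro _ ⟨x, _, rfl⟩
    exact x.2
  have hge : S ≤ S'.map S.val := hmin hmem hle
  rw [eq_top_iff]
  intro x _
  obtain ⟨y, hy, hyx⟩ := hge x.2
  have : y = x := hinj hyx
  exact this ▸ hy

end M1c

section Fibre
variable {𝒪 : Type} [CommRing 𝒪] {G : Type} [Monoid G]
variable (A : Type) [CommRing A] [IsLocalRing A] [Algebra 𝒪 A]
variable (B : Type) [CommRing B] [IsLocalRing B] [Algebra 𝒪 B]

variable (𝒪) in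
/-- the fibre product of two test algebras over the common residue field, as a subalgebra of
the product -/
def fibreSub : Subalgebra 𝒪 (A × B) where
  carrier := {p | ∃ c : 𝒪, p.1 - algebraMap 𝒪 A c ∈ maximalIdeal A ∧
    p.2 - algebraMap 𝒪 B c ∈ maximalIdeal B}
  mul_mem' := by
    rintro ⟨a₁, b₁⟩ ⟨a₂, b₂⟩ ⟨c, hc1, hc2⟩ ⟨d, hd1, hd2⟩
    refine ⟨c * d, ?_, ?_⟩
    · have : a₁ * a₂ - algebraMap 𝒪 A (c * d)
          = (a₁ - algebraMap 𝒪 A c) * a₂ + algebraMap 𝒪 A c * (a₂ - algebraMap 𝒪 A d) := by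
        rw [map_mul]; ring
      show a₁ * a₂ - algebraMap 𝒪 A (c * d) ∈ maximalIdeal A
      rw [this]
      exact Ideal.add_mem _ (Ideal.mul_mem_right _ _ hc1) (Ideal.mul_mem_left _ _ hd1)
    · have : b₁ * b₂ - algebraMap 𝒪 B (c * d)
          = (b₁ - algebraMap 𝒪 B c) * b₂ + algebraMap 𝒪 B c * (b₂ - algebraMap 𝒪 B d) := by
        rw [map_mul]; ring
      show b₁ * b₂ - algebraMap 𝒪 B (c * d) ∈ maximalIdeal B
      rw [this]
      exact Ideal.add_mem _ (Ideal.mul_mem_right _ _ hc2) (Ideal.mul_mem_left _ _ hd2)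
  add_mem' := by
    rintro ⟨a₁, b₁⟩ ⟨a₂, b₂⟩ ⟨c, hc1, hc2⟩ ⟨d, hd1, hd2⟩
    refine ⟨c + d, ?_, ?_⟩
    · show a₁ + a₂ - algebraMap 𝒪 A (c + d) ∈ maximalIdeal A
      have : a₁ + a₂ - algebraMap 𝒪 A (c + d)
          = (a₁ - algebraMap 𝒪 A c) + (a₂ - algebraMap 𝒪 A d) := by rw [map_add]; ring
      rw [this]; exact Ideal.add_mem _ hc1 hd1
    · show b₁ + b₂ - algebraMap 𝒪 B (c + d) ∈ maximalIdeal B
      have : b₁ + b₂ - algebraMap 𝒪 B (c + d)
          = (b₁ - algebraMap 𝒪 B c) + (b₂ - algebraMap 𝒪 B d) := by rw [map_add]; ring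
      rw [this]; exact Ideal.add_mem _ hc2 hd2
  algebraMap_mem' c := ⟨c, by simp, by simp⟩

variable {A B}

theorem mem_fibreSub_iff (p : A × B) : p ∈ fibreSub 𝒪 A B ↔
    ∃ c : 𝒪, p.1 - algebraMap 𝒪 A c ∈ maximalIdeal A ∧ p.2 - algebraMap 𝒪 B c ∈ maximalIdeal B :=
  Iff.rfl

/-- in the fibre product, the first coordinate is in the maximal ideal iff the second is -/
theorem fst_mem_iff_snd_mem (hA : IsFinTest 𝒪 A) (hB : IsFinTest 𝒪 B) {p : A × B}
    (hp : p ∈ fibreSub 𝒪 A B) : p.1 ∈ maximalIdeal A ↔ p.2 ∈ maximalIdeal B := by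
  obtain ⟨c, hc1, hc2⟩ := hp
  have hAl := hA.isLocalHom
  have hBl := hB.isLocalHom
  have key : algebraMap 𝒪 A c ∈ maximalIdeal A ↔ algebraMap 𝒪 B c ∈ maximalIdeal B := by
    rw [IsLocalRing.mem_maximalIdeal, IsLocalRing.mem_maximalIdeal, mem_nonunits_iff,
      mem_nonunits_iff, not_iff_not]
    constructor
    · intro h; exact (isUnit_of_map_unit (algebraMap 𝒪 A) c h).map _
    · intro h; exact (isUnit_of_map_unit (algebraMap 𝒪 B) c h).map _
  constructor
  · intro h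
    have h1 : algebraMap 𝒪 A c ∈ maximalIdeal A := by
      have := Ideal.sub_mem _ h hc1
      simpa using this
    have h2 := key.mp h1
    have := Ideal.add_mem _ hc2 h2
    simpa using this
  · intro h
    have h1 : algebraMap 𝒪 B c ∈ maximalIdeal B := by
      have := Ideal.sub_mem _ h hc2
      simpa using this
    have h2 := key.mpr h1
    have := Ideal.add_mem _ hc1 h2
    simpa using this

theorem isUnit_fibreSub_iff (hA : IsFinTest 𝒪 A) (hB : IsFinTest 𝒪 B) (p : fibreSub 𝒪 A B) :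
    IsUnit p ↔ (p : A × B).1 ∉ maximalIdeal A := by
  have hfA := hA.finite
  have hfB := hB.finite
  constructor
  · intro hu hmem
    have h1 : IsUnit ((p : A × B).1) := by
      have := hu.map ((AlgHom.fst 𝒪 A B).comp (fibreSub 𝒪 A B).val)
      simpa using this
    exact (IsLocalRing.mem_maximalIdeal _).mp hmem h1
  · intro hnot
    have hnot2 : (p : A × B).2 ∉ maximalIdeal B := fun h =>
      hnot ((fst_mem_iff_snd_mem hA hB p.2).mpr h)
    have h1 : IsUnit ((p : A × B).1) := by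
      by_contra h; exact hnot ((IsLocalRing.mem_maximalIdeal _).mpr h)
    have h2 : IsUnit ((p : A × B).2) := by
      by_contra h; exact hnot2 ((IsLocalRing.mem_maximalIdeal _).mpr h)
    have h3 : IsUnit ((fibreSub 𝒪 A B).val p) := by
      rw [Prod.isUnit_iff]
      exact ⟨h1, h2⟩
    exact isUnit_of_isUnit_map_of_injective ((fibreSub 𝒪 A B).val : fibreSub 𝒪 A B →+* A × B)
      Subtype.val_injective h3

theorem isLocalRing_fibreSub (hA : IsFinTest 𝒪 A) (hB : IsFinTest 𝒪 B) :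
    IsLocalRing (fibreSub 𝒪 A B) := by
  have : Nontrivial (fibreSub 𝒪 A B) := inferInstance
  refine IsLocalRing.of_nonunits_add ?_
  intro p q hp hq
  rw [mem_nonunits_iff, isUnit_fibreSub_iff hA hB, not_not] at hp hq ⊢
  exact Ideal.add_mem _ hp hq

end Fibre

section Fibre2
variable {𝒪 : Type} [CommRing 𝒪] {G : Type} [Monoid G]
variable {A : Type} [CommRing A] [IsLocalRing A] [Algebra 𝒪 A]
variable {B : Type} [CommRing B] [IsLocalRing B] [Algebra 𝒪 B]

variable (𝒪 A B) in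
/-- first projection of the fibre product -/
def fibreFst : fibreSub 𝒪 A B →ₐ[𝒪] A := (AlgHom.fst 𝒪 A B).comp (fibreSub 𝒪 A B).val
variable (𝒪 A B) in
/-- second projection of the fibre product -/
def fibreSnd : fibreSub 𝒪 A B →ₐ[𝒪] B := (AlgHom.snd 𝒪 A B).comp (fibreSub 𝒪 A B).val

@[simp] theorem fibreFst_apply (p : fibreSub 𝒪 A B) : fibreFst 𝒪 A B p = (p : A × B).1 := rfl
@[simp] theorem fibreSnd_apply (p : fibreSub 𝒪 A B) : fibreSnd 𝒪 A B p = (p : A × B).2 := rfl

theorem fibre_ext {p q : fibreSub 𝒪 A B} (h1 : fibreFst 𝒪 A B p = fibreFst 𝒪 A B q)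
    (h2 : fibreSnd 𝒪 A B p = fibreSnd 𝒪 A B q) : p = q :=
  Subtype.ext (Prod.ext h1 h2)

theorem isFinTest_fibreSub (hA : IsFinTest 𝒪 A) (hB : IsFinTest 𝒪 B)
    [IsLocalRing (fibreSub 𝒪 A B)] : IsFinTest 𝒪 (fibreSub 𝒪 A B) := by
  have hfA := hA.finite
  have hfB := hB.finite
  have hAl := hA.isLocalHom
  refine ⟨inferInstance, ⟨fun c hc => ?_⟩, ?_⟩
  · have : IsUnit (algebraMap 𝒪 A c) := by
      have := hc.map (fibreFst 𝒪 A B)
      rwa [AlgHom.commutes] at this
    exact isUnit_of_map_unit (algebraMap 𝒪 A) c this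
  · intro x
    obtain ⟨p, rfl⟩ := IsLocalRing.residue_surjective x
    obtain ⟨c, hc1, hc2⟩ := p.2
    refine ⟨c, ?_⟩
    change IsLocalRing.residue _ (algebraMap 𝒪 _ c) = IsLocalRing.residue _ p
    rw [eq_comm, ← sub_eq_zero, ← map_sub, IsLocalRing.residue_eq_zero_iff,
      IsLocalRing.mem_maximalIdeal, mem_nonunits_iff, isUnit_fibreSub_iff hA hB, not_not]
    simpa using hc1

theorem fibre_mat_ext {M N : Mat2 (fibreSub 𝒪 A B)}
    (h1 : (fibreFst 𝒪 A B).mapMatrix M = (fibreFst 𝒪 A B).mapMatrix N)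
    (h2 : (fibreSnd 𝒪 A B).mapMatrix M = (fibreSnd 𝒪 A B).mapMatrix N) : M = N := by
  ext i j : 1
  exact fibre_ext (congrFun (congrFun h1 i) j) (congrFun (congrFun h2 i) j)

/-- entries of the product representation -/
def fibreEntry (R0 : G → Mat2 𝒪) (r₁ : G →* Mat2 A) (r₂ : G →* Mat2 B)
    (h₁ : Lifts R0 r₁) (h₂ : Lifts R0 r₂) (g : G) : Mat2 (fibreSub 𝒪 A B) :=
  Matrix.of fun i j => ⟨(r₁ g i j, r₂ g i j), R0 g i j, by
    have := (resM_eq_iff _ _).mp (h₁ g) i j
    simpa using this, by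
    have := (resM_eq_iff _ _).mp (h₂ g) i j
    simpa using this⟩

theorem fst_fibreEntry (R0 : G → Mat2 𝒪) (r₁ : G →* Mat2 A) (r₂ : G →* Mat2 B)
    (h₁ : Lifts R0 r₁) (h₂ : Lifts R0 r₂) (g : G) :
    (fibreFst 𝒪 A B).mapMatrix (fibreEntry R0 r₁ r₂ h₁ h₂ g) = r₁ g := by
  ext i j; rfl

theorem snd_fibreEntry (R0 : G → Mat2 𝒪) (r₁ : G →* Mat2 A) (r₂ : G →* Mat2 B)
    (h₁ : Lifts R0 r₁) (h₂ : Lifts R0 r₂) (g : G) :
    (fibreSnd 𝒪 A B).mapMatrix (fibreEntry R0 r₁ r₂ h₁ h₂ g) = r₂ g := by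
  ext i j; rfl

/-- the product of two lifts of `R0`, as a representation over the fibre product -/
def fibreRep (R0 : G → Mat2 𝒪) (r₁ : G →* Mat2 A) (r₂ : G →* Mat2 B)
    (h₁ : Lifts R0 r₁) (h₂ : Lifts R0 r₂) : G →* Mat2 (fibreSub 𝒪 A B) where
  toFun g := fibreEntry R0 r₁ r₂ h₁ h₂ g
  map_one' := by
    apply fibre_mat_ext
    · rw [fst_fibreEntry, map_one, map_one]
    · rw [snd_fibreEntry, map_one, map_one]
  map_mul' g g' := by
    apply fibre_mat_ext
    · rw [map_mul, fst_fibreEntry, fst_fibreEntry, fst_fibreEntry, map_mul]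
    · rw [map_mul, snd_fibreEntry, snd_fibreEntry, snd_fibreEntry, map_mul]

theorem mapRep_fst_fibreRep [IsLocalRing (fibreSub 𝒪 A B)] (R0 : G → Mat2 𝒪) (r₁ : G →* Mat2 A)
    (r₂ : G →* Mat2 B) (h₁ : Lifts R0 r₁) (h₂ : Lifts R0 r₂) :
    mapRep (fibreFst 𝒪 A B) (fibreRep R0 r₁ r₂ h₁ h₂) = r₁ := by
  ext g : 1
  exact fst_fibreEntry R0 r₁ r₂ h₁ h₂ g

theorem mapRep_snd_fibreRep [IsLocalRing (fibreSub 𝒪 A B)] (R0 : G → Mat2 𝒪) (r₁ : G →* Mat2 A)
    (r₂ : G →* Mat2 B) (h₁ : Lifts R0 r₁) (h₂ : Lifts R0 r₂) :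
    mapRep (fibreSnd 𝒪 A B) (fibreRep R0 r₁ r₂ h₁ h₂) = r₂ := by
  ext g : 1
  exact snd_fibreEntry R0 r₁ r₂ h₁ h₂ g

end Fibre2

section Objects
variable (𝒪 : Type) [CommRing 𝒪] (G : Type) [Monoid G] (R0 : G → Mat2 𝒪)
variable (Good : ∀ (A : Type) [CommRing A] [IsLocalRing A] [Algebra 𝒪 A], (G →* Mat2 A) → Prop)

/-- the closure properties of the abstract deformation condition (matrix form, finite level) -/
structure GoodAxioms : Prop where
  conj : ∀ {A : Type} [CommRing A] [IsLocalRing A] [Algebra 𝒪 A], IsFinTest 𝒪 A →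
    ∀ (r : G →* Mat2 A) (N : (Mat2 A)ˣ), CongOne (N : Mat2 A) → Good A r → Good A (conjRep N r)
  map : ∀ {A B : Type} [CommRing A] [IsLocalRing A] [Algebra 𝒪 A]
    [CommRing B] [IsLocalRing B] [Algebra 𝒪 B], IsFinTest 𝒪 A → IsFinTest 𝒪 B →
    ∀ (f : A →ₐ[𝒪] B) (r : G →* Mat2 A), Good A r → Good B (mapRep f r)
  of_map_injective : ∀ {A B : Type} [CommRing A] [IsLocalRing A] [Algebra 𝒪 A]
    [CommRing B] [IsLocalRing B] [Algebra 𝒪 B], IsFinTest 𝒪 A → IsFinTest 𝒪 B →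
    ∀ (f : A →ₐ[𝒪] B), Function.Injective f → ∀ (r : G →* Mat2 A),
      Good B (mapRep f r) → Good A r
  fibre : ∀ {A B P : Type} [CommRing A] [IsLocalRing A] [Algebra 𝒪 A]
    [CommRing B] [IsLocalRing B] [Algebra 𝒪 B] [CommRing P] [IsLocalRing P] [Algebra 𝒪 P],
    IsFinTest 𝒪 A → IsFinTest 𝒪 B → IsFinTest 𝒪 P →
    ∀ (pA : P →ₐ[𝒪] A) (pB : P →ₐ[𝒪] B),
      (∀ x y, pA x = pA y → pB x = pB y → x = y) →
      (∀ a b, (∃ c : 𝒪, a - algebraMap 𝒪 A c ∈ maximalIdeal A ∧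
          b - algebraMap 𝒪 B c ∈ maximalIdeal B) → ∃ x, pA x = a ∧ pB x = b) →
      ∀ ρ : G →* Mat2 P, Good A (mapRep pA ρ) → Good B (mapRep pB ρ) → Good P ρ

/-- a finite-level object: a finite test algebra with a good lift of `R0` -/
structure Obj where
  A : Type
  [instCommRing : CommRing A]
  [instIsLocalRing : IsLocalRing A]
  [instAlgebra : Algebra 𝒪 A]
  isFinTest : IsFinTest 𝒪 A
  r : G →* Mat2 A
  lifts : Lifts R0 r
  good : Good A r

attribute [instance] Obj.instCommRing Obj.instIsLocalRing Obj.instAlgebra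

variable {𝒪 G R0 Good}

/-- minimal objects -/
def Obj.IsMin (w : Obj 𝒪 G R0 Good) : Prop := IsMinimal 𝒪 w.r

/-- `w` dominates `w'` if there is a morphism `w → w'` -/
def Obj.Dominates (w w' : Obj 𝒪 G R0 Good) : Prop := ∃ f : w.A →ₐ[𝒪] w'.A, IsMor w.r w'.r f

theorem Obj.Dominates.refl (w : Obj 𝒪 G R0 Good) : w.Dominates w := ⟨AlgHom.id 𝒪 w.A, IsMor.id _⟩

theorem Obj.Dominates.trans {w w' w'' : Obj 𝒪 G R0 Good} (h : w.Dominates w')
    (h' : w'.Dominates w'') : w.Dominates w'' := by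
  obtain ⟨f, hf⟩ := h
  obtain ⟨f', hf'⟩ := h'
  have := w'.isFinTest.finite
  exact ⟨f'.comp f, hf.comp hf'⟩

/-- (M1) every object is dominated by a minimal object, via an injective map. -/
theorem Obj.exists_minimal_sub (hG : GoodAxioms 𝒪 G Good) (w : Obj 𝒪 G R0 Good) :
    ∃ w' : Obj 𝒪 G R0 Good, w'.IsMin ∧
      ∃ f : w'.A →ₐ[𝒪] w.A, Function.Injective f ∧ IsMor w'.r w.r f := by
  obtain ⟨S, hloc, N, rS, hN, hmap, hmin⟩ := Fermat.Agent.S53.Minimal.exists_minimal_sub 𝒪 w.isFinTest w.r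
  have hinj : Function.Injective S.val := Subtype.val_injective
  have hfin := w.isFinTest.finite
  have hS : IsFinTest 𝒪 S := w.isFinTest.of_injective S.val hinj
  have hlift : Lifts R0 rS := Lifts.of_map_injective R0 S.val hinj (by
    rw [hmap]; exact w.lifts.conj R0 hN)
  have hgood : Good S rS := hG.of_map_injective hS w.isFinTest S.val hinj rS (by
    rw [hmap]; exact hG.conj w.isFinTest w.r N hN w.good)
  exact ⟨⟨S, hS, rS, hlift, hgood⟩, hmin, S.val, hinj, N, hN, hmap⟩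

/-- quotient objects -/
def Obj.map (hG : GoodAxioms 𝒪 G Good) (w : Obj 𝒪 G R0 Good) {B : Type} [CommRing B]
    [IsLocalRing B] [Algebra 𝒪 B] (f : w.A →ₐ[𝒪] B) (hf : Function.Surjective f) :
    Obj 𝒪 G R0 Good :=
  have := w.isFinTest.finite
  ⟨B, w.isFinTest.of_surjective f hf, mapRep f w.r, w.lifts.map R0 f,
    hG.map w.isFinTest (w.isFinTest.of_surjective f hf) f w.r w.good⟩

/-- (M3) two objects are dominated by a common minimal object. -/
theorem Obj.exists_join (hG : GoodAxioms 𝒪 G Good) (w₁ w₂ : Obj 𝒪 G R0 Good) :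
    ∃ w : Obj 𝒪 G R0 Good, w.IsMin ∧ w.Dominates w₁ ∧ w.Dominates w₂ := by
  have hloc : IsLocalRing (fibreSub 𝒪 w₁.A w₂.A) := isLocalRing_fibreSub w₁.isFinTest w₂.isFinTest
  have hP : IsFinTest 𝒪 (fibreSub 𝒪 w₁.A w₂.A) := isFinTest_fibreSub w₁.isFinTest w₂.isFinTest
  have hfinP := hP.finite
  set ρ := fibreRep R0 w₁.r w₂.r w₁.lifts w₂.lifts with hρ
  have h1 : mapRep (fibreFst 𝒪 w₁.A w₂.A) ρ = w₁.r := mapRep_fst_fibreRep R0 _ _ _ _
  have h2 : mapRep (fibreSnd 𝒪 w₁.A w₂.A) ρ = w₂.r := mapRep_snd_fibreRep R0 _ _ _ _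
  have hlift : Lifts R0 ρ := by
    intro g
    rw [resM_eq_iff]
    intro i j
    rw [IsLocalRing.mem_maximalIdeal, mem_nonunits_iff,
      isUnit_fibreSub_iff w₁.isFinTest w₂.isFinTest, not_not]
    have := (resM_eq_iff _ _).mp (w₁.lifts g) i j
    have e : ((ρ g i j : fibreSub 𝒪 w₁.A w₂.A) : w₁.A × w₂.A).1 = w₁.r g i j := rfl
    simpa [e] using this
  have hgood : Good (fibreSub 𝒪 w₁.A w₂.A) ρ :=
    hG.fibre w₁.isFinTest w₂.isFinTest hP (fibreFst 𝒪 w₁.A w₂.A) (fibreSnd 𝒪 w₁.A w₂.A)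
      (fun x y hx hy => fibre_ext hx hy)
      (fun a b hab => ⟨⟨(a, b), hab⟩, rfl, rfl⟩) ρ (by rw [h1]; exact w₁.good)
      (by rw [h2]; exact w₂.good)
  let wP : Obj 𝒪 G R0 Good := ⟨fibreSub 𝒪 w₁.A w₂.A, hP, ρ, hlift, hgood⟩
  obtain ⟨w, hwmin, f, -, hf⟩ := Obj.exists_minimal_sub hG wP
  refine ⟨w, hwmin, ⟨(fibreFst 𝒪 w₁.A w₂.A).comp f, ?_⟩, ⟨(fibreSnd 𝒪 w₁.A w₂.A).comp f, ?_⟩⟩
  · refine hf.comp (r' := ρ) ⟨1, by simpa using CongOne.one, ?_⟩
    rw [h1, conjRep_one]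
  · refine hf.comp (r' := ρ) ⟨1, by simpa using CongOne.one, ?_⟩
    rw [h2, conjRep_one]

/-- (M2) for objects -/
theorem Obj.hom_unique (hS : SchurProp 𝒪 R0) {w w' : Obj 𝒪 G R0 Good} (hmin : w.IsMin)
    {u v : w.A →ₐ[𝒪] w'.A} (hu : IsMor w.r w'.r u) (hv : IsMor w.r w'.r v) : u = v :=
  Fermat.Agent.S53.Minimal.hom_unique R0 hS w.isFinTest w'.isFinTest hmin w'.lifts hu hv

/-- maps into minimal objects are onto -/
theorem Obj.surjective_of_isMin {w w' : Obj 𝒪 G R0 Good} (hmin : w'.IsMin)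
    {f : w.A →ₐ[𝒪] w'.A} (hf : IsMor w.r w'.r f) : Function.Surjective f :=
  hf.surjective_of_isMinimal hmin

/-- quotients of minimal objects are minimal -/
theorem Obj.isMin_map (hG : GoodAxioms 𝒪 G Good) {w : Obj 𝒪 G R0 Good} (hmin : w.IsMin)
    {B : Type} [CommRing B] [IsLocalRing B] [Algebra 𝒪 B] (f : w.A →ₐ[𝒪] B)
    (hf : Function.Surjective f) : (w.map hG f hf).IsMin :=
  IsMinimal.map hmin f hf

end Objects

end Fermat.Agent.S53.Minimal
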