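import Mathlib
import Fermat.Agent.S53.NFFunctor
import Fermat.Agent.S53.TestAlgebra
import Fermat.Agent.S53.Continuity

/-!
# S53: the universal normalized matrix representation over the representing ring  ([UREP], NFF shape)

Input: the output of the abstract representability theorem for the functor
`NF rb0 eqs 𝒟` of helper76's `NFFunctor.lean`: a complete Noetherian local `𝒪`-algebra `R`
and a family `xR : Idx → R` all of whose images in Artinian test algebras are `NF`-points.

Output: `xR` is itself an `NF`-point over `R`, i.e. it is the family of entries of a continuous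
matrix representation `rR : GQ →* M2 R` lifting `rb0` exactly, satisfying the normalization
equations, with `𝒟 (ofMat rR _)`.
-/

set_option autoImplicit false

namespace Fermat.Agent.S53.NFU

open IsLocalRing GaloisRep Fermat.Agent.S53 Fermat.Agent.S53.NFF

section Hausdorff

variable {R : Type} [CommRing R] [IsLocalRing R] [IsAdicComplete (maximalIdeal R) R]

/-- Two elements of a complete local ring which agree modulo every positive power of the maximal
ideal are equal. -/
theorem eq_of_forall_mk_eq {a b : R}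
    (h : ∀ n : ℕ, n ≠ 0 → Ideal.Quotient.mk (maximalIdeal R ^ n) a =
      Ideal.Quotient.mk (maximalIdeal R ^ n) b) : a = b := by
  rw [← sub_eq_zero]
  apply IsHausdorff.haus (inferInstance : IsHausdorff (maximalIdeal R) R)
  intro n
  rw [SModEq.zero]
  rcases Nat.eq_zero_or_pos n with rfl | hn
  · simp
  · have := h n hn.ne'
    rw [Ideal.Quotient.eq] at this
    simpa using this

end Hausdorff

variable {𝒪 : Type} [CommRing 𝒪] [IsLocalRing 𝒪]
  {rb0 : GQ →* M2 (ResidueField 𝒪)} {eqs : Set (LinEq 𝒪)}
  {𝒟 : ∀ ⦃A : Type⦄ [CommRing A] [IsLocalRing A] [Algebra 𝒪 A], GaloisRepAdic A → Prop}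

variable {R : Type} [CommRing R] [IsLocalRing R] [IsNoetherianRing R]
  [IsAdicComplete (maximalIdeal R) R] [Algebra 𝒪 R]

/-- **[UREP]** If every image of the family `xR` in an Artinian test algebra is a normalized good
lift, then `xR` itself is a normalized good lift over `R`. -/
theorem nf_of_forall_testAlgebra (h𝒟 : IsDeformationCondition 𝒪 𝒟)
    (hloc : IsLocalHom (algebraMap 𝒪 R))
    (hsurj : Function.Surjective (IsLocalRing.residue R ∘ algebraMap 𝒪 R))
    (xR : Idx → R)
    (hq : ∀ ⦃B : Type⦄ [CommRing B] [IsLocalRing B] [Algebra 𝒪 B],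
      IsArtinianTestAlgebra 𝒪 B → ∀ q : R →ₐ[𝒪] B, NF rb0 eqs 𝒟 (q ∘ xR)) :
    NF rb0 eqs 𝒟 xR := by
  -- the finite levels
  have hlev : ∀ n : ℕ, n ≠ 0 → ∃ (_ : IsLocalRing (R ⧸ maximalIdeal R ^ n)),
      IsArtinianTestAlgebra 𝒪 (R ⧸ maximalIdeal R ^ n) ∧
      NF rb0 eqs 𝒟 ((Ideal.Quotient.mkₐ 𝒪 (maximalIdeal R ^ n)) ∘ xR) := by
    intro n hn
    have hl : IsLocalRing (R ⧸ maximalIdeal R ^ n) := isLocalRing_quotient_maximalIdeal_pow hn
    have ht : IsArtinianTestAlgebra 𝒪 (R ⧸ maximalIdeal R ^ n) :=
      isArtinianTestAlgebra_quotient_maximalIdeal_pow hloc hsurj hn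
    exact ⟨hl, ht, hq ht _⟩
  -- `famMat xR` is a monoid hom
  have h1 : famMat xR 1 = 1 := by
    ext i j
    apply eq_of_forall_mk_eq
    intro n hn
    obtain ⟨_, -, r, -, hr, -, -, -⟩ := hlev n hn
    have e := hr 1 i j
    rw [map_one] at e
    rw [famMat_apply]
    change _ = Ideal.Quotient.mk (maximalIdeal R ^ n) ((1 : M2 R) i j)
    have e' : (Ideal.Quotient.mk (maximalIdeal R ^ n)) (xR (1, i, j)) = (1 : M2 _) i j := e.symm
    rw [e', Matrix.one_apply, Matrix.one_apply]
    split_ifs <;> simp
  have hmul : ∀ g h, famMat xR (g * h) = famMat xR g * famMat xR h := by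
    intro g h
    ext i j
    apply eq_of_forall_mk_eq
    intro n hn
    obtain ⟨_, -, r, -, hr, -, -, -⟩ := hlev n hn
    have hr' : ∀ g i j, r g i j = Ideal.Quotient.mk (maximalIdeal R ^ n) (xR (g, i, j)) := hr
    rw [famMat_apply, Matrix.mul_apply, map_sum, ← hr' (g * h) i j, map_mul, Matrix.mul_apply]
    refine Finset.sum_congr rfl fun k _ => ?_
    rw [map_mul, hr' g i k, hr' h k j]
    rfl
  let rR : GQ →* M2 R := homOfFam xR h1 hmul
  have hrR : ∀ g i j, rR g i j = xR (g, i, j) := fun g i j => rfl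
  -- continuity
  have hcont : MatCont rR := by
    apply matCont_of_forall_factors_quotient
    intro n
    rcases Nat.eq_zero_or_pos n with rfl | hn
    · have hss : Subsingleton (R ⧸ maximalIdeal R ^ 0) := by
        rw [Ideal.Quotient.subsingleton_iff]
        simp
      exact ⟨⊥, inferInstance, fun σ _ => Subsingleton.elim _ _⟩
    · obtain ⟨_, ht, r, h, hr, -, -, -⟩ := hlev n hn.ne'
      have e : mapMat (Ideal.Quotient.mk (maximalIdeal R ^ n)) rR = r := by
        apply eq_of_entries
        intro g i j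
        rw [mapMat_apply, hr]
        rfl
      rw [e]
      have := ht.isArtinian
      exact nf_matCont_factors h
  -- exact lifting: read off at level one
  have hlift : LiftsExactly rb0 xR := by
    obtain ⟨_, -, r, -, -, hl, -, -⟩ := hlev 1 one_ne_zero
    exact LiftsExactly.of_map (Ideal.Quotient.mkₐ 𝒪 (maximalIdeal R ^ 1)) hl
  -- the linear equations: Hausdorff
  have heq : ∀ e ∈ eqs, e.Holds xR := by
    intro e he
    unfold LinEq.Holds
    apply eq_of_forall_mk_eq
    intro n hn
    obtain ⟨_, -, r, -, -, -, hE, -⟩ := hlev n hn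
    exact LinEq.Holds.of_map (Ideal.Quotient.mkₐ 𝒪 (maximalIdeal R ^ n)) (hE e he)
  refine ⟨rR, hcont, hrR, hlift, heq, ?_⟩
  -- the deformation condition
  apply 𝒟_of_forall_NF (rb0 := rb0) (eqs := eqs) h𝒟 hloc hsurj rR hcont
  intro B _ _ _ hB q _ _
  have : entries (⇑rR) = xR := by
    funext p
    rcases p with ⟨g, i, j⟩
    rfl
  rw [this]
  exact hq hB q

end Fermat.Agent.S53.NFU
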