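import Mathlib
import Fermat.Agent.S53.NFRigid
import Fermat.Agent.S53.NFUrep

/-!
# S53: the universal property over complete Noetherian local algebras  ([UNIV], NFF shape)

Input: a normalized matrix representation `rR : GQ →* M2 R` over an `𝒪`-algebra `R` which is
universal for `NF`-points over Artinian test algebras.  Output: the universal property in exactly
the shape of `GaloisRep.DeformationRingData.universal`.
-/

set_option autoImplicit false

namespace Fermat.Agent.S53.NFU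

open IsLocalRing GaloisRep Fermat.Agent.S53 Fermat.Agent.S53.NFF Fermat.Agent.S53.Rigidify

section LocalHom

variable {𝒪 : Type} [CommRing 𝒪]
  {R : Type} [CommRing R] [IsLocalRing R] [Algebra 𝒪 R]
  {A : Type} [CommRing A] [IsLocalRing A] [Algebra 𝒪 A]

/-- An `𝒪`-algebra hom between local `𝒪`-algebras maps the maximal ideal into the maximal ideal
as soon as the residue field of the target is generated by `𝒪` and `𝒪 → A` is local. -/
theorem algHom_mem_maximalIdeal [IsLocalRing 𝒪] (hlocA : IsLocalHom (algebraMap 𝒪 A))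
    (hA : Function.Surjective (IsLocalRing.residue A ∘ algebraMap 𝒪 A))
    (Φ : R →ₐ[𝒪] A) {m : R} (hm : m ∈ maximalIdeal R) : Φ m ∈ maximalIdeal A := by
  obtain ⟨o, ho⟩ := hA (residue A (Φ m))
  rw [Function.comp_apply] at ho
  -- `m - o` is not a unit of `R`, since its image is in `𝔪_A`
  have h1 : Φ (m - algebraMap 𝒪 R o) ∈ maximalIdeal A := by
    rw [← residue_eq_zero_iff, map_sub, Φ.commutes, map_sub, ho, sub_self]
  have h2 : m - algebraMap 𝒪 R o ∈ maximalIdeal R := by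
    rw [IsLocalRing.mem_maximalIdeal] at h1 ⊢
    intro hu
    exact h1 (hu.map Φ)
  have h3 : algebraMap 𝒪 R o ∈ maximalIdeal R := by
    have := (maximalIdeal R).sub_mem hm h2
    simpa using this
  have h4 : ¬ IsUnit o := by
    intro hu
    rw [IsLocalRing.mem_maximalIdeal] at h3
    exact h3 (hu.map (algebraMap 𝒪 R))
  have h5 : algebraMap 𝒪 A o ∈ maximalIdeal A := by
    rw [IsLocalRing.mem_maximalIdeal]
    intro hu
    exact h4 (hlocA.map_nonunit o hu)
  rw [← residue_eq_zero_iff] at h5 ⊢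
  rw [← ho, h5]

/-- An `𝒪`-algebra hom between local `𝒪`-algebras is local as soon as the residue field of the
target is generated by `𝒪` and `𝒪 → A` is local. -/
theorem isLocalHom_algHom [IsLocalRing 𝒪] (hlocA : IsLocalHom (algebraMap 𝒪 A))
    (hA : Function.Surjective (IsLocalRing.residue A ∘ algebraMap 𝒪 A))
    (Φ : R →ₐ[𝒪] A) : IsLocalHom (Φ : R →+* A) := by
  refine ⟨fun a ha => ?_⟩
  by_contra hna
  have hm : a ∈ maximalIdeal R := (IsLocalRing.mem_maximalIdeal a).mpr hna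
  have := algHom_mem_maximalIdeal hlocA hA Φ hm
  rw [IsLocalRing.mem_maximalIdeal] at this
  exact this ha

end LocalHom

section Lift

variable {𝒪 : Type} [CommRing 𝒪]
  {R : Type} [CommRing R] [Algebra 𝒪 R]
  {A : Type} [CommRing A] [IsLocalRing A] [Algebra 𝒪 A] [IsAdicComplete (maximalIdeal A) A]

/-- A compatible family of `𝒪`-algebra homs `R → A ⧸ 𝔪 ^ (n + 1)` lifts to `R → A`. -/
theorem exists_algHom_of_levels
    (φ : ∀ n : ℕ, R →ₐ[𝒪] A ⧸ maximalIdeal A ^ (n + 1))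
    (hcompat : ∀ {m n : ℕ} (hmn : m ≤ n),
      (Ideal.Quotient.factorₐ 𝒪 (Ideal.pow_le_pow_right (I := maximalIdeal A)
        (Nat.succ_le_succ hmn))).comp (φ n) = φ m) :
    ∃ Φ : R →ₐ[𝒪] A, ∀ n, (Ideal.Quotient.mkₐ 𝒪 (maximalIdeal A ^ (n + 1))).comp Φ = φ n := by
  let f : (n : ℕ) → R →ₐ[𝒪] A ⧸ maximalIdeal A ^ n := fun n =>
    (Ideal.Quotient.factorₐ 𝒪
      (Ideal.pow_le_pow_right (I := maximalIdeal A) (Nat.le_succ n))).comp (φ n)
  have hf : ∀ {m n : ℕ} (hle : m ≤ n),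
      (Ideal.Quotient.factorₐ 𝒪 (Ideal.pow_le_pow_right hle)).comp (f n) = f m := by
    intro m n hle
    simp only [f]
    rw [← hcompat hle, ← AlgHom.comp_assoc, ← AlgHom.comp_assoc, Ideal.Quotient.factorₐ_comp,
      Ideal.Quotient.factorₐ_comp]
  refine ⟨IsAdicComplete.liftAlgHom (maximalIdeal A) f hf, fun n => ?_⟩
  have h1 := IsAdicComplete.mkₐ_comp_liftAlgHom (maximalIdeal A) f hf (n + 1)
  rw [h1]
  exact hcompat (Nat.le_succ n)

/-- Two `𝒪`-algebra homs `R → A` agreeing modulo all `𝔪 ^ (n + 1)` are equal. -/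
theorem algHom_ext_of_levels {Φ Ψ : R →ₐ[𝒪] A}
    (h : ∀ n, (Ideal.Quotient.mkₐ 𝒪 (maximalIdeal A ^ (n + 1))).comp Φ =
      (Ideal.Quotient.mkₐ 𝒪 (maximalIdeal A ^ (n + 1))).comp Ψ) : Φ = Ψ := by
  ext x
  apply eq_of_forall_mk_eq
  intro n hn
  obtain ⟨k, rfl⟩ := Nat.exists_eq_succ_of_ne_zero hn
  exact congrArg (fun F : R →ₐ[𝒪] A ⧸ maximalIdeal A ^ (k + 1) => F x) (h k)

end Lift

section Univ

variable {𝒪 : Type} [CommRing 𝒪] [IsLocalRing 𝒪]
  {rb0 : GQ →* M2 (ResidueField 𝒪)}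
  {𝒟 : ∀ ⦃A : Type⦄ [CommRing A] [IsLocalRing A] [Algebra 𝒪 A], GaloisRepAdic A → Prop}

omit [IsLocalRing 𝒪] in
/-- Equal matrix representations give equivalent adic representations. -/
theorem ofMat_isEquiv_of_eq {A : Type} [CommRing A] [IsLocalRing A] {r r' : GQ →* M2 A}
    (e : r = r') (h : MatCont r) (h' : MatCont r') : (ofMat r h).IsEquiv (ofMat r' h') := by
  subst e
  exact isEquiv_refl _

theorem entries_mapMat {A B : Type} [CommRing A] [CommRing B] (φ : A →+* B) (r : GQ →* M2 A) :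
    entries (⇑(mapMat φ r)) = φ ∘ entries (⇑r) := by
  funext p
  rcases p with ⟨g, i, j⟩
  rw [entries_apply, mapMat_apply]
  rfl

/-- **[UNIV]** The universal property over complete Noetherian local `𝒪`-algebras, from the
universal property for `NF`-points over Artinian test algebras. -/
theorem existsUnique_algHom (h𝒟 : IsDeformationCondition 𝒪 𝒟)
    (hrb0 : GaloisFactorsThroughFiniteLevel rb0)
    {ρbar : ResidualGaloisRep (ResidueField 𝒪)} (hρ : ρbar.IsEquiv (ofMatRes rb0 hrb0))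
    {c d : GQ →₀ 𝒪} (hc : frame c (⇑rb0) = !![1, 0; 0, 0]) (hd : frame d (⇑rb0) = !![0, 0; 1, 0])
    {R : Type} [CommRing R] [IsLocalRing R] [Algebra 𝒪 R]
    (rR : GQ →* M2 R) (hcont : MatCont rR)
    (hliftR : LiftsExactly rb0 (entries (⇑rR)))
    (heqR : ∀ e ∈ normEqs c d, e.Holds (entries (⇑rR)))
    (huniv : ∀ ⦃B : Type⦄ [CommRing B] [IsLocalRing B] [Algebra 𝒪 B],
      IsArtinianTestAlgebra 𝒪 B → ∀ x : Idx → B, NF rb0 (normEqs c d) 𝒟 x →
        ∃! φ : R →ₐ[𝒪] B, φ ∘ entries (⇑rR) = x)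
    {A : Type} [CommRing A] [IsLocalRing A] [IsNoetherianRing A]
    [IsAdicComplete (maximalIdeal A) A] [Algebra 𝒪 A] [hlocA : IsLocalHom (algebraMap 𝒪 A)]
    (hA : Function.Surjective (IsLocalRing.residue A ∘ algebraMap 𝒪 A))
    (ρA : GaloisRepAdic A) (hρA : 𝒟 ρA)
    (hres : ρA.residual.IsEquiv
      (ρbar.baseChangeAlong (IsLocalRing.ResidueField.map (algebraMap 𝒪 A)))) :
    ∃! φ : R →ₐ[𝒪] A, ∃ hφ : IsLocalHom (φ : R →+* A),
      ((ofMat rR hcont).baseChangeAlong (φ : R →+* A) hφ).IsEquiv ρA := by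
  obtain ⟨rA, hcA, eA, hNF⟩ := exists_NF_of_deformation h𝒟 hA hrb0 hρ hc hd ρA hρA hres
  -- the finite levels
  have hlev : ∀ n : ℕ, ∃! φ : R →ₐ[𝒪] A ⧸ maximalIdeal A ^ (n + 1),
      φ ∘ entries (⇑rR) =
        (Ideal.Quotient.mkₐ 𝒪 (maximalIdeal A ^ (n + 1))) ∘ entries (⇑rA) := by
    intro n
    have hl : IsLocalRing (A ⧸ maximalIdeal A ^ (n + 1)) :=
      isLocalRing_quotient_maximalIdeal_pow (Nat.succ_ne_zero n)
    have ht : IsArtinianTestAlgebra 𝒪 (A ⧸ maximalIdeal A ^ (n + 1)) :=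
      isArtinianTestAlgebra_quotient_maximalIdeal_pow hlocA hA (Nat.succ_ne_zero n)
    have hq : IsLocalHom ((Ideal.Quotient.mkₐ 𝒪 (maximalIdeal A ^ (n + 1)) :
        A →ₐ[𝒪] A ⧸ maximalIdeal A ^ (n + 1)) : A →+* A ⧸ maximalIdeal A ^ (n + 1)) :=
      IsLocalHom.of_surjective _ Ideal.Quotient.mk_surjective
    exact huniv ht _ (NF.map_of_complete h𝒟 hlocA hA ht
      (Ideal.Quotient.mkₐ 𝒪 (maximalIdeal A ^ (n + 1))) hq Ideal.Quotient.mk_surjective hNF)
  have hex := fun n => (hlev n).exists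
  choose φ hφ using hex
  have huniq : ∀ n (ψ : R →ₐ[𝒪] A ⧸ maximalIdeal A ^ (n + 1)),
      ψ ∘ entries (⇑rR) =
        (Ideal.Quotient.mkₐ 𝒪 (maximalIdeal A ^ (n + 1))) ∘ entries (⇑rA) → ψ = φ n :=
    fun n ψ hψ => (hlev n).unique hψ (hφ n)
  have hcompat : ∀ {m n : ℕ} (hmn : m ≤ n),
      (Ideal.Quotient.factorₐ 𝒪 (Ideal.pow_le_pow_right (I := maximalIdeal A)
        (Nat.succ_le_succ hmn))).comp (φ n) = φ m := by
    intro m n hmn
    apply huniq
    funext p
    have := congrFun (hφ n) p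
    simp only [Function.comp_apply, AlgHom.coe_comp] at this ⊢
    rw [this]
    rfl
  obtain ⟨Φ, hΦ⟩ := exists_algHom_of_levels φ hcompat
  have hΦloc : IsLocalHom (Φ : R →+* A) := isLocalHom_algHom hlocA hA Φ
  -- `Φ` carries the entries of `rR` to the entries of `rA`
  have key : ∀ (Ψ : R →ₐ[𝒪] A), (∀ n, (Ideal.Quotient.mkₐ 𝒪 (maximalIdeal A ^ (n + 1))).comp Ψ = φ n) →
      mapMat (Ψ : R →+* A) rR = rA := by
    intro Ψ hΨ
    apply eq_of_entries
    intro g i j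
    rw [mapMat_apply]
    apply eq_of_forall_mk_eq
    intro n hn
    obtain ⟨k, rfl⟩ := Nat.exists_eq_succ_of_ne_zero hn
    have h1 := congrFun (hφ k) (g, i, j)
    rw [← hΨ k] at h1
    exact h1
  have hmap : mapMat (Φ : R →+* A) rR = rA := key Φ hΦ
  refine ⟨Φ, ⟨hΦloc, ?_⟩, ?_⟩
  · exact isEquiv_trans (ofMat_baseChangeAlong rR hcont _ hΦloc)
      (isEquiv_trans (ofMat_isEquiv_of_eq hmap _ hcA) (isEquiv_symm eA))
  · rintro Ψ ⟨hΨloc, EΨ⟩
    -- `mapMat Ψ rR` is a normalized representative of `ρA`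
    have e1 : ρA.IsEquiv (ofMat (mapMat (Ψ : R →+* A) rR) (hcont.map _ hΨloc)) :=
      isEquiv_trans (isEquiv_symm EΨ) (ofMat_baseChangeAlong rR hcont _ hΨloc)
    have hNFΨ : NF rb0 (normEqs c d) 𝒟 (entries (⇑(mapMat (Ψ : R →+* A) rR))) := by
      refine ⟨mapMat (Ψ : R →+* A) rR, hcont.map _ hΨloc, fun g i j => rfl, ?_, ?_, ?_⟩
      · rw [entries_mapMat]
        exact hliftR.map Ψ hΨloc
      · intro e he
        rw [entries_mapMat]
        exact (heqR e he).map Ψ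
      · exact 𝒟_of_isEquiv_complete h𝒟 hlocA hA e1 hρA
    have hΨmap : mapMat (Ψ : R →+* A) rR = rA :=
      eq_of_isEquiv_of_NF hlocA hc hd hNFΨ hNF (isEquiv_trans (isEquiv_symm e1) eA)
    apply algHom_ext_of_levels
    intro n
    rw [hΦ n]
    apply huniq
    funext p
    rcases p with ⟨g, i, j⟩
    have := congrFun (congrFun (congrArg (fun r : GQ →* M2 A => r g) hΨmap) i) j
    simp only [Function.comp_apply, AlgHom.coe_comp, entries_apply]
    rw [← this, mapMat_apply]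
    rfl

end Univ

end Fermat.Agent.S53.NFU
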