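import Mathlib
import Fermat.Agent.S53.NFRigid
import Fermat.Agent.S53.NFUrep
import Fermat.Agent.S53.NFUniv

/-!
# S53: final assembly (NFF shape) from the abstract representability theorem

`ATStatement 𝒪` is, verbatim, the statement of the abstract representability theorem
(`abstract_rep` of the design-R skeleton) for the coefficient ring `𝒪`.  We prove
`Nonempty (GaloisRep.DeformationRingData 𝒪 ρbar 𝒟)` from it, by instantiating it with the functor
`NF rb0 (normEqs c d) 𝒟` of normalized good matrix lifts.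
-/

set_option autoImplicit false

namespace Fermat.Agent.S53.NFU

open IsLocalRing GaloisRep Fermat.Agent.S53 Fermat.Agent.S53.NFF Fermat.Agent.S53.Rigidify

/-- The statement of the abstract representability theorem over `𝒪`. -/
def ATStatement (𝒪 : Type) [CommRing 𝒪] [IsLocalRing 𝒪] : Prop :=
  ∀ (I : Type)
    (F : ∀ ⦃A : Type⦄ [CommRing A] [IsLocalRing A] [Algebra 𝒪 A], (I → A) → Prop),
    (∀ ⦃A B : Type⦄ [CommRing A] [IsLocalRing A] [Algebra 𝒪 A]
      [CommRing B] [IsLocalRing B] [Algebra 𝒪 B],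
      GaloisRep.IsArtinianTestAlgebra 𝒪 A → GaloisRep.IsArtinianTestAlgebra 𝒪 B →
      ∀ (φ : A →ₐ[𝒪] B) (x : I → A), F x → F (φ ∘ x)) →
    (∀ ⦃A B : Type⦄ [CommRing A] [IsLocalRing A] [Algebra 𝒪 A]
      [CommRing B] [IsLocalRing B] [Algebra 𝒪 B],
      GaloisRep.IsArtinianTestAlgebra 𝒪 A → GaloisRep.IsArtinianTestAlgebra 𝒪 B →
      ∀ (φ : A →ₐ[𝒪] B), Function.Injective φ → ∀ (x : I → A), F (φ ∘ x) → F x) →
    (∀ ⦃A B C P : Type⦄ [CommRing A] [IsLocalRing A] [Algebra 𝒪 A]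
      [CommRing B] [IsLocalRing B] [Algebra 𝒪 B] [CommRing C] [IsLocalRing C] [Algebra 𝒪 C]
      [CommRing P] [IsLocalRing P] [Algebra 𝒪 P],
      GaloisRep.IsArtinianTestAlgebra 𝒪 A → GaloisRep.IsArtinianTestAlgebra 𝒪 B →
      GaloisRep.IsArtinianTestAlgebra 𝒪 C → GaloisRep.IsArtinianTestAlgebra 𝒪 P →
      ∀ (f : A →ₐ[𝒪] C) (g : B →ₐ[𝒪] C) (pA : P →ₐ[𝒪] A) (pB : P →ₐ[𝒪] B),
        f.comp pA = g.comp pB →
        Function.Injective (fun x => (pA x, pB x)) →
        (∀ a b, f a = g b → ∃ x, pA x = a ∧ pB x = b) →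
        ∀ (x : I → P), F (pA ∘ x) → F (pB ∘ x) → F x) →
    (∃! x : I → ResidueField 𝒪, F x) →
    (letI : Algebra 𝒪 (DualNumber (ResidueField 𝒪)) :=
        ((algebraMap (ResidueField 𝒪) (DualNumber (ResidueField 𝒪))).comp
          (algebraMap 𝒪 (ResidueField 𝒪))).toAlgebra;
      Finite {x : I → DualNumber (ResidueField 𝒪) // F x}) →
    ∃ (R : Type) (_ : CommRing R) (_ : IsLocalRing R) (_ : IsNoetherianRing R)
      (_ : IsAdicComplete (maximalIdeal R) R) (_ : Algebra 𝒪 R)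
      (_ : IsLocalHom (algebraMap 𝒪 R)) (xR : I → R),
      Function.Surjective (IsLocalRing.residue R ∘ algebraMap 𝒪 R) ∧
      (∀ ⦃B : Type⦄ [CommRing B] [IsLocalRing B] [Algebra 𝒪 B],
        GaloisRep.IsArtinianTestAlgebra 𝒪 B → ∀ q : R →ₐ[𝒪] B, F (q ∘ xR)) ∧
      (∀ ⦃B : Type⦄ [CommRing B] [IsLocalRing B] [Algebra 𝒪 B],
        GaloisRep.IsArtinianTestAlgebra 𝒪 B → ∀ x : I → B, F x →
          ∃! φ : R →ₐ[𝒪] B, φ ∘ xR = x)

/-- **Final assembly**: the deformation ring exists, given the abstract representability theorem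
over `𝒪`. -/
theorem nonempty_deformationRingData_of_AT
    (𝒪 : Type) [CommRing 𝒪] [IsDomain 𝒪] [IsDiscreteValuationRing 𝒪]
    [IsAdicComplete (IsLocalRing.maximalIdeal 𝒪) 𝒪] [Finite (IsLocalRing.ResidueField 𝒪)]
    (hAT : ATStatement 𝒪)
    (ρbar : ResidualGaloisRep (IsLocalRing.ResidueField 𝒪))
    (𝒟 : ∀ ⦃A : Type⦄ [CommRing A] [IsLocalRing A] [Algebra 𝒪 A], GaloisRepAdic A → Prop)
    (habs : ρbar.IsAbsolutelyIrreducible)
    (h𝒟 : GaloisRep.IsDeformationCondition 𝒪 𝒟)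
    (hbar : 𝒟 (GaloisRepAdic.ofResidualGaloisRep ρbar))
    (hfin : GaloisRep.TangentFinite 𝒪 ρbar 𝒟) :
    Nonempty (GaloisRep.DeformationRingData 𝒪 ρbar 𝒟) := by
  obtain ⟨rb0, hrb0, c, d, hρ, hc, hd⟩ := exists_base_data ρbar habs
  have hd0 : 𝒟 (ofMat rb0 (matCont_of_factors hrb0)) := 𝒟_ofMat_rb0 h𝒟 hrb0 hρ hbar
  have heqs0 : ∀ e ∈ normEqs c d, e.Holds (entries (⇑rb0)) := by
    rw [normEqs_holds_iff, famMat_entries]
    unfold IsNormalizedRep IsNormalizedPair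
    rw [hc, hd]
    simp
  obtain ⟨R, _, _, _, _, _, hlocR, xR, hsurj, hq, huniv⟩ :=
    hAT Idx (NF rb0 (normEqs c d) 𝒟)
      (fun A B _ _ _ _ _ _ tA tB φ x hx => NF.map h𝒟 tA tB φ hx)
      (fun A B _ _ _ _ _ _ tA tB φ hφ x hx => NF.of_map_injective h𝒟 tA tB φ hφ hx)
      (fun A B C P _ _ _ _ _ _ _ _ _ _ _ _ tA tB tC tP f g pA pB hcomp hinj hsurj x hxA hxB =>
        NF.of_fibreProduct h𝒟 tA tB tC tP f g pA pB hcomp hinj hsurj hxA hxB)
      ⟨entries (⇑rb0), (NF.residueField_iff hrb0 hd0 heqs0 _).mpr rfl,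
        fun y hy => (NF.residueField_iff hrb0 hd0 heqs0 y).mp hy⟩
      (NF.finite_dualNumber hrb0 hρ hfin (rigid_normEqs hc hd))
  obtain ⟨rR, hcont, hent, hlift, heq, hdR⟩ := nf_of_forall_testAlgebra h𝒟 hlocR hsurj xR hq
  have hx : entries (⇑rR) = xR := by
    funext p
    rcases p with ⟨g, i, j⟩
    exact hent g i j
  subst hx
  exact ⟨{ R := R
           residue_surjective := hsurj
           absIrr := habs
           ρ := ofMat rR hcont
           isOfType := hdR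
           residual_isEquiv := residual_isEquiv_of_liftsExactly
             (IsLocalRing.ResidueField.map (algebraMap 𝒪 R))
             (fun a => ResidueField.map_residue _ a) rR hcont hlift hrb0 hρ
           universal := fun A _ _ _ _ _ _ hA ρA hρA hres =>
             existsUnique_algHom h𝒟 hrb0 hρ hc hd rR hcont hlift heq huniv hA ρA hρA hres }⟩

end Fermat.Agent.S53.NFU
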