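import Mathlib

/-!
# S53 helper: Burnside for 2×2 and explicit rigidification of lifts (helper81)

Pure Mathlib. Matrix form.
-/

set_option autoImplicit false
set_option linter.unusedSectionVars false

namespace Fermat.Agent.S53.Normalize

open Matrix

section TwoByTwo

variable {K : Type*} [CommRing K]

/-- the `2×2` "determinant" of two column vectors -/
def wedge (u v : Fin 2 → K) : K := u 0 * v 1 - u 1 * v 0

theorem mul_mul_self_of_det_eq_zero (Z X : Matrix (Fin 2) (Fin 2) K) (hZ : Z.det = 0) :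
    Z * X * Z = (X * Z).trace • Z := by
  rw [Matrix.det_fin_two] at hZ
  ext i j
  fin_cases i <;> fin_cases j <;>
    simp [Matrix.mul_apply, Fin.sum_univ_two, Matrix.trace, Matrix.smul_apply]
  · linear_combination (-(X 1 1)) * hZ
  · linear_combination (X 0 1) * hZ
  · linear_combination (X 1 0) * hZ
  · linear_combination (-(X 0 0)) * hZ

/-- If a nonzero `2×2` matrix over a field kills two vectors, they are dependent. -/
theorem wedge_eq_zero_of_mulVec_eq_zero {F : Type*} [Field F] (Z : Matrix (Fin 2) (Fin 2) F)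
    (hZ : Z ≠ 0) (u v : Fin 2 → F) (hu : Z *ᵥ u = 0) (hv : Z *ᵥ v = 0) : wedge u v = 0 := by
  by_contra hne
  apply hZ
  have h1 := congrFun hu 0
  have h2 := congrFun hu 1
  have h3 := congrFun hv 0
  have h4 := congrFun hv 1
  simp only [Matrix.mulVec, dotProduct, Fin.sum_univ_two, Pi.zero_apply] at h1 h2 h3 h4
  unfold wedge at hne
  ext i j
  fin_cases i <;> fin_cases j <;> simp only [Fin.zero_eta, Fin.mk_one, Matrix.zero_apply]
  · have : Z 0 0 * (u 0 * v 1 - u 1 * v 0) = 0 := by linear_combination (v 1) * h1 - (u 1) * h3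
    exact (mul_eq_zero.mp this).resolve_right hne
  · have : Z 0 1 * (u 0 * v 1 - u 1 * v 0) = 0 := by linear_combination (-(v 0)) * h1 + (u 0) * h3
    exact (mul_eq_zero.mp this).resolve_right hne
  · have : Z 1 0 * (u 0 * v 1 - u 1 * v 0) = 0 := by linear_combination (v 1) * h2 - (u 1) * h4
    exact (mul_eq_zero.mp this).resolve_right hne
  · have : Z 1 1 * (u 0 * v 1 - u 1 * v 0) = 0 := by linear_combination (-(v 0)) * h2 + (u 0) * h4
    exact (mul_eq_zero.mp this).resolve_right hne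

end TwoByTwo

section Burnside

open Polynomial

theorem exists_eigenvalue_two {K : Type*} [Field K] [IsAlgClosed K]
    (M : Matrix (Fin 2) (Fin 2) K) : ∃ l : K, (M - l • (1 : Matrix (Fin 2) (Fin 2) K)).det = 0 := by
  obtain ⟨l, hl⟩ := IsAlgClosed.exists_root
    (X ^ 2 - C (M 0 0 + M 1 1) * X + C (M 0 0 * M 1 1 - M 0 1 * M 1 0) : K[X]) (by
      have : (X ^ 2 - C (M 0 0 + M 1 1) * X + C (M 0 0 * M 1 1 - M 0 1 * M 1 0) : K[X]).degree
          = 2 := by compute_degree!
      rw [this]; norm_num)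
  refine ⟨l, ?_⟩
  simp only [IsRoot.def, eval_add, eval_sub, eval_pow, eval_X, eval_mul, eval_C] at hl
  rw [Matrix.det_fin_two]
  simp only [Matrix.sub_apply, Matrix.smul_apply, Matrix.one_apply_eq, Matrix.one_apply_ne,
    ne_eq, zero_ne_one, one_ne_zero, not_false_eq_true, smul_eq_mul, mul_one, mul_zero, sub_zero]
  linear_combination hl

/-- **Burnside, `2×2`, algebraically closed case** in trace-dual form. -/
theorem eq_zero_of_trace_orthogonal {K : Type*} [Field K] [IsAlgClosed K]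
    (B : Subalgebra K (Matrix (Fin 2) (Fin 2) K))
    (hB : ∀ v : Fin 2 → K, v ≠ 0 → ∃ X ∈ B, wedge v (X *ᵥ v) ≠ 0)
    (Y : Matrix (Fin 2) (Fin 2) K) (hY : ∀ X ∈ B, (X * Y).trace = 0) : Y = 0 := by
  by_contra hY0
  -- Claim 1: a nonzero singular element of the orthogonal
  obtain ⟨Z, hZ0, hZdet, hZ⟩ : ∃ Z : Matrix (Fin 2) (Fin 2) K, Z ≠ 0 ∧ Z.det = 0 ∧
      ∀ X ∈ B, (X * Z).trace = 0 := by
    by_cases hdet : Y.det = 0
    · exact ⟨Y, hY0, hdet, hY⟩
    · obtain ⟨X, hXB, hX⟩ := hB ![1, 0] (by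
        intro h; have := congrFun h 0; simp at this)
      have hX10 : X 1 0 ≠ 0 := by
        intro h0; apply hX
        simp [wedge, Matrix.mulVec, dotProduct, Fin.sum_univ_two, h0]
      obtain ⟨l, hl⟩ := exists_eigenvalue_two X
      have hXl : X - l • (1 : Matrix (Fin 2) (Fin 2) K) ∈ B :=
        B.sub_mem hXB (B.smul_mem B.one_mem l)
      refine ⟨(X - l • 1) * Y, ?_, ?_, ?_⟩
      · intro h0
        have hunit : IsUnit Y.det := isUnit_iff_ne_zero.mpr hdet
        have h1 : (X - l • (1 : Matrix (Fin 2) (Fin 2) K)) = 0 := by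
          have := congrArg (· * Y⁻¹) h0
          simp only [Matrix.mul_assoc, Matrix.mul_nonsing_inv Y hunit, Matrix.mul_one,
            Matrix.zero_mul] at this
          exact this
        have h2 := congrFun (congrFun h1 1) 0
        simp at h2
        exact hX10 h2
      · rw [Matrix.det_mul, hl, zero_mul]
      · intro X' hX'
        rw [← Matrix.mul_assoc]
        exact hY _ (B.mul_mem hX' hXl)
  -- Claim 2: a nonzero column of `Z` is a common eigenvector
  obtain ⟨j, hj⟩ : ∃ j : Fin 2, (fun i => Z i j) ≠ 0 := by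
    by_contra hcon
    push Not at hcon
    apply hZ0
    ext i j
    exact congrFun (hcon j) i
  have hcol : ∀ M W : Matrix (Fin 2) (Fin 2) K,
      M *ᵥ (fun i => W i j) = fun i => (M * W) i j := by
    intro M W; ext i; simp [Matrix.mulVec, dotProduct, Matrix.mul_apply]
  have hkill : ∀ X ∈ B, Z *ᵥ (X *ᵥ (fun i => Z i j)) = 0 := by
    intro X hX
    rw [hcol X, hcol]
    ext i
    have h := mul_mul_self_of_det_eq_zero Z X hZdet
    rw [hZ X hX, zero_smul] at h
    have := congrFun (congrFun h i) j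
    rw [Matrix.mul_assoc] at this
    simpa using this
  obtain ⟨X, hXB, hX⟩ := hB _ hj
  apply hX
  apply wedge_eq_zero_of_mulVec_eq_zero Z hZ0
  · have := hkill 1 B.one_mem
    simpa using this
  · exact hkill X hXB

end Burnside

section BurnsideDescent

variable {G : Type*} [Monoid G] {k : Type*} [Field k]

/-- entrywise base change of a matrix representation -/
def mapRep {A B : Type*} [Semiring A] [Semiring B] (φ : A →+* B)
    (r : G →* Matrix (Fin 2) (Fin 2) A) : G →* Matrix (Fin 2) (Fin 2) B :=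
  (RingHom.mapMatrix φ : Matrix (Fin 2) (Fin 2) A →+* Matrix (Fin 2) (Fin 2) B).toMonoidHom.comp r

@[simp] theorem mapRep_apply {A B : Type*} [Semiring A] [Semiring B] (φ : A →+* B)
    (r : G →* Matrix (Fin 2) (Fin 2) A) (g : G) : mapRep φ r g = (r g).map φ := rfl

/-- every linear functional on `2×2` matrices is a trace pairing -/
theorem dual_eq_trace (f : Module.Dual k (Matrix (Fin 2) (Fin 2) k)) :
    ∃ Y : Matrix (Fin 2) (Fin 2) k, ∀ M, f M = (M * Y).trace := by
  refine ⟨Matrix.of fun j i => f (Matrix.single i j 1), fun M => ?_⟩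
  conv_lhs => rw [Matrix.matrix_eq_sum_single M]
  have hs : ∀ i j : Fin 2, f (Matrix.single i j (M i j)) = M i j * f (Matrix.single i j 1) := by
    intro i j
    have : Matrix.single i j (M i j) = (M i j) • Matrix.single i j (1 : k) := by
      rw [Matrix.smul_single, smul_eq_mul, mul_one]
    rw [this, map_smul, smul_eq_mul]
  simp only [Fin.sum_univ_two, map_add, hs, Matrix.trace, Matrix.diag_apply, Matrix.mul_apply,
    Matrix.of_apply]

/-- **Burnside for `2×2`**: a matrix representation with no common eigenvector over an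
algebraically closed extension spans the full matrix algebra. -/
theorem span_range_eq_top (K : Type*) [Field K] [Algebra k K] [IsAlgClosed K]
    (rb : G →* Matrix (Fin 2) (Fin 2) k)
    (h : ∀ v : Fin 2 → K, v ≠ 0 → ∃ g, wedge v ((rb g).map (algebraMap k K) *ᵥ v) ≠ 0) :
    Submodule.span k (Set.range rb) = ⊤ := by
  by_contra hne
  obtain ⟨f, hf0, hf⟩ := Submodule.exists_dual_map_eq_bot_of_lt_top
    (lt_top_iff_ne_top.mpr hne) inferInstance
  obtain ⟨Y, hY⟩ := dual_eq_trace f
  have hfg : ∀ g, f (rb g) = 0 := by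
    intro g
    have : f (rb g) ∈ (Submodule.span k (Set.range rb)).map f :=
      Submodule.mem_map_of_mem (Submodule.subset_span ⟨g, rfl⟩)
    rw [hf] at this
    simpa using this
  set rbK : G →* Matrix (Fin 2) (Fin 2) K := mapRep (algebraMap k K) rb with hrbK
  set YK : Matrix (Fin 2) (Fin 2) K := Y.map (algebraMap k K) with hYK
  let B : Subalgebra K (Matrix (Fin 2) (Fin 2) K) := Algebra.adjoin K (Set.range rbK)
  have hBspan : ∀ M ∈ B, M ∈ Submodule.span K (Set.range rbK) := by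
    intro M hM
    have h1 : M ∈ Subalgebra.toSubmodule B := hM
    rw [Algebra.adjoin_eq_span] at h1
    have h2 : (Submonoid.closure (Set.range rbK) : Set (Matrix (Fin 2) (Fin 2) K))
        = Set.range rbK := by
      rw [← MonoidHom.coe_mrange, Submonoid.closure_eq]
    rw [h2] at h1
    exact h1
  have hgen : ∀ g, (rbK g * YK).trace = 0 := by
    intro g
    have h1 : rbK g * YK = (rb g * Y).map (algebraMap k K) := by
      rw [hrbK, hYK, mapRep_apply, Matrix.map_mul]
    rw [h1]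
    have h2 : ((rb g * Y).map (algebraMap k K)).trace = algebraMap k K ((rb g * Y).trace) := by
      simp only [Matrix.trace, Matrix.diag_apply, Fin.sum_univ_two, Matrix.map_apply, map_add]
    rw [h2, ← hY, hfg, map_zero]
  have hspan0 : ∀ M ∈ Submodule.span K (Set.range rbK), (M * YK).trace = 0 := by
    intro M hM
    induction hM using Submodule.span_induction with
    | mem x hx => obtain ⟨g, rfl⟩ := hx; exact hgen g
    | zero => simp
    | add x y _ _ hx hy => rw [Matrix.add_mul, Matrix.trace_add, hx, hy, add_zero]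
    | smul c x _ hx => rw [Matrix.smul_mul, Matrix.trace_smul, hx, smul_zero]
  have hYK0 : YK = 0 := by
    apply eq_zero_of_trace_orthogonal B
    · intro v hv
      obtain ⟨g, hg⟩ := h v hv
      exact ⟨rbK g, Algebra.subset_adjoin ⟨g, rfl⟩, hg⟩
    · intro M hM
      exact hspan0 M (hBspan M hM)
  apply hf0
  have hY0 : Y = 0 := by
    ext i j
    have := congrFun (congrFun hYK0 i) j
    simp only [hYK, Matrix.map_apply, Matrix.zero_apply] at this
    exact (map_eq_zero_iff _ (algebraMap k K).injective).mp this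
  ext M
  rw [hY, hY0, Matrix.mul_zero, Matrix.trace_zero]
  rfl

/-- Consequence: every matrix is a finite `k`-combination of the `rb g`. -/
theorem exists_finsupp_eq (K : Type*) [Field K] [Algebra k K] [IsAlgClosed K]
    (rb : G →* Matrix (Fin 2) (Fin 2) k)
    (h : ∀ v : Fin 2 → K, v ≠ 0 → ∃ g, wedge v ((rb g).map (algebraMap k K) *ᵥ v) ≠ 0)
    (M : Matrix (Fin 2) (Fin 2) k) :
    ∃ c : G →₀ k, (c.sum fun g a => a • rb g) = M := by
  have hM : M ∈ Submodule.span k (Set.range rb) := by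
    rw [span_range_eq_top K rb h]; trivial
  exact (Finsupp.mem_span_range_iff_exists_finsupp).mp hM

end BurnsideDescent

section Rigidify

open IsLocalRing Polynomial

variable {A : Type*} [CommRing A] [IsLocalRing A]

/-- entrywise congruence modulo the maximal ideal -/
def CongrMax (M N : Matrix (Fin 2) (Fin 2) A) : Prop :=
  ∀ i j, M i j - N i j ∈ maximalIdeal A

/-- elementary matrix `E₀₀` -/
def E00 : Matrix (Fin 2) (Fin 2) A := !![1, 0; 0, 0]

/-- elementary matrix `E₁₀` -/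
def E10 : Matrix (Fin 2) (Fin 2) A := !![0, 0; 1, 0]

theorem congrMax_E00_iff (N : Matrix (Fin 2) (Fin 2) A) :
    CongrMax N E00 ↔ N 0 0 - 1 ∈ maximalIdeal A ∧ N 0 1 ∈ maximalIdeal A ∧
      N 1 0 ∈ maximalIdeal A ∧ N 1 1 ∈ maximalIdeal A := by
  constructor
  · intro h
    have h00 := h 0 0; have h01 := h 0 1; have h10 := h 1 0; have h11 := h 1 1
    simp [E00] at h00 h01 h10 h11
    exact ⟨h00, h01, h10, h11⟩
  · rintro ⟨h00, h01, h10, h11⟩ i j
    fin_cases i <;> fin_cases j <;> simp [E00] <;> assumption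

theorem congrMax_E10_iff (N : Matrix (Fin 2) (Fin 2) A) :
    CongrMax N E10 ↔ N 0 0 ∈ maximalIdeal A ∧ N 0 1 ∈ maximalIdeal A ∧
      N 1 0 - 1 ∈ maximalIdeal A ∧ N 1 1 ∈ maximalIdeal A := by
  constructor
  · intro h
    have h00 := h 0 0; have h01 := h 0 1; have h10 := h 1 0; have h11 := h 1 1
    simp [E10] at h00 h01 h10 h11
    exact ⟨h00, h01, h10, h11⟩
  · rintro ⟨h00, h01, h10, h11⟩ i j
    fin_cases i <;> fin_cases j <;> simp [E10] <;> assumption

theorem isUnit_of_sub_one_mem {a : A} (h : a - 1 ∈ maximalIdeal A) : IsUnit a := by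
  by_contra hu
  have ha : a ∈ maximalIdeal A := (mem_maximalIdeal a).mpr hu
  have h1 : (1 : A) ∈ maximalIdeal A := by
    have := (maximalIdeal A).sub_mem ha h
    rwa [sub_sub_cancel] at this
  exact (Ideal.ne_top_iff_one _).mp (maximalIdeal.isMaximal A).ne_top h1

/-- Hensel: the "big" eigenvalue of a matrix congruent to `E₀₀`. -/
theorem exists_eigenvalue_of_congr_E00 [HenselianRing A (maximalIdeal A)]
    (N : Matrix (Fin 2) (Fin 2) A) (hN : CongrMax N E00) :
    ∃ l : A, l - 1 ∈ maximalIdeal A ∧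
      l * l - (N 0 0 + N 1 1) * l + (N 0 0 * N 1 1 - N 0 1 * N 1 0) = 0 := by
  obtain ⟨h00, h01, h10, h11⟩ := (congrMax_E00_iff N).mp hN
  set t := N 0 0 + N 1 1 with ht
  set d := N 0 0 * N 1 1 - N 0 1 * N 1 0 with hd
  have hmonic : (X ^ 2 - C t * X + C d : A[X]).Monic := by
    have : (X ^ 2 - C t * X + C d : A[X]) = X ^ 2 + (- C t * X + C d) := by ring
    rw [this]
    apply Polynomial.monic_X_pow_add
    compute_degree!
  have hev : (X ^ 2 - C t * X + C d : A[X]).eval 1 ∈ maximalIdeal A := by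
    simp only [eval_add, eval_sub, eval_pow, eval_X, eval_mul, eval_C, one_pow, mul_one]
    have h1 : (1 : A) - t + d = -(N 0 0 - 1) - N 1 1 + d := by rw [ht]; ring
    rw [h1]
    refine Ideal.add_mem _ (Ideal.sub_mem _ (neg_mem h00) h11) ?_
    rw [hd]
    exact Ideal.sub_mem _ (Ideal.mul_mem_left _ _ h11) (Ideal.mul_mem_left _ _ h10)
  have hder : IsUnit (Ideal.Quotient.mk (maximalIdeal A)
      ((X ^ 2 - C t * X + C d : A[X]).derivative.eval 1)) := by
    apply IsUnit.map
    have : (X ^ 2 - C t * X + C d : A[X]).derivative.eval 1 = 2 - t := by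
      simp [derivative_pow]
    rw [this]
    apply isUnit_of_sub_one_mem
    have h2 : (2 : A) - t - 1 = -(N 0 0 - 1) - N 1 1 := by rw [ht]; ring
    rw [h2]
    exact Ideal.sub_mem _ (neg_mem h00) h11
  obtain ⟨l, hl, hl1⟩ := HenselianRing.is_henselian _ hmonic 1 hev hder
  refine ⟨l, hl1, ?_⟩
  simp only [IsRoot.def, eval_add, eval_sub, eval_pow, eval_X, eval_mul, eval_C] at hl
  linear_combination hl

end Rigidify


section RepBasics

variable {G : Type*} [Monoid G] {A : Type*} [CommRing A]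

/-- conjugate of a matrix representation by a unit -/
def conjRep (P : (Matrix (Fin 2) (Fin 2) A)ˣ) (r : G →* Matrix (Fin 2) (Fin 2) A) :
    G →* Matrix (Fin 2) (Fin 2) A where
  toFun g := ((P⁻¹ : (Matrix (Fin 2) (Fin 2) A)ˣ) : Matrix (Fin 2) (Fin 2) A) * r g * P
  map_one' := by rw [map_one, mul_one, Units.inv_mul]
  map_mul' g h := by
    rw [map_mul]
    calc ((P⁻¹ : (Matrix (Fin 2) (Fin 2) A)ˣ) : Matrix (Fin 2) (Fin 2) A) * (r g * r h) * P
        = (P⁻¹ : (Matrix (Fin 2) (Fin 2) A)ˣ) * r g * ((P : Matrix (Fin 2) (Fin 2) A) *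
            (P⁻¹ : (Matrix (Fin 2) (Fin 2) A)ˣ)) * r h * P := by
          rw [Units.mul_inv, mul_one]; simp only [mul_assoc]
      _ = _ := by simp only [mul_assoc]

@[simp] theorem conjRep_apply (P : (Matrix (Fin 2) (Fin 2) A)ˣ)
    (r : G →* Matrix (Fin 2) (Fin 2) A) (g : G) :
    conjRep P r g = ((P⁻¹ : (Matrix (Fin 2) (Fin 2) A)ˣ) : Matrix (Fin 2) (Fin 2) A) * r g * P :=
  rfl

/-- linear extension of a matrix representation to finitely supported coefficient functions -/
noncomputable def evalRep (r : G →* Matrix (Fin 2) (Fin 2) A) (c : G →₀ A) :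
    Matrix (Fin 2) (Fin 2) A :=
  c.sum fun g a => a • r g

theorem mul_evalRep (Q : Matrix (Fin 2) (Fin 2) A) (r : G →* Matrix (Fin 2) (Fin 2) A)
    (c : G →₀ A) : Q * evalRep r c = c.sum fun g a => a • (Q * r g) := by
  unfold evalRep
  rw [Finsupp.mul_sum]
  simp only [Matrix.mul_smul]

theorem evalRep_mul (Q : Matrix (Fin 2) (Fin 2) A) (r : G →* Matrix (Fin 2) (Fin 2) A)
    (c : G →₀ A) : evalRep r c * Q = c.sum fun g a => a • (r g * Q) := by
  unfold evalRep
  rw [Finsupp.sum_mul]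
  simp only [Matrix.smul_mul]

theorem evalRep_conjRep (P : (Matrix (Fin 2) (Fin 2) A)ˣ) (r : G →* Matrix (Fin 2) (Fin 2) A)
    (c : G →₀ A) :
    evalRep (conjRep P r) c =
      ((P⁻¹ : (Matrix (Fin 2) (Fin 2) A)ˣ) : Matrix (Fin 2) (Fin 2) A) * evalRep r c * P := by
  rw [mul_evalRep, Finsupp.sum_mul]
  unfold evalRep
  simp only [conjRep_apply, Matrix.smul_mul]

theorem evalRep_intertwine {r r' : G →* Matrix (Fin 2) (Fin 2) A} {Q : Matrix (Fin 2) (Fin 2) A}
    (hQ : ∀ g, Q * r g = r' g * Q) (c : G →₀ A) : Q * evalRep r c = evalRep r' c * Q := by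
  rw [mul_evalRep, evalRep_mul]
  simp only [hQ]


theorem evalRep_mapRep {B : Type*} [CommRing B] (φ : A →+* B)
    (r : G →* Matrix (Fin 2) (Fin 2) A) (c : G →₀ A) :
    evalRep (mapRep φ r) (c.mapRange φ (map_zero φ)) = (evalRep r c).map φ := by
  unfold evalRep
  rw [Finsupp.sum_mapRange_index (by intro g; rw [zero_smul])]
  have : ∀ M : Matrix (Fin 2) (Fin 2) A, M.map φ = φ.mapMatrix M := fun _ => rfl
  rw [this]
  unfold Finsupp.sum
  rw [map_sum]
  refine Finset.sum_congr rfl fun g _ => ?_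
  show φ (c g) • (mapRep φ r) g = φ.mapMatrix (c g • r g)
  rw [mapRep_apply]
  ext i j
  simp

theorem mapRep_conjRep {B : Type*} [CommRing B] (φ : A →+* B)
    (P : (Matrix (Fin 2) (Fin 2) A)ˣ) (r : G →* Matrix (Fin 2) (Fin 2) A) :
    mapRep φ (conjRep P r) = conjRep (Units.map (φ.mapMatrix : Matrix (Fin 2) (Fin 2) A →+*
      Matrix (Fin 2) (Fin 2) B).toMonoidHom P) (mapRep φ r) := by
  ext g : 1
  rw [mapRep_apply, conjRep_apply, conjRep_apply, mapRep_apply]
  have : ∀ M : Matrix (Fin 2) (Fin 2) A, M.map φ = φ.mapMatrix M := fun _ => rfl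
  rw [this, map_mul, map_mul]
  rfl

end RepBasics

section Rigidify2

open IsLocalRing

variable {G : Type*} [Monoid G] {A : Type*} [CommRing A] [IsLocalRing A]

/-- reduction of matrices modulo the maximal ideal -/
noncomputable def resMat : Matrix (Fin 2) (Fin 2) A →+* Matrix (Fin 2) (Fin 2) (ResidueField A) :=
  (residue A).mapMatrix

theorem congrMax_iff_resMat (M N : Matrix (Fin 2) (Fin 2) A) :
    CongrMax M N ↔ resMat M = resMat N := by
  constructor
  · intro h
    ext i j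
    have := h i j
    rw [← residue_eq_zero_iff, map_sub, sub_eq_zero] at this
    simpa [resMat] using this
  · intro h i j
    have := congrFun (congrFun h i) j
    simp only [resMat, RingHom.mapMatrix_apply, Matrix.map_apply] at this
    rw [← residue_eq_zero_iff, map_sub, sub_eq_zero]
    exact this

theorem CongrMax.refl (M : Matrix (Fin 2) (Fin 2) A) : CongrMax M M :=
  (congrMax_iff_resMat M M).mpr rfl

theorem CongrMax.symm {M N : Matrix (Fin 2) (Fin 2) A} (h : CongrMax M N) : CongrMax N M :=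
  (congrMax_iff_resMat N M).mpr ((congrMax_iff_resMat M N).mp h).symm

theorem CongrMax.trans {M N P : Matrix (Fin 2) (Fin 2) A} (h : CongrMax M N) (h' : CongrMax N P) :
    CongrMax M P :=
  (congrMax_iff_resMat M P).mpr
    (((congrMax_iff_resMat M N).mp h).trans ((congrMax_iff_resMat N P).mp h'))

theorem CongrMax.mul {M N M' N' : Matrix (Fin 2) (Fin 2) A} (h : CongrMax M M')
    (h' : CongrMax N N') : CongrMax (M * N) (M' * N') := by
  rw [congrMax_iff_resMat] at h h' ⊢
  rw [map_mul, map_mul, h, h']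

theorem CongrMax.inv_one {P : (Matrix (Fin 2) (Fin 2) A)ˣ}
    (h : CongrMax (P : Matrix (Fin 2) (Fin 2) A) 1) :
    CongrMax ((P⁻¹ : (Matrix (Fin 2) (Fin 2) A)ˣ) : Matrix (Fin 2) (Fin 2) A) 1 := by
  rw [congrMax_iff_resMat] at h ⊢
  have h1 : resMat ((P⁻¹ : (Matrix (Fin 2) (Fin 2) A)ˣ) : Matrix (Fin 2) (Fin 2) A) *
      resMat (P : Matrix (Fin 2) (Fin 2) A) = 1 := by
    rw [← map_mul, Units.inv_mul, map_one]
  rw [h, map_one, mul_one] at h1
  rw [h1, map_one]

/-- the rigidifying normalisation: `r(a)` is diagonal and `r(b)` has `(1,0)`-entry `1`. -/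
def IsNormalized (r : G →* Matrix (Fin 2) (Fin 2) A) (a b : G →₀ A) : Prop :=
  evalRep r a 0 1 = 0 ∧ evalRep r a 1 0 = 0 ∧ evalRep r b 1 0 = 1

/-- **Rigidity.** Two normalized representations that are conjugate (by any invertible matrix)
are equal, and the conjugating matrix is a scalar. No Schur lemma needed. -/
theorem eq_of_isNormalized_of_conj {r r' : G →* Matrix (Fin 2) (Fin 2) A} {a b : G →₀ A}
    (hN : IsNormalized r a b) (hN' : IsNormalized r' a b)
    (ha : CongrMax (evalRep r a) E00) (ha' : CongrMax (evalRep r' a) E00)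
    (Q : Matrix (Fin 2) (Fin 2) A) (hQdet : IsUnit Q.det) (hQ : ∀ g, Q * r g = r' g * Q) :
    (∃ c : A, IsUnit c ∧ Q = c • (1 : Matrix (Fin 2) (Fin 2) A)) ∧ r = r' := by
  obtain ⟨h01, h10, hb⟩ := hN
  obtain ⟨h01', h10', hb'⟩ := hN'
  obtain ⟨k00, -, -, k11⟩ := (congrMax_E00_iff _).mp ha
  obtain ⟨k00', -, -, k11'⟩ := (congrMax_E00_iff _).mp ha'
  have hA := evalRep_intertwine hQ a
  have hB := evalRep_intertwine hQ b
  set N := evalRep r a
  set N' := evalRep r' a
  set B := evalRep r b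
  set B' := evalRep r' b
  -- off-diagonal entries of Q vanish
  have e01 := congrFun (congrFun hA 0) 1
  have e10 := congrFun (congrFun hA 1) 0
  simp only [Matrix.mul_apply, Fin.sum_univ_two, h01, h10, h01', h10', mul_zero, zero_mul,
    zero_add, add_zero] at e01 e10
  have u1 : IsUnit (N' 0 0 - N 1 1) := by
    apply isUnit_of_sub_one_mem
    have : N' 0 0 - N 1 1 - 1 = (N' 0 0 - 1) - N 1 1 := by ring
    rw [this]; exact Ideal.sub_mem _ k00' k11
  have u2 : IsUnit (N 0 0 - N' 1 1) := by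
    apply isUnit_of_sub_one_mem
    have : N 0 0 - N' 1 1 - 1 = (N 0 0 - 1) - N' 1 1 := by ring
    rw [this]; exact Ideal.sub_mem _ k00 k11'
  have q01 : Q 0 1 = 0 := by
    have : (N' 0 0 - N 1 1) * Q 0 1 = 0 := by linear_combination -e01
    exact (u1.mul_right_eq_zero).mp this
  have q10 : Q 1 0 = 0 := by
    have : (N 0 0 - N' 1 1) * Q 1 0 = 0 := by linear_combination e10
    exact (u2.mul_right_eq_zero).mp this
  have f10 := congrFun (congrFun hB 1) 0
  simp only [Matrix.mul_apply, Fin.sum_univ_two, hb, hb', q10, mul_zero, zero_mul,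
    zero_add, add_zero, mul_one, one_mul] at f10
  have hdet : Q.det = Q 0 0 * Q 0 0 := by
    rw [Matrix.det_fin_two, q01, q10, f10]; ring
  have hc : IsUnit (Q 0 0) := by
    rw [hdet] at hQdet
    exact isUnit_of_mul_isUnit_left hQdet
  have hQs : Q = Q 0 0 • (1 : Matrix (Fin 2) (Fin 2) A) := by
    ext i j
    fin_cases i <;> fin_cases j <;> simp [q01, q10, f10]
  refine ⟨⟨Q 0 0, hc, hQs⟩, ?_⟩
  ext g : 1
  have := hQ g
  rw [hQs, Matrix.smul_mul, Matrix.mul_smul, one_mul, mul_one] at this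
  obtain ⟨u, hu⟩ := hc
  rw [← hu] at this
  have h2 := congrArg (fun M => (↑u⁻¹ : A) • M) this
  simpa [smul_smul] using h2

end Rigidify2

section Rigidify3

open IsLocalRing

variable {G : Type*} [Monoid G] {A : Type*} [CommRing A] [IsLocalRing A]

/-- the explicit matrix of eigenvectors of `N ≡ E₀₀` for the eigenvalue `l ≡ 1` -/
def eigMat (N : Matrix (Fin 2) (Fin 2) A) (l : A) : Matrix (Fin 2) (Fin 2) A :=
  !![l - N 1 1, -(N 0 1); N 1 0, l - N 1 1]

theorem eigMat_spec (N : Matrix (Fin 2) (Fin 2) A) (l : A)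
    (hl : l * l - (N 0 0 + N 1 1) * l + (N 0 0 * N 1 1 - N 0 1 * N 1 0) = 0) :
    N * eigMat N l = eigMat N l * !![l, 0; 0, N 0 0 + N 1 1 - l] := by
  ext i j
  fin_cases i <;> fin_cases j <;>
    simp [eigMat, Matrix.mul_apply, Fin.sum_univ_two]
  · linear_combination -hl
  · ring
  · ring
  · linear_combination hl

theorem eigMat_congr (N : Matrix (Fin 2) (Fin 2) A) (l : A) (hN : CongrMax N E00)
    (hl : l - 1 ∈ maximalIdeal A) : CongrMax (eigMat N l) 1 := by
  obtain ⟨h00, h01, h10, h11⟩ := (congrMax_E00_iff N).mp hN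
  intro i j
  fin_cases i <;> fin_cases j <;> simp [eigMat]
  · have : l - N 1 1 - 1 = (l - 1) - N 1 1 := by ring
    rw [this]; exact Ideal.sub_mem _ hl h11
  · exact h01
  · exact h10
  · have : l - N 1 1 - 1 = (l - 1) - N 1 1 := by ring
    rw [this]; exact Ideal.sub_mem _ hl h11

theorem isUnit_det_of_congr_one (P : Matrix (Fin 2) (Fin 2) A) (hP : CongrMax P 1) :
    IsUnit P.det := by
  apply isUnit_of_sub_one_mem
  have h00 := hP 0 0; have h01 := hP 0 1; have h10 := hP 1 0; have h11 := hP 1 1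
  simp at h00 h01 h10 h11
  rw [Matrix.det_fin_two]
  have : P 0 0 * P 1 1 - P 0 1 * P 1 0 - 1
      = (P 0 0 - 1) * P 1 1 + (P 1 1 - 1) - P 0 1 * P 1 0 := by ring
  rw [this]
  exact Ideal.sub_mem _ (Ideal.add_mem _ (Ideal.mul_mem_right _ _ h00) h11)
    (Ideal.mul_mem_right _ _ h01)

/-- **Existence of the rigidifying conjugation** over a Henselian local ring. -/
theorem exists_isNormalized_conjRep [HenselianRing A (maximalIdeal A)]
    (r : G →* Matrix (Fin 2) (Fin 2) A) (a b : G →₀ A)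
    (ha : CongrMax (evalRep r a) E00) (hb : CongrMax (evalRep r b) E10) :
    ∃ P : (Matrix (Fin 2) (Fin 2) A)ˣ, CongrMax (P : Matrix (Fin 2) (Fin 2) A) 1 ∧
      IsNormalized (conjRep P r) a b := by
  set N := evalRep r a with hNdef
  set B := evalRep r b with hBdef
  obtain ⟨l, hl1, hl⟩ := exists_eigenvalue_of_congr_E00 N ha
  -- step 1: diagonalise
  have hP1c : CongrMax (eigMat N l) 1 := eigMat_congr N l ha hl1
  have hP1u : IsUnit (eigMat N l) :=
    (Matrix.isUnit_iff_isUnit_det _).mpr (isUnit_det_of_congr_one _ hP1c)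
  obtain ⟨P1, hP1⟩ := hP1u
  have hP1c' : CongrMax (P1 : Matrix (Fin 2) (Fin 2) A) 1 := by rw [hP1]; exact hP1c
  have hdiag : ((P1⁻¹ : (Matrix (Fin 2) (Fin 2) A)ˣ) : Matrix (Fin 2) (Fin 2) A) * N * P1
      = !![l, 0; 0, N 0 0 + N 1 1 - l] := by
    rw [mul_assoc, hP1, eigMat_spec N l hl, ← hP1, ← mul_assoc, Units.inv_mul, one_mul]
  -- the (1,0) entry of the conjugate of B
  set B1 := ((P1⁻¹ : (Matrix (Fin 2) (Fin 2) A)ˣ) : Matrix (Fin 2) (Fin 2) A) * B * P1 with hB1
  have hB1c : CongrMax B1 E10 := by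
    have := (CongrMax.inv_one hP1c').mul (hb.mul hP1c')
    rw [one_mul, mul_one, ← mul_assoc] at this
    exact this
  obtain ⟨-, -, hc1, -⟩ := (congrMax_E10_iff B1).mp hB1c
  have hcu : IsUnit (B1 1 0) := isUnit_of_sub_one_mem hc1
  obtain ⟨c, hc⟩ := hcu
  -- step 2: rescale
  let D : (Matrix (Fin 2) (Fin 2) A)ˣ :=
    ⟨!![1, 0; 0, (c : A)], !![1, 0; 0, ((c⁻¹ : Aˣ) : A)],
      by ext i j; fin_cases i <;> fin_cases j <;> simp [Matrix.mul_apply, Fin.sum_univ_two],
      by ext i j; fin_cases i <;> fin_cases j <;> simp [Matrix.mul_apply, Fin.sum_univ_two]⟩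
  have hDc : CongrMax (D : Matrix (Fin 2) (Fin 2) A) 1 := by
    intro i j
    fin_cases i <;> fin_cases j <;> simp [D]
    rw [hc]; exact hc1
  refine ⟨P1 * D, ?_, ?_, ?_, ?_⟩
  · have := hP1c'.mul hDc
    rw [one_mul] at this
    simpa using this
  · rw [evalRep_conjRep]
    have : (((P1 * D)⁻¹ : (Matrix (Fin 2) (Fin 2) A)ˣ) : Matrix (Fin 2) (Fin 2) A) * N *
        ((P1 * D : (Matrix (Fin 2) (Fin 2) A)ˣ) : Matrix (Fin 2) (Fin 2) A)
        = ((D⁻¹ : (Matrix (Fin 2) (Fin 2) A)ˣ) : Matrix (Fin 2) (Fin 2) A) *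
          (((P1⁻¹ : (Matrix (Fin 2) (Fin 2) A)ˣ) : Matrix (Fin 2) (Fin 2) A) * N * P1) * D := by
      rw [_root_.mul_inv_rev, Units.val_mul, Units.val_mul]; simp only [mul_assoc]
    rw [this, hdiag]
    simp [D, Matrix.mul_apply, Fin.sum_univ_two]
  · rw [evalRep_conjRep]
    have : (((P1 * D)⁻¹ : (Matrix (Fin 2) (Fin 2) A)ˣ) : Matrix (Fin 2) (Fin 2) A) * N *
        ((P1 * D : (Matrix (Fin 2) (Fin 2) A)ˣ) : Matrix (Fin 2) (Fin 2) A)
        = ((D⁻¹ : (Matrix (Fin 2) (Fin 2) A)ˣ) : Matrix (Fin 2) (Fin 2) A) *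
          (((P1⁻¹ : (Matrix (Fin 2) (Fin 2) A)ˣ) : Matrix (Fin 2) (Fin 2) A) * N * P1) * D := by
      rw [_root_.mul_inv_rev, Units.val_mul, Units.val_mul]; simp only [mul_assoc]
    rw [this, hdiag]
    simp [D, Matrix.mul_apply, Fin.sum_univ_two]
  · rw [evalRep_conjRep]
    have : (((P1 * D)⁻¹ : (Matrix (Fin 2) (Fin 2) A)ˣ) : Matrix (Fin 2) (Fin 2) A) * B *
        ((P1 * D : (Matrix (Fin 2) (Fin 2) A)ˣ) : Matrix (Fin 2) (Fin 2) A)
        = ((D⁻¹ : (Matrix (Fin 2) (Fin 2) A)ˣ) : Matrix (Fin 2) (Fin 2) A) * B1 * D := by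
      rw [_root_.mul_inv_rev, Units.val_mul, Units.val_mul, hB1]; simp only [mul_assoc]
    rw [this]
    have hD10 : ((D⁻¹ : (Matrix (Fin 2) (Fin 2) A)ˣ) : Matrix (Fin 2) (Fin 2) A) 1 0 = 0 := rfl
    have hD11 : ((D⁻¹ : (Matrix (Fin 2) (Fin 2) A)ˣ) : Matrix (Fin 2) (Fin 2) A) 1 1
        = ((c⁻¹ : Aˣ) : A) := rfl
    have hE00 : (D : Matrix (Fin 2) (Fin 2) A) 0 0 = 1 := rfl
    have hE10 : (D : Matrix (Fin 2) (Fin 2) A) 1 0 = 0 := rfl
    rw [Matrix.mul_apply, Fin.sum_univ_two, Matrix.mul_apply, Matrix.mul_apply,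
      Fin.sum_univ_two, Fin.sum_univ_two, hD10, hD11, hE00, hE10, ← hc]
    simp

end Rigidify3

section Package

open IsLocalRing

variable {G : Type*} [Monoid G] {𝒪 : Type*} [CommRing 𝒪] [IsLocalRing 𝒪]

/-- **Rigidification coefficients** from Burnside: finitely supported `a b : G →₀ 𝒪` whose
reductions satisfy `ρ̄(a) = E₀₀`, `ρ̄(b) = E₁₀`. -/
theorem exists_rigidification_coeffs (K : Type*) [Field K] [Algebra (ResidueField 𝒪) K]
    [IsAlgClosed K] (rb0 : G →* Matrix (Fin 2) (Fin 2) (ResidueField 𝒪))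
    (h : ∀ v : Fin 2 → K, v ≠ 0 →
      ∃ g, wedge v ((rb0 g).map (algebraMap (ResidueField 𝒪) K) *ᵥ v) ≠ 0) :
    ∃ a b : G →₀ 𝒪,
      evalRep rb0 (a.mapRange (residue 𝒪) (map_zero _)) = E00 ∧
      evalRep rb0 (b.mapRange (residue 𝒪) (map_zero _)) = E10 := by
  obtain ⟨ab, hab⟩ := exists_finsupp_eq K rb0 h E00
  obtain ⟨bb, hbb⟩ := exists_finsupp_eq K rb0 h E10
  obtain ⟨a, rfl⟩ := Finsupp.mapRange_surjective (residue 𝒪) (map_zero _)
    (residue_surjective) ab
  obtain ⟨b, rfl⟩ := Finsupp.mapRange_surjective (residue 𝒪) (map_zero _)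
    (residue_surjective) bb
  exact ⟨a, b, hab, hbb⟩

variable {A : Type*} [CommRing A] [IsLocalRing A] [Algebra 𝒪 A] [IsLocalHom (algebraMap 𝒪 A)]

/-- reduction of `r(c)` for a lift `r` of `rb0` and coefficients `c` over `𝒪`. -/
theorem resMat_evalRep_of_lift (rb0 : G →* Matrix (Fin 2) (Fin 2) (ResidueField 𝒪))
    (r : G →* Matrix (Fin 2) (Fin 2) A)
    (hr : ∀ g, resMat (r g) = (rb0 g).map (ResidueField.map (algebraMap 𝒪 A)))
    (c : G →₀ 𝒪) :
    resMat (evalRep r (c.mapRange (algebraMap 𝒪 A) (map_zero _))) =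
      (evalRep rb0 (c.mapRange (residue 𝒪) (map_zero _))).map
        (ResidueField.map (algebraMap 𝒪 A)) := by
  unfold evalRep
  rw [Finsupp.sum_mapRange_index (by intro g; rw [zero_smul]),
    Finsupp.sum_mapRange_index (by intro g; rw [zero_smul])]
  have hm : ∀ M : Matrix (Fin 2) (Fin 2) (ResidueField 𝒪),
      M.map (ResidueField.map (algebraMap 𝒪 A)) =
        (ResidueField.map (algebraMap 𝒪 A)).mapMatrix M := fun _ => rfl
  rw [hm]
  unfold Finsupp.sum
  rw [map_sum, map_sum]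
  refine Finset.sum_congr rfl fun g _ => ?_
  show resMat (algebraMap 𝒪 A (c g) • r g) =
    (ResidueField.map (algebraMap 𝒪 A)).mapMatrix (residue 𝒪 (c g) • rb0 g)
  ext i j
  have := congrFun (congrFun (hr g) i) j
  simp only [resMat, RingHom.mapMatrix_apply, Matrix.map_apply, Matrix.smul_apply, smul_eq_mul,
    map_mul] at this ⊢
  rw [this, ResidueField.map_residue]

theorem congrMax_E00_of_lift (rb0 : G →* Matrix (Fin 2) (Fin 2) (ResidueField 𝒪))
    (r : G →* Matrix (Fin 2) (Fin 2) A)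
    (hr : ∀ g, resMat (r g) = (rb0 g).map (ResidueField.map (algebraMap 𝒪 A)))
    (c : G →₀ 𝒪) (hc : evalRep rb0 (c.mapRange (residue 𝒪) (map_zero _)) = E00) :
    CongrMax (evalRep r (c.mapRange (algebraMap 𝒪 A) (map_zero _))) E00 := by
  rw [congrMax_iff_resMat, resMat_evalRep_of_lift rb0 r hr c, hc]
  ext i j
  fin_cases i <;> fin_cases j <;> simp [E00, resMat]

theorem congrMax_E10_of_lift (rb0 : G →* Matrix (Fin 2) (Fin 2) (ResidueField 𝒪))
    (r : G →* Matrix (Fin 2) (Fin 2) A)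
    (hr : ∀ g, resMat (r g) = (rb0 g).map (ResidueField.map (algebraMap 𝒪 A)))
    (c : G →₀ 𝒪) (hc : evalRep rb0 (c.mapRange (residue 𝒪) (map_zero _)) = E10) :
    CongrMax (evalRep r (c.mapRange (algebraMap 𝒪 A) (map_zero _))) E10 := by
  rw [congrMax_iff_resMat, resMat_evalRep_of_lift rb0 r hr c, hc]
  ext i j
  fin_cases i <;> fin_cases j <;> simp [E10, resMat]

/-- conjugating a lift by `P ≡ 1` gives a lift. -/
theorem resMat_conjRep_of_congr_one (r : G →* Matrix (Fin 2) (Fin 2) A)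
    (P : (Matrix (Fin 2) (Fin 2) A)ˣ) (hP : CongrMax (P : Matrix (Fin 2) (Fin 2) A) 1) (g : G) :
    resMat (conjRep P r g) = resMat (r g) := by
  have h1 := (congrMax_iff_resMat _ _).mp hP
  have h2 := (congrMax_iff_resMat _ _).mp (CongrMax.inv_one hP)
  rw [conjRep_apply, map_mul, map_mul, h1, h2, map_one, one_mul, mul_one]

end Package

end Fermat.Agent.S53.Normalize
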