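import Fermat.Agent.S53.RUniv

/-!
# S53, design R: final assembly (helper90)

`main_of`: the statement of S53 from

* `ATStatement 𝒪`: the abstract representability theorem (helper94), and
* `BaseStatement ρbar`: a matrix form `rb0` of `ρbar` together with a set `eqs` of `𝒪`-linear
  normalization equations for which normalized exact lifts are rigid and exist
  (Burnside + `Rigidify`).
-/

set_option autoImplicit false
set_option linter.overlappingInstances false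
set_option linter.unusedSectionVars false

namespace Fermat.Agent.S53.R90

open IsLocalRing Fermat.Agent.S53 Fermat.Agent.S53.NFF

/-- `k[ε]` as an `𝒪`-algebra, EXACTLY as in `GaloisRep.TangentFinite`. -/
@[reducible] noncomputable def dualAlg (𝒪 : Type) [CommRing 𝒪] [IsLocalRing 𝒪] :
    Algebra 𝒪 (DualNumber (ResidueField 𝒪)) :=
  ((algebraMap (ResidueField 𝒪) (DualNumber (ResidueField 𝒪))).comp
      (algebraMap 𝒪 (ResidueField 𝒪))).toAlgebra

/-- The statement of the abstract representability theorem. -/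
def ATStatement (𝒪 : Type) [CommRing 𝒪] [IsLocalRing 𝒪] : Prop :=
  ∀ (I : Type)
    (F : ∀ ⦃A : Type⦄ [CommRing A] [IsLocalRing A] [Algebra 𝒪 A], (I → A) → Prop)
    (_hmap : ∀ ⦃A B : Type⦄ [CommRing A] [IsLocalRing A] [Algebra 𝒪 A]
      [CommRing B] [IsLocalRing B] [Algebra 𝒪 B],
      GaloisRep.IsArtinianTestAlgebra 𝒪 A → GaloisRep.IsArtinianTestAlgebra 𝒪 B →
      ∀ (φ : A →ₐ[𝒪] B) (x : I → A), F x → F (φ ∘ x))
    (_hinj : ∀ ⦃A B : Type⦄ [CommRing A] [IsLocalRing A] [Algebra 𝒪 A]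
      [CommRing B] [IsLocalRing B] [Algebra 𝒪 B],
      GaloisRep.IsArtinianTestAlgebra 𝒪 A → GaloisRep.IsArtinianTestAlgebra 𝒪 B →
      ∀ (φ : A →ₐ[𝒪] B), Function.Injective φ → ∀ (x : I → A), F (φ ∘ x) → F x)
    (_hfib : ∀ ⦃A B C P : Type⦄ [CommRing A] [IsLocalRing A] [Algebra 𝒪 A]
      [CommRing B] [IsLocalRing B] [Algebra 𝒪 B] [CommRing C] [IsLocalRing C] [Algebra 𝒪 C]
      [CommRing P] [IsLocalRing P] [Algebra 𝒪 P],
      GaloisRep.IsArtinianTestAlgebra 𝒪 A → GaloisRep.IsArtinianTestAlgebra 𝒪 B →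
      GaloisRep.IsArtinianTestAlgebra 𝒪 C → GaloisRep.IsArtinianTestAlgebra 𝒪 P →
      ∀ (f : A →ₐ[𝒪] C) (g : B →ₐ[𝒪] C) (pA : P →ₐ[𝒪] A) (pB : P →ₐ[𝒪] B),
        f.comp pA = g.comp pB →
        Function.Injective (fun x => (pA x, pB x)) →
        (∀ a b, f a = g b → ∃ x, pA x = a ∧ pB x = b) →
        ∀ (x : I → P), F (pA ∘ x) → F (pB ∘ x) → F x)
    (_hk : ∃! x : I → ResidueField 𝒪, F x)
    (_hfin : letI := dualAlg 𝒪
      Finite {x : I → DualNumber (ResidueField 𝒪) // F x}),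
    ∃ (R : Type) (_ : CommRing R) (_ : IsLocalRing R) (_ : IsNoetherianRing R)
      (_ : IsAdicComplete (maximalIdeal R) R) (_ : Algebra 𝒪 R)
      (_ : IsLocalHom (algebraMap 𝒪 R)) (xR : I → R),
      Function.Surjective (IsLocalRing.residue R ∘ algebraMap 𝒪 R) ∧
      (∀ ⦃B : Type⦄ [CommRing B] [IsLocalRing B] [Algebra 𝒪 B],
        GaloisRep.IsArtinianTestAlgebra 𝒪 B → ∀ q : R →ₐ[𝒪] B, F (q ∘ xR)) ∧
      (∀ ⦃B : Type⦄ [CommRing B] [IsLocalRing B] [Algebra 𝒪 B],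
        GaloisRep.IsArtinianTestAlgebra 𝒪 B → ∀ x : I → B, F x →
          ∃! φ : R →ₐ[𝒪] B, φ ∘ xR = x)

/-- The base data: a matrix form of `ρbar` with rigid normalization equations. -/
def BaseStatement {𝒪 : Type} [CommRing 𝒪] [IsLocalRing 𝒪]
    (ρbar : ResidualGaloisRep (ResidueField 𝒪)) : Prop :=
  ∃ (rb0 : GQ →* M2 (ResidueField 𝒪)) (hrb0 : GaloisFactorsThroughFiniteLevel rb0)
    (eqs : Set (LinEq 𝒪)),
    ρbar.IsEquiv (ofMatRes rb0 hrb0) ∧ (∀ e ∈ eqs, e.Holds (entries (⇑rb0))) ∧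
      RigidL rb0 eqs ∧ NormExists rb0 eqs

variable {𝒪 : Type} [CommRing 𝒪] [IsLocalRing 𝒪]
  {𝒟 : ∀ ⦃A : Type⦄ [CommRing A] [IsLocalRing A] [Algebra 𝒪 A], GaloisRepAdic A → Prop}
  {rb0 : GQ →* M2 (ResidueField 𝒪)} {eqs : Set (LinEq 𝒪)}

/-- **(e)** Given rigidity, `NF` has finitely many points over the dual numbers. -/
theorem nf_finite_dualNumber [Finite (ResidueField 𝒪)]
    (hrb0 : GaloisFactorsThroughFiniteLevel rb0)
    {ρbar : ResidualGaloisRep (ResidueField 𝒪)} (hρ : ρbar.IsEquiv (ofMatRes rb0 hrb0))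
    (hfin : GaloisRep.TangentFinite 𝒪 ρbar 𝒟) (hrig : RigidL rb0 eqs) :
    letI := dualAlg 𝒪
    Finite {x : Idx → DualNumber (ResidueField 𝒪) // NF rb0 eqs 𝒟 x} := by
  let _ := dualAlg 𝒪
  have tE : GaloisRep.IsArtinianTestAlgebra 𝒪 (DualNumber (ResidueField 𝒪)) :=
    Fermat.Agent.S53.isArtinianTestAlgebra_dualNumber 𝒪
  unfold GaloisRep.TangentFinite at hfin
  let ψ : ResidueField 𝒪 →+* ResidueField (DualNumber (ResidueField 𝒪)) :=
    (IsLocalRing.residue (DualNumber (ResidueField 𝒪))).comp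
      (algebraMap (ResidueField 𝒪) (DualNumber (ResidueField 𝒪)))
  have hψ : ∀ c : 𝒪, ψ (residue 𝒪 c) =
      residue (DualNumber (ResidueField 𝒪)) (algebraMap 𝒪 (DualNumber (ResidueField 𝒪)) c) := by
    intro c
    rfl
  have hch : ∀ x : {x : Idx → DualNumber (ResidueField 𝒪) // NF rb0 eqs 𝒟 x},
      ∃ (r : GQ →* M2 (DualNumber (ResidueField 𝒪))) (h : MatCont r),
        (∀ g i j, r g i j = x.1 (g, i, j)) ∧ LiftsExactly rb0 x.1 ∧ (∀ e ∈ eqs, e.Holds x.1) ∧
          𝒟 (ofMat r h) := fun x => x.2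
  choose r hr hent hlift heq hd using hch
  have hent' : ∀ x, entries (⇑(r x)) = x.1 := by
    intro x
    funext p
    rcases p with ⟨g, i, j⟩
    exact hent x g i j
  have hres : ∀ x, (ofMat (r x) (hr x)).residual.IsEquiv (ρbar.baseChangeAlong ψ) := by
    intro x
    refine NFF.residual_isEquiv_of_liftsExactly ψ hψ (r x) (hr x) ?_ hrb0 hρ
    rw [hent' x]
    exact hlift x
  refine @Finite.of_injective _ _ hfin
    (fun x => Quotient.mk _ ⟨ofMat (r x) (hr x), hd x, hres x⟩) ?_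
  intro x y hxy
  have hxy' := Quotient.exact hxy
  have hE : (ofMat (r x) (hr x)).IsEquiv (ofMat (r y) (hr y)) := hxy'
  have hM := ofMat_isEquiv_iff.mp hE
  have hrr : r x = r y := by
    refine hrig tE.isLocalHom tE.residue_surjective (r x) (r y) ?_ ?_ ?_ ?_ hM
    · rw [hent' x]; exact hlift x
    · rw [hent' y]; exact hlift y
    · rw [hent' x]; exact heq x
    · rw [hent' y]; exact heq y
  apply Subtype.ext
  rw [← hent' x, ← hent' y, hrr]

/-- **S53 from the abstract representability theorem and the base data.** -/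
theorem main_of (𝒪 : Type) [CommRing 𝒪] [IsDomain 𝒪] [IsDiscreteValuationRing 𝒪]
    [IsAdicComplete (IsLocalRing.maximalIdeal 𝒪) 𝒪] [Finite (IsLocalRing.ResidueField 𝒪)]
    (ρbar : ResidualGaloisRep (IsLocalRing.ResidueField 𝒪))
    (𝒟 : ∀ ⦃A : Type⦄ [CommRing A] [IsLocalRing A] [Algebra 𝒪 A], GaloisRepAdic A → Prop)
    (hAT : ATStatement 𝒪) (hbase : BaseStatement ρbar)
    (habs : ρbar.IsAbsolutelyIrreducible)
    (h𝒟 : GaloisRep.IsDeformationCondition 𝒪 𝒟)
    (hbar : 𝒟 (GaloisRepAdic.ofResidualGaloisRep ρbar))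
    (hfin : GaloisRep.TangentFinite 𝒪 ρbar 𝒟) :
    Nonempty (GaloisRep.DeformationRingData 𝒪 ρbar 𝒟) := by
  obtain ⟨rb0, hrb0, eqs, hρ, heqs0, hrig, hnorm⟩ := hbase
  have hd0 : 𝒟 (ofMat rb0 (matCont_of_factors hrb0)) := 𝒟_ofMat_rb0 h𝒟 hrb0 hρ hbar
  have hk : ∃! x : Idx → ResidueField 𝒪, NF rb0 eqs 𝒟 x :=
    ⟨entries (⇑rb0), (NF.residueField_iff hrb0 hd0 heqs0 _).mpr rfl,
      fun y hy => (NF.residueField_iff hrb0 hd0 heqs0 y).mp hy⟩
  obtain ⟨R, _, _, _, _, _, hlR, xR, hsurj, hq, huniv⟩ :=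
    hAT Idx (NF rb0 eqs 𝒟)
      (fun _ _ _ _ _ _ _ _ tA tB φ _ hx => NF.map h𝒟 tA tB φ hx)
      (fun _ _ _ _ _ _ _ _ tA tB φ hφ _ hx => NF.of_map_injective h𝒟 tA tB φ hφ hx)
      (fun _ _ _ _ _ _ _ _ _ _ _ _ _ _ _ _ tA tB tC tP f g pA pB hc hi hs _ hxA hxB =>
        NF.of_fibreProduct h𝒟 tA tB tC tP f g pA pB hc hi hs hxA hxB)
      hk (nf_finite_dualNumber hrb0 hρ hfin hrig)
  obtain ⟨rR, hcont, hent, hliftR, heqR, hDR⟩ := universal_rep h𝒟 hlR xR hsurj hq
  have hent' : entries (⇑rR) = xR := by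
    funext p
    rcases p with ⟨g, i, j⟩
    exact hent g i j
  subst hent'
  exact ⟨{ R := R
           residue_surjective := hsurj
           absIrr := habs
           ρ := ofMat rR hcont
           isOfType := hDR
           residual_isEquiv :=
             NFF.residual_isEquiv_of_liftsExactly (ResidueField.map (algebraMap 𝒪 R))
               (fun c => ResidueField.map_residue _ c) rR hcont hliftR hrb0 hρ
           universal := fun A _ _ _ _ _ _ hA ρA hρA hres =>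
             universal_property h𝒟 ρbar hrb0 hρ hrig hnorm rR hcont hliftR heqR huniv A hA ρA
               hρA hres }⟩

end Fermat.Agent.S53.R90
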