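import Fermat.Agent.S53.NFFunctor
import Fermat.Agent.S53.TestAlgebra
import Fermat.Agent.S53.BaseGlue

/-!
# S53, design R: the universal representation and the universal property (helper90)

Everything is phrased in terms of helper76's functor `NFF.NF rb0 eqs 𝒟` of normalized good matrix
lifts (`Fermat/Agent/S53/NFFunctor.lean`).  Namespace `Fermat.Agent.S53.R90`.

* `universal_rep`: if all finite quotients of a family `xR : Idx → R` over a complete noetherian
  local `𝒪`-algebra `R` are normalized good lifts, so is `xR`.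
* `universal_property`: the universal property of `(R, xR)` for test algebras, together with
  rigidity and existence of normal forms, gives the universal property of `DeformationRingData`.
-/

set_option autoImplicit false
set_option linter.overlappingInstances false
set_option linter.unusedSectionVars false

namespace Fermat.Agent.S53.R90

open IsLocalRing Fermat.Agent.S53 Fermat.Agent.S53.NFF

section Hausdorff

variable {R : Type} [CommRing R] [IsLocalRing R]

/-- Separatedness in the form we use. -/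
theorem eq_of_forall_sub_mem_pow [IsHausdorff (maximalIdeal R) R] {x y : R}
    (h : ∀ n : ℕ, x - y ∈ maximalIdeal R ^ (n + 1)) : x = y := by
  rw [IsHausdorff.eq_iff_smodEq (I := maximalIdeal R)]
  intro n
  rw [SModEq.sub_mem, smul_eq_mul, Ideal.mul_top]
  exact Ideal.pow_le_pow_right (Nat.le_succ n) (h n)

theorem eq_of_forall_mk_eq [IsHausdorff (maximalIdeal R) R] {x y : R}
    (h : ∀ n : ℕ, Ideal.Quotient.mk (maximalIdeal R ^ (n + 1)) x =
      Ideal.Quotient.mk (maximalIdeal R ^ (n + 1)) y) : x = y :=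
  eq_of_forall_sub_mem_pow fun n => Ideal.Quotient.eq.mp (h n)

theorem maximalIdeal_quotient_pow (n : ℕ) [IsLocalRing (R ⧸ maximalIdeal R ^ (n + 1))] :
    maximalIdeal (R ⧸ maximalIdeal R ^ (n + 1)) =
      (maximalIdeal R).map (Ideal.Quotient.mk (maximalIdeal R ^ (n + 1))) := by
  ext x
  obtain ⟨x, rfl⟩ := Ideal.Quotient.mk_surjective x
  have hle : maximalIdeal R ^ (n + 1) ≤ maximalIdeal R := Ideal.pow_le_self (Nat.succ_ne_zero n)
  have hmk : IsLocalHom (Ideal.Quotient.mk (maximalIdeal R ^ (n + 1))) :=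
    IsLocalHom.of_surjective _ Ideal.Quotient.mk_surjective
  simp [sup_eq_left.mpr hle]

theorem maximalIdeal_quotient_pow_pow (n : ℕ) [IsLocalRing (R ⧸ maximalIdeal R ^ (n + 1))] :
    maximalIdeal (R ⧸ maximalIdeal R ^ (n + 1)) ^ (n + 1) = ⊥ := by
  rw [maximalIdeal_quotient_pow, ← Ideal.map_pow, Ideal.map_quotient_self]

end Hausdorff

variable {𝒪 : Type} [CommRing 𝒪] [IsLocalRing 𝒪]
  {𝒟 : ∀ ⦃A : Type⦄ [CommRing A] [IsLocalRing A] [Algebra 𝒪 A], GaloisRepAdic A → Prop}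
  {rb0 : GQ →* M2 (ResidueField 𝒪)} {eqs : Set (LinEq 𝒪)}

/-- `𝒟` is invariant under equivalence over complete noetherian local algebras. -/
theorem D_of_isEquiv_CNL (h𝒟 : GaloisRep.IsDeformationCondition 𝒪 𝒟)
    {A : Type} [CommRing A] [IsLocalRing A] [IsNoetherianRing A]
    [IsAdicComplete (maximalIdeal A) A] [Algebra 𝒪 A]
    (hl : IsLocalHom (algebraMap 𝒪 A))
    (hs : Function.Surjective (residue A ∘ algebraMap 𝒪 A))
    {ρ ρ' : GaloisRepAdic A} (e : ρ.IsEquiv ρ') (h : 𝒟 ρ) : 𝒟 ρ' := by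
  rw [h𝒟.iff_forall_surjective hl hs ρ']
  intro B _ _ _ tB q hq hqs
  obtain ⟨E⟩ := e
  exact h𝒟.of_isEquiv tB ⟨E.baseChangeAlong (q : A →+* B) hq⟩
    ((h𝒟.iff_forall_surjective hl hs ρ).mp h tB q hq hqs)

/-- The quotient map `R →ₐ[𝒪] R ⧸ 𝔪 ^ (n+1)`. -/
noncomputable abbrev qn (R : Type) [CommRing R] [IsLocalRing R] [Algebra 𝒪 R] (n : ℕ) :
    R →ₐ[𝒪] R ⧸ maximalIdeal R ^ (n + 1) :=
  Ideal.Quotient.mkₐ 𝒪 (maximalIdeal R ^ (n + 1))

/-! ### The universal representation -/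

section UniversalRep

variable {R : Type} [CommRing R] [IsLocalRing R] [IsNoetherianRing R]
    [IsAdicComplete (maximalIdeal R) R] [Algebra 𝒪 R]

theorem universal_rep (h𝒟 : GaloisRep.IsDeformationCondition 𝒪 𝒟)
    (hl : IsLocalHom (algebraMap 𝒪 R)) (xR : Idx → R)
    (hsurj : Function.Surjective (IsLocalRing.residue R ∘ algebraMap 𝒪 R))
    (hq : ∀ ⦃B : Type⦄ [CommRing B] [IsLocalRing B] [Algebra 𝒪 B],
        GaloisRep.IsArtinianTestAlgebra 𝒪 B → ∀ q : R →ₐ[𝒪] B, NF rb0 eqs 𝒟 (q ∘ xR)) :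
    NF rb0 eqs 𝒟 xR := by
  have hloc : ∀ n : ℕ, IsLocalRing (R ⧸ maximalIdeal R ^ (n + 1)) := fun n =>
    isLocalRing_quotient_maximalIdeal_pow (Nat.succ_ne_zero n)
  have T : ∀ n : ℕ, GaloisRep.IsArtinianTestAlgebra 𝒪 (R ⧸ maximalIdeal R ^ (n + 1)) := fun n =>
    isArtinianTestAlgebra_quotient_maximalIdeal_pow hl hsurj (Nat.succ_ne_zero n)
  -- the levelwise representations
  choose r hcont hent hlift heq hD using fun n => hq (T n) (qn R n)
  have hentry : ∀ n g i j, Ideal.Quotient.mk (maximalIdeal R ^ (n + 1)) (xR (g, i, j)) =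
      r n g i j := fun n g i j => (hent n g i j).symm
  have h1 : famMat xR 1 = 1 := by
    ext i j
    refine eq_of_forall_mk_eq fun n => ?_
    rw [famMat_apply, hentry, map_one, Matrix.one_apply, Matrix.one_apply]
    split_ifs <;> simp
  have hmul : ∀ g g', famMat xR (g * g') = famMat xR g * famMat xR g' := by
    intro g g'
    ext i j
    refine eq_of_forall_mk_eq fun n => ?_
    rw [famMat_apply, hentry, map_mul, Matrix.mul_apply, Matrix.mul_apply, map_sum]
    refine Finset.sum_congr rfl fun l _ => ?_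
    rw [map_mul, famMat_apply, famMat_apply, hentry, hentry]
  -- the representation over `R`
  let rR : GQ →* M2 R := homOfFam xR h1 hmul
  have hrR : ∀ n, mapMat ((qn (𝒪 := 𝒪) R n : R →ₐ[𝒪] _) : R →+* _) rR = r n := fun n => by
    ext g i j
    exact hentry n g i j
  have hcontR : MatCont rR := by
    intro n
    obtain ⟨L, hL, h1⟩ := hcont n (n + 1)
    refine ⟨L, hL, fun σ hσ i j => ?_⟩
    have h2 := h1 σ hσ i j
    rw [maximalIdeal_quotient_pow_pow, Ideal.mem_bot, ← hrR n] at h2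
    have h3 : Ideal.Quotient.mk (maximalIdeal R ^ (n + 1)) ((rR σ - 1) i j) = 0 := by
      rw [← h2, Matrix.sub_apply, Matrix.sub_apply, map_sub]
      congr 1
      rw [Matrix.one_apply, Matrix.one_apply]
      split_ifs <;> simp
    exact Ideal.pow_le_pow_right (Nat.le_succ n) (Ideal.Quotient.eq_zero_iff_mem.mp h3)
  have hliftR : LiftsExactly rb0 xR := (hlift 0).of_map (qn R 0)
  have heqR : ∀ e ∈ eqs, e.Holds xR := by
    intro e he
    unfold LinEq.Holds
    refine eq_of_forall_mk_eq fun n => ?_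
    exact (heq n e he).of_map (qn R n)
  refine ⟨rR, hcontR, fun g i j => rfl, hliftR, heqR, ?_⟩
  refine 𝒟_of_forall_NF (rb0 := rb0) (eqs := eqs) h𝒟 hl hsurj rR hcontR ?_
  intro B _ _ _ tB q _ _
  have : entries (⇑rR) = xR := entries_famMat xR
  rw [this]
  exact hq tB q

end UniversalRep

/-! ### The universal property -/

section LocalHom

variable {R A : Type} [CommRing R] [IsLocalRing R] [Algebra 𝒪 R]
  [CommRing A] [IsLocalRing A] [Algebra 𝒪 A]

/-- Every `𝒪`-algebra hom into a local `𝒪`-algebra whose residue field is generated by `𝒪` is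
local. -/
theorem isLocalHom_algHom_of_residue_surjective
    (hs : Function.Surjective (residue A ∘ algebraMap 𝒪 A)) (φ : R →ₐ[𝒪] A) :
    IsLocalHom (φ : R →+* A) := by
  refine ⟨fun a ha => ?_⟩
  by_contra hna
  have hmem : a ∈ maximalIdeal R := (mem_maximalIdeal a).mpr hna
  obtain ⟨b, hb⟩ := ha.exists_right_inv
  obtain ⟨o, ho⟩ := hs (residue A b)
  have hbo : b - algebraMap 𝒪 A o ∈ maximalIdeal A := by
    rw [← residue_eq_zero_iff, map_sub, sub_eq_zero]
    exact ho.symm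
  have hu : IsUnit (1 - a * algebraMap 𝒪 R o) := by
    have : a * algebraMap 𝒪 R o ∈ maximalIdeal R := Ideal.mul_mem_right _ _ hmem
    by_contra hnu
    have h1 : (1 - a * algebraMap 𝒪 R o) ∈ maximalIdeal R := (mem_maximalIdeal _).mpr hnu
    have : (1 : R) ∈ maximalIdeal R := by
      have := Ideal.add_mem _ h1 this
      simpa using this
    exact (Ideal.ne_top_iff_one _).mp (maximalIdeal.isMaximal R).ne_top this
  have hφu : IsUnit ((φ : R →+* A) (1 - a * algebraMap 𝒪 R o)) := hu.map _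
  have e : (φ : R →+* A) (1 - a * algebraMap 𝒪 R o) = (φ : R →+* A) a * (b - algebraMap 𝒪 A o) := by
    rw [mul_sub, hb, map_sub, map_one, map_mul]
    congr 2
    exact φ.commutes o
  rw [e] at hφu
  have : (φ : R →+* A) a * (b - algebraMap 𝒪 A o) ∈ maximalIdeal A := Ideal.mul_mem_left _ _ hbo
  exact (mem_maximalIdeal _).mp this hφu

end LocalHom

/-- Rigidity of normalized exact lifts over local `𝒪`-algebras with local structure map and residue
field generated by `𝒪`: two conjugate ones are equal. -/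
def RigidL (rb0 : GQ →* M2 (ResidueField 𝒪)) (eqs : Set (LinEq 𝒪)) : Prop :=
  ∀ ⦃A : Type⦄ [CommRing A] [IsLocalRing A] [Algebra 𝒪 A], IsLocalHom (algebraMap 𝒪 A) →
    Function.Surjective (residue A ∘ algebraMap 𝒪 A) → ∀ (r r' : GQ →* M2 A),
    LiftsExactly rb0 (entries (⇑r)) → LiftsExactly rb0 (entries (⇑r')) →
    (∀ e ∈ eqs, e.Holds (entries (⇑r))) → (∀ e ∈ eqs, e.Holds (entries (⇑r'))) →
    (∃ M : (M2 A)ˣ, ∀ g : GQ, (M : M2 A) * r g = r' g * (M : M2 A)) → r = r'

/-- Existence of normal forms: over a complete local `𝒪`-algebra every exact lift is conjugate to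
a normalized exact lift. -/
def NormExists (rb0 : GQ →* M2 (ResidueField 𝒪)) (eqs : Set (LinEq 𝒪)) : Prop :=
  ∀ ⦃A : Type⦄ [CommRing A] [IsLocalRing A] [IsAdicComplete (maximalIdeal A) A] [Algebra 𝒪 A],
    IsLocalHom (algebraMap 𝒪 A) → Function.Surjective (residue A ∘ algebraMap 𝒪 A) →
    ∀ (r : GQ →* M2 A), LiftsExactly rb0 (entries (⇑r)) →
    ∃ M : (M2 A)ˣ, LiftsExactly rb0 (entries (⇑(conjMat M r))) ∧
      ∀ e ∈ eqs, e.Holds (entries (⇑(conjMat M r)))

section UniversalProperty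

variable {R : Type} [CommRing R] [IsLocalRing R] [Algebra 𝒪 R]

theorem universal_property (h𝒟 : GaloisRep.IsDeformationCondition 𝒪 𝒟)
    (ρbar : ResidualGaloisRep (ResidueField 𝒪)) (hrb0 : GaloisFactorsThroughFiniteLevel rb0)
    (hρ : ρbar.IsEquiv (ofMatRes rb0 hrb0))
    (hrig : RigidL rb0 eqs) (hnorm : NormExists rb0 eqs)
    (rR : GQ →* M2 R) (hcont : MatCont rR)
    (hliftR : LiftsExactly rb0 (entries (⇑rR))) (heqR : ∀ e ∈ eqs, e.Holds (entries (⇑rR)))
    (huniv : ∀ ⦃B : Type⦄ [CommRing B] [IsLocalRing B] [Algebra 𝒪 B],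
        GaloisRep.IsArtinianTestAlgebra 𝒪 B → ∀ x : Idx → B, NF rb0 eqs 𝒟 x →
          ∃! φ : R →ₐ[𝒪] B, φ ∘ entries (⇑rR) = x)
    (A : Type) [CommRing A] [IsLocalRing A] [IsNoetherianRing A]
    [IsAdicComplete (maximalIdeal A) A] [Algebra 𝒪 A] [hlA : IsLocalHom (algebraMap 𝒪 A)]
    (hA : Function.Surjective (IsLocalRing.residue A ∘ algebraMap 𝒪 A))
    (ρA : GaloisRepAdic A) (hρA : 𝒟 ρA)
    (hres : ρA.residual.IsEquiv
      (ρbar.baseChangeAlong (IsLocalRing.ResidueField.map (algebraMap 𝒪 A)))) :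
    ∃! φ : R →ₐ[𝒪] A, ∃ hφ : IsLocalHom (φ : R →+* A),
      ((ofMat rR hcont).baseChangeAlong (φ : R →+* A) hφ).IsEquiv ρA := by
  -- (1) an exact matrix form of `ρA`
  obtain ⟨r0, h0, he0, hr0⟩ := exists_liftsExactly_of_residual_isEquiv ρbar rb0 hrb0 hρ ρA hres
  have hl0 : LiftsExactly rb0 (entries (⇑r0)) :=
    liftsExactly_of_residue_eq (ResidueField.map (algebraMap 𝒪 A))
      (fun c => ResidueField.map_residue _ c) (fun g i j => hr0 g i j)
  -- (2) normalize
  obtain ⟨M, hl1, heq1⟩ := hnorm hlA hA r0 hl0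
  set r1 : GQ →* M2 A := conjMat M r0 with hr1
  have h1 : MatCont r1 := h0.conj M
  have e1 : ρA.IsEquiv (ofMat r1 h1) := isEquiv_trans he0 (ofMat_isEquiv_conjMat r0 h0 M)
  -- (3) the normalized form is of type `𝒟`
  have hD1 : 𝒟 (ofMat r1 h1) := D_of_isEquiv_CNL h𝒟 hlA hA e1 hρA
  have hNF1 : NF rb0 eqs 𝒟 (entries (⇑r1)) := ⟨r1, h1, fun _ _ _ => rfl, hl1, heq1, hD1⟩
  -- (4) the levels
  have hloc : ∀ n : ℕ, IsLocalRing (A ⧸ maximalIdeal A ^ (n + 1)) := fun n =>
    isLocalRing_quotient_maximalIdeal_pow (Nat.succ_ne_zero n)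
  have TA : ∀ n : ℕ, GaloisRep.IsArtinianTestAlgebra 𝒪 (A ⧸ maximalIdeal A ^ (n + 1)) := fun n =>
    isArtinianTestAlgebra_quotient_maximalIdeal_pow hlA hA (Nat.succ_ne_zero n)
  have hqloc : ∀ n : ℕ, IsLocalHom ((qn (𝒪 := 𝒪) A n : A →ₐ[𝒪] A ⧸ maximalIdeal A ^ (n + 1)) :
      A →+* A ⧸ maximalIdeal A ^ (n + 1)) := fun n =>
    have := IsLocalHom.of_surjective (Ideal.Quotient.mk (maximalIdeal A ^ (n + 1)))
      Ideal.Quotient.mk_surjective
    ⟨fun a ha => this.map_nonunit a ha⟩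
  have hx : ∀ n : ℕ, NF rb0 eqs 𝒟 (qn (𝒪 := 𝒪) A n ∘ entries (⇑r1)) := fun n =>
    NF.map_of_complete h𝒟 hlA hA (TA n) (qn A n) (hqloc n) Ideal.Quotient.mk_surjective hNF1
  -- (5) the level maps
  choose ψ hψ using fun n => (huniv (TA n) _ (hx n)).exists
  have hψuniq : ∀ n (χ : R →ₐ[𝒪] A ⧸ maximalIdeal A ^ (n + 1)),
      χ ∘ entries (⇑rR) = qn (𝒪 := 𝒪) A n ∘ entries (⇑r1) → χ = ψ n := fun n χ hχ =>
    (huniv (TA n) _ (hx n)).unique hχ (hψ n)
  have hcompat : ∀ {m n : ℕ} (h : m ≤ n),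
      (Ideal.Quotient.factorₐ 𝒪 (Ideal.pow_le_pow_right (Nat.succ_le_succ h))).comp (ψ n) =
        ψ m := by
    intro m n h
    apply hψuniq
    funext p
    have := congrFun (hψ n) p
    simp only [Function.comp_apply, AlgHom.comp_apply] at this ⊢
    rw [this]
    rfl
  -- (6) the limit map
  let f : ∀ n : ℕ, R →ₐ[𝒪] A ⧸ maximalIdeal A ^ n := fun n =>
    (Ideal.Quotient.factorₐ 𝒪 (Ideal.pow_le_pow_right (Nat.le_succ n))).comp (ψ n)
  have hf : ∀ {m n : ℕ} (hle : m ≤ n),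
      (Ideal.Quotient.factorₐ 𝒪 (Ideal.pow_le_pow_right hle)).comp (f n) = f m := by
    intro m n hle
    show (Ideal.Quotient.factorₐ 𝒪 (Ideal.pow_le_pow_right hle)).comp
      ((Ideal.Quotient.factorₐ 𝒪 (Ideal.pow_le_pow_right (Nat.le_succ n))).comp (ψ n)) =
      (Ideal.Quotient.factorₐ 𝒪 (Ideal.pow_le_pow_right (Nat.le_succ m))).comp (ψ m)
    rw [← hcompat hle, ← AlgHom.comp_assoc, ← AlgHom.comp_assoc, Ideal.Quotient.factorₐ_comp,
      Ideal.Quotient.factorₐ_comp]
  let φ : R →ₐ[𝒪] A := IsAdicComplete.liftAlgHom (maximalIdeal A) f hf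
  have hφlev : ∀ n : ℕ, (qn (𝒪 := 𝒪) A n).comp φ = ψ n := by
    intro n
    have h2 : (Ideal.Quotient.mkₐ 𝒪 (maximalIdeal A ^ (n + 1))).comp φ = f (n + 1) :=
      IsAdicComplete.mkₐ_comp_liftAlgHom (maximalIdeal A) f hf (n + 1)
    rw [show (qn (𝒪 := 𝒪) A n) = Ideal.Quotient.mkₐ 𝒪 (maximalIdeal A ^ (n + 1)) from rfl, h2]
    show (Ideal.Quotient.factorₐ 𝒪 (Ideal.pow_le_pow_right (Nat.le_succ (n + 1)))).comp
      (ψ (n + 1)) = ψ n
    exact hcompat (Nat.le_succ n)
  -- a criterion: a map is determined by the normalized lift it induces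
  have hkey : ∀ χ : R →ₐ[𝒪] A, mapMat (χ : R →+* A) rR = r1 →
      ∀ n, (qn (𝒪 := 𝒪) A n).comp χ = ψ n := by
    intro χ hχ n
    apply hψuniq
    funext p
    rcases p with ⟨g, i, j⟩
    have := congrFun (congrFun (congrFun (congrArg DFunLike.coe hχ) g) i) j
    simp only [Function.comp_apply, AlgHom.comp_apply, entries_apply]
    rw [← this]
    rfl
  -- (7) `φ` induces `r1`
  have hmap : mapMat (φ : R →+* A) rR = r1 := by
    ext g i j
    refine eq_of_forall_mk_eq fun n => ?_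
    have := congrFun (hψ n) (g, i, j)
    rw [← hφlev n] at this
    exact this
  have hφloc : IsLocalHom (φ : R →+* A) := isLocalHom_algHom_of_residue_surjective hA φ
  refine ⟨φ, ⟨hφloc, ?_⟩, ?_⟩
  · -- existence
    have e2 := ofMat_baseChangeAlong rR hcont (φ : R →+* A) hφloc
    have e3 : (ofMat (mapMat (φ : R →+* A) rR) (hcont.map _ hφloc)).IsEquiv (ofMat r1 h1) :=
      ofMat_isEquiv_iff.mpr ⟨1, fun g => by rw [hmap]; simp⟩
    exact isEquiv_trans e2 (isEquiv_trans e3 (isEquiv_symm e1))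
  · -- uniqueness
    rintro φ' ⟨hφ', E'⟩
    have e2 := ofMat_baseChangeAlong rR hcont (φ' : R →+* A) hφ'
    have e3 : (ofMat (mapMat (φ' : R →+* A) rR) (hcont.map _ hφ')).IsEquiv (ofMat r1 h1) :=
      isEquiv_trans (isEquiv_symm e2) (isEquiv_trans E' e1)
    have hmap' : mapMat (φ' : R →+* A) rR = r1 := by
      refine hrig hlA hA _ _ ?_ hl1 ?_ heq1 (ofMat_isEquiv_iff.mp e3)
      · exact hliftR.map φ' hφ'
      · exact fun e he => (heqR e he).map φ'
    refine IsAdicComplete.algHom_ext (maximalIdeal A) fun n => ?_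
    rcases n with _ | n
    · have : Subsingleton (A ⧸ maximalIdeal A ^ 0) := by
        rw [pow_zero, Ideal.one_eq_top]
        exact Ideal.Quotient.subsingleton_iff.mpr rfl
      exact AlgHom.ext fun _ => Subsingleton.elim _ _
    · exact (hkey φ' hmap' n).trans (hkey φ hmap n).symm

end UniversalProperty

end Fermat.Agent.S53.R90
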