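import Fermat.Agent.S53.MatrixForm
import Fermat.Agent.S53.Rigidify
import Fermat.Agent.S53.Burnside

/-!
# S53: Burnside output (rigidification data) and normal forms for matrix lifts

Bridges `Burnside.lean` / `Rigidify.lean` with the matrix translation layer `MatrixForm.lean`.
Everything is stated with explicit data `(m, g, c, d)` (the content of `RigidData`), in the
`∑ i, algebraMap 𝒪 A (c i) • r (g i)` shape used by the design-R skeleton.

Namespace `Fermat.Agent.S53.RigidBase`.
-/

set_option autoImplicit false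

namespace Fermat.Agent.S53.RigidBase

open IsLocalRing Fermat.Agent.S53 Fermat.Agent.S53.Rigidify

section Field

variable {k : Type} [Field k]

/-- **Burnside** for an absolutely irreducible matrix-form residual representation. -/
theorem span_range_eq_top_of_absIrr {rb : GQ →* M2 k} {h : GaloisFactorsThroughFiniteLevel rb}
    (habs : (ofMatRes rb h).IsAbsolutelyIrreducible) :
    Submodule.span k (Set.range rb) = ⊤ := by
  have hirr := isIrreducible_of_isEquiv (ofMatRes_baseChange (k' := AlgebraicClosure k) rb h) habs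
  rw [ofMatRes_isIrreducible_iff] at hirr
  have h1 := Burnside.span_range_eq_top_of_irreducible
    (mapMat (algebraMap k (AlgebraicClosure k)) rb) hirr
  refine Burnside.span_range_eq_top_of_map (K := AlgebraicClosure k) (fun g => rb g) ?_
  have : (Set.range fun g => (rb g).map (algebraMap k (AlgebraicClosure k))) =
      Set.range (mapMat (algebraMap k (AlgebraicClosure k)) rb) := by
    ext X; constructor
    · rintro ⟨g, rfl⟩; exact ⟨g, rfl⟩
    · rintro ⟨g, rfl⟩; exact ⟨g, rfl⟩
  rw [this]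
  exact h1

/-- Any matrix is a `Fin m`-indexed combination of two prescribed... more precisely: two matrices
`X`, `Y` can be written as combinations of the **same** finite family `rb (g i)`. -/
theorem exists_fin_sum_eq {rb : GQ →* M2 k} (hspan : Submodule.span k (Set.range rb) = ⊤)
    (X Y : M2 k) :
    ∃ (m : ℕ) (g : Fin m → GQ) (c d : Fin m → k),
      ∑ i, c i • rb (g i) = X ∧ ∑ i, d i • rb (g i) = Y := by
  classical
  obtain ⟨cX, hcX⟩ := Burnside.exists_finsupp_sum_eq (fun g => rb g) hspan X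
  obtain ⟨cY, hcY⟩ := Burnside.exists_finsupp_sum_eq (fun g => rb g) hspan Y
  set s : Finset GQ := cX.support ∪ cY.support with hs
  let e : s ≃ Fin s.card := s.equivFin
  refine ⟨s.card, fun i => (e.symm i : GQ), fun i => cX (e.symm i), fun i => cY (e.symm i), ?_, ?_⟩
  · rw [← hcX, Finsupp.sum_of_support_subset cX Finset.subset_union_left _ (by simp)]
    rw [← Finset.sum_coe_sort s]
    exact Equiv.sum_comp e.symm fun x : s => cX x • rb x
  · rw [← hcY, Finsupp.sum_of_support_subset cY Finset.subset_union_right _ (by simp)]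
    rw [← Finset.sum_coe_sort s]
    exact Equiv.sum_comp e.symm fun x : s => cY x • rb x

end Field

section Local

variable {𝒪 : Type} [CommRing 𝒪] [IsLocalRing 𝒪]

/-- **Rigidification data exist** (Burnside output): coefficients in `𝒪` whose reductions express
`E₀₀` and `E₁₀` as combinations of finitely many `rb0 (g i)`. -/
theorem exists_rigid_coeffs {rb0 : GQ →* M2 (ResidueField 𝒪)}
    {h : GaloisFactorsThroughFiniteLevel rb0} (habs : (ofMatRes rb0 h).IsAbsolutelyIrreducible) :
    ∃ (m : ℕ) (g : Fin m → GQ) (c d : Fin m → 𝒪),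
      ∑ i, residue 𝒪 (c i) • rb0 (g i) = Matrix.single 0 0 1 ∧
      ∑ i, residue 𝒪 (d i) • rb0 (g i) = Matrix.single 1 0 1 := by
  obtain ⟨m, g, c, d, hc, hd⟩ := exists_fin_sum_eq (span_range_eq_top_of_absIrr habs)
    (Matrix.single 0 0 1) (Matrix.single 1 0 1)
  have hsurj : Function.Surjective (residue 𝒪) := Ideal.Quotient.mk_surjective
  refine ⟨m, g, fun i => Function.surjInv hsurj (c i), fun i => Function.surjInv hsurj (d i), ?_, ?_⟩
  · simp only [Function.surjInv_eq hsurj]; exact hc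
  · simp only [Function.surjInv_eq hsurj]; exact hd

variable {A : Type} [CommRing A] [IsLocalRing A] [Algebra 𝒪 A]

/-- `r` reduces exactly to `rb0` (same shape as in the design-R skeleton). -/
def LiftsExactly (rb0 : GQ →* M2 (ResidueField 𝒪)) (r : GQ →* M2 A) : Prop :=
  ∀ g i j, ∃ a : 𝒪, residue 𝒪 a = rb0 g i j ∧ r g i j - algebraMap 𝒪 A a ∈ maximalIdeal A

variable {m : ℕ} (g : Fin m → GQ) (c d : Fin m → 𝒪)

/-- The frame matrix `∑ i, c i • r (g i)`. -/
noncomputable def Tmat (r : GQ →* M2 A) : M2 A := ∑ i, algebraMap 𝒪 A (c i) • r (g i)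

omit [IsLocalRing 𝒪] [IsLocalRing A] in
theorem mul_Tmat (M : M2 A) (r : GQ →* M2 A) :
    M * Tmat g c r = ∑ i, algebraMap 𝒪 A (c i) • (M * r (g i)) := by
  simp only [Tmat, Finset.mul_sum, Matrix.mul_smul]

omit [IsLocalRing 𝒪] [IsLocalRing A] in
theorem Tmat_mul (M : M2 A) (r : GQ →* M2 A) :
    Tmat g c r * M = ∑ i, algebraMap 𝒪 A (c i) • (r (g i) * M) := by
  simp only [Tmat, Finset.sum_mul, Matrix.smul_mul]

omit [IsLocalRing 𝒪] [IsLocalRing A] in
theorem Tmat_conjMat (M : (M2 A)ˣ) (r : GQ →* M2 A) :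
    Tmat g c (conjMat M r) = (M : M2 A) * Tmat g c r * ((M⁻¹ : (M2 A)ˣ) : M2 A) := by
  rw [mul_Tmat, Finset.sum_mul]
  simp only [Tmat, conjMat_apply, Matrix.smul_mul]

omit [IsLocalRing 𝒪] [IsLocalRing A] in
theorem Tmat_mapMat {B : Type} [CommRing B] [Algebra 𝒪 B] (φ : A →ₐ[𝒪] B) (r : GQ →* M2 A) :
    Tmat g c (mapMat (φ : A →+* B) r) = (Tmat g c r).map φ := by
  ext i j
  simp only [Tmat, Matrix.sum_apply, Matrix.smul_apply, Matrix.map_apply, map_sum, smul_eq_mul,
    map_mul, mapMat_apply, RingHom.coe_coe, AlgHom.commutes]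

end Local

section NF

variable {𝒪 : Type} [CommRing 𝒪] [IsLocalRing 𝒪]
variable {A : Type} [CommRing A] [IsLocalRing A] [Algebra 𝒪 A]
variable {rb0 : GQ →* M2 (ResidueField 𝒪)} {m : ℕ} {g : Fin m → GQ} {c d : Fin m → 𝒪}

/-- `LiftsExactly` in terms of entrywise reduction. -/
theorem liftsExactly_iff [IsLocalHom (algebraMap 𝒪 A)] {r : GQ →* M2 A} :
    LiftsExactly rb0 r ↔ ∀ σ, (r σ).map (residue A) =
      (rb0 σ).map (ResidueField.map (algebraMap 𝒪 A)) := by
  constructor
  · intro h σ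
    ext i j
    obtain ⟨a, ha, hmem⟩ := h σ i j
    rw [Matrix.map_apply, Matrix.map_apply, ← ha, ResidueField.map_residue]
    rw [← sub_eq_zero, ← map_sub]
    exact (residue_eq_zero_iff _).mpr hmem
  · intro h σ i j
    obtain ⟨a, ha⟩ := Ideal.Quotient.mk_surjective (rb0 σ i j)
    refine ⟨a, ha, ?_⟩
    have h1 := congrFun (congrFun (h σ) i) j
    rw [Matrix.map_apply, Matrix.map_apply] at h1
    have ha' : residue 𝒪 a = rb0 σ i j := ha
    rw [← ha', ResidueField.map_residue] at h1
    rw [← residue_eq_zero_iff, map_sub, h1, sub_self]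

theorem map_residue_Tmat [IsLocalHom (algebraMap 𝒪 A)] {r : GQ →* M2 A}
    (hr : LiftsExactly rb0 r) (c : Fin m → 𝒪) :
    (Tmat g c r).map (residue A) =
      (∑ i, residue 𝒪 (c i) • rb0 (g i)).map (ResidueField.map (algebraMap 𝒪 A)) := by
  rw [liftsExactly_iff] at hr
  ext i j
  simp only [Tmat, Matrix.map_apply, Matrix.sum_apply, Matrix.smul_apply, smul_eq_mul, map_sum,
    map_mul, ResidueField.map_residue]
  refine Finset.sum_congr rfl fun l _ => ?_
  have := congrFun (congrFun (hr (g l)) i) j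
  rw [Matrix.map_apply, Matrix.map_apply] at this
  rw [this]

/-- A lift of `rb0` is residually framed by rigidification data. -/
theorem isResidualFrame_of_liftsExactly [IsLocalHom (algebraMap 𝒪 A)]
    (hT : ∑ i, residue 𝒪 (c i) • rb0 (g i) = Matrix.single 0 0 1)
    (hS : ∑ i, residue 𝒪 (d i) • rb0 (g i) = Matrix.single 1 0 1)
    {r : GQ →* M2 A} (hr : LiftsExactly rb0 r) :
    IsResidualFrame (maximalIdeal A) (Tmat g c r) (Tmat g d r) := by
  rw [isResidualFrame_iff_map]
  have h1 := map_residue_Tmat (g := g) hr c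
  have h2 := map_residue_Tmat (g := g) hr d
  rw [hT] at h1
  rw [hS] at h2
  constructor
  · change (Tmat g c r).map (residue A) = _
    rw [h1]
    ext i j; fin_cases i <;> fin_cases j <;> simp <;> rfl
  · change (Tmat g d r).map (residue A) = _
    rw [h2]
    ext i j; fin_cases i <;> fin_cases j <;> simp <;> rfl

/-- Conjugation by a matrix congruent to `1` preserves `LiftsExactly`. -/
theorem LiftsExactly.conj_of_sub_one_mem {r : GQ →* M2 A} (hr : LiftsExactly rb0 r) (M : (M2 A)ˣ)
    (hM : ∀ i j, ((M : M2 A) - 1) i j ∈ maximalIdeal A) :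
    LiftsExactly rb0 (conjMat M r) := by
  intro σ i j
  obtain ⟨a, ha, hmem⟩ := hr σ i j
  refine ⟨a, ha, ?_⟩
  have hM' : ∀ i j, (((M⁻¹ : (M2 A)ˣ) : M2 A) - 1) i j ∈ maximalIdeal A := by
    intro i j
    have h1 : ((M⁻¹ : (M2 A)ˣ) : M2 A) - 1
        = -(((M⁻¹ : (M2 A)ˣ) : M2 A) * ((M : M2 A) - 1)) := by
      rw [mul_sub, Units.inv_mul, mul_one]; abel
    rw [h1, Matrix.neg_apply, Matrix.mul_apply]
    exact (maximalIdeal A).neg_mem
      (Ideal.sum_mem _ fun l _ => Ideal.mul_mem_left _ _ (hM l j))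
  have hconj := map_conj_eq_of_sub_one_mem (maximalIdeal A) (M⁻¹) hM' (r σ)
  rw [inv_inv] at hconj
  have h2 : (conjMat M r σ i j) - r σ i j ∈ maximalIdeal A := by
    rw [← Ideal.Quotient.eq]
    have := congrFun (congrFun hconj i) j
    rw [Matrix.map_apply, Matrix.map_apply] at this
    rw [conjMat_apply]
    exact this
  have : conjMat M r σ i j - algebraMap 𝒪 A a
      = (conjMat M r σ i j - r σ i j) + (r σ i j - algebraMap 𝒪 A a) := by ring
  rw [this]
  exact (maximalIdeal A).add_mem h2 hmem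

/-- **Uniqueness of normal forms**: two normalized exact lifts of `rb0` which are conjugate by an
invertible matrix are equal. -/
theorem nf_unique [IsLocalHom (algebraMap 𝒪 A)]
    (hT : ∑ i, residue 𝒪 (c i) • rb0 (g i) = Matrix.single 0 0 1)
    (hS : ∑ i, residue 𝒪 (d i) • rb0 (g i) = Matrix.single 1 0 1)
    {r r' : GQ →* M2 A} (hr : LiftsExactly rb0 r) (hr' : LiftsExactly rb0 r')
    (hn : IsNormalizedPair (Tmat g c r) (Tmat g d r))
    (hn' : IsNormalizedPair (Tmat g c r') (Tmat g d r'))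
    (M : (M2 A)ˣ) (hM : ∀ σ, (M : M2 A) * r σ = r' σ * M) : r = r' := by
  have hf := isResidualFrame_of_liftsExactly hT hS hr
  have hf' := isResidualFrame_of_liftsExactly hT hS hr'
  have hu : IsUnit (Tmat g c r' 1 1 - Tmat g c r 0 0) := by
    have h1 : Tmat g c r 0 0 - 1 ∈ maximalIdeal A := hf.1.1
    have h2 : Tmat g c r' 1 1 ∈ maximalIdeal A := hf'.1.2.2.2
    have : IsUnit (Tmat g c r 0 0 - Tmat g c r' 1 1) := by
      apply isUnit_of_sub_one_mem_maximalIdeal
      have : Tmat g c r 0 0 - Tmat g c r' 1 1 - 1 = (Tmat g c r 0 0 - 1) - Tmat g c r' 1 1 := by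
        ring
      rw [this]
      exact (maximalIdeal A).sub_mem h1 h2
    have h3 : Tmat g c r' 1 1 - Tmat g c r 0 0 = -(Tmat g c r 0 0 - Tmat g c r' 1 1) := by ring
    rw [h3]
    exact this.neg
  have hMT : (M : M2 A) * Tmat g c r = Tmat g c r' * M := by
    rw [mul_Tmat, Tmat_mul]
    exact Finset.sum_congr rfl fun i _ => by rw [hM]
  have hMS : (M : M2 A) * Tmat g d r = Tmat g d r' * M := by
    rw [mul_Tmat, Tmat_mul]
    exact Finset.sum_congr rfl fun i _ => by rw [hM]
  have hsc := conj_eq_smul_one_of_normalized hn hn' hu hMT hMS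
  generalize (M : M2 A) 0 0 = x at hsc
  have hx : IsUnit x := by
    have hdet : IsUnit (M : M2 A).det := (Matrix.isUnit_iff_isUnit_det _).mp M.isUnit
    rw [hsc, Matrix.det_smul, Matrix.det_one, mul_one, Fintype.card_fin] at hdet
    exact (isUnit_pow_iff two_ne_zero).mp hdet
  ext σ : 1
  have h1 := hM σ
  rw [hsc, Matrix.smul_mul, Matrix.mul_smul, Matrix.one_mul, Matrix.mul_one] at h1
  obtain ⟨u, rfl⟩ := hx
  have := congrArg (fun X => (↑u⁻¹ : A) • X) h1
  simpa [smul_smul] using this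

/-- **Existence of normal forms** over a Henselian local ring (e.g. adically complete). -/
theorem nf_exists [IsLocalHom (algebraMap 𝒪 A)] [HenselianRing A (maximalIdeal A)]
    (hT : ∑ i, residue 𝒪 (c i) • rb0 (g i) = Matrix.single 0 0 1)
    (hS : ∑ i, residue 𝒪 (d i) • rb0 (g i) = Matrix.single 1 0 1)
    {r : GQ →* M2 A} (hr : LiftsExactly rb0 r) :
    ∃ M : (M2 A)ˣ, (∀ i j, ((M : M2 A) - 1) i j ∈ maximalIdeal A) ∧
      LiftsExactly rb0 (conjMat M r) ∧
      IsNormalizedPair (Tmat g c (conjMat M r)) (Tmat g d (conjMat M r)) := by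
  obtain ⟨N, hN1, hNn⟩ := exists_conj_normalized (isResidualFrame_of_liftsExactly hT hS hr)
  have hN' : ∀ i j, (((N⁻¹ : (M2 A)ˣ) : M2 A) - 1) i j ∈ maximalIdeal A := by
    intro i j
    have h1 : ((N⁻¹ : (M2 A)ˣ) : M2 A) - 1
        = -(((N⁻¹ : (M2 A)ˣ) : M2 A) * ((N : M2 A) - 1)) := by
      rw [mul_sub, Units.inv_mul, mul_one]; abel
    rw [h1, Matrix.neg_apply, Matrix.mul_apply]
    exact (maximalIdeal A).neg_mem
      (Ideal.sum_mem _ fun l _ => Ideal.mul_mem_left _ _ (hN1 l j))
  refine ⟨N⁻¹, hN', hr.conj_of_sub_one_mem _ hN', ?_⟩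
  rw [Tmat_conjMat, Tmat_conjMat, inv_inv]
  exact hNn

end NF

end Fermat.Agent.S53.RigidBase
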