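/-
S53 package B (M0): Schur's lemma in matrix form.

* `CentralizerIsScalar rb` : every 2x2 matrix commuting with all `rb g` is a scalar matrix.
* `centralizerIsScalar_of_noInvariantSubmodule` : over a field `k`, if the representation has no
  proper nonzero invariant subspace after extending scalars to an algebraically closed field `K`,
  then the centralizer consists of scalars.
* `centralizerIsScalar_of_surjective` : if `A` is ANY local ring, `π : A →+* k` a surjection onto a
  field and the reduction of `r` has scalar centralizer, then `r` has scalar centralizer.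
* `centralizerIsScalar_of_residue` : the same with `π = IsLocalRing.residue A`.
* `exists_scalar_sub_mem_of_conj` : if `M * r g = r' g * M` and `r ≡ r'` modulo a proper ideal `I`,
  then `M` is congruent to a scalar matrix modulo `I`.
-/
import Mathlib
import Fermat.Prelude.Def_GaloisRep_Residual

set_option autoImplicit false

namespace Fermat.Agent.S53.Schur

open Matrix

section Defs

variable {G : Type*} [Monoid G]

/-- Every matrix commuting with the image of `rb` is a scalar matrix. -/
def CentralizerIsScalar {R : Type*} [CommRing R] (rb : G →* Matrix (Fin 2) (Fin 2) R) : Prop :=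
  ∀ X : Matrix (Fin 2) (Fin 2) R, (∀ g, X * rb g = rb g * X) →
    ∃ c : R, X = Matrix.scalar (Fin 2) c

/-- Entrywise image of a matrix representation under a ring hom. -/
def mapMatHom {R S : Type*} [CommRing R] [CommRing S] (φ : R →+* S)
    (r : G →* Matrix (Fin 2) (Fin 2) R) : G →* Matrix (Fin 2) (Fin 2) S :=
  (φ.mapMatrix : Matrix (Fin 2) (Fin 2) R →+* Matrix (Fin 2) (Fin 2) S).toMonoidHom.comp r

@[simp] lemma mapMatHom_apply {R S : Type*} [CommRing R] [CommRing S] (φ : R →+* S)
    (r : G →* Matrix (Fin 2) (Fin 2) R) (g : G) : mapMatHom φ r g = (r g).map φ := rfl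

end Defs

section Field

variable {G : Type*} [Monoid G] {k : Type*} [Field k]

/-- Schur over a field: absolute irreducibility (in matrix form, after extension of scalars to an
algebraically closed field `K`) implies that the centralizer consists of scalars. -/
theorem centralizerIsScalar_of_noInvariantSubmodule (K : Type*) [Field K] [Algebra k K]
    [IsAlgClosed K] (rb : G →* Matrix (Fin 2) (Fin 2) k)
    (h : ∀ W : Submodule K (Fin 2 → K),
      (∀ g, ∀ x ∈ W, ((rb g).map (algebraMap k K)) *ᵥ x ∈ W) → W = ⊥ ∨ W = ⊤) :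
    CentralizerIsScalar rb := by
  intro X hX
  -- the endomorphism of K^2 given by X
  set XK : Matrix (Fin 2) (Fin 2) K := X.map (algebraMap k K) with hXK
  obtain ⟨μ, hμ⟩ := Module.End.exists_eigenvalue (Matrix.toLin' XK)
  set W : Submodule K (Fin 2 → K) := Module.End.eigenspace (Matrix.toLin' XK) μ with hW
  have hWne : W ≠ ⊥ := hμ
  have hstab : ∀ g, ∀ x ∈ W, ((rb g).map (algebraMap k K)) *ᵥ x ∈ W := by
    intro g x hx
    rw [hW, Module.End.mem_eigenspace_iff] at hx ⊢
    rw [Matrix.toLin'_apply] at hx ⊢
    have hcomm : XK * (rb g).map (algebraMap k K) = (rb g).map (algebraMap k K) * XK := by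
      rw [hXK, ← Matrix.map_mul, ← Matrix.map_mul, hX g]
    rw [Matrix.mulVec_mulVec, hcomm, ← Matrix.mulVec_mulVec, hx, Matrix.mulVec_smul]
  have hWtop : W = ⊤ := (h W hstab).resolve_left hWne
  -- so XK = μ • 1
  have hXKμ : ∀ x : Fin 2 → K, XK *ᵥ x = μ • x := by
    intro x
    have hx : x ∈ W := by rw [hWtop]; trivial
    rw [hW, Module.End.mem_eigenspace_iff, Matrix.toLin'_apply] at hx
    exact hx
  have hentry : ∀ i j, XK i j = if i = j then μ else 0 := by
    intro i j
    have := congrFun (hXKμ (Pi.single j 1)) i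
    rw [Matrix.mulVec_single_one] at this
    simp only [Pi.smul_apply, smul_eq_mul, Pi.single_apply] at this
    rw [Matrix.col_apply] at this
    rw [this]
    split_ifs <;> simp
  have hinj : Function.Injective (algebraMap k K) := (algebraMap k K).injective
  refine ⟨X 0 0, ?_⟩
  ext i j
  apply hinj
  have h1 := hentry i j
  have h00 := hentry 0 0
  simp only [hXK, Matrix.map_apply, if_true] at h1 h00
  rw [h1]
  by_cases hij : i = j
  · subst hij
    simp [h00]
  · simp [hij, Matrix.scalar_apply]

end Field

section Local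

variable {G : Type*} [Monoid G] {A : Type*} [CommRing A] [IsLocalRing A]
  {k : Type*} [Field k]

/-- The three linear relations on `(x, y, z)` expressing that `!![x, y; z, 0]` commutes with
`!![a, b; c, d]`. -/
def commRows {R : Type*} [CommRing R] (m : Matrix (Fin 2) (Fin 2) R) : Fin 3 → (Fin 3 → R) :=
  ![![0, m 1 0, - m 0 1], ![m 0 1, m 1 1 - m 0 0, 0], ![- m 1 0, 0, m 0 0 - m 1 1]]

lemma commRows_dotProduct_eq_zero {R : Type*} [CommRing R] (m : Matrix (Fin 2) (Fin 2) R)
    (x y z : R) (h : !![x, y; z, 0] * m = m * !![x, y; z, 0]) (i : Fin 3) :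
    commRows m i ⬝ᵥ ![x, y, z] = 0 := by
  have h00 := congrFun (congrFun h 0) 0
  have h01 := congrFun (congrFun h 0) 1
  have h10 := congrFun (congrFun h 1) 0
  simp only [Matrix.mul_apply, Fin.sum_univ_two, Matrix.of_apply, Matrix.cons_val_zero,
    Matrix.cons_val_one, Matrix.cons_val', Matrix.empty_val',
    Matrix.cons_val_fin_one] at h00 h01 h10
  fin_cases i
  · simp only [commRows, dotProduct, Fin.sum_univ_three]
    simp
    linear_combination h00
  · simp only [commRows, dotProduct, Fin.sum_univ_three]
    simp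
    linear_combination h01
  · simp only [commRows, dotProduct, Fin.sum_univ_three]
    simp
    linear_combination h10

lemma comm_of_commRows_dotProduct_eq_zero {R : Type*} [CommRing R] (m : Matrix (Fin 2) (Fin 2) R)
    (x y z : R) (h : ∀ i, commRows m i ⬝ᵥ ![x, y, z] = 0) :
    !![x, y; z, 0] * m = m * !![x, y; z, 0] := by
  have h0 := h 0
  have h1 := h 1
  have h2 := h 2
  simp only [commRows, dotProduct, Fin.sum_univ_three] at h0 h1 h2
  simp at h0 h1 h2
  ext i j
  fin_cases i <;> fin_cases j <;>
    simp only [Matrix.mul_apply, Fin.sum_univ_two, Matrix.of_apply, Matrix.cons_val_zero,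
      Matrix.cons_val_one, Matrix.cons_val', Matrix.empty_val',
      Matrix.cons_val_fin_one, Fin.zero_eta, Fin.mk_one]
  · linear_combination h0
  · linear_combination h1
  · linear_combination h2
  · linear_combination (-1 : R) * h0


lemma commRows_map {R S : Type*} [CommRing R] [CommRing S] (φ : R →+* S)
    (m : Matrix (Fin 2) (Fin 2) R) (i : Fin 3) :
    commRows (m.map φ) i = φ ∘ commRows m i := by
  ext j
  fin_cases i <;> fin_cases j <;> simp [commRows]

omit [IsLocalRing A] in
/-- Vectors in the `k`-span of the reductions of `S` lift to vectors orthogonal to `v`. -/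
lemma exists_lift_of_mem_span (π : A →+* k) (hπ : Function.Surjective π)
    (S : Set (Fin 3 → A)) (v : Fin 3 → A) (hv : ∀ w ∈ S, w ⬝ᵥ v = 0)
    (ubar : Fin 3 → k)
    (hubar : ubar ∈ Submodule.span k ((fun w : Fin 3 → A => π ∘ w) '' S)) :
    ∃ u : Fin 3 → A, π ∘ u = ubar ∧ u ⬝ᵥ v = 0 := by
  induction hubar using Submodule.span_induction with
  | mem x hx =>
    obtain ⟨w, hw, rfl⟩ := hx
    exact ⟨w, rfl, hv w hw⟩
  | zero => exact ⟨0, by ext; simp, by simp⟩
  | add x y _ _ hx hy =>
    obtain ⟨u1, h1, h1'⟩ := hx
    obtain ⟨u2, h2, h2'⟩ := hy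
    exact ⟨u1 + u2, by ext i; simp [← h1, ← h2], by rw [add_dotProduct, h1', h2', add_zero]⟩
  | smul c x _ hx =>
    obtain ⟨u, h1, h1'⟩ := hx
    obtain ⟨a, rfl⟩ := hπ c
    exact ⟨a • u, by ext i; simp [← h1], by rw [smul_dotProduct, h1', smul_zero]⟩

/-- **Schur lifting.** Let `A` be a local ring and `π : A →+* k` a surjection onto a field.
If the reduction of `r` has only scalar matrices in its centralizer, then so does `r`. -/
theorem centralizerIsScalar_of_surjective (π : A →+* k) (hπ : Function.Surjective π)
    (r : G →* Matrix (Fin 2) (Fin 2) A) (hres : CentralizerIsScalar (mapMatHom π r)) :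
    CentralizerIsScalar r := by
  intro X hX
  set x : A := X 0 0 - X 1 1 with hx
  set y : A := X 0 1 with hy
  set z : A := X 1 0 with hz
  have hY : X = !![x, y; z, 0] + Matrix.scalar (Fin 2) (X 1 1) := by
    ext i j
    fin_cases i <;> fin_cases j <;> simp [x, y, z]
  have hYcomm : ∀ g, !![x, y; z, 0] * r g = r g * !![x, y; z, 0] := by
    intro g
    have h1 := hX g
    rw [hY, add_mul, mul_add] at h1
    have hs : Matrix.scalar (Fin 2) (X 1 1) * r g = r g * Matrix.scalar (Fin 2) (X 1 1) :=
      (Matrix.scalar_commute (X 1 1) (fun a => Commute.all _ a) (r g)).eq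
    rw [hs] at h1
    exact add_right_cancel h1
  set v : Fin 3 → A := ![x, y, z] with hv_def
  set S : Set (Fin 3 → A) := {w | ∃ g i, w = commRows (r g) i} with hS
  have hv : ∀ w ∈ S, w ⬝ᵥ v = 0 := by
    rintro w ⟨g, i, rfl⟩
    exact commRows_dotProduct_eq_zero _ _ _ _ (hYcomm g) i
  have hspan : Submodule.span k ((fun w : Fin 3 → A => π ∘ w) '' S) = ⊤ := by
    by_contra hne
    obtain ⟨f, hf0, hf⟩ := Submodule.exists_le_ker_of_lt_top _ (lt_top_iff_ne_top.mpr hne)
    set t : Fin 3 → k := fun i => f (Pi.single i 1) with ht_def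
    have hft : ∀ w : Fin 3 → k, f w = w ⬝ᵥ t := by
      intro w
      rw [LinearMap.pi_apply_eq_sum_univ f w]
      simp only [dotProduct, t, smul_eq_mul]
      refine Finset.sum_congr rfl (fun i _ => ?_)
      congr 2
      ext j
      simp [Pi.single_apply, eq_comm]
    have hcomm : ∀ g, !![t 0, t 1; t 2, 0] * mapMatHom π r g
        = mapMatHom π r g * !![t 0, t 1; t 2, 0] := by
      intro g
      apply comm_of_commRows_dotProduct_eq_zero
      intro i
      have hmem : (π ∘ commRows (r g) i) ∈
          Submodule.span k ((fun w : Fin 3 → A => π ∘ w) '' S) :=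
        Submodule.subset_span ⟨_, ⟨g, i, rfl⟩, rfl⟩
      have h2 := hf hmem
      rw [LinearMap.mem_ker, hft] at h2
      rw [mapMatHom_apply, commRows_map]
      have ht3 : ![t 0, t 1, t 2] = t := by
        ext j; fin_cases j <;> rfl
      rw [ht3]
      exact h2
    obtain ⟨c, hc⟩ := hres _ hcomm
    have hc0 : c = 0 := by
      have := congrFun (congrFun hc 1) 1
      simpa using this.symm
    have ht : t = 0 := by
      ext i
      fin_cases i
      · have := congrFun (congrFun hc 0) 0
        simpa [hc0] using this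
      · have := congrFun (congrFun hc 0) 1
        simpa [hc0] using this
      · have := congrFun (congrFun hc 1) 0
        simpa [hc0] using this
    apply hf0
    refine LinearMap.ext fun w => ?_
    rw [hft, ht]
    simp
  have hlift : ∀ i : Fin 3, ∃ u : Fin 3 → A, π ∘ u = Pi.single i 1 ∧ u ⬝ᵥ v = 0 :=
    fun i => exists_lift_of_mem_span π hπ S v hv _ (by rw [hspan]; trivial)
  choose u hu1 hu2 using hlift
  set U : Matrix (Fin 3) (Fin 3) A := Matrix.of u with hU
  have hUv : U *ᵥ v = 0 := by
    ext i
    simp only [Matrix.mulVec, hU, Matrix.of_apply, Pi.zero_apply]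
    exact hu2 i
  have hUmap : U.map π = 1 := by
    ext i j
    have := congrFun (hu1 i) j
    simp only [Function.comp_apply] at this
    simp only [hU, Matrix.map_apply, Matrix.of_apply, this, Matrix.one_apply, Pi.single_apply]
    by_cases hij : i = j
    · subst hij; simp
    · simp [hij, Ne.symm hij]
  have hdet : IsUnit U.det := by
    have h1 : π U.det = 1 := by
      rw [RingHom.map_det, RingHom.mapMatrix_apply, hUmap, Matrix.det_one]
    by_contra hnu
    have hmem : U.det ∈ IsLocalRing.maximalIdeal A := (IsLocalRing.mem_maximalIdeal _).mpr hnu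
    have hker : RingHom.ker π = IsLocalRing.maximalIdeal A :=
      IsLocalRing.eq_maximalIdeal (RingHom.ker_isMaximal_of_surjective π hπ)
    have h0 : π U.det = 0 := by
      rw [← RingHom.mem_ker, hker]; exact hmem
    rw [h0] at h1
    exact zero_ne_one h1
  have hv0 : v = 0 := by
    have hinj := Matrix.mulVec_injective_of_isUnit ((Matrix.isUnit_iff_isUnit_det U).mpr hdet)
    exact hinj (by rw [hUv, Matrix.mulVec_zero])
  have hx0 : x = 0 := by simpa [hv_def] using congrFun hv0 0
  have hy0 : y = 0 := by simpa [hv_def] using congrFun hv0 1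
  have hz0 : z = 0 := by simpa [hv_def] using congrFun hv0 2
  refine ⟨X 1 1, ?_⟩
  rw [hY, hx0, hy0, hz0]
  ext i j
  fin_cases i <;> fin_cases j <;> simp

/-- Schur lifting along the residue map of a local ring. -/
theorem centralizerIsScalar_of_residue (r : G →* Matrix (Fin 2) (Fin 2) A)
    (hres : CentralizerIsScalar (mapMatHom (IsLocalRing.residue A) r)) :
    CentralizerIsScalar r :=
  centralizerIsScalar_of_surjective (IsLocalRing.residue A) IsLocalRing.residue_surjective r hres


/-- If `M` conjugates `r` to `r'` and `r ≡ r'` modulo a proper ideal `I`, then `M` is a scalar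
modulo `I` (under the residual Schur hypothesis). -/
theorem exists_scalar_sub_mem_of_conj (π : A →+* k) (hπ : Function.Surjective π)
    (r r' : G →* Matrix (Fin 2) (Fin 2) A) (hres : CentralizerIsScalar (mapMatHom π r))
    (I : Ideal A) (hI : I ≠ ⊤) (hrr' : ∀ g i j, r g i j - r' g i j ∈ I)
    (M : Matrix (Fin 2) (Fin 2) A) (hM : ∀ g, M * r g = r' g * M) :
    ∃ c : A, ∀ i j, (M - Matrix.scalar (Fin 2) c) i j ∈ I := by
  have : Nontrivial (A ⧸ I) := Ideal.Quotient.nontrivial_iff.mpr hI
  have : IsLocalRing (A ⧸ I) :=
    IsLocalRing.of_surjective' (Ideal.Quotient.mk I) Ideal.Quotient.mk_surjective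
  have hker : RingHom.ker π = IsLocalRing.maximalIdeal A :=
    IsLocalRing.eq_maximalIdeal (RingHom.ker_isMaximal_of_surjective π hπ)
  have hIker : ∀ a ∈ I, π a = 0 := by
    intro a ha
    rw [← RingHom.mem_ker, hker]
    exact IsLocalRing.le_maximalIdeal hI ha
  set π' : A ⧸ I →+* k := Ideal.Quotient.lift I π hIker with hπ'
  have hπ's : Function.Surjective π' := by
    intro c
    obtain ⟨a, rfl⟩ := hπ c
    exact ⟨Ideal.Quotient.mk I a, by simp [π']⟩
  set q := Ideal.Quotient.mk I with hq
  have hrq : mapMatHom q r = mapMatHom q r' := by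
    ext g i j
    simp only [mapMatHom_apply, Matrix.map_apply]
    exact (Ideal.Quotient.eq).mpr (hrr' g i j)
  have hres' : CentralizerIsScalar (mapMatHom π' (mapMatHom q r)) := by
    have : mapMatHom π' (mapMatHom q r) = mapMatHom π r := by
      ext g i j
      simp [mapMatHom_apply, Matrix.map_apply, π', q]
    rw [this]; exact hres
  have hS := centralizerIsScalar_of_surjective π' hπ's (mapMatHom q r) hres'
  have hMq : ∀ g, M.map q * mapMatHom q r g = mapMatHom q r g * M.map q := by
    intro g
    have h1 : (M * r g).map q = (r' g * M).map q := by rw [hM g]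
    rw [Matrix.map_mul, Matrix.map_mul] at h1
    have h2 : (r' g).map q = (r g).map q := by
      have := congrArg (fun f => f g) hrq
      simpa [mapMatHom_apply] using this.symm
    rw [h2] at h1
    simpa [mapMatHom_apply] using h1
  obtain ⟨cbar, hc⟩ := hS (M.map q) hMq
  obtain ⟨c, rfl⟩ := Ideal.Quotient.mk_surjective cbar
  refine ⟨c, fun i j => ?_⟩
  rw [← Ideal.Quotient.eq_zero_iff_mem]
  have := congrFun (congrFun hc i) j
  simp only [Matrix.map_apply] at this
  rw [Matrix.sub_apply, map_sub, this]
  by_cases hij : i = j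
  · subst hij; simp
  · simp [hij]

end Local


section Prelude

open scoped TensorProduct

variable {k : Type} [Field k]

/-- Schur for the Prelude's `ResidualGaloisRep`: an endomorphism commuting with an absolutely
irreducible Galois action is a scalar. -/
theorem end_eq_smul_one_of_isAbsolutelyIrreducible (ρ : ResidualGaloisRep k)
    (h : ρ.IsAbsolutelyIrreducible) (X : Module.End k ρ.V)
    (hX : ∀ σ, X * ρ.ρ σ = ρ.ρ σ * X) : ∃ c : k, X = c • (1 : Module.End k ρ.V) := by
  classical
  set K := AlgebraicClosure k with hK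
  have hfr : Module.finrank K (K ⊗[k] ρ.V) = 2 := by
    rw [Module.finrank_baseChange, ρ.finrank_eq]
  have : Nontrivial (K ⊗[k] ρ.V) :=
    Module.nontrivial_of_finrank_pos (R := K) (by rw [hfr]; norm_num)
  set f : Module.End K (K ⊗[k] ρ.V) := X.baseChange K with hf
  obtain ⟨μ, hμ⟩ := Module.End.exists_eigenvalue f
  set W : Submodule K (K ⊗[k] ρ.V) := Module.End.eigenspace f μ with hW
  have hstab : ∀ σ, ∀ x ∈ W, (ρ.ρ σ).baseChange K x ∈ W := by
    intro σ x hx
    rw [hW, Module.End.mem_eigenspace_iff] at hx ⊢
    have hcomm : f * (ρ.ρ σ).baseChange K = (ρ.ρ σ).baseChange K * f := by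
      rw [hf, ← LinearMap.baseChange_mul, ← LinearMap.baseChange_mul, hX σ]
    have := congrArg (fun g => g x) hcomm
    simp only [Module.End.mul_apply] at this
    rw [this, hx, map_smul]
  have hWtop : W = ⊤ := (h W hstab).resolve_left hμ
  have hfμ : ∀ x, f x = μ • x := by
    intro x
    have hx : x ∈ W := by rw [hWtop]; trivial
    rwa [hW, Module.End.mem_eigenspace_iff] at hx
  -- descend via matrices
  let b : Module.Basis (Fin 2) k ρ.V := Module.finBasisOfFinrankEq k ρ.V ρ.finrank_eq
  set m := LinearMap.toMatrix b b X with hm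
  have hmat : m.map (algebraMap k K) = Matrix.scalar (Fin 2) μ := by
    rw [hm, ← LinearMap.toMatrix_baseChange K X b b]
    have : X.baseChange K = μ • (1 : Module.End K (K ⊗[k] ρ.V)) := by
      refine LinearMap.ext fun x => ?_
      rw [← hf, hfμ x]; rfl
    rw [this, map_smul]
    ext i j
    simp [LinearMap.toMatrix_one, Matrix.one_apply, Matrix.scalar_apply, Matrix.diagonal_apply,
      Matrix.smul_apply]
  have hinj : Function.Injective (algebraMap k K) := (algebraMap k K).injective
  have hm' : m = Matrix.scalar (Fin 2) (m 0 0) := by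
    ext i j
    apply hinj
    have h1 := congrFun (congrFun hmat i) j
    have h00 := congrFun (congrFun hmat 0) 0
    simp only [Matrix.map_apply] at h1 h00
    rw [h1]
    by_cases hij : i = j
    · subst hij
      simp only [Matrix.scalar_apply, Matrix.diagonal_apply_eq] at h00 ⊢
      rw [h00]
    · simp [Matrix.scalar_apply, Matrix.diagonal_apply_ne _ hij]
  refine ⟨m 0 0, ?_⟩
  apply (LinearMap.toMatrix b b).injective
  rw [← hm, hm', map_smul, LinearMap.toMatrix_one]
  ext i j
  simp [Matrix.scalar_apply, Matrix.diagonal_apply, Matrix.one_apply, Matrix.smul_apply]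

/-- Matrix form of the previous theorem, for the matrix representation attached to any basis. -/
theorem centralizerIsScalar_toMatrix_of_isAbsolutelyIrreducible (ρ : ResidualGaloisRep k)
    (h : ρ.IsAbsolutelyIrreducible) (b : Module.Basis (Fin 2) k ρ.V) :
    CentralizerIsScalar
      ((LinearMap.toMatrixAlgEquiv b : Module.End k ρ.V ≃ₐ[k] Matrix (Fin 2) (Fin 2) k).toAlgHom.toRingHom.toMonoidHom.comp
        ρ.ρ) := by
  intro X hX
  set e : Module.End k ρ.V ≃ₐ[k] Matrix (Fin 2) (Fin 2) k := LinearMap.toMatrixAlgEquiv b with he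
  obtain ⟨c, hc⟩ := end_eq_smul_one_of_isAbsolutelyIrreducible ρ h (e.symm X) (by
    intro σ
    apply e.injective
    rw [map_mul, map_mul, AlgEquiv.apply_symm_apply]
    exact hX σ)
  refine ⟨c, ?_⟩
  have := congrArg e hc
  rw [AlgEquiv.apply_symm_apply, map_smul, map_one] at this
  rw [this]
  ext i j
  simp [Matrix.scalar_apply, Matrix.diagonal_apply, Matrix.one_apply, Matrix.smul_apply]

end Prelude

end Fermat.Agent.S53.Schur
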