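import Mathlib
import Fermat.Prelude.Def_GaloisRep_DeformationCondition

/-!
# S53, package D (part 1): cardinality bounds for finite local test algebras

Interface-independent commutative algebra.
-/

set_option autoImplicit false
set_option linter.unusedSectionVars false
set_option linter.style.haveILetI false

namespace Fermat.Agent.S53.TangentBound

open IsLocalRing

section CardBound

variable {𝒪 : Type} [CommRing 𝒪] [IsLocalRing 𝒪]
variable {A : Type} [CommRing A] [IsLocalRing A] [Algebra 𝒪 A]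

/-- If `𝔪_A` is generated by `x_1, …, x_d` and the image of `𝔪_𝒪`, and `𝒪 → A/𝔪_A` is onto,
then `A = 𝒪[x_1, …, x_d] + 𝔪_A ^ j` for every `j`. -/
theorem adjoin_sup_maximalIdeal_pow_eq_top
    (hsurj : Function.Surjective (IsLocalRing.residue A ∘ algebraMap 𝒪 A))
    {d : ℕ} (x : Fin d → A)
    (hgen : maximalIdeal A =
      Ideal.span (Set.range x ∪ (algebraMap 𝒪 A) '' (maximalIdeal 𝒪 : Set 𝒪)))
    (j : ℕ) :
    Subalgebra.toSubmodule (Algebra.adjoin 𝒪 (Set.range x)) ⊔
      ((maximalIdeal A) ^ j).restrictScalars 𝒪 = ⊤ := by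
  induction j with
  | zero =>
    rw [pow_zero, Ideal.one_eq_top]
    rw [eq_top_iff]
    intro a _
    exact Submodule.mem_sup_right (by simp)
  | succ j ih =>
    set A' := Algebra.adjoin 𝒪 (Set.range x) with hA'
    set P := Subalgebra.toSubmodule A' ⊔ ((maximalIdeal A) ^ (j + 1)).restrictScalars 𝒪 with hP
    -- generators lie in A' and in 𝔪_A
    have hgA' : ∀ g ∈ Set.range x ∪ (algebraMap 𝒪 A) '' (maximalIdeal 𝒪 : Set 𝒪), g ∈ A' := by
      rintro g (hg | ⟨p, -, rfl⟩)
      · exact Algebra.subset_adjoin hg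
      · exact Subalgebra.algebraMap_mem _ _
    have hgm : ∀ g ∈ Set.range x ∪ (algebraMap 𝒪 A) '' (maximalIdeal 𝒪 : Set 𝒪),
        g ∈ maximalIdeal A := by
      intro g hg
      rw [hgen]
      exact Ideal.subset_span hg
    -- key: c * g ∈ P for every generator g and every c
    have key : ∀ g ∈ Set.range x ∪ (algebraMap 𝒪 A) '' (maximalIdeal 𝒪 : Set 𝒪),
        ∀ c : A, c * g ∈ P := by
      intro g hg c
      have hc : c ∈ Subalgebra.toSubmodule A' ⊔ ((maximalIdeal A) ^ j).restrictScalars 𝒪 := by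
        rw [ih]; trivial
      obtain ⟨a', ha', n, hn, rfl⟩ := Submodule.mem_sup.mp hc
      rw [add_mul]
      refine Submodule.add_mem _ (Submodule.mem_sup_left ?_) (Submodule.mem_sup_right ?_)
      · exact A'.mul_mem ha' (hgA' g hg)
      · show n * g ∈ (maximalIdeal A) ^ (j + 1)
        rw [pow_succ]
        exact Ideal.mul_mem_mul hn (hgm g hg)
    have hm : ∀ m ∈ maximalIdeal A, ∀ c : A, c * m ∈ P := by
      intro m hm
      rw [hgen] at hm
      induction hm using Submodule.span_induction with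
      | mem g hg => exact key g hg
      | zero => intro c; rw [mul_zero]; exact Submodule.zero_mem _
      | add m₁ m₂ _ _ h₁ h₂ => intro c; rw [mul_add]; exact Submodule.add_mem _ (h₁ c) (h₂ c)
      | smul r m _ h => intro c; rw [smul_eq_mul, ← mul_assoc]; exact h (c * r)
    rw [eq_top_iff]
    intro a _
    obtain ⟨o, ho⟩ := hsurj (IsLocalRing.residue A a)
    have hmem : a - algebraMap 𝒪 A o ∈ maximalIdeal A := by
      rw [← IsLocalRing.residue_eq_zero_iff, map_sub, sub_eq_zero]
      exact ho.symm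
    have h1 := hm _ hmem 1
    rw [one_mul] at h1
    have h2 : algebraMap 𝒪 A o ∈ P :=
      Submodule.mem_sup_left (Subalgebra.algebraMap_mem A' o)
    have := Submodule.add_mem _ h1 h2
    rwa [sub_add_cancel] at this

/-- With nilpotent maximal ideal, `A` is generated as an `𝒪`-algebra by `x_1, …, x_d`. -/
theorem adjoin_eq_top_of_maximalIdeal_pow_eq_bot
    (hsurj : Function.Surjective (IsLocalRing.residue A ∘ algebraMap 𝒪 A))
    {d : ℕ} (x : Fin d → A)
    (hgen : maximalIdeal A =
      Ideal.span (Set.range x ∪ (algebraMap 𝒪 A) '' (maximalIdeal 𝒪 : Set 𝒪)))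
    {n : ℕ} (hn : maximalIdeal A ^ n = ⊥) :
    Algebra.adjoin 𝒪 (Set.range x) = ⊤ := by
  have h := adjoin_sup_maximalIdeal_pow_eq_top hsurj x hgen n
  rw [hn] at h
  have h2 : ((⊥ : Ideal A).restrictScalars 𝒪 : Submodule 𝒪 A) = ⊥ := by
    ext a; simp
  rw [h2, sup_bot_eq] at h
  exact Subalgebra.toSubmodule_injective (by rw [h]; rfl)

/-- The monomial `∏ x_i ^ e_i` attached to a bounded exponent vector. -/
def boundedMonomial {d n : ℕ} (x : Fin d → A) (e : Fin d → Fin n) : A :=
  ∏ i, x i ^ (e i : ℕ)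

/-- The `𝒪`-linear map `c ↦ ∑_e c_e • x^e`. -/
noncomputable def monomialComb {d n : ℕ} (x : Fin d → A) :
    ((Fin d → Fin n) → 𝒪) →ₗ[𝒪] A :=
  Fintype.linearCombination 𝒪 (boundedMonomial (n := n) x)

theorem monomialComb_apply {d n : ℕ} (x : Fin d → A) (c : (Fin d → Fin n) → 𝒪) :
    monomialComb (𝒪 := 𝒪) x c = ∑ e, c e • boundedMonomial x e := by
  simp [monomialComb, Fintype.linearCombination_apply]

theorem monomialComb_surjective
    (hsurj : Function.Surjective (IsLocalRing.residue A ∘ algebraMap 𝒪 A))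
    {d : ℕ} (x : Fin d → A)
    (hgen : maximalIdeal A =
      Ideal.span (Set.range x ∪ (algebraMap 𝒪 A) '' (maximalIdeal 𝒪 : Set 𝒪)))
    {n : ℕ} (hn : maximalIdeal A ^ n = ⊥) :
    Function.Surjective (monomialComb (𝒪 := 𝒪) (n := n) x) := by
  intro a
  have hxn : ∀ i, ∀ m, n ≤ m → x i ^ m = 0 := by
    intro i m hm
    have hxi : x i ∈ maximalIdeal A := by
      rw [hgen]; exact Ideal.subset_span (Or.inl ⟨i, rfl⟩)
    have : x i ^ m ∈ maximalIdeal A ^ n :=
      Ideal.pow_le_pow_right hm (Ideal.pow_mem_pow hxi m)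
    rwa [hn, Ideal.mem_bot] at this
  have htop := adjoin_eq_top_of_maximalIdeal_pow_eq_bot hsurj x hgen hn
  have ha : a ∈ Algebra.adjoin 𝒪 (Set.range x) := by rw [htop]; trivial
  rw [Algebra.adjoin_range_eq_range_aeval] at ha
  obtain ⟨P, rfl⟩ := ha
  rw [← LinearMap.mem_range]
  show MvPolynomial.aeval x P ∈ _
  rw [MvPolynomial.aeval_def, MvPolynomial.eval₂_eq']
  refine Submodule.sum_mem _ fun e _ => ?_
  by_cases he : ∀ i, e i < n
  · refine ⟨Pi.single (fun i => ⟨e i, he i⟩) (P.coeff e), ?_⟩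
    rw [monomialComb_apply, Finset.sum_eq_single (fun i => ⟨e i, he i⟩)]
    · rw [Pi.single_eq_same, Algebra.smul_def]; rfl
    · intro b _ hb
      rw [Pi.single_eq_of_ne hb, zero_smul]
    · intro h; exact absurd (Finset.mem_univ _) h
  · simp only [not_forall, not_lt] at he
    obtain ⟨i, hi⟩ := he
    rw [Finset.prod_eq_zero (Finset.mem_univ i) (hxn i _ hi), mul_zero]
    exact Submodule.zero_mem _

/-- The explicit finite type bounding the size of `A`. -/
abbrev BoundType (𝒪 : Type) [CommRing 𝒪] [IsLocalRing 𝒪] (n d : ℕ) : Type :=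
  (Fin d → Fin n) → 𝒪 ⧸ (maximalIdeal 𝒪) ^ n

theorem exists_injective_boundType
    (hsurj : Function.Surjective (IsLocalRing.residue A ∘ algebraMap 𝒪 A))
    {d : ℕ} (x : Fin d → A)
    (hgen : maximalIdeal A =
      Ideal.span (Set.range x ∪ (algebraMap 𝒪 A) '' (maximalIdeal 𝒪 : Set 𝒪)))
    {n : ℕ} (hn : maximalIdeal A ^ n = ⊥) :
    ∃ f : A → BoundType 𝒪 n d, Function.Injective f := by
  have hΨ := monomialComb_surjective hsurj x hgen hn
  -- elements of `𝔪_𝒪 ^ n` act as zero on `A`
  have hkill : ∀ p ∈ (maximalIdeal 𝒪) ^ n, ∀ y : A, p • y = 0 := by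
    intro p hp y
    have hle : (maximalIdeal 𝒪).map (algebraMap 𝒪 A) ≤ maximalIdeal A := by
      rw [Ideal.map_le_iff_le_comap]
      intro q hq
      rw [Ideal.mem_comap, hgen]
      exact Ideal.subset_span (Or.inr ⟨q, hq, rfl⟩)
    have h1 : algebraMap 𝒪 A p ∈ maximalIdeal A ^ n := by
      have := Ideal.mem_map_of_mem (algebraMap 𝒪 A) hp
      rw [Ideal.map_pow] at this
      exact Ideal.pow_right_mono hle n this
    rw [hn, Ideal.mem_bot] at h1
    rw [Algebra.smul_def, h1, zero_mul]
  refine ⟨fun a e => Ideal.Quotient.mk _ (Function.surjInv hΨ a e), ?_⟩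
  intro a a' h
  have h1 : ∀ e, Function.surjInv hΨ a e - Function.surjInv hΨ a' e ∈ (maximalIdeal 𝒪) ^ n := by
    intro e
    have := congrFun h e
    exact Ideal.Quotient.eq.mp this
  have h2 : monomialComb (𝒪 := 𝒪) (n := n) x
      (Function.surjInv hΨ a - Function.surjInv hΨ a') = 0 := by
    rw [monomialComb_apply]
    refine Finset.sum_eq_zero fun e _ => ?_
    exact hkill _ (h1 e) _
  rw [map_sub, Function.surjInv_eq hΨ, Function.surjInv_eq hΨ, sub_eq_zero] at h2
  exact h2

/-- **Uniform cardinality bound.** -/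
theorem natCard_le_of_generators [Finite (𝒪 ⧸ (maximalIdeal 𝒪) ^ (1 : ℕ))]
    [IsNoetherianRing 𝒪]
    (hsurj : Function.Surjective (IsLocalRing.residue A ∘ algebraMap 𝒪 A))
    {d : ℕ} (x : Fin d → A)
    (hgen : maximalIdeal A =
      Ideal.span (Set.range x ∪ (algebraMap 𝒪 A) '' (maximalIdeal 𝒪 : Set 𝒪)))
    {n : ℕ} (hn : maximalIdeal A ^ n = ⊥) :
    Nat.card A ≤ Nat.card (BoundType 𝒪 n d) := by
  haveI : Finite (𝒪 ⧸ maximalIdeal 𝒪) := by
    have : Finite (𝒪 ⧸ (maximalIdeal 𝒪) ^ (1 : ℕ)) := inferInstance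
    rwa [pow_one] at this
  haveI : Finite (𝒪 ⧸ (maximalIdeal 𝒪) ^ n) :=
    Ideal.finite_quotient_pow (IsNoetherian.noetherian (maximalIdeal 𝒪)) n
  obtain ⟨f, hf⟩ := exists_injective_boundType hsurj x hgen hn
  exact Nat.card_le_card_of_injective f hf

end CardBound

section DualNumberHoms

variable {𝒪 : Type} [CommRing 𝒪] [IsLocalRing 𝒪]
variable {A : Type} [CommRing A] [IsLocalRing A] [Algebra 𝒪 A] [IsLocalHom (algebraMap 𝒪 A)]

/-- The `𝒪`-algebra structure on `k[ε]` used by `GaloisRep.TangentFinite`. -/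
@[reducible] noncomputable def dualNumberAlgebra (𝒪 : Type) [CommRing 𝒪] [IsLocalRing 𝒪] :
    Algebra 𝒪 (DualNumber (ResidueField 𝒪)) :=
  ((algebraMap (ResidueField 𝒪) (DualNumber (ResidueField 𝒪))).comp
      (algebraMap 𝒪 (ResidueField 𝒪))).toAlgebra

theorem algebraMap_mem_maximalIdeal {p : 𝒪} (hp : p ∈ maximalIdeal 𝒪) :
    algebraMap 𝒪 A p ∈ maximalIdeal A :=
  map_nonunit (algebraMap 𝒪 A) p hp

theorem mem_maximalIdeal_of_algebraMap_mem {p : 𝒪} (hp : algebraMap 𝒪 A p ∈ maximalIdeal A) :
    p ∈ maximalIdeal 𝒪 := by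
  by_contra h
  have hu : IsUnit p := by
    by_contra h'
    exact h ((IsLocalRing.mem_maximalIdeal p).mpr h')
  exact ((IsLocalRing.mem_maximalIdeal _).mp hp) (hu.map (algebraMap 𝒪 A))

variable (𝒪 A) in
/-- The image of `𝔪_𝒪` in the cotangent space of `A`. -/
noncomputable def baseCotangent : Submodule (ResidueField A) (CotangentSpace A) :=
  Submodule.span (ResidueField A) (Set.range fun p : maximalIdeal 𝒪 =>
    (maximalIdeal A).toCotangent ⟨algebraMap 𝒪 A p, algebraMap_mem_maximalIdeal p.2⟩)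

variable (𝒪 A) in
/-- The relative cotangent space `𝔪_A / (𝔪_A² + 𝔪_𝒪 A)`. -/
abbrev RelCotangent : Type := CotangentSpace A ⧸ baseCotangent 𝒪 A

/-- The class of an element of `𝔪_A` in the relative cotangent space. -/
noncomputable def relClass (m : maximalIdeal A) : RelCotangent 𝒪 A :=
  Submodule.Quotient.mk ((maximalIdeal A).toCotangent m)

theorem relClass_surjective : Function.Surjective (relClass (𝒪 := 𝒪) (A := A)) := by
  intro v
  obtain ⟨c, rfl⟩ := Submodule.Quotient.mk_surjective _ v
  obtain ⟨m, rfl⟩ := Ideal.toCotangent_surjective _ c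
  exact ⟨m, rfl⟩

theorem relClass_add (m m' : maximalIdeal A) :
    relClass (𝒪 := 𝒪) (m + m') = relClass m + relClass m' := by
  simp [relClass]

theorem relClass_sub (m m' : maximalIdeal A) :
    relClass (𝒪 := 𝒪) (m - m') = relClass m - relClass m' := by
  simp [relClass]

theorem relClass_smul (a : A) (m : maximalIdeal A) :
    relClass (𝒪 := 𝒪) (a • m) = residue A a • relClass m := by
  simp only [relClass, map_smul]
  rfl

theorem relClass_algebraMap {p : 𝒪} (hp : p ∈ maximalIdeal 𝒪) :
    relClass (𝒪 := 𝒪) (A := A) ⟨algebraMap 𝒪 A p, algebraMap_mem_maximalIdeal hp⟩ = 0 := by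
  rw [relClass, Submodule.Quotient.mk_eq_zero]
  exact Submodule.subset_span ⟨⟨p, hp⟩, rfl⟩

theorem relClass_eq_of_sub_eq_algebraMap {m m' : maximalIdeal A} {p : 𝒪}
    (h : (m : A) - m' = algebraMap 𝒪 A p) : relClass (𝒪 := 𝒪) m = relClass m' := by
  have hp : p ∈ maximalIdeal 𝒪 := by
    apply mem_maximalIdeal_of_algebraMap_mem (A := A)
    rw [← h]
    exact Submodule.sub_mem _ m.2 m'.2
  have : m - m' = ⟨algebraMap 𝒪 A p, algebraMap_mem_maximalIdeal hp⟩ := Subtype.ext h
  rw [← sub_eq_zero, ← relClass_sub, this, relClass_algebraMap hp]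

end DualNumberHoms

section Derivation

variable {𝒪 : Type} [CommRing 𝒪] [IsLocalRing 𝒪]
variable {A : Type} [CommRing A] [IsLocalRing A] [Algebra 𝒪 A] [IsLocalHom (algebraMap 𝒪 A)]
variable (hsurj : Function.Surjective (IsLocalRing.residue A ∘ algebraMap 𝒪 A))

theorem sub_algebraMap_mem_maximalIdeal {a : A} {o : 𝒪}
    (ho : residue A (algebraMap 𝒪 A o) = residue A a) :
    a - algebraMap 𝒪 A o ∈ maximalIdeal A := by
  rw [← residue_eq_zero_iff, map_sub, ho, sub_self]

/-- The universal "relative derivation" `A → 𝔪_A / (𝔪_A² + 𝔪_𝒪 A)`, `a ↦ [a - o_a]`. -/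
noncomputable def relD (a : A) : RelCotangent 𝒪 A :=
  relClass ⟨a - algebraMap 𝒪 A (Function.surjInv hsurj (residue A a)),
    sub_algebraMap_mem_maximalIdeal (Function.surjInv_eq hsurj _)⟩

theorem relD_eq (a : A) (o : 𝒪) (ho : residue A (algebraMap 𝒪 A o) = residue A a) :
    relD hsurj a = relClass ⟨a - algebraMap 𝒪 A o, sub_algebraMap_mem_maximalIdeal ho⟩ := by
  apply relClass_eq_of_sub_eq_algebraMap (p := o - Function.surjInv hsurj (residue A a))
  simp only [map_sub]
  ring

theorem relD_add (a b : A) : relD hsurj (a + b) = relD hsurj a + relD hsurj b := by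
  have ha := Function.surjInv_eq hsurj (residue A a)
  have hb := Function.surjInv_eq hsurj (residue A b)
  simp only [Function.comp_apply] at ha hb
  rw [relD_eq hsurj (a + b) (Function.surjInv hsurj (residue A a) +
    Function.surjInv hsurj (residue A b)) (by rw [map_add, map_add, ha, hb, map_add]),
    relD_eq hsurj a _ ha, relD_eq hsurj b _ hb, ← relClass_add]
  congr 1
  apply Subtype.ext
  simp only [map_add, Submodule.coe_add]
  ring

theorem relD_mul (a b : A) :
    relD hsurj (a * b) = residue A a • relD hsurj b + residue A b • relD hsurj a := by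
  obtain ⟨oa, ha⟩ : ∃ o, residue A (algebraMap 𝒪 A o) = residue A a := hsurj _
  obtain ⟨ob, hb⟩ : ∃ o, residue A (algebraMap 𝒪 A o) = residue A b := hsurj _
  rw [relD_eq hsurj (a * b) (oa * ob) (by rw [map_mul, map_mul, ha, hb, map_mul]),
    relD_eq hsurj a oa ha, relD_eq hsurj b ob hb]
  have h2 : residue A b • relClass (𝒪 := 𝒪)
      (⟨a - algebraMap 𝒪 A oa, sub_algebraMap_mem_maximalIdeal ha⟩ : maximalIdeal A) =
      relClass (algebraMap 𝒪 A ob •
        (⟨a - algebraMap 𝒪 A oa, sub_algebraMap_mem_maximalIdeal ha⟩ : maximalIdeal A)) := by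
    rw [relClass_smul, hb]
  rw [h2, ← relClass_smul, ← relClass_add]
  congr 1
  apply Subtype.ext
  simp only [map_mul, Submodule.coe_add, Submodule.coe_smul, smul_eq_mul]
  ring

theorem relD_algebraMap (o : 𝒪) : relD hsurj (algebraMap 𝒪 A o) = 0 := by
  rw [relD_eq hsurj _ o rfl]
  have : (⟨algebraMap 𝒪 A o - algebraMap 𝒪 A o, sub_algebraMap_mem_maximalIdeal rfl⟩ :
      maximalIdeal A) = 0 := Subtype.ext (sub_self _)
  rw [this]
  simp [relClass]

theorem relD_of_mem (m : maximalIdeal A) : relD hsurj (m : A) = relClass m := by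
  have h0 : residue A (algebraMap 𝒪 A 0) = residue A (m : A) := by
    rw [map_zero, map_zero]
    exact ((residue_eq_zero_iff _).mpr m.2).symm
  rw [relD_eq hsurj _ 0 h0]
  congr 1
  apply Subtype.ext
  simp

end Derivation

section Homs

variable {𝒪 : Type} [CommRing 𝒪] [IsLocalRing 𝒪]
variable {A : Type} [CommRing A] [IsLocalRing A] [Algebra 𝒪 A] [IsLocalHom (algebraMap 𝒪 A)]
variable (hsurj : Function.Surjective (IsLocalRing.residue A ∘ algebraMap 𝒪 A))

include hsurj in
theorem residueFieldMap_bijective :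
    Function.Bijective (ResidueField.map (algebraMap 𝒪 A)) := by
  refine ⟨RingHom.injective _, fun y => ?_⟩
  obtain ⟨a, rfl⟩ := IsLocalRing.residue_surjective y
  obtain ⟨o, ho⟩ := hsurj (residue A a)
  exact ⟨residue 𝒪 o, by rw [ResidueField.map_residue]; exact ho⟩

/-- The identification `k = 𝒪/𝔪_𝒪 ≃ A/𝔪_A`. -/
noncomputable def residueFieldEquiv : ResidueField 𝒪 ≃+* ResidueField A :=
  RingEquiv.ofBijective _ (residueFieldMap_bijective hsurj)

theorem residueFieldEquiv_residue (o : 𝒪) :
    residueFieldEquiv hsurj (residue 𝒪 o) = residue A (algebraMap 𝒪 A o) := by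
  simp [residueFieldEquiv, ResidueField.map_residue]

/-- The residue map `A → k`. -/
noncomputable def resk : A →+* ResidueField 𝒪 :=
  ((residueFieldEquiv hsurj).symm : ResidueField A →+* ResidueField 𝒪).comp (residue A)

theorem resk_apply (a : A) : resk hsurj a = (residueFieldEquiv hsurj).symm (residue A a) := rfl

theorem resk_algebraMap (o : 𝒪) : resk hsurj (algebraMap 𝒪 A o) = residue 𝒪 o := by
  rw [resk_apply, RingEquiv.symm_apply_eq, residueFieldEquiv_residue]

/-- The `k`-valued `𝒪`-derivation attached to a functional on the relative cotangent space. -/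
noncomputable def derivOf (lam : Module.Dual (ResidueField A) (RelCotangent 𝒪 A)) (a : A) :
    ResidueField 𝒪 :=
  (residueFieldEquiv hsurj).symm (lam (relD hsurj a))

theorem derivOf_add (lam : Module.Dual (ResidueField A) (RelCotangent 𝒪 A)) (a b : A) :
    derivOf hsurj lam (a + b) = derivOf hsurj lam a + derivOf hsurj lam b := by
  simp [derivOf, relD_add]

theorem derivOf_mul (lam : Module.Dual (ResidueField A) (RelCotangent 𝒪 A)) (a b : A) :
    derivOf hsurj lam (a * b) =
      resk hsurj a * derivOf hsurj lam b + resk hsurj b * derivOf hsurj lam a := by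
  simp [derivOf, relD_mul, resk_apply]

theorem derivOf_algebraMap (lam : Module.Dual (ResidueField A) (RelCotangent 𝒪 A)) (o : 𝒪) :
    derivOf hsurj lam (algebraMap 𝒪 A o) = 0 := by
  simp [derivOf, relD_algebraMap]

theorem derivOf_of_mem (lam : Module.Dual (ResidueField A) (RelCotangent 𝒪 A))
    (m : maximalIdeal A) :
    derivOf hsurj lam (m : A) = (residueFieldEquiv hsurj).symm (lam (relClass m)) := by
  simp [derivOf, relD_of_mem]

/-- The `𝒪`-algebra map `A → k[ε]`, `a ↦ ā + λ(d a) ε`. -/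
noncomputable def dualNumberHom (lam : Module.Dual (ResidueField A) (RelCotangent 𝒪 A)) :
    letI := dualNumberAlgebra 𝒪
    A →ₐ[𝒪] DualNumber (ResidueField 𝒪) :=
  letI := dualNumberAlgebra 𝒪
  { toFun := fun a => TrivSqZeroExt.inl (resk hsurj a) + TrivSqZeroExt.inr (derivOf hsurj lam a)
    map_one' := by
      have : derivOf hsurj lam (1 : A) = 0 := by
        have := derivOf_algebraMap hsurj lam (1 : 𝒪)
        rwa [map_one] at this
      apply TrivSqZeroExt.ext <;> simp [this]
    map_mul' := fun a b => by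
      apply TrivSqZeroExt.ext
      · simp
      · simp [derivOf_mul, mul_comm]
    map_zero' := by
      have : derivOf hsurj lam (0 : A) = 0 := by
        have := derivOf_algebraMap hsurj lam (0 : 𝒪)
        rwa [map_zero] at this
      apply TrivSqZeroExt.ext <;> simp [this]
    map_add' := fun a b => by
      apply TrivSqZeroExt.ext
      · simp
      · simp [derivOf_add]
    commutes' := fun o => by
      show TrivSqZeroExt.inl (resk hsurj (algebraMap 𝒪 A o)) +
        TrivSqZeroExt.inr (derivOf hsurj lam (algebraMap 𝒪 A o)) = TrivSqZeroExt.inl (residue 𝒪 o)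
      rw [resk_algebraMap, derivOf_algebraMap]
      simp }

theorem dualNumberHom_apply (lam : Module.Dual (ResidueField A) (RelCotangent 𝒪 A)) (a : A) :
    letI := dualNumberAlgebra 𝒪
    dualNumberHom hsurj lam a =
      TrivSqZeroExt.inl (resk hsurj a) + TrivSqZeroExt.inr (derivOf hsurj lam a) := rfl

theorem dualNumberHom_injective :
    letI := dualNumberAlgebra 𝒪
    Function.Injective (dualNumberHom (𝒪 := 𝒪) (A := A) hsurj) := by
  letI := dualNumberAlgebra 𝒪
  intro lam lam' h
  apply LinearMap.ext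
  intro v
  obtain ⟨m, rfl⟩ := relClass_surjective v
  have h1 := congrArg TrivSqZeroExt.snd (DFunLike.congr_fun h (m : A))
  rw [dualNumberHom_apply, dualNumberHom_apply] at h1
  simp only [TrivSqZeroExt.snd_add, TrivSqZeroExt.snd_inl, TrivSqZeroExt.snd_inr, zero_add,
    derivOf_of_mem] at h1
  exact (residueFieldEquiv hsurj).symm.injective h1

end Homs

section Generators

variable {𝒪 : Type} [CommRing 𝒪] [IsLocalRing 𝒪]
variable {A : Type} [CommRing A] [IsLocalRing A] [Algebra 𝒪 A] [IsLocalHom (algebraMap 𝒪 A)]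
variable (hsurj : Function.Surjective (IsLocalRing.residue A ∘ algebraMap 𝒪 A))

include hsurj in
theorem finite_residueField_of_finite [Finite A] : Finite (ResidueField 𝒪) := by
  haveI : Finite (ResidueField A) :=
    Finite.of_surjective (residue A) IsLocalRing.residue_surjective
  exact Finite.of_equiv (ResidueField A) (residueFieldEquiv hsurj).symm.toEquiv

include hsurj in
theorem finite_algHom_dualNumber [Finite A] :
    letI := dualNumberAlgebra 𝒪
    Finite (A →ₐ[𝒪] DualNumber (ResidueField 𝒪)) := by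
  letI := dualNumberAlgebra 𝒪
  haveI := finite_residueField_of_finite hsurj
  haveI : Finite (DualNumber (ResidueField 𝒪)) :=
    inferInstanceAs (Finite (ResidueField 𝒪 × ResidueField 𝒪))
  exact Finite.of_injective (fun f => (f : A → DualNumber (ResidueField 𝒪)))
    DFunLike.coe_injective

include hsurj in
/-- The relative cotangent space is no bigger than the set of `k[ε]`-points. -/
theorem natCard_relCotangent_le [Finite A] :
    letI := dualNumberAlgebra 𝒪
    Nat.card (RelCotangent 𝒪 A) ≤ Nat.card (A →ₐ[𝒪] DualNumber (ResidueField 𝒪)) := by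
  letI := dualNumberAlgebra 𝒪
  haveI := finite_algHom_dualNumber hsurj
  haveI : IsNoetherianRing A := inferInstance
  haveI : Module.Finite (ResidueField A) (RelCotangent 𝒪 A) := inferInstance
  have h1 : Nat.card (Module.Dual (ResidueField A) (RelCotangent 𝒪 A)) =
      Nat.card (RelCotangent 𝒪 A) := by
    rw [Module.natCard_eq_pow_finrank (K := ResidueField A),
      Module.natCard_eq_pow_finrank (K := ResidueField A) (V := RelCotangent 𝒪 A),
      Subspace.dual_finrank_eq]
  rw [← h1]
  exact Nat.card_le_card_of_injective _ (dualNumberHom_injective hsurj)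

include hsurj in
/-- **Few `k[ε]`-points ⇒ few generators of `𝔪_A` modulo `𝔪_𝒪`.** -/
theorem exists_generators_of_natCard_algHom_le [Finite A] (T : ℕ)
    (hT : letI := dualNumberAlgebra 𝒪
      Nat.card (A →ₐ[𝒪] DualNumber (ResidueField 𝒪)) ≤ T) :
    ∃ x : Fin T → A, maximalIdeal A =
      Ideal.span (Set.range x ∪ (algebraMap 𝒪 A) '' (maximalIdeal 𝒪 : Set 𝒪)) := by
  have hcard : Nat.card (RelCotangent 𝒪 A) ≤ T := (natCard_relCotangent_le hsurj).trans hT
  haveI : IsNoetherianRing A := inferInstance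
  haveI : Finite (RelCotangent 𝒪 A) := by
    haveI : Finite (CotangentSpace A) :=
      Finite.of_surjective _ (Ideal.toCotangent_surjective (maximalIdeal A))
    exact Finite.of_surjective _ (Submodule.Quotient.mk_surjective (baseCotangent 𝒪 A))
  let e : RelCotangent 𝒪 A ≃ Fin (Nat.card (RelCotangent 𝒪 A)) := Finite.equivFin _
  let y : RelCotangent 𝒪 A → maximalIdeal A := Function.surjInv (relClass_surjective (𝒪 := 𝒪))
  have hy : ∀ v, relClass (𝒪 := 𝒪) (y v) = v := Function.surjInv_eq _
  let x : Fin T → A := fun i =>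
    if h : (i : ℕ) < Nat.card (RelCotangent 𝒪 A) then (y (e.symm ⟨i, h⟩) : A) else 0
  have hxm : ∀ i, x i ∈ maximalIdeal A := by
    intro i
    simp only [x]
    split_ifs
    · exact (y _).2
    · exact Submodule.zero_mem _
  have hxv : ∀ v : RelCotangent 𝒪 A, (y v : A) ∈ Set.range x := by
    intro v
    refine ⟨⟨e v, (e v).2.trans_le hcard⟩, ?_⟩
    simp only [x]
    rw [dif_pos (e v).2]
    simp
  refine ⟨x, ?_⟩
  set U : Set A := Set.range x ∪ (algebraMap 𝒪 A) '' (maximalIdeal 𝒪 : Set 𝒪) with hU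
  have hUm : U ⊆ maximalIdeal A := by
    rintro u (⟨i, rfl⟩ | ⟨p, hp, rfl⟩)
    · exact hxm i
    · exact algebraMap_mem_maximalIdeal hp
  let s : Set (maximalIdeal A) := {m | (m : A) ∈ U}
  have hspan : Submodule.span (ResidueField A) ((maximalIdeal A).toCotangent '' s) = ⊤ := by
    set S := Submodule.span (ResidueField A) ((maximalIdeal A).toCotangent '' s) with hS
    have hW : baseCotangent 𝒪 A ≤ S := by
      apply Submodule.span_le.mpr
      rintro _ ⟨p, rfl⟩
      apply Submodule.subset_span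
      exact ⟨⟨algebraMap 𝒪 A p, algebraMap_mem_maximalIdeal p.2⟩, Or.inr ⟨p, p.2, rfl⟩, rfl⟩
    rw [eq_top_iff]
    intro c _
    have h1 : (maximalIdeal A).toCotangent (y (Submodule.Quotient.mk c)) ∈ S :=
      Submodule.subset_span ⟨y _, Or.inl (hxv _), rfl⟩
    have h2 : c - (maximalIdeal A).toCotangent (y (Submodule.Quotient.mk c)) ∈ S := by
      apply hW
      rw [← Submodule.Quotient.eq]
      exact (hy _).symm
    have := Submodule.add_mem _ h2 h1
    rwa [sub_add_cancel] at this
  have hspanA : Submodule.span A s = ⊤ := CotangentSpace.span_image_eq_top_iff.mp hspan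
  have himg : Subtype.val '' s = U := by
    ext u
    constructor
    · rintro ⟨m, hm, rfl⟩; exact hm
    · intro hu; exact ⟨⟨u, hUm hu⟩, hu, rfl⟩
  have := congrArg (Submodule.map (maximalIdeal A).subtype) hspanA
  rw [Submodule.map_span, Submodule.map_subtype_top] at this
  rw [← himg]
  exact this.symm

include hsurj in
/-- **(M4), algebra part.** A finite local `𝒪`-algebra with residue field `k`, with at most `T`
points in `k[ε]` and with `𝔪_A ^ n = 0`, has cardinality bounded in terms of `(𝒪, n, T)` only. -/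
theorem natCard_le_of_natCard_algHom_le [Finite A] [IsNoetherianRing 𝒪]
    (T : ℕ)
    (hT : letI := dualNumberAlgebra 𝒪
      Nat.card (A →ₐ[𝒪] DualNumber (ResidueField 𝒪)) ≤ T)
    {n : ℕ} (hn : maximalIdeal A ^ n = ⊥) :
    Nat.card A ≤ Nat.card (BoundType 𝒪 n T) := by
  obtain ⟨x, hx⟩ := exists_generators_of_natCard_algHom_le hsurj T hT
  haveI : Finite (𝒪 ⧸ (maximalIdeal 𝒪) ^ (1 : ℕ)) := by
    rw [pow_one]
    exact finite_residueField_of_finite hsurj
  exact natCard_le_of_generators hsurj x hx hn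

end Generators

end Fermat.Agent.S53.TangentBound
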