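/-
S53 work package WP-T (Artinian test algebras: finiteness, subalgebras, quotients, fibre products).
Pure commutative algebra.  Statements by helper53 (owner of S53); proofs by helper29, via the
toolkit `Fermat.Agent.S53.TestAlgebra`.
-/
import Mathlib
import Fermat.Agent.S53.TestAlgebra

set_option autoImplicit false
set_option linter.unusedSectionVars false

namespace Fermat.Agent.S53

open IsLocalRing GaloisRep

variable {𝒪 : Type} [CommRing 𝒪] [IsLocalRing 𝒪]

/-- WP-T0. -/
theorem test_residueField : IsArtinianTestAlgebra 𝒪 (ResidueField 𝒪) :=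
  isArtinianTestAlgebra_residueField 𝒪

section
variable {A : Type} [CommRing A] [IsLocalRing A] [Algebra 𝒪 A]

/-- WP-T1: a test algebra is a finite ring (uses finiteness of the residue field). -/
theorem finite_of_test [Finite (ResidueField 𝒪)] (h : IsArtinianTestAlgebra 𝒪 A) : Finite A :=
  finite_of_isArtinianTestAlgebra h

/-- WP-T6. -/
theorem exists_pow_eq_bot_of_test (h : IsArtinianTestAlgebra 𝒪 A) :
    ∃ n : ℕ, maximalIdeal A ^ n = ⊥ := by
  have := h.isArtinian
  exact exists_maximalIdeal_pow_eq_bot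

/-- In a finite ring, an element of `B` which becomes a unit under an injective ring
homomorphism `B → A` is already a unit. -/
theorem isUnit_of_injective_of_finite {A B : Type} [CommRing A] [CommRing B] [Finite A]
    (ι : B →+* A) (hι : Function.Injective ι) (b : B) (hb : IsUnit (ι b)) : IsUnit b := by
  obtain ⟨n, hn, hpow⟩ := (isOfFinOrder_of_finite hb.unit).exists_pow_eq_one
  have h1 : (ι b) ^ n = 1 := by
    have := congrArg Units.val hpow
    simpa using this
  refine IsUnit.of_mul_eq_one (b ^ (n - 1)) ?_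
  apply hι
  rw [map_mul, map_pow, map_one, ← pow_succ', Nat.sub_add_cancel hn, h1]

/-- WP-T2a: an `𝒪`-algebra which embeds into a test algebra is local. -/
theorem isLocalRing_of_injective [Finite (ResidueField 𝒪)] (h : IsArtinianTestAlgebra 𝒪 A)
    {B : Type} [CommRing B] [Algebra 𝒪 B] (ι : B →ₐ[𝒪] A) (hι : Function.Injective ι) :
    IsLocalRing B := by
  have hfin := finite_of_isArtinianTestAlgebra h
  have : Nontrivial B := by
    refine ⟨⟨0, 1, fun h01 => ?_⟩⟩
    have := congrArg ι h01
    rw [map_zero, map_one] at this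
    exact zero_ne_one this
  have hunit : ∀ b : B, IsUnit b ↔ IsUnit (ι b) := fun b =>
    ⟨fun hb => hb.map ι, fun hb => isUnit_of_injective_of_finite (ι : B →+* A) hι b hb⟩
  refine IsLocalRing.of_nonunits_add ?_
  intro a b ha hb
  rw [mem_nonunits_iff, hunit] at ha hb ⊢
  have ha' : ι a ∈ maximalIdeal A := by rwa [mem_maximalIdeal, mem_nonunits_iff]
  have hb' : ι b ∈ maximalIdeal A := by rwa [mem_maximalIdeal, mem_nonunits_iff]
  have := Ideal.add_mem _ ha' hb'
  rwa [← map_add, mem_maximalIdeal, mem_nonunits_iff] at this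

/-- WP-T2b: ... and is a test algebra, the embedding being local. -/
theorem test_of_injective [Finite (ResidueField 𝒪)] (h : IsArtinianTestAlgebra 𝒪 A)
    {B : Type} [CommRing B] [IsLocalRing B] [Algebra 𝒪 B] (ι : B →ₐ[𝒪] A)
    (hι : Function.Injective ι) :
    IsArtinianTestAlgebra 𝒪 B ∧ IsLocalHom (ι : B →+* A) := by
  have hfin := finite_of_isArtinianTestAlgebra h
  have := h.isLocalHom
  have hloc : IsLocalHom (ι : B →+* A) :=
    ⟨fun b hb => isUnit_of_injective_of_finite (ι : B →+* A) hι b hb⟩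
  refine ⟨⟨⟨fun o ho => ?_⟩, ?_, ?_⟩, hloc⟩
  · have : IsUnit (algebraMap 𝒪 A o) := by
      have := ho.map ι
      rwa [AlgHom.commutes] at this
    exact IsLocalHom.map_nonunit (f := algebraMap 𝒪 A) o this
  · intro y
    obtain ⟨b, rfl⟩ := residue_surjective y
    obtain ⟨o, ho⟩ := exists_algebraMap_add_mem_maximalIdeal h (ι b)
    refine ⟨o, ?_⟩
    rw [Function.comp_apply]
    symm
    rw [← sub_eq_zero, ← map_sub, residue_eq_zero_iff, mem_maximalIdeal, mem_nonunits_iff]
    intro hu
    have hu' : IsUnit (ι (b - algebraMap 𝒪 B o)) := hu.map ι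
    rw [map_sub, AlgHom.commutes] at hu'
    rw [mem_maximalIdeal, mem_nonunits_iff] at ho
    exact ho hu'
  · have : Finite B := Finite.of_injective _ hι
    infer_instance

/-- WP-T3: a nontrivial quotient of a test algebra is a test algebra. -/
theorem test_of_surjective (h : IsArtinianTestAlgebra 𝒪 A)
    {B : Type} [CommRing B] [IsLocalRing B] [Algebra 𝒪 B] (π : A →ₐ[𝒪] B)
    (hπ : Function.Surjective π) :
    IsArtinianTestAlgebra 𝒪 B ∧ IsLocalHom (π : A →+* B) :=
  ⟨isArtinianTestAlgebra_of_surjective h π hπ,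
    IsLocalHom.of_surjective (π : A →+* B) hπ⟩

/-- WP-T4: fibre product over the residue field `k = ResidueField 𝒪` of two test algebras,
packaged exactly as needed by `IsDeformationCondition.of_fibreProduct` (with `C := k`). -/
theorem exists_fibreProduct [Finite (ResidueField 𝒪)] (hA : IsArtinianTestAlgebra 𝒪 A)
    {B : Type} [CommRing B] [IsLocalRing B] [Algebra 𝒪 B] (hB : IsArtinianTestAlgebra 𝒪 B) :
    ∃ (P : Type) (_ : CommRing P) (_ : IsLocalRing P) (_ : Algebra 𝒪 P)
      (f : A →ₐ[𝒪] ResidueField 𝒪) (g : B →ₐ[𝒪] ResidueField 𝒪)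
      (pA : P →ₐ[𝒪] A) (pB : P →ₐ[𝒪] B),
      IsArtinianTestAlgebra 𝒪 P ∧ IsLocalHom (pA : P →+* A) ∧ IsLocalHom (pB : P →+* B) ∧
      f.comp pA = g.comp pB ∧ Function.Injective (fun x => (pA x, pB x)) ∧
      (∀ a b, f a = g b → ∃ x, pA x = a ∧ pB x = b) ∧
      (∀ a, f a = 0 ↔ a ∈ maximalIdeal A) ∧ (∀ b, g b = 0 ↔ b ∈ maximalIdeal B) := by
  have hk := isArtinianTestAlgebra_residueField 𝒪
  let f : A →ₐ[𝒪] ResidueField 𝒪 := testResidue hA
  let g : B →ₐ[𝒪] ResidueField 𝒪 := testResidue hB
  have hloc : IsLocalRing (fibreProd f g) := isLocalRing_fibreProd hB hk f g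
  have htest : IsArtinianTestAlgebra 𝒪 (fibreProd f g) :=
    isArtinianTestAlgebra_fibreProd hA hB hk f g
  refine ⟨fibreProd f g, inferInstance, hloc, inferInstance, f, g, fibreProd.fst f g,
    fibreProd.snd f g, htest, ?_, ?_, fibreProd.comp_fst_eq_comp_snd f g,
    fibreProd.injective_pair f g, fibreProd.exists_of_eq f g, ?_, ?_⟩
  · exact isLocalHom_of_isArtinianTestAlgebra htest hA (fibreProd.fst f g)
  · exact isLocalHom_of_isArtinianTestAlgebra htest hB (fibreProd.snd f g)
  · exact residueAlgHom_eq_zero_iff hA.isLocalHom hA.residue_surjective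
  · exact residueAlgHom_eq_zero_iff hB.isLocalHom hB.residue_surjective

end

section
variable {A : Type} [CommRing A] [IsLocalRing A] [IsNoetherianRing A] [Algebra 𝒪 A]

/-- WP-T5a. -/
theorem isLocalRing_quotient_pow (n : ℕ) (hn : n ≠ 0) :
    IsLocalRing (A ⧸ maximalIdeal A ^ n) :=
  isLocalRing_quotient_maximalIdeal_pow hn

/-- WP-T5b: `A ⧸ 𝔪^n` is a test algebra for a Noetherian local `𝒪`-algebra `A` with residue
field `k`. -/
theorem test_quotient_pow (hloc : IsLocalHom (algebraMap 𝒪 A))
    (hres : Function.Surjective (residue A ∘ algebraMap 𝒪 A)) (n : ℕ)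
    [IsLocalRing (A ⧸ maximalIdeal A ^ n)] :
    IsArtinianTestAlgebra 𝒪 (A ⧸ maximalIdeal A ^ n) ∧
      IsLocalHom (Ideal.Quotient.mk (maximalIdeal A ^ n)) := by
  have hn : n ≠ 0 := by
    rintro rfl
    have : Subsingleton (A ⧸ maximalIdeal A ^ 0) := by
      rw [pow_zero, Ideal.one_eq_top]
      exact Ideal.Quotient.subsingleton_iff.mpr rfl
    exact not_subsingleton (A ⧸ maximalIdeal A ^ 0) this
  exact ⟨isArtinianTestAlgebra_quotient_maximalIdeal_pow hloc hres hn,
    IsLocalHom.of_surjective _ Ideal.Quotient.mk_surjective⟩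

end

end Fermat.Agent.S53
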