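/-
S53 package F (U): passing from Artinian levels to a complete local ring.

Abstract, interface-independent statement (matrix form).  Let `A` be a local ring which is
adically complete for its maximal ideal, `R` any `𝒪`-algebra, `rR : G → M₂(R)` and
`rA : G → M₂(A)` families of matrices.  Suppose that for every `n` there is a UNIQUE
`𝒪`-algebra hom `φₙ : R → A ⧸ 𝔪^(n+1)` which is a local hom and such that `φₙ ∘ rR` is
`GL₂(A ⧸ 𝔪^(n+1))`-conjugate to `rA mod 𝔪^(n+1)`, and that (Schur) every matrix over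
`A ⧸ 𝔪^(n+1)` commuting with `rA mod 𝔪^(n+1)` is scalar.  Then there is a UNIQUE `𝒪`-algebra hom
`φ : R → A` which is a local hom and such that `φ ∘ rR` is `GL₂(A)`-conjugate to `rA`.
-/
import Mathlib

set_option autoImplicit false

namespace Fermat.Agent.S53.UniversalLimit

open IsLocalRing

section Aux

variable {A : Type*} [CommRing A] [IsLocalRing A]

lemma isUnit_of_isUnit_mk {J : Ideal A} (hJ : J ≤ maximalIdeal A) {a : A}
    (h : IsUnit (Ideal.Quotient.mk J a)) : IsUnit a := by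
  by_contra ha
  have ha' : a ∈ maximalIdeal A := (mem_maximalIdeal a).mpr ha
  obtain ⟨b, hb⟩ := h.exists_right_inv
  obtain ⟨b', rfl⟩ := Ideal.Quotient.mk_surjective b
  rw [← map_mul, ← map_one (Ideal.Quotient.mk J), Ideal.Quotient.eq] at hb
  have h1 : a * b' - 1 ∈ maximalIdeal A := hJ hb
  have h2 : a * b' ∈ maximalIdeal A := Ideal.mul_mem_right _ _ ha'
  have h3 : (1 : A) ∈ maximalIdeal A := by
    have := Ideal.sub_mem _ h2 h1
    simp at this
  exact (maximalIdeal.isMaximal A).ne_top ((Ideal.eq_top_iff_one _).mpr h3)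

lemma pow_succ_le_maximalIdeal (n : ℕ) : maximalIdeal A ^ (n + 1) ≤ maximalIdeal A :=
  Ideal.pow_le_self (Nat.succ_ne_zero n)

lemma isLocalHom_mk (n : ℕ) : IsLocalHom (Ideal.Quotient.mk (maximalIdeal A ^ (n + 1))) :=
  ⟨fun _ h => isUnit_of_isUnit_mk (pow_succ_le_maximalIdeal n) h⟩

lemma isLocalHom_factor {m n : ℕ} (h : maximalIdeal A ^ (n + 1) ≤ maximalIdeal A ^ (m + 1)) :
    IsLocalHom (Ideal.Quotient.factor h) := by
  refine ⟨fun x hx => ?_⟩
  obtain ⟨a, rfl⟩ := Ideal.Quotient.mk_surjective x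
  rw [Ideal.Quotient.factor_mk] at hx
  exact (isUnit_of_isUnit_mk (pow_succ_le_maximalIdeal m) hx).map _

lemma mapMatrix_mapMatrix {B C D : Type*} [CommRing B] [CommRing C] [CommRing D]
    (f : C →+* D) (g : B →+* C) (X : Matrix (Fin 2) (Fin 2) B) :
    f.mapMatrix (g.mapMatrix X) = (f.comp g).mapMatrix X := by
  ext i j
  simp [RingHom.mapMatrix_apply]

end Aux

section Main

variable {𝒪 R A : Type*} [CommRing 𝒪] [CommRing R] [Algebra 𝒪 R] [CommRing A] [IsLocalRing A]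
  [Algebra 𝒪 A] {G : Type*}

/-- `φ : R → A ⧸ 𝔪^(n+1)` is a local hom and `φ ∘ rR` is conjugate to `rA mod 𝔪^(n+1)`. -/
def IsLevelLift (rR : G → Matrix (Fin 2) (Fin 2) R) (rA : G → Matrix (Fin 2) (Fin 2) A) (n : ℕ)
    (φ : R →ₐ[𝒪] A ⧸ maximalIdeal A ^ (n + 1)) : Prop :=
  IsLocalHom (φ : R →+* A ⧸ maximalIdeal A ^ (n + 1)) ∧
    ∃ M : (Matrix (Fin 2) (Fin 2) (A ⧸ maximalIdeal A ^ (n + 1)))ˣ, ∀ g : G,
      (M : Matrix (Fin 2) (Fin 2) (A ⧸ maximalIdeal A ^ (n + 1))) *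
          (φ : R →+* A ⧸ maximalIdeal A ^ (n + 1)).mapMatrix (rR g) =
        (Ideal.Quotient.mk (maximalIdeal A ^ (n + 1))).mapMatrix (rA g) * M

/-- `φ : R → A` is a local hom and `φ ∘ rR` is conjugate to `rA`. -/
def IsLift (rR : G → Matrix (Fin 2) (Fin 2) R) (rA : G → Matrix (Fin 2) (Fin 2) A)
    (φ : R →ₐ[𝒪] A) : Prop :=
  IsLocalHom (φ : R →+* A) ∧
    ∃ M : (Matrix (Fin 2) (Fin 2) A)ˣ, ∀ g : G,
      (M : Matrix (Fin 2) (Fin 2) A) * (φ : R →+* A).mapMatrix (rR g) = rA g * M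

variable (rR : G → Matrix (Fin 2) (Fin 2) R) (rA : G → Matrix (Fin 2) (Fin 2) A)

/-- Pushing a level-`n` lift down to level `m ≤ n`. -/
lemma IsLevelLift.factor {m n : ℕ} (hmn : m ≤ n)
    {φ : R →ₐ[𝒪] A ⧸ maximalIdeal A ^ (n + 1)} (hφ : IsLevelLift rR rA n φ) :
    IsLevelLift rR rA m
      ((Ideal.Quotient.factorₐ 𝒪 (Ideal.pow_le_pow_right (Nat.succ_le_succ hmn))).comp φ) := by
  obtain ⟨hloc, M, hM⟩ := hφ
  have hle : maximalIdeal A ^ (n + 1) ≤ maximalIdeal A ^ (m + 1) :=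
    Ideal.pow_le_pow_right (Nat.succ_le_succ hmn)
  refine ⟨?_, Units.map (Ideal.Quotient.factor hle).mapMatrix.toMonoidHom M, fun g => ?_⟩
  · have h1 : IsLocalHom (Ideal.Quotient.factor hle) := isLocalHom_factor hle
    refine ⟨fun a ha => ?_⟩
    have ha' : IsUnit (Ideal.Quotient.factor hle (φ a)) := ha
    exact hloc.map_nonunit a (h1.map_nonunit _ ha')
  · have := congrArg (Ideal.Quotient.factor hle).mapMatrix (hM g)
    rw [map_mul, map_mul, mapMatrix_mapMatrix, mapMatrix_mapMatrix] at this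
    have e1 : (Ideal.Quotient.factor hle).comp (φ : R →+* A ⧸ maximalIdeal A ^ (n + 1)) =
        (((Ideal.Quotient.factorₐ 𝒪 hle).comp φ : R →ₐ[𝒪] A ⧸ maximalIdeal A ^ (m + 1)) :
          R →+* A ⧸ maximalIdeal A ^ (m + 1)) := rfl
    have e2 : (Ideal.Quotient.factor hle).comp (Ideal.Quotient.mk (maximalIdeal A ^ (n + 1))) =
        Ideal.Quotient.mk (maximalIdeal A ^ (m + 1)) := Ideal.Quotient.factor_comp_mk hle
    rw [e1, e2] at this
    exact this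

/-- Pushing a lift to `A` down to level `n`. -/
lemma IsLift.level (n : ℕ) {φ : R →ₐ[𝒪] A} (hφ : IsLift rR rA φ) :
    IsLevelLift rR rA n ((Ideal.Quotient.mkₐ 𝒪 (maximalIdeal A ^ (n + 1))).comp φ) := by
  obtain ⟨hloc, M, hM⟩ := hφ
  refine ⟨?_, Units.map (Ideal.Quotient.mk (maximalIdeal A ^ (n + 1))).mapMatrix.toMonoidHom M,
    fun g => ?_⟩
  · have h1 : IsLocalHom (Ideal.Quotient.mk (maximalIdeal A ^ (n + 1))) := isLocalHom_mk n
    refine ⟨fun a ha => ?_⟩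
    have ha' : IsUnit (Ideal.Quotient.mk (maximalIdeal A ^ (n + 1)) (φ a)) := ha
    exact hloc.map_nonunit a (h1.map_nonunit _ ha')
  · have := congrArg (Ideal.Quotient.mk (maximalIdeal A ^ (n + 1))).mapMatrix (hM g)
    rw [map_mul, map_mul, mapMatrix_mapMatrix] at this
    exact this

end Main


section Limit

variable {𝒪 R A : Type*} [CommRing 𝒪] [CommRing R] [Algebra 𝒪 R] [CommRing A] [IsLocalRing A]
  [Algebra 𝒪 A] {G : Type*}
  (rR : G → Matrix (Fin 2) (Fin 2) R) (rA : G → Matrix (Fin 2) (Fin 2) A)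

/-- In a Hausdorff local ring, matrices are determined by their images in all `A ⧸ 𝔪^(n+1)`. -/
lemma matrix_eq_of_forall_mk [IsHausdorff (maximalIdeal A) A] {X Y : Matrix (Fin 2) (Fin 2) A}
    (h : ∀ n : ℕ, (Ideal.Quotient.mk (maximalIdeal A ^ (n + 1))).mapMatrix X =
      (Ideal.Quotient.mk (maximalIdeal A ^ (n + 1))).mapMatrix Y) : X = Y := by
  ext i j
  rw [← sub_eq_zero]
  refine IsHausdorff.haus (I := maximalIdeal A) inferInstance _ fun n => ?_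
  rw [SModEq.zero, smul_eq_mul, Ideal.mul_top]
  have h1 := congrFun (congrFun (h n) i) j
  simp only [RingHom.mapMatrix_apply, Matrix.map_apply] at h1
  have h2 : X i j - Y i j ∈ maximalIdeal A ^ (n + 1) := Ideal.Quotient.eq.mp h1
  exact Ideal.pow_le_pow_right (Nat.le_succ n) h2

/-- A scalar matrix which is invertible has invertible scalar. -/
lemma isUnit_of_scalar_mul_eq_one {B : Type*} [CommRing B] {c : B} {Y : Matrix (Fin 2) (Fin 2) B}
    (h : Matrix.scalar (Fin 2) c * Y = 1) : IsUnit c := by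
  have h1 := congrFun (congrFun h 0) 0
  simp only [Matrix.scalar_apply, Matrix.diagonal_mul, Matrix.one_apply_eq] at h1
  exact IsUnit.of_mul_eq_one _ h1


/-- The conjugation property at level `n` for a given map `φ` and conjugator `M`. -/
def ConjAt (n : ℕ) (φ : R →ₐ[𝒪] A ⧸ maximalIdeal A ^ (n + 1))
    (M : (Matrix (Fin 2) (Fin 2) (A ⧸ maximalIdeal A ^ (n + 1)))ˣ) : Prop :=
  ∀ g : G, (M : Matrix (Fin 2) (Fin 2) (A ⧸ maximalIdeal A ^ (n + 1))) *
      (φ : R →+* A ⧸ maximalIdeal A ^ (n + 1)).mapMatrix (rR g) =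
    (Ideal.Quotient.mk (maximalIdeal A ^ (n + 1))).mapMatrix (rA g) * M

/-- Key step: a conjugator at level `n` can be lifted to a conjugator at level `n+1`,
using Schur's lemma at level `n` to correct by a scalar. -/
lemma exists_conj_succ (n : ℕ)
    (hschur : ∀ X : Matrix (Fin 2) (Fin 2) (A ⧸ maximalIdeal A ^ (n + 1)),
      (∀ g : G, X * (Ideal.Quotient.mk (maximalIdeal A ^ (n + 1))).mapMatrix (rA g) =
        (Ideal.Quotient.mk (maximalIdeal A ^ (n + 1))).mapMatrix (rA g) * X) →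
      ∃ c : A ⧸ maximalIdeal A ^ (n + 1), X = Matrix.scalar (Fin 2) c)
    (φ₁ : R →ₐ[𝒪] A ⧸ maximalIdeal A ^ (n + 1 + 1))
    (M₁ : (Matrix (Fin 2) (Fin 2) (A ⧸ maximalIdeal A ^ (n + 1 + 1)))ˣ)
    (hM₁ : ConjAt rR rA (n + 1) φ₁ M₁)
    (M : (Matrix (Fin 2) (Fin 2) (A ⧸ maximalIdeal A ^ (n + 1)))ˣ)
    (hM : ConjAt rR rA n
      ((Ideal.Quotient.factorₐ 𝒪 (Ideal.pow_le_pow_right (Nat.le_succ (n + 1)))).comp φ₁) M) :
    ∃ M' : (Matrix (Fin 2) (Fin 2) (A ⧸ maximalIdeal A ^ (n + 1 + 1)))ˣ,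
      ConjAt rR rA (n + 1) φ₁ M' ∧
      (Ideal.Quotient.factor (Ideal.pow_le_pow_right (I := maximalIdeal A)
        (Nat.le_succ (n + 1)))).mapMatrix
        (M' : Matrix (Fin 2) (Fin 2) (A ⧸ maximalIdeal A ^ (n + 1 + 1))) =
        (M : Matrix (Fin 2) (Fin 2) (A ⧸ maximalIdeal A ^ (n + 1))) := by
  classical
  have hle : maximalIdeal A ^ (n + 1 + 1) ≤ maximalIdeal A ^ (n + 1) :=
    Ideal.pow_le_pow_right (Nat.le_succ (n + 1))
  set F : A ⧸ maximalIdeal A ^ (n + 1 + 1) →+* A ⧸ maximalIdeal A ^ (n + 1) :=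
    Ideal.Quotient.factor hle with hF
  set rbar : G → Matrix (Fin 2) (Fin 2) (A ⧸ maximalIdeal A ^ (n + 1)) :=
    fun g => (Ideal.Quotient.mk (maximalIdeal A ^ (n + 1))).mapMatrix (rA g) with hrbar
  set ψ : R →+* A ⧸ maximalIdeal A ^ (n + 1) :=
    F.comp (φ₁ : R →+* A ⧸ maximalIdeal A ^ (n + 1 + 1)) with hψ
  -- image of `M₁` at level `n`
  let N : (Matrix (Fin 2) (Fin 2) (A ⧸ maximalIdeal A ^ (n + 1)))ˣ :=
    Units.map F.mapMatrix.toMonoidHom M₁
  have hNcoe : (N : Matrix (Fin 2) (Fin 2) (A ⧸ maximalIdeal A ^ (n + 1))) =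
      F.mapMatrix (M₁ : Matrix (Fin 2) (Fin 2) (A ⧸ maximalIdeal A ^ (n + 1 + 1))) := rfl
  have hN : ∀ g, (N : Matrix (Fin 2) (Fin 2) (A ⧸ maximalIdeal A ^ (n + 1))) *
      ψ.mapMatrix (rR g) = rbar g * N := by
    intro g
    have := congrArg F.mapMatrix (hM₁ g)
    rw [map_mul, map_mul, mapMatrix_mapMatrix, mapMatrix_mapMatrix,
      Ideal.Quotient.factor_comp_mk] at this
    exact this
  have hM' : ∀ g, (M : Matrix (Fin 2) (Fin 2) (A ⧸ maximalIdeal A ^ (n + 1))) *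
      ψ.mapMatrix (rR g) = rbar g * M := hM
  -- `ψ(r) * M⁻¹ = M⁻¹ * rbar`
  have hMinv : ∀ g, ψ.mapMatrix (rR g) *
      ((M⁻¹ : (Matrix (Fin 2) (Fin 2) (A ⧸ maximalIdeal A ^ (n + 1)))ˣ) :
        Matrix (Fin 2) (Fin 2) (A ⧸ maximalIdeal A ^ (n + 1))) =
      ((M⁻¹ : (Matrix (Fin 2) (Fin 2) (A ⧸ maximalIdeal A ^ (n + 1)))ˣ) :
        Matrix (Fin 2) (Fin 2) (A ⧸ maximalIdeal A ^ (n + 1))) * rbar g := by
    intro g
    calc ψ.mapMatrix (rR g) * ↑M⁻¹
        = ↑M⁻¹ * (↑M * ψ.mapMatrix (rR g)) * ↑M⁻¹ := by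
          rw [← mul_assoc, Units.inv_mul, one_mul]
      _ = ↑M⁻¹ * (rbar g * ↑M) * ↑M⁻¹ := by rw [hM' g]
      _ = ↑M⁻¹ * rbar g := by
          rw [mul_assoc, mul_assoc, Units.mul_inv, mul_one]
  set X : Matrix (Fin 2) (Fin 2) (A ⧸ maximalIdeal A ^ (n + 1)) :=
    (N : Matrix (Fin 2) (Fin 2) (A ⧸ maximalIdeal A ^ (n + 1))) *
      ((M⁻¹ : (Matrix (Fin 2) (Fin 2) (A ⧸ maximalIdeal A ^ (n + 1)))ˣ) :
        Matrix (Fin 2) (Fin 2) (A ⧸ maximalIdeal A ^ (n + 1))) with hXdef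
  have hX : ∀ g, X * rbar g = rbar g * X := by
    intro g
    calc X * rbar g = ↑N * (↑M⁻¹ * rbar g) := by rw [hXdef, mul_assoc]
      _ = ↑N * (ψ.mapMatrix (rR g) * ↑M⁻¹) := by rw [hMinv g]
      _ = (↑N * ψ.mapMatrix (rR g)) * ↑M⁻¹ := by rw [mul_assoc]
      _ = (rbar g * ↑N) * ↑M⁻¹ := by rw [hN g]
      _ = rbar g * X := by rw [hXdef, mul_assoc]
  obtain ⟨c, hc⟩ := hschur X hX
  -- `c` is a unit
  have hXY : X * ((M : Matrix (Fin 2) (Fin 2) (A ⧸ maximalIdeal A ^ (n + 1))) *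
      ((N⁻¹ : (Matrix (Fin 2) (Fin 2) (A ⧸ maximalIdeal A ^ (n + 1)))ˣ) :
        Matrix (Fin 2) (Fin 2) (A ⧸ maximalIdeal A ^ (n + 1)))) = 1 := by
    have e1 : ((M⁻¹ : (Matrix (Fin 2) (Fin 2) (A ⧸ maximalIdeal A ^ (n + 1)))ˣ) :
        Matrix (Fin 2) (Fin 2) (A ⧸ maximalIdeal A ^ (n + 1))) *
        (M : Matrix (Fin 2) (Fin 2) (A ⧸ maximalIdeal A ^ (n + 1))) = 1 := Units.inv_mul M
    have e2 : (N : Matrix (Fin 2) (Fin 2) (A ⧸ maximalIdeal A ^ (n + 1))) *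
        ((N⁻¹ : (Matrix (Fin 2) (Fin 2) (A ⧸ maximalIdeal A ^ (n + 1)))ˣ) :
        Matrix (Fin 2) (Fin 2) (A ⧸ maximalIdeal A ^ (n + 1))) = 1 := Units.mul_inv N
    rw [hXdef, mul_assoc, ← mul_assoc _ (M : Matrix (Fin 2) (Fin 2) (A ⧸ maximalIdeal A ^ (n + 1))) _,
      e1, one_mul, e2]
  have hcu : IsUnit c := by
    rw [hc] at hXY
    exact isUnit_of_scalar_mul_eq_one hXY
  obtain ⟨c', hc'⟩ := Ideal.Quotient.factor_surjective hle c
  have hc'u : IsUnit c' := by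
    have h1 : IsLocalHom (Ideal.Quotient.factor hle) := isLocalHom_factor hle
    exact h1.map_nonunit c' (by rw [hc']; exact hcu)
  obtain ⟨u, rfl⟩ := hc'u
  -- the corrected conjugator
  let S : (Matrix (Fin 2) (Fin 2) (A ⧸ maximalIdeal A ^ (n + 1 + 1)))ˣ :=
    Units.map (Matrix.scalar (Fin 2)).toMonoidHom u⁻¹
  have hScoe : (S : Matrix (Fin 2) (Fin 2) (A ⧸ maximalIdeal A ^ (n + 1 + 1))) =
      Matrix.scalar (Fin 2) ((u⁻¹ : (A ⧸ maximalIdeal A ^ (n + 1 + 1))ˣ) :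
        A ⧸ maximalIdeal A ^ (n + 1 + 1)) := rfl
  refine ⟨S * M₁, ?_, ?_⟩
  · intro g
    rw [Units.val_mul, mul_assoc, hM₁ g, ← mul_assoc, ← mul_assoc, hScoe]
    congr 1
    exact (Matrix.scalar_commute _ (fun r' => Commute.all _ r') _).eq
  · rw [Units.val_mul, map_mul, hScoe]
    -- `F (scalar u⁻¹) = scalar (F u⁻¹) = scalar c⁻¹`, and `F M₁ = N = X * M = scalar c * M`
    have h1 : F.mapMatrix (M₁ : Matrix (Fin 2) (Fin 2) (A ⧸ maximalIdeal A ^ (n + 1 + 1))) =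
        Matrix.scalar (Fin 2) c * M := by
      rw [← hNcoe, ← hc, hXdef, mul_assoc, Units.inv_mul, mul_one]
    have h2 : F.mapMatrix (Matrix.scalar (Fin 2)
        ((u⁻¹ : (A ⧸ maximalIdeal A ^ (n + 1 + 1))ˣ) : A ⧸ maximalIdeal A ^ (n + 1 + 1))) =
        Matrix.scalar (Fin 2) (F ((u⁻¹ : (A ⧸ maximalIdeal A ^ (n + 1 + 1))ˣ) :
          A ⧸ maximalIdeal A ^ (n + 1 + 1))) := by
      ext i j
      simp [Matrix.scalar_apply, Matrix.diagonal_apply, RingHom.mapMatrix_apply]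
      split_ifs <;> simp
    rw [h1, h2, ← mul_assoc, ← map_mul]
    have h3 : F ((u⁻¹ : (A ⧸ maximalIdeal A ^ (n + 1 + 1))ˣ) :
        A ⧸ maximalIdeal A ^ (n + 1 + 1)) * c = 1 := by
      rw [← hc', hF, ← map_mul, Units.inv_mul, map_one]
    rw [h3, map_one, one_mul]


/-- **Main theorem of package (U).**  If at every level `A ⧸ 𝔪^(n+1)` there is a unique
`𝒪`-algebra map `R → A ⧸ 𝔪^(n+1)` which is local and carries `rR` to a conjugate of `rA`, and
Schur's lemma holds for `rA` at every level, then the same holds for the complete local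
ring `A` itself. -/
theorem existsUnique_isLift [IsAdicComplete (maximalIdeal A) A]
    (hlev : ∀ n : ℕ, ∃! φ : R →ₐ[𝒪] A ⧸ maximalIdeal A ^ (n + 1), IsLevelLift rR rA n φ)
    (hschur : ∀ (n : ℕ) (X : Matrix (Fin 2) (Fin 2) (A ⧸ maximalIdeal A ^ (n + 1))),
      (∀ g : G, X * (Ideal.Quotient.mk (maximalIdeal A ^ (n + 1))).mapMatrix (rA g) =
        (Ideal.Quotient.mk (maximalIdeal A ^ (n + 1))).mapMatrix (rA g) * X) →
      ∃ c : A ⧸ maximalIdeal A ^ (n + 1), X = Matrix.scalar (Fin 2) c) :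
    ∃! φ : R →ₐ[𝒪] A, IsLift rR rA φ := by
  classical
  have hex := fun n => (hlev n).exists
  choose φ hφ using hex
  have huniq : ∀ n (ψ : R →ₐ[𝒪] A ⧸ maximalIdeal A ^ (n + 1)),
      IsLevelLift rR rA n ψ → ψ = φ n :=
    fun n ψ hψ => (hlev n).unique hψ (hφ n)
  -- compatibility of the level maps
  have hcompat : ∀ {m n : ℕ} (hmn : m ≤ n),
      (Ideal.Quotient.factorₐ 𝒪
        (Ideal.pow_le_pow_right (I := maximalIdeal A) (Nat.succ_le_succ hmn))).comp (φ n) = φ m :=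
    fun {m n} hmn => huniq m _ ((hφ n).factor rR rA hmn)
  -- the maps to `A ⧸ 𝔪^n`
  let f : (n : ℕ) → R →ₐ[𝒪] A ⧸ maximalIdeal A ^ n := fun n =>
    (Ideal.Quotient.factorₐ 𝒪
      (Ideal.pow_le_pow_right (I := maximalIdeal A) (Nat.le_succ n))).comp (φ n)
  have hf : ∀ {m n : ℕ} (hle : m ≤ n),
      (Ideal.Quotient.factorₐ 𝒪 (Ideal.pow_le_pow_right hle)).comp (f n) = f m := by
    intro m n hle
    simp only [f]
    rw [← hcompat hle, ← AlgHom.comp_assoc, ← AlgHom.comp_assoc, Ideal.Quotient.factorₐ_comp,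
      Ideal.Quotient.factorₐ_comp]
  let Φ : R →ₐ[𝒪] A := IsAdicComplete.liftAlgHom (maximalIdeal A) f hf
  have hΦ : ∀ n, (Ideal.Quotient.mkₐ 𝒪 (maximalIdeal A ^ (n + 1))).comp Φ = φ n := by
    intro n
    have h1 := IsAdicComplete.mkₐ_comp_liftAlgHom (maximalIdeal A) f hf (n + 1)
    rw [h1]
    exact hcompat (Nat.le_succ n)
  -- conjugators: one step
  have hstep : ∀ n (M : {M : (Matrix (Fin 2) (Fin 2) (A ⧸ maximalIdeal A ^ (n + 1)))ˣ //
        ConjAt rR rA n (φ n) M}),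
      ∃ M' : {M' : (Matrix (Fin 2) (Fin 2) (A ⧸ maximalIdeal A ^ (n + 1 + 1)))ˣ //
        ConjAt rR rA (n + 1) (φ (n + 1)) M'},
        (Ideal.Quotient.factor (Ideal.pow_le_pow_right (I := maximalIdeal A)
          (Nat.le_succ (n + 1)))).mapMatrix
          (M'.1 : Matrix (Fin 2) (Fin 2) (A ⧸ maximalIdeal A ^ (n + 1 + 1))) =
          (M.1 : Matrix (Fin 2) (Fin 2) (A ⧸ maximalIdeal A ^ (n + 1))) := by
    rintro n ⟨M, hM⟩
    obtain ⟨-, M₁, hM₁⟩ := hφ (n + 1)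
    have hM2 : ConjAt rR rA n ((Ideal.Quotient.factorₐ 𝒪
        (Ideal.pow_le_pow_right (I := maximalIdeal A) (Nat.le_succ (n + 1)))).comp (φ (n + 1))) M := by
      have := hcompat (Nat.le_succ n)
      rw [this]
      exact hM
    obtain ⟨M', h1, h2⟩ := exists_conj_succ rR rA n (hschur n) (φ (n + 1)) M₁ hM₁ M hM2
    exact ⟨⟨M', h1⟩, h2⟩
  obtain ⟨-, M₀, hM₀⟩ := hφ 0
  -- the compatible sequence of conjugators
  let seq : ∀ n, {M : (Matrix (Fin 2) (Fin 2) (A ⧸ maximalIdeal A ^ (n + 1)))ˣ //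
      ConjAt rR rA n (φ n) M} := fun n =>
    Nat.rec (motive := fun n => {M : (Matrix (Fin 2) (Fin 2) (A ⧸ maximalIdeal A ^ (n + 1)))ˣ //
      ConjAt rR rA n (φ n) M}) ⟨M₀, hM₀⟩ (fun n M => Classical.choose (hstep n M)) n
  have hseq : ∀ n, (Ideal.Quotient.factor (Ideal.pow_le_pow_right (I := maximalIdeal A)
      (Nat.le_succ (n + 1)))).mapMatrix
      ((seq (n + 1)).1 : Matrix (Fin 2) (Fin 2) (A ⧸ maximalIdeal A ^ (n + 1 + 1))) =
      ((seq n).1 : Matrix (Fin 2) (Fin 2) (A ⧸ maximalIdeal A ^ (n + 1))) :=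
    fun n => Classical.choose_spec (hstep n (seq n))
  -- representatives of the entries in `A`
  have hrep : ∀ (i j : Fin 2) (n : ℕ), ∃ a : A,
      Ideal.Quotient.mk (maximalIdeal A ^ (n + 1)) a =
        ((seq n).1 : Matrix (Fin 2) (Fin 2) (A ⧸ maximalIdeal A ^ (n + 1))) i j :=
    fun i j n => Ideal.Quotient.mk_surjective _
  choose a ha using hrep
  have hK : ∀ i j n, a i j n - a i j (n + 1) ∈ maximalIdeal A ^ (n + 1) := by
    intro i j n
    rw [← Ideal.Quotient.eq, ha i j n, ← hseq n]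
    simp only [RingHom.mapMatrix_apply, Matrix.map_apply]
    rw [← ha i j (n + 1), Ideal.Quotient.factor_mk]
  have hcauchy : ∀ i j {m n : ℕ}, m ≤ n → a i j m - a i j n ∈ maximalIdeal A ^ (m + 1) := by
    intro i j m n hmn
    induction n, hmn using Nat.le_induction with
    | base => simp
    | succ n hmn ih =>
      have h1 : a i j n - a i j (n + 1) ∈ maximalIdeal A ^ (m + 1) :=
        Ideal.pow_le_pow_right (Nat.succ_le_succ hmn) (hK i j n)
      have := Ideal.add_mem _ ih h1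
      rwa [sub_add_sub_cancel] at this
  have hlim : ∀ i j, ∃ L : A, ∀ n, a i j n ≡ L [SMOD (maximalIdeal A ^ n • ⊤ : Submodule A A)] := by
    intro i j
    refine IsPrecomplete.prec (I := maximalIdeal A) inferInstance ?_
    intro m n hmn
    rw [SModEq.sub_mem, smul_eq_mul, Ideal.mul_top]
    exact Ideal.pow_le_pow_right (Nat.le_succ m) (hcauchy i j hmn)
  choose L hL using hlim
  let Mlim : Matrix (Fin 2) (Fin 2) A := Matrix.of L
  have hMlim : ∀ n, (Ideal.Quotient.mk (maximalIdeal A ^ (n + 1))).mapMatrix Mlim =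
      ((seq n).1 : Matrix (Fin 2) (Fin 2) (A ⧸ maximalIdeal A ^ (n + 1))) := by
    intro n
    ext i j
    simp only [RingHom.mapMatrix_apply, Matrix.map_apply, Mlim, Matrix.of_apply]
    rw [← ha i j n, Ideal.Quotient.eq]
    have h1 : a i j (n + 1) - L i j ∈ maximalIdeal A ^ (n + 1) := by
      have := hL i j (n + 1)
      rwa [SModEq.sub_mem, smul_eq_mul, Ideal.mul_top] at this
    have h2 := hK i j n
    have : L i j - a i j n = -((a i j n - a i j (n + 1)) + (a i j (n + 1) - L i j)) := by ring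
    rw [this]
    exact Ideal.neg_mem_iff _ |>.mpr (Ideal.add_mem _ h2 h1)
  -- `Mlim` is invertible
  have hMunit : IsUnit Mlim := by
    rw [Matrix.isUnit_iff_isUnit_det]
    have h1 : IsUnit ((Ideal.Quotient.mk (maximalIdeal A ^ (0 + 1))).mapMatrix Mlim) := by
      rw [hMlim 0]; exact (seq 0).1.isUnit
    rw [Matrix.isUnit_iff_isUnit_det, ← RingHom.map_det] at h1
    exact isUnit_of_isUnit_mk (pow_succ_le_maximalIdeal 0) h1
  obtain ⟨Mu, hMu⟩ := hMunit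
  -- existence
  have hΦlift : IsLift rR rA Φ := by
    refine ⟨⟨fun x hx => ?_⟩, Mu, fun g => ?_⟩
    · have h0 : IsUnit (φ 0 x) := by
        rw [← hΦ 0]
        exact hx.map (Ideal.Quotient.mk (maximalIdeal A ^ (0 + 1)))
      exact (hφ 0).1.map_nonunit x h0
    · rw [hMu]
      refine matrix_eq_of_forall_mk fun n => ?_
      rw [map_mul, map_mul, hMlim n, mapMatrix_mapMatrix]
      have e : (Ideal.Quotient.mk (maximalIdeal A ^ (n + 1))).comp (Φ : R →+* A) =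
          ((φ n : R →ₐ[𝒪] A ⧸ maximalIdeal A ^ (n + 1)) : R →+* A ⧸ maximalIdeal A ^ (n + 1)) := by
        rw [← hΦ n]; rfl
      rw [e]
      exact (seq n).2 g
  refine ⟨Φ, hΦlift, fun ψ hψ => ?_⟩
  -- uniqueness
  refine IsAdicComplete.algHom_ext (maximalIdeal A) fun n => ?_
  have h1 : (Ideal.Quotient.mkₐ 𝒪 (maximalIdeal A ^ (n + 1))).comp ψ =
      (Ideal.Quotient.mkₐ 𝒪 (maximalIdeal A ^ (n + 1))).comp Φ := by
    rw [hΦ n]
    exact huniq n _ (hψ.level rR rA n)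
  have h2 : ∀ χ : R →ₐ[𝒪] A, (Ideal.Quotient.mkₐ 𝒪 (maximalIdeal A ^ n)).comp χ =
      (Ideal.Quotient.factorₐ 𝒪 (Ideal.pow_le_pow_right (I := maximalIdeal A)
        (Nat.le_succ n))).comp ((Ideal.Quotient.mkₐ 𝒪 (maximalIdeal A ^ (n + 1))).comp χ) := by
    intro χ
    rw [← AlgHom.comp_assoc, Ideal.Quotient.factorₐ_comp_mk]
  rw [h2 ψ, h2 Φ, h1]

end Limit

end Fermat.Agent.S53.UniversalLimit
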