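/-
S53, design-independent last step (helper56).

From a complete noetherian local `𝒪`-algebra `R` carrying a matrix representation `rR` which
* lifts `rb0` exactly,
* has all its Artinian quotients of type `𝒟`,
* is universal (exists-unique `𝒪`-algebra hom + `GL₂`-conjugator) among matrix lifts of type `𝒟`
  over Artinian test algebras,
and Schur's lemma over Artinian test algebras, we build `DeformationRingData 𝒪 ρbar 𝒟`.
-/
import Fermat.Prelude.Def_GaloisRep_DeformationRingData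
import Fermat.Agent.S53.MatrixForm
import Fermat.Agent.S53.TestAlgebra
import Fermat.Agent.S53.UniversalLimit

set_option autoImplicit false
set_option linter.unusedSectionVars false
set_option linter.unusedVariables false
set_option linter.style.haveILetI false

namespace Fermat.Agent.S53.Wrap

open IsLocalRing GaloisRep Fermat.Agent.S53

section Lifts

variable {𝒪 : Type} [CommRing 𝒪] [IsLocalRing 𝒪]

/-- `r` reduces exactly to `rb0` (formulated without `ResidueField.map`). -/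
def LiftsExactly (rb0 : GQ →* M2 (ResidueField 𝒪)) {A : Type} [CommRing A] [IsLocalRing A]
    [Algebra 𝒪 A] (r : GQ →* M2 A) : Prop :=
  ∀ g i j, ∃ a : 𝒪, residue 𝒪 a = rb0 g i j ∧ r g i j - algebraMap 𝒪 A a ∈ maximalIdeal A

variable {rb0 : GQ →* M2 (ResidueField 𝒪)} {A : Type} [CommRing A] [IsLocalRing A] [Algebra 𝒪 A]

theorem liftsExactly_iff [IsLocalHom (algebraMap 𝒪 A)] (r : GQ →* M2 A) :
    LiftsExactly rb0 r ↔
      ∀ g i j, residue A (r g i j) = ResidueField.map (algebraMap 𝒪 A) (rb0 g i j) := by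
  constructor
  · intro h g i j
    obtain ⟨a, ha, hmem⟩ := h g i j
    rw [← ha, ResidueField.map_residue]
    rw [← residue_eq_zero_iff, map_sub, sub_eq_zero] at hmem
    exact hmem
  · intro h g i j
    obtain ⟨a, ha⟩ := residue_surjective (rb0 g i j)
    refine ⟨a, ha, ?_⟩
    rw [← residue_eq_zero_iff, map_sub, sub_eq_zero, h g i j, ← ha, ResidueField.map_residue]

theorem LiftsExactly.map {B : Type} [CommRing B] [IsLocalRing B] [Algebra 𝒪 B]
    {r : GQ →* M2 A} (h : LiftsExactly rb0 r) (φ : A →ₐ[𝒪] B)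
    (hφ : ∀ a ∈ maximalIdeal A, φ a ∈ maximalIdeal B) :
    LiftsExactly rb0 (mapMat (φ : A →+* B) r) := by
  intro g i j
  obtain ⟨a, ha, hmem⟩ := h g i j
  refine ⟨a, ha, ?_⟩
  have := hφ _ hmem
  rw [map_sub, AlgHom.commutes] at this
  exact this

end Lifts

section LocalHom

variable {𝒪 : Type} [CommRing 𝒪]

/-- An `𝒪`-algebra hom `R → A` of local rings is automatically local when the residue field of
`A` is generated by `𝒪`. -/
theorem isLocalHom_of_residue_surjective {R A : Type} [CommRing R] [IsLocalRing R]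
    [Algebra 𝒪 R] [CommRing A] [IsLocalRing A] [Algebra 𝒪 A]
    (hs : Function.Surjective (residue A ∘ algebraMap 𝒪 A)) (φ : R →ₐ[𝒪] A) :
    IsLocalHom (φ : R →+* A) := by
  let ψ : R →+* ResidueField A := (residue A).comp (φ : R →+* A)
  have hψ : Function.Surjective ψ := by
    intro y
    obtain ⟨o, ho⟩ := hs y
    refine ⟨algebraMap 𝒪 R o, ?_⟩
    show residue A (φ (algebraMap 𝒪 R o)) = y
    rw [AlgHom.commutes]
    exact ho
  have hmax : (RingHom.ker ψ).IsMaximal := RingHom.ker_isMaximal_of_surjective ψ hψ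
  have hker : RingHom.ker ψ = maximalIdeal R := IsLocalRing.eq_maximalIdeal hmax
  refine ⟨fun a ha => ?_⟩
  by_contra hna
  have h1 : a ∈ maximalIdeal R := (mem_maximalIdeal a).mpr hna
  rw [← hker, RingHom.mem_ker] at h1
  have h2 : residue A (φ a) = 0 := h1
  rw [residue_eq_zero_iff] at h2
  exact ((mem_maximalIdeal _).mp h2) ha

end LocalHom

section Transport

variable {𝒪 : Type} [CommRing 𝒪] [IsLocalRing 𝒪]
variable {𝒟 : ∀ ⦃A : Type⦄ [CommRing A] [IsLocalRing A] [Algebra 𝒪 A], GaloisRepAdic A → Prop}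

/-- Transport of `𝒟` along `IsEquiv` over complete noetherian local `𝒪`-algebras. -/
theorem isOfType_of_isEquiv (h𝒟 : IsDeformationCondition 𝒪 𝒟)
    {A : Type} [CommRing A] [IsLocalRing A] [IsNoetherianRing A]
    [IsAdicComplete (maximalIdeal A) A] [Algebra 𝒪 A] (hl : IsLocalHom (algebraMap 𝒪 A))
    (hs : Function.Surjective (residue A ∘ algebraMap 𝒪 A))
    {ρ ρ' : GaloisRepAdic A} (he : ρ.IsEquiv ρ') (h : 𝒟 ρ) : 𝒟 ρ' := by
  rw [h𝒟.iff_forall_surjective hl hs] at h ⊢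
  intro B _ _ _ hB q hq hsurj
  have h1 := h hB q hq hsurj
  exact h𝒟.of_isEquiv hB (he.elim fun e => ⟨e.baseChangeAlong (q : A →+* B) hq⟩) h1

end Transport

section Main

variable {𝒪 : Type} [CommRing 𝒪] [IsDomain 𝒪] [IsDiscreteValuationRing 𝒪]
  [IsAdicComplete (maximalIdeal 𝒪) 𝒪]

/-- **Wrap**: finite-level universality in matrix form gives `DeformationRingData`. -/
theorem nonempty_deformationRingData
    (ρbar : ResidualGaloisRep (ResidueField 𝒪))
    (𝒟 : ∀ ⦃A : Type⦄ [CommRing A] [IsLocalRing A] [Algebra 𝒪 A], GaloisRepAdic A → Prop)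
    (habs : ρbar.IsAbsolutelyIrreducible)
    (h𝒟 : IsDeformationCondition 𝒪 𝒟)
    (rb0 : GQ →* M2 (ResidueField 𝒪)) (hrb0 : GaloisFactorsThroughFiniteLevel rb0)
    (hρ : ρbar.IsEquiv (ofMatRes rb0 hrb0))
    (R : Type) [CommRing R] [IsLocalRing R] [IsNoetherianRing R]
    [IsAdicComplete (maximalIdeal R) R] [Algebra 𝒪 R] [IsLocalHom (algebraMap 𝒪 R)]
    (hres : Function.Surjective (residue R ∘ algebraMap 𝒪 R))
    (rR : GQ →* M2 R) (hc : MatCont rR) (hlift : LiftsExactly rb0 rR)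
    (hquot : ∀ ⦃B : Type⦄ [CommRing B] [IsLocalRing B] [Algebra 𝒪 B],
      IsArtinianTestAlgebra 𝒪 B → ∀ (q : R →ₐ[𝒪] B) (hq : IsLocalHom (q : R →+* B)),
        Function.Surjective q → 𝒟 (ofMat (mapMat (q : R →+* B) rR) (hc.map _ hq)))
    (huniv : ∀ ⦃B : Type⦄ [CommRing B] [IsLocalRing B] [Algebra 𝒪 B],
      IsArtinianTestAlgebra 𝒪 B → ∀ (rB : GQ →* M2 B) (hcB : MatCont rB),
        LiftsExactly rb0 rB → 𝒟 (ofMat rB hcB) →
        ∃! φ : R →ₐ[𝒪] B, ∃ M : (M2 B)ˣ,
          ∀ g, (M : M2 B) * mapMat (φ : R →+* B) rR g = rB g * (M : M2 B))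
    (hschur : ∀ ⦃B : Type⦄ [CommRing B] [IsLocalRing B] [Algebra 𝒪 B],
      IsArtinianTestAlgebra 𝒪 B → ∀ (rB : GQ →* M2 B), LiftsExactly rb0 rB →
        ∀ X : M2 B, (∀ g, X * rB g = rB g * X) → ∃ c : B, X = Matrix.scalar (Fin 2) c) :
    Nonempty (GaloisRep.DeformationRingData 𝒪 ρbar 𝒟) := by
  classical
  have hlR : IsLocalHom (algebraMap 𝒪 R) := inferInstance
  -- `𝒟` for the universal representation
  have hType : 𝒟 (ofMat rR hc) := by
    rw [h𝒟.iff_forall_surjective hlR hres]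
    intro B _ _ _ hB q hq hsurj
    exact h𝒟.of_isEquiv hB (isEquiv_symm (ofMat_baseChangeAlong rR hc (q : R →+* B) hq))
      (hquot hB q hq hsurj)
  -- residual representation
  have hResid : (ofMat rR hc).residual.IsEquiv
      (ρbar.baseChangeAlong (ResidueField.map (algebraMap 𝒪 R))) := by
    have e1 := residual_ofMat rR hc
    have e2 : (ofMatRes (mapMat (residue R) rR) (factors_mapMat_residue hc)).IsEquiv
        (ofMatRes (mapMat (ResidueField.map (algebraMap 𝒪 R)) rb0)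
          (factors_mapMat (ResidueField.map (algebraMap 𝒪 R)) hrb0)) := by
      refine ofMatRes_isEquiv_iff.mpr ⟨1, fun g => ?_⟩
      rw [Units.val_one, one_mul, mul_one]
      ext i j
      exact (liftsExactly_iff rR).mp hlift g i j
    have e3 := ofMatRes_baseChangeAlong (ResidueField.map (algebraMap 𝒪 R)) rb0 hrb0
    have e4 : (ρbar.baseChangeAlong (ResidueField.map (algebraMap 𝒪 R))).IsEquiv
        ((ofMatRes rb0 hrb0).baseChangeAlong (ResidueField.map (algebraMap 𝒪 R))) :=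
      hρ.elim fun e => ⟨e.baseChangeAlong _⟩
    exact resIsEquiv_trans e1 (resIsEquiv_trans e2
      (resIsEquiv_trans (resIsEquiv_symm e3) (resIsEquiv_symm e4)))
  refine ⟨{ R := R, residue_surjective := hres, absIrr := habs, ρ := ofMat rR hc,
            isOfType := hType, residual_isEquiv := hResid, universal := ?_ }⟩
  intro A _ _ _ _ _ hlA hsA ρA h𝒟A hresA
  -- matrix form of `ρA`, lifting `rb0` exactly
  have hresA' : ρA.residual.IsEquiv
      ((ofMatRes rb0 hrb0).baseChangeAlong (ResidueField.map (algebraMap 𝒪 A))) :=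
    resIsEquiv_trans hresA (hρ.elim fun e => ⟨e.baseChangeAlong _⟩)
  obtain ⟨rA, hcA, heA, hexact⟩ := exists_ofMat_isEquiv_of_residual ρA rb0 hrb0
    (ResidueField.map (algebraMap 𝒪 A)) hresA'
  have hliftA : LiftsExactly rb0 rA := (liftsExactly_iff rA).mpr hexact
  have h𝒟A' : 𝒟 (ofMat rA hcA) := isOfType_of_isEquiv h𝒟 hlA hsA heA h𝒟A
  -- the levels
  have hlev : ∀ n : ℕ, ∃! φ : R →ₐ[𝒪] A ⧸ maximalIdeal A ^ (n + 1),
      UniversalLimit.IsLevelLift (fun g => rR g) (fun g => rA g) n φ := by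
    intro n
    haveI : IsLocalRing (A ⧸ maximalIdeal A ^ (n + 1)) :=
      isLocalRing_quotient_maximalIdeal_pow (Nat.succ_ne_zero n)
    have hB : IsArtinianTestAlgebra 𝒪 (A ⧸ maximalIdeal A ^ (n + 1)) :=
      isArtinianTestAlgebra_quotient_maximalIdeal_pow hlA hsA (Nat.succ_ne_zero n)
    have hmk : IsLocalHom (Ideal.Quotient.mk (maximalIdeal A ^ (n + 1))) :=
      UniversalLimit.isLocalHom_mk n
    have hcB : MatCont (mapMat (Ideal.Quotient.mk (maximalIdeal A ^ (n + 1))) rA) :=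
      hcA.map _ hmk
    have hliftB : LiftsExactly rb0 (mapMat (Ideal.Quotient.mk (maximalIdeal A ^ (n + 1))) rA) := by
      refine hliftA.map (Ideal.Quotient.mkₐ 𝒪 (maximalIdeal A ^ (n + 1))) fun a ha => ?_
      by_contra hu
      have hu' : IsUnit (Ideal.Quotient.mk (maximalIdeal A ^ (n + 1)) a) := by
        by_contra h
        exact hu ((mem_maximalIdeal _).mpr h)
      exact ((mem_maximalIdeal a).mp ha) (hmk.map_nonunit a hu')
    have h𝒟B : 𝒟 (ofMat (mapMat (Ideal.Quotient.mk (maximalIdeal A ^ (n + 1))) rA) hcB) := by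
      have h1 := (h𝒟.iff_forall_surjective hlA hsA (ofMat rA hcA)).mp h𝒟A' hB
        (Ideal.Quotient.mkₐ 𝒪 (maximalIdeal A ^ (n + 1))) hmk
        (Ideal.Quotient.mkₐ_surjective 𝒪 _)
      exact h𝒟.of_isEquiv hB (ofMat_baseChangeAlong rA hcA _ hmk) h1
    obtain ⟨φ, ⟨M, hM⟩, huniq⟩ := huniv hB _ hcB hliftB h𝒟B
    refine ⟨φ, ⟨isLocalHom_of_residue_surjective hB.residue_surjective φ, M, fun g => hM g⟩,
      fun ψ hψ => huniq ψ ?_⟩
    obtain ⟨-, M', hM'⟩ := hψ
    exact ⟨M', fun g => hM' g⟩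
  have hsch : ∀ (n : ℕ) (X : Matrix (Fin 2) (Fin 2) (A ⧸ maximalIdeal A ^ (n + 1))),
      (∀ g : GQ, X * (Ideal.Quotient.mk (maximalIdeal A ^ (n + 1))).mapMatrix (rA g) =
        (Ideal.Quotient.mk (maximalIdeal A ^ (n + 1))).mapMatrix (rA g) * X) →
      ∃ c : A ⧸ maximalIdeal A ^ (n + 1), X = Matrix.scalar (Fin 2) c := by
    intro n X hX
    haveI : IsLocalRing (A ⧸ maximalIdeal A ^ (n + 1)) :=
      isLocalRing_quotient_maximalIdeal_pow (Nat.succ_ne_zero n)
    have hB : IsArtinianTestAlgebra 𝒪 (A ⧸ maximalIdeal A ^ (n + 1)) :=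
      isArtinianTestAlgebra_quotient_maximalIdeal_pow hlA hsA (Nat.succ_ne_zero n)
    have hmk : IsLocalHom (Ideal.Quotient.mk (maximalIdeal A ^ (n + 1))) :=
      UniversalLimit.isLocalHom_mk n
    have hliftB : LiftsExactly rb0 (mapMat (Ideal.Quotient.mk (maximalIdeal A ^ (n + 1))) rA) := by
      refine hliftA.map (Ideal.Quotient.mkₐ 𝒪 (maximalIdeal A ^ (n + 1))) fun a ha => ?_
      by_contra hu
      have hu' : IsUnit (Ideal.Quotient.mk (maximalIdeal A ^ (n + 1)) a) := by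
        by_contra h
        exact hu ((mem_maximalIdeal _).mpr h)
      exact ((mem_maximalIdeal a).mp ha) (hmk.map_nonunit a hu')
    exact hschur hB _ hliftB X fun g => hX g
  obtain ⟨φ, hφ, huniq⟩ := UniversalLimit.existsUnique_isLift (𝒪 := 𝒪) (fun g => rR g)
    (fun g => rA g) hlev hsch
  obtain ⟨hφloc, M, hM⟩ := hφ
  refine ⟨φ, ⟨hφloc, ?_⟩, fun ψ hψ => huniq ψ ?_⟩
  · have e1 := ofMat_baseChangeAlong rR hc (φ : R →+* A) hφloc
    have e2 : (ofMat (mapMat (φ : R →+* A) rR) (hc.map _ hφloc)).IsEquiv (ofMat rA hcA) :=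
      ofMat_isEquiv_iff.mpr ⟨M, fun g => hM g⟩
    exact isEquiv_trans e1 (isEquiv_trans e2 (isEquiv_symm heA))
  · obtain ⟨hψloc, E⟩ := hψ
    have e1 := ofMat_baseChangeAlong rR hc (ψ : R →+* A) hψloc
    have e2 : (ofMat (mapMat (ψ : R →+* A) rR) (hc.map _ hψloc)).IsEquiv (ofMat rA hcA) :=
      isEquiv_trans (isEquiv_symm e1) (isEquiv_trans E heA)
    obtain ⟨M', hM'⟩ := ofMat_isEquiv_iff.mp e2
    exact ⟨hψloc, M', fun g => hM' g⟩

end Main

end Fermat.Agent.S53.Wrap
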